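import Fermat.Agent.TwoAdic.Modules.NonVanishing

/-!
Operators on new quotients: the Hecke algebra away from `S`, and the operator `(q + 1) + c χ(q)⁻¹ T_q`
at a prime outside the level; the latter detects non-vanishing at `q`.
-/

set_option autoImplicit false

open CongruenceSubgroup IsLocalRing

universe uA

namespace Fermat.Agent.TwoAdic

open HeckeJ0 LevelRaising HeckeModule

attribute [local instance] ALSetup.isPrime

namespace ALSetup

variable {O : Type} [CommRing O] [IsLocalRing O] (T : ALSetup O)

section Generic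

variable (A : Type uA) [AddCommGroup A] [Module O A] {V : Finset ℕ} (hV : V ⊆ T.W)

/-- A family of operators below `V` commuting with involutions and degeneracy maps. -/
structure LevelOp where
  /-- the operator at each level -/
  op : ∀ U : Finset ℕ, Module.End O (T.H U A)
  w_op : ∀ (U : Finset ℕ) (hU : U ⊆ V) (e : ℕ) (_ : e ∈ U) (x : T.H U A),
    T.w A (hU.trans hV) e (op U x) = op U (T.w A (hU.trans hV) e x)
  res_op : ∀ (U : Finset ℕ) (hU : U ⊆ V) (U' : Finset ℕ) (h : U' ⊆ U) (x : T.H U' A),
    T.res A (hU.trans hV) h (op U' x) = op U (T.res A (hU.trans hV) h x)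

variable {T A hV} (P : T.LevelOp A hV)

/-- The operator on signed parts. -/
noncomputable def LevelOp.signedEnd {U : Finset ℕ} (hU : U ⊆ V) :
    Module.End O (T.signed A (hU.trans hV)) :=
  (P.op U).restrict fun x hx => T.mem_signed.mpr fun e he => by
    rw [P.w_op U hU e he, T.mem_signed.mp hx e he]

@[simp] lemma LevelOp.coe_signedEnd {U : Finset ℕ} (hU : U ⊆ V)
    (x : T.signed A (hU.trans hV)) : (P.signedEnd hU x : T.H U A) = P.op U x := rfl

lemma LevelOp.signedEnd_oldSigned {U : Finset ℕ} (hU : U ⊆ V) {b : ℕ} (hb : b ∈ U)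
    (x : T.signed A ((U.erase_subset b).trans (hU.trans hV))) :
    P.signedEnd hU (T.oldSigned A (hU.trans hV) hb x)
      = T.oldSigned A (hU.trans hV) hb (P.signedEnd ((U.erase_subset b).trans hU) x) := by
  refine Subtype.ext ?_
  show P.op U (T.oldMap A (hU.trans hV) (U.erase_subset b) b x)
    = T.oldMap A (hU.trans hV) (U.erase_subset b) b (P.op (U.erase b) x)
  rw [T.oldMap_apply, T.oldMap_apply, P.res_op U hU, map_add, P.w_op U hU b hb]

/-- The operator on new quotients. -/
noncomputable def LevelOp.quotEnd {U : Finset ℕ} (hU : U ⊆ V) (B : Finset ℕ) :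
    Module.End O (T.NewQuot A (hU.trans hV) B) :=
  Submodule.mapQ _ _ (P.signedEnd hU) <| iSup_le fun b => iSup_le fun hb => iSup_le fun hbB => by
    rintro _ ⟨x, rfl⟩
    rw [Submodule.mem_comap, P.signedEnd_oldSigned]
    exact T.oldSigned_mem_oldSpace A (hU.trans hV) hb hbB _

lemma LevelOp.quotEnd_mk {U : Finset ℕ} (hU : U ⊆ V) (B : Finset ℕ)
    (x : T.signed A (hU.trans hV)) :
    P.quotEnd hU B (Submodule.Quotient.mk x) = Submodule.Quotient.mk (P.signedEnd hU x) := rfl

end Generic

section Away

variable (A : Type uA) [AddCommGroup A] [Module O A] {V : Finset ℕ} (hV : V ⊆ T.W)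

/-- Multiplication by a polynomial in the operators away from `S`. -/
noncomputable def awayOp (a : AwayPoly O T.S) : T.LevelOp A hV where
  op U := DistribMulAction.toModuleEnd O (T.H U A) (awayIncl O T.S a : HeckePoly O)
  w_op _ _ e _ x := alLoc_smul _ _ _ _ _ _ _ a e x
  res_op _ hU _ h x := T.res_smul (hU.trans hV) h a x

/-- The action of the Hecke algebra away from `S` on a new quotient. -/
noncomputable def newAct (B : Finset ℕ) : AwayPoly O T.S →ₐ[O] Module.End O (T.NewQuot A hV B) where
  toFun a := (T.awayOp A hV a).quotEnd subset_rfl B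
  map_one' := Submodule.linearMap_qext _ (LinearMap.ext fun x => congrArg Submodule.Quotient.mk
    (Subtype.ext (by
      show awayIncl O T.S 1 • (x : T.H V A) = x
      rw [map_one, one_smul])))
  map_mul' a b := Submodule.linearMap_qext _ (LinearMap.ext fun x =>
    congrArg Submodule.Quotient.mk (Subtype.ext (by
      show awayIncl O T.S (a * b) • (x : T.H V A) = awayIncl O T.S a • awayIncl O T.S b • (x : T.H V A)
      rw [map_mul, mul_smul])))
  map_zero' := Submodule.linearMap_qext _ (LinearMap.ext fun x => by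
    show Submodule.Quotient.mk _ = (0 : T.NewQuot A hV B)
    rw [Submodule.Quotient.mk_eq_zero]
    convert Submodule.zero_mem _
    refine Subtype.ext ?_
    show awayIncl O T.S 0 • (x : T.H V A) = 0
    rw [map_zero, zero_smul])
  map_add' a b := Submodule.linearMap_qext _ (LinearMap.ext fun x => by
    refine Eq.trans ?_ (Submodule.Quotient.mk_add (T.oldSpace A hV B)
      (x := (T.awayOp A hV a).signedEnd subset_rfl x) (y := (T.awayOp A hV b).signedEnd subset_rfl x))
    refine congrArg Submodule.Quotient.mk (Subtype.ext ?_)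
    show awayIncl O T.S (a + b) • (x : T.H V A)
      = awayIncl O T.S a • (x : T.H V A) + awayIncl O T.S b • (x : T.H V A)
    rw [map_add, add_smul])
  commutes' r := Submodule.linearMap_qext _ (LinearMap.ext fun x => by
    rw [LinearMap.comp_apply, LinearMap.comp_apply, Module.algebraMap_end_apply,
      Submodule.mkQ_apply, ← Submodule.Quotient.mk_smul]
    refine congrArg Submodule.Quotient.mk (Subtype.ext ?_)
    show awayIncl O T.S (algebraMap O _ r) • (x : T.H V A) = r • (x : T.H V A)
    rw [AlgHom.commutes, algebraMap_smul])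

variable {A}

lemma newAct_mk (B : Finset ℕ) (a : AwayPoly O T.S) (x : T.signed A hV) :
    T.newAct A hV B a (Submodule.Quotient.mk x)
      = Submodule.Quotient.mk ((T.awayOp A hV a).signedEnd subset_rfl x) := rfl

/-- The action commutes with maps of coefficients. -/
lemma newAct_quotMap {B' : Type uA} [AddCommGroup B'] [Module O B'] (B : Finset ℕ)
    (f : A →ₗ[O] B') (a : AwayPoly O T.S) (x : T.NewQuot A hV B) :
    T.quotMap hV B f (T.newAct A hV B a x) = T.newAct B' hV B a (T.quotMap hV B f x) := by
  obtain ⟨x, rfl⟩ := Submodule.mkQ_surjective _ x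
  exact congrArg Submodule.Quotient.mk
    (Subtype.ext (map_smul (charMap (awayMonoid T.m) (T.char V) f) _ _))

end Away

section Degree

variable (A : Type uA) [AddCommGroup A] [Module O A] {q : ℕ} [hq : Fact q.Prime] {V : Finset ℕ}
  (hV : V ⊆ T.W) (hqW : q ∈ T.W) (hqV : q ∉ V)

include hV hqW hqV in
lemma res_X {U U' : Finset ℕ} (hU : U ⊆ V) (h : U' ⊆ U) (x : T.H U' A) :
    T.res A (hU.trans hV) h ((MvPolynomial.X (⟨q, hq.out⟩ : Nat.Primes) : HeckePoly O) • x)
      = (MvPolynomial.X (⟨q, hq.out⟩ : Nat.Primes) : HeckePoly O) • T.res A (hU.trans hV) h x :=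
  locLift_smul _ _ _ (fun u => by
    rw [X_smul, X_smul, charDegen_heckeOp _ _ _ one_ne_zero _ hq.out.not_dvd_one fun hd =>
      absurd hd (T.not_dvd_level (hU.trans hV) hqW fun hm => hqV (hU hm))]) x

include hqV in
lemma w_X {U : Finset ℕ} (hU : U ⊆ V) {e : ℕ} (he : e ∈ U) (x : T.H U A) :
    T.w A (hU.trans hV) e ((MvPolynomial.X (⟨q, hq.out⟩ : Nat.Primes) : HeckePoly O) • x)
      = (MvPolynomial.X (⟨q, hq.out⟩ : Nat.Primes) : HeckePoly O) • T.w A (hU.trans hV) e x := by
  have hne : q ≠ e := fun h => hqV (hU (h ▸ he))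
  induction x using LocalizedModule.induction_on with
  | _ u s => rw [LocalizedModule.smul'_mk, T.w_mk _ he, T.w_mk _ he, LocalizedModule.smul'_mk,
      X_smul, X_smul, alOp_heckeOp_ne _ he _ _ _ _ hne]

/-- `(q + 1) + c χ(q)⁻¹ T_q` at the levels below `V`, `q ∉ V`. -/
noncomputable def degLevelOp : T.LevelOp A hV where
  op U := T.degOp hqW U A
  w_op U hU e he x := by
    rw [degOp_apply, degOp_apply, map_add, map_smul, map_smul, T.w_X A hV hqV hU he]
  res_op U hU U' h x := by
    rw [degOp_apply, degOp_apply, map_add, map_smul, map_smul, T.res_X A hV hqW hqV hU h]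

/-- `(q + 1) + c χ(q)⁻¹ T_q` on a new quotient. -/
noncomputable def degQuot (B : Finset ℕ) : Module.End O (T.NewQuot A hV B) :=
  (T.degLevelOp A hV hqW hqV).quotEnd subset_rfl B

lemma degQuot_mk (B : Finset ℕ) (x : T.signed A hV) :
    T.degQuot A hV hqW hqV B (Submodule.Quotient.mk x)
      = Submodule.Quotient.mk ((T.degLevelOp A hV hqW hqV).signedEnd subset_rfl x) := rfl

end Degree

end ALSetup

end Fermat.Agent.TwoAdic
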