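import Fermat.Agent.TwoAdic.Modules.AtkinLevel

/-!
The squares of the degeneracy cube: the trace at `q` commutes with a change of level prime to `q`.
-/

set_option autoImplicit false

open CongruenceSubgroup
open scoped MatrixGroups

universe uO uA

namespace Fermat.Agent.TwoAdic

open HeckeJ0 LevelRaising HeckeModule

variable {O : Type uO} [CommRing O] {A : Type uA} [AddCommGroup A] [Module O A]
  {N N' M : ℕ} (hM : M ∣ N) (hM' : M ∣ N') (χ : (ZMod M)ˣ →* O)

/-- The degeneracy map of `z ↦ z` from a level to itself is the identity. -/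
theorem charDegen_one_self (h : 1 * N ∣ N) (u : Coh1 (scalarRep (levelChar hM χ) A)) :
    charDegen A hM χ hM one_ne_zero h u = u := by
  obtain ⟨c, rfl⟩ := toCoh_surjective (scalarRep (levelChar hM χ) A) u
  refine congrArg (toCoh _) (Subtype.ext (funext fun γ => ?_))
  show (charDegenData A hM χ hM one_ne_zero h).raw c.1 γ = c.1 γ
  rw [Data.raw_apply, Fintype.sum_unique]
  refine congrArg c.1 (((charDegenData A hM χ hM one_ne_zero h).spec_unique toGL_injective
    (x := default) (y := default) (g := γ) ?_).2)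
  show degenMat 1 * toGL N γ = toGL N γ * degenMat 1
  rw [degenMat_one, one_mul, mul_one]

variable {q : ℕ} [hq : Fact q.Prime] (hqN : ¬ q ∣ N) (hqN' : ¬ q ∣ N') (hMq : M ∣ q * N)
  (hMq' : M ∣ q * N')

/-- The trace at `q` commutes with the degeneracy map of `z ↦ z`. -/
theorem charTrace_charDegen_comm (h : 1 * N ∣ N') (h' : 1 * (q * N) ∣ q * N')
    (u : Coh1 (scalarRep (levelChar hMq χ) A)) :
    charTrace A hM' χ hqN' hMq' (charDegen A hMq χ hMq' one_ne_zero h' u)
      = charDegen A hM χ hM' one_ne_zero h (charTrace A hM χ hqN hMq u) := by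
  have hF := fact_traceMat' (q := q) hqN
  have hF' := fact_traceMat' (q := q) hqN'
  have hNN : N ∣ N' := by rwa [one_mul] at h
  have hsub : ∀ i, traceMat N' q i ∈ Lvl N := fun i => by
    obtain ⟨hd, hl⟩ := traceMat_mem_lvl hq.out hqN' i
    exact ⟨hd, (Int.natCast_dvd_natCast.mpr hNN).trans hl⟩
  have key : ∀ i, ∃ (j : Option (Fin q)) (g : Gamma0 (q * N)),
      traceMat N' q i = ((g : SL(2, ℤ)) : Mat) * traceMat N q j := fun i => by
    obtain ⟨j, y, hy, ey⟩ := hF.fact _ (hsub i)
    exact ⟨j, lvlElt hy, ey⟩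
  choose σ g hσ using key
  have hcop : IsCoprime (q : ℤ) (N' : ℤ) := Int.isCoprime_iff_nat_coprime.mpr
    (by simpa using (Nat.Prime.coprime_iff_not_dvd hq.out).mpr hqN')
  have hσi : Function.Injective σ := by
    intro i i' hii
    set y := ((g i' : SL(2, ℤ)) : Mat) * ((g i : SL(2, ℤ)) : Mat).adjugate with hy
    have h1 : y * traceMat N' q i = traceMat N' q i' := by
      rw [hy, hσ i, hσ i', hii, mul_assoc, ← mul_assoc _ ((g i : SL(2, ℤ)) : Mat),
        adjugate_mul_lvl (coe_mem_lvl (g i)), one_mul]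
    have hyq : y ∈ Lvl (q * N) :=
      lvl_mul (coe_mem_lvl (g i')) (adjugate_mem_detLevel (coe_mem_lvl (g i)))
    have hyN' : y ∈ Lvl N' := by
      have hinv : traceMat N' q i * (traceMat N' q i).adjugate = 1 := by
        rw [Matrix.mul_adjugate, (traceMat_mem_lvl hq.out hqN' i).1, one_smul]
      have h2 : y = traceMat N' q i' * (traceMat N' q i).adjugate := by
        rw [← h1, mul_assoc, hinv, mul_one]
      rw [h2]
      exact lvl_mul (traceMat_mem_lvl hq.out hqN' i')
        (adjugate_mem_detLevel (traceMat_mem_lvl hq.out hqN' i))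
    refine hF'.unique ⟨hyq.1, ?_⟩ (one_mem_lvl _) (h1.trans (one_mul _).symm)
    push_cast
    exact hcop.mul_dvd ((Int.natCast_dvd_natCast.mpr (dvd_mul_right q N)).trans hyq.2) hyN'.2
  let τ : Option (Fin q) ≃ Option (Fin q) :=
    Equiv.ofBijective σ ⟨hσi, (Finite.injective_iff_surjective).mp hσi⟩
  refine Data.comp_eq_comp toGL_injective toGL_injective toGL_injective
    (charDegenData A hMq χ hMq' one_ne_zero h') (charTraceData A hM' χ hqN' hMq')
    (charTraceData A hM χ hqN hMq) (charDegenData A hM χ hM' one_ne_zero h)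
    (((Equiv.refl Unit).prodCongr τ).trans (Equiv.prodComm _ _)) (fun p => g p.2) ?_ ?_ u
  · rintro ⟨⟨⟩, i⟩
    show degenMat 1 * matGL (traceMat N' q i) (hF'.det_ne_zero i)
      = toGL (q * N) (g i) * (matGL (traceMat N q (σ i)) (hF.det_ne_zero (σ i)) * degenMat 1)
    rw [degenMat_one, one_mul, mul_one]
    refine Units.ext ?_
    rw [Units.val_mul, val_matGL, val_toGL, val_matGL, ← Matrix.map_mul_intCast, ← hσ i]
  · rintro ⟨⟨⟩, i⟩
    refine LinearMap.ext fun a => ?_
    show gammaRep (scalarRep (levelChar hMq χ) A) (g i) a = a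
    rw [gammaRep_scalar, levelChar_dUnit hMq χ (g i) 1 ?_, map_one, one_smul]
    have h00 := congrArg (Int.cast : ℤ → ZMod M) (congrFun (congrFun (hσ i) 0) 0)
    simp only [Matrix.mul_apply, Fin.sum_univ_two, Int.cast_add, Int.cast_mul] at h00
    obtain ⟨ha1, -⟩ := traceMat_apply_zero (N := N') (q := q) i
    obtain ⟨hb1, hb2⟩ := traceMat_apply_zero (N := N) (q := q) (σ i)
    replace ha1 := congrArg (ZMod.castHom hM' (ZMod M)) ha1
    replace hb1 := congrArg (ZMod.castHom hM (ZMod M)) hb1
    replace hb2 := congrArg (ZMod.castHom hM (ZMod M)) hb2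
    simp only [map_intCast, map_one, map_zero] at ha1 hb1 hb2
    rw [ha1, hb1, hb2, mul_zero, add_zero, mul_one] at h00
    have hg := congrArg (ZMod.castHom hMq (ZMod M)) (gamma0_diag (g i))
    rw [map_mul, map_one, map_intCast, ← h00, one_mul] at hg
    rw [ZMod.unitsMap_def, Units.coe_map, MonoidHom.coe_coe, Units.val_one]
    exact hg

end Fermat.Agent.TwoAdic
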