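import Fermat.Agent.TwoAdic.Modules.ExtHecke

/-!
Residual norms: in characteristic two a homomorphism on `Γ₀(N)` invariant under Atkin–Lehner
elements becomes, after a power of `T_ℓ - (ℓ + 1)`, the norm of one invariant under all but one.
-/

set_option autoImplicit false

open CongruenceSubgroup
open scoped MatrixGroups

namespace Fermat.Agent.TwoAdic

open HeckeJ0 LevelRaising HeckeModule

variable {N : ℕ} {W : Finset ℕ}

/-- The chosen Atkin–Lehner matrix at `e`. -/
def alMat (N e : ℕ) : Mat := wMat (N / e) e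

lemma alMat_spec (hW : IsALPrimes N W) {e : ℕ} (he : e ∈ W) :
    alMat N e ∈ alSet N (prodOf {e}) ∧ N / e * e = N ∧ ¬ e ∣ N / e := by
  obtain ⟨hep, ⟨n, hn⟩, hee⟩ := hW e he
  have hdiv : N / e = n := by rw [hn, Nat.mul_div_cancel_left _ hep.pos]
  have hen : ¬ e ∣ n := fun h => hee (hn ▸ mul_dvd_mul_left e h)
  refine ⟨?_, by rw [hdiv, hn, mul_comm], hdiv ▸ hen⟩
  rw [alMat, hdiv, prodOf, Finset.prod_singleton, id]
  refine ⟨det_wMat hep hen, ?_, ?_, ?_⟩
  · simp [wMat]
  · simp [wMat]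
  · simp [wMat, hn, mul_comm]

lemma alMat_det_ne_zero (hW : IsALPrimes N W) {e : ℕ} (he : e ∈ W) : (alMat N e).det ≠ 0 := by
  rw [(alMat_spec hW he).1.1, prodOf, Finset.prod_singleton, id]
  exact_mod_cast (hW e he).1.ne_zero

/-- The chosen element at `e`. -/
noncomputable def alElt (hW : IsALPrimes N W) {e : ℕ} (he : e ∈ W) : alGroup N W hW :=
  ⟨matGL (alMat N e) (alMat_det_ne_zero hW he),
    matGL_mem_alGroup (Finset.singleton_subset_iff.mpr he) (alMat_spec hW he).1 _⟩

lemma alType_alElt (hW : IsALPrimes N W) {e : ℕ} (he : e ∈ W) : alType (alElt hW he) = {e} :=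
  alType_eq _ (Finset.singleton_subset_iff.mpr he) (alMat_spec hW he).1 (x := 1)
    (by rw [one_smul]; rfl)

lemma exists_alConj (hW : IsALPrimes N W) {e : ℕ} (he : e ∈ W) (γ : Gamma0 N) :
    ∃ γ' : Gamma0 N,
      alMat N e * ((γ : SL(2, ℤ)) : Mat) = ((γ' : SL(2, ℤ)) : Mat) * alMat N e := by
  obtain ⟨-, hNe, hen⟩ := alMat_spec hW he
  have hy : ((γ : SL(2, ℤ)) : Mat) ∈ DetLevel (N / e * e) 1 := hNe.symm ▸ coe_mem_lvl γ
  obtain ⟨y, hy', h⟩ := (normalises_wMat (hW e he).1 hen).left 1 _ hy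
  exact ⟨lvlElt (hNe ▸ hy' : y ∈ Lvl N), h⟩

/-- Conjugation of `Γ₀(N)` by the chosen element at `e`. -/
noncomputable def alConj (hW : IsALPrimes N W) {e : ℕ} (he : e ∈ W) (γ : Gamma0 N) : Gamma0 N :=
  (exists_alConj hW he γ).choose

lemma alConj_spec (hW : IsALPrimes N W) {e : ℕ} (he : e ∈ W) (γ : Gamma0 N) :
    alMat N e * ((γ : SL(2, ℤ)) : Mat)
      = ((alConj hW he γ : SL(2, ℤ)) : Mat) * alMat N e :=
  (exists_alConj hW he γ).choose_spec

/-- An element of `Γ₀(N)` in the extended group. -/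
noncomputable def gammaElt (hW : IsALPrimes N W) (γ : Gamma0 N) : alGroup N W hW :=
  ⟨toGL N γ, toGL_mem_alGroup γ⟩

lemma alElt_conj (hW : IsALPrimes N W) {e : ℕ} (he : e ∈ W) (γ : Gamma0 N) :
    alElt hW he * gammaElt hW γ * (alElt hW he)⁻¹ = gammaElt hW (alConj hW he γ) := by
  rw [mul_inv_eq_iff_eq_mul]
  refine Subtype.ext (Units.ext ?_)
  show (matGL (alMat N e) (alMat_det_ne_zero hW he) * toGL N γ : GL (Fin 2) ℝ).val
    = (toGL N (alConj hW he γ) * matGL (alMat N e) (alMat_det_ne_zero hW he) : GL (Fin 2) ℝ).val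
  rw [Units.val_mul, Units.val_mul, val_matGL, val_toGL, val_toGL, ← Matrix.map_mul_intCast,
    ← Matrix.map_mul_intCast, alConj_spec]

variable {A : Type} [AddCommGroup A]

/-- A homomorphism on `Γ₀(N)` vanishing at `-1`. -/
def IsGammaHom (u : Gamma0 N → A) : Prop :=
  (∀ γ δ, u (γ * δ) = u γ + u δ) ∧ u (negOne N) = 0

/-- A homomorphism on the elements of type inside `V`, vanishing on scalars. -/
def IsExtHom (hW : IsALPrimes N W) (V : Finset ℕ) (c : alGroup N W hW → A) : Prop :=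
  (∀ g h, alType g ⊆ V → alType h ⊆ V → c (g * h) = c g + c h) ∧
    ∀ g : alGroup N W hW, (g : GL (Fin 2) ℝ) ∈ scalarSubgroup → c g = 0

variable (ℓ : ℕ) [hℓ : Fact ℓ.Prime]

/-- The Eisenstein operator on functions on `Γ₀(N)`. -/
noncomputable def eisGamma (u : Gamma0 N → A) (γ : Gamma0 N) : A :=
  haveI : NeZero ℓ := ⟨hℓ.out.ne_zero⟩
  (heckeData (trivRep N ℤ A) ℓ).raw u γ - (ℓ + 1) • u γ

variable {ℓ} (hℓN : ¬ ℓ ∣ N)

lemma eisAL_gammaElt [NeZero ℓ] (hW : IsALPrimes N W) (c : alGroup N W hW → A) (γ : Gamma0 N) :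
    eisAL hℓN c (gammaElt hW γ) = eisGamma ℓ (fun δ => c (gammaElt hW δ)) γ := by
  simp only [eisAL, eisGamma, Data.raw_apply]
  refine congrArg₂ (· - ·) (Finset.sum_congr rfl fun x _ => ?_) rfl
  show c _ = c _
  refine congrArg c ?_
  have h := (heckeData (trivRep N ℤ A) ℓ).mul_spec x γ
  exact ((extData hW hℓN A).spec_unique Subtype.val_injective (γ := gammaElt hW γ)
    (g := gammaElt hW _) h).2

lemma IsExtHom.gamma {hW : IsALPrimes N W} {V : Finset ℕ} {c : alGroup N W hW → A}
    (hc : IsExtHom hW V c) : IsGammaHom fun δ => c (gammaElt hW δ) := by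
  refine ⟨fun γ δ => ?_, hc.2 _ (mem_scalarSubgroup.mpr ⟨-1, ?_⟩)⟩
  · show c (gammaElt hW (γ * δ)) = _
    rw [show gammaElt hW (γ * δ) = gammaElt hW γ * gammaElt hW δ from Subtype.ext (map_mul _ _ _)]
    exact hc.1 _ _ (by rw [gammaElt, alType_toGL]; exact Finset.empty_subset _)
      (by rw [gammaElt, alType_toGL]; exact Finset.empty_subset _)
  · show (toGL N (negOne N) : Matrix (Fin 2) (Fin 2) ℝ) = _
    rw [val_toGL]
    ext i j
    fin_cases i <;> fin_cases j <;> simp [negOne]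

lemma isExtHom_eisAL [NeZero ℓ] {hW : IsALPrimes N W} {V : Finset ℕ} {c : alGroup N W hW → A}
    (hc : IsExtHom hW V c) : IsExtHom hW V (eisAL hℓN c) :=
  ⟨fun _ _ hg hh => eisAL_mul hℓN hc.1 hg hh, fun _ hg => eisAL_scalar hℓN hc.2 hg⟩

omit hℓ in
lemma exists_extHom_empty (hW : IsALPrimes N W) {u : Gamma0 N → A} (hu : IsGammaHom u) :
    ∃ c : alGroup N W hW → A, IsExtHom hW ∅ c ∧ ∀ γ, c (gammaElt hW γ) = u γ := by
  classical
  let c : alGroup N W hW → A := fun g =>
    if h : alType g = ∅ then u (exists_of_alType_eq_empty h).choose else 0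
  have key : ∀ (g : alGroup N W hW) (γ : Gamma0 N) (s : GL (Fin 2) ℝ), s ∈ scalarSubgroup →
      (g : GL (Fin 2) ℝ) = toGL N γ * s → c g = u γ := by
    intro g γ s hs hg
    obtain ⟨x, hx⟩ := mem_scalarSubgroup.mp hs
    have hγ : ((γ : SL(2, ℤ)) : Mat) ∈ alSet N (prodOf ∅) := by
      rw [prodOf_empty, alSet_one]; exact coe_mem_lvl γ
    have hgval : ((g : GL (Fin 2) ℝ) : Matrix (Fin 2) (Fin 2) ℝ)
        = x • ((γ : SL(2, ℤ)) : Mat).map (Int.cast : ℤ → ℝ) := by
      rw [hg, Units.val_mul, hx, Matrix.mul_smul, mul_one, val_toGL]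
    have h : alType g = ∅ := alType_eq g (Finset.empty_subset _) hγ hgval
    show dite _ _ _ = _
    rw [dif_pos h]
    obtain ⟨s', hs', hg'⟩ := (exists_of_alType_eq_empty h).choose_spec
    set γ' := (exists_of_alType_eq_empty h).choose
    obtain ⟨x', hx'⟩ := mem_scalarSubgroup.mp hs'
    have hγ' : ((γ' : SL(2, ℤ)) : Mat) ∈ alSet N (prodOf ∅) := by
      rw [prodOf_empty, alSet_one]; exact coe_mem_lvl γ'
    have hgval' : ((g : GL (Fin 2) ℝ) : Matrix (Fin 2) (Fin 2) ℝ)
        = x' • ((γ' : SL(2, ℤ)) : Mat).map (Int.cast : ℤ → ℝ) := by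
      rw [hg', Units.val_mul, hx', Matrix.mul_smul, mul_one, val_toGL]
    obtain ⟨-, h1⟩ := alGroup_unique hW (Finset.empty_subset _) (Finset.empty_subset _) hγ hγ'
      (scalar_ne_zero hgval) (hgval.symm.trans hgval')
    rcases h1 with h1 | h1
    · rw [show γ' = γ from Subtype.ext (Subtype.ext h1)]
    · rw [show γ' = γ * negOne N from Subtype.ext (Subtype.ext (by
        rw [h1]
        show -_ = ((γ : SL(2, ℤ)) : Mat) * _
        simp [negOne]))]
      rw [hu.1, hu.2, add_zero]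
  refine ⟨c, ⟨fun g h hg hh => ?_, fun g hg => ?_⟩,
    fun γ => key _ γ 1 (one_mem _) (by simp [gammaElt])⟩
  · obtain ⟨γ, s, hs, eg⟩ := exists_of_alType_eq_empty (Finset.subset_empty.mp hg)
    obtain ⟨δ, t, ht, eh⟩ := exists_of_alType_eq_empty (Finset.subset_empty.mp hh)
    rw [key g γ s hs eg, key h δ t ht eh, ← hu.1]
    refine key _ _ (s * t) (mul_mem hs ht) ?_
    rw [Subgroup.coe_mul, eg, eh, map_mul, mul_assoc, ← mul_assoc s,
      (commute_of_mem_scalarSubgroup hs _).eq]
    simp only [mul_assoc]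
  · have h1 : u 1 = 0 := by
      have := hu.1 1 1
      rwa [mul_one, left_eq_add] at this
    rw [key g 1 g hg (by simp), h1]

include hℓN in
/-- Invariance under a chosen element is preserved by the Eisenstein operator. -/
theorem eisGamma_invariant (hW : IsALPrimes N W) {e : ℕ} (he : e ∈ W) {u : Gamma0 N → A}
    (hu : IsGammaHom u) (hinv : ∀ γ, u (alConj hW he γ) = u γ) (γ : Gamma0 N) :
    eisGamma ℓ u (alConj hW he γ) = eisGamma ℓ u γ := by
  have : NeZero ℓ := ⟨hℓ.out.ne_zero⟩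
  obtain ⟨c, hc, hcu⟩ := exists_extHom_empty hW hu
  have hu' : (fun δ => c (gammaElt hW δ)) = u := funext hcu
  rw [← hu', ← eisAL_gammaElt hℓN hW c, ← eisAL_gammaElt hℓN hW c, ← alElt_conj hW he]
  exact eisAL_conj hℓN hc.1 (W' := ∅) (fun δ => by
    rw [show (⟨toGL N δ, toGL_mem_alGroup δ⟩ : alGroup N W hW) = gammaElt hW δ from rfl,
      alElt_conj, hcu, hcu, hinv]) (le_of_eq (alType_toGL γ))

lemma isGammaHom_eisGamma (hℓN : ¬ ℓ ∣ N) {u : Gamma0 N → A} (hu : IsGammaHom u) :
    IsGammaHom (eisGamma ℓ u) := by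
  have : NeZero ℓ := ⟨hℓ.out.ne_zero⟩
  have hW := isALPrimes_empty N
  obtain ⟨c, hc, hcu⟩ := exists_extHom_empty hW hu
  have hu' : (fun δ => c (gammaElt hW δ)) = u := funext hcu
  have h := (isExtHom_eisAL hℓN hc).gamma
  rw [show (fun δ => eisAL hℓN c (gammaElt hW δ)) = eisGamma ℓ u from funext fun δ => by
    rw [eisAL_gammaElt, hu']] at h
  exact h

include hℓN in
lemma iterate_eisGamma_spec (hW : IsALPrimes N W) (n : ℕ) {u : Gamma0 N → A} (hu : IsGammaHom u)
    (V : Finset ℕ) (hV : V ⊆ W) (hinv : ∀ e (he : e ∈ V) γ, u (alConj hW (hV he) γ) = u γ) :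
    IsGammaHom ((eisGamma ℓ)^[n] u) ∧
      ∀ e (he : e ∈ V) γ, (eisGamma ℓ)^[n] u (alConj hW (hV he) γ) = (eisGamma ℓ)^[n] u γ := by
  induction n with
  | zero => exact ⟨hu, hinv⟩
  | succ n ih =>
    rw [Function.iterate_succ_apply']
    exact ⟨isGammaHom_eisGamma hℓN ih.1,
      fun e he => eisGamma_invariant hℓN hW (hV he) ih.1 (ih.2 e he)⟩

include hℓN in
/-- Invariant classes extend after a power of the Eisenstein operator. -/
theorem exists_extension (hW : IsALPrimes N W) (h2 : ∀ a : A, a + a = 0) (V : Finset ℕ)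
    (hV : V ⊆ W) {u : Gamma0 N → A} (hu : IsGammaHom u)
    (hinv : ∀ e (he : e ∈ V) γ, u (alConj hW (hV he) γ) = u γ) :
    ∃ c : alGroup N W hW → A, IsExtHom hW V c ∧
      ∀ γ, c (gammaElt hW γ) = (eisGamma ℓ)^[V.card] u γ := by
  classical
  have : NeZero ℓ := ⟨hℓ.out.ne_zero⟩
  induction V using Finset.induction_on with
  | empty => simpa using exists_extHom_empty hW hu
  | insert e V he ih =>
    have hV' : V ⊆ W := (Finset.subset_insert e V).trans hV
    obtain ⟨c, hc, hcu⟩ := ih hV' fun e' he' => hinv e' (Finset.mem_insert_of_mem he')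
    have heW : e ∈ W := hV (Finset.mem_insert_self e V)
    set w := alElt hW heW
    have hw : alType w = {e} := alType_alElt hW heW
    have hcinv : ∀ γ : Gamma0 N, c (w * ⟨toGL N γ, toGL_mem_alGroup γ⟩ * w⁻¹)
        = c ⟨toGL N γ, toGL_mem_alGroup γ⟩ := fun γ => by
      show c (w * gammaElt hW γ * w⁻¹) = c (gammaElt hW γ)
      rw [alElt_conj, hcu, hcu]
      exact (iterate_eisGamma_spec hℓN hW _ hu (insert e V) hV hinv).2 e
        (Finset.mem_insert_self e V) γ
    set d := eisAL hℓN c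
    have hd : IsExtHom hW V d := isExtHom_eisAL hℓN hc
    have hdinv : ∀ h, alType h ⊆ V → d (w * h * w⁻¹) = d h := fun h hh =>
      eisAL_conj hℓN hc.1 hcinv hh
    have hdww : d (w * w) = 0 := eisAL_sq hℓN hc.1 hw hcinv h2
    have hmulw : ∀ g, alType g ⊆ insert e V → ¬ alType g ⊆ V → alType (g * w⁻¹) ⊆ V := by
      intro g hg hg'
      rw [alType_mul, alType_inv, hw]
      intro x hx
      simp only [Finset.mem_union, Finset.mem_sdiff, Finset.mem_singleton] at hx
      rcases hx with ⟨h1, h2⟩ | ⟨rfl, h2⟩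
      · exact (Finset.mem_insert.mp (hg h1)).resolve_left h2
      · exact absurd (fun y hy => (Finset.mem_insert.mp (hg hy)).resolve_left
          fun h => h2 (h ▸ hy)) hg'
    have hnw : ∀ g, alType g ⊆ V → ¬ alType (g * w) ⊆ V := fun g hg h => he (h (by
      rw [alType_mul, hw]
      simp [show e ∉ alType g from fun h' => he (hg h')]))
    let E : alGroup N W hW → A := fun g => if alType g ⊆ V then d g else d (g * w⁻¹)
    have hEH : ∀ g, alType g ⊆ V → E g = d g := fun g hg => if_pos hg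
    have hEw : ∀ g, alType g ⊆ V → E (g * w) = d g := fun g hg => by
      simp only [E, if_neg (hnw g hg), mul_inv_cancel_right]
    have hdec : ∀ g, alType g ⊆ insert e V →
        alType g ⊆ V ∨ ∃ h, alType h ⊆ V ∧ g = h * w := fun g hg => by
      by_cases hg' : alType g ⊆ V
      · exact Or.inl hg'
      · exact Or.inr ⟨_, hmulw g hg hg', (inv_mul_cancel_right g w).symm⟩
    have hsub : ∀ {g h : alGroup N W hW}, alType g ⊆ V → alType h ⊆ V → alType (g * h) ⊆ V :=
      fun {g h} hg hh => by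
        rw [alType_mul]
        exact Finset.union_subset (Finset.sdiff_subset.trans hg) (Finset.sdiff_subset.trans hh)
    have hconj : ∀ {g : alGroup N W hW}, alType g ⊆ V → alType (w * g * w⁻¹) ⊆ V :=
      fun {g} hg => by rwa [alType_conj]
    have hwwV : alType (w * w) ⊆ V := by rw [alType_mul, hw]; simp
    refine ⟨E, ⟨fun g h hg hh => ?_, fun g hg => ?_⟩, fun γ => ?_⟩
    · rcases hdec g hg with hg | ⟨g, hg', rfl⟩ <;> rcases hdec h hh with hh | ⟨h, hh', rfl⟩
      · rw [hEH _ (hsub hg hh), hEH _ hg, hEH _ hh, hd.1 _ _ hg hh]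
      · rw [← mul_assoc, hEw _ (hsub hg hh'), hEH _ hg, hEw _ hh', hd.1 _ _ hg hh']
      · rw [show g * w * h = g * (w * h * w⁻¹) * w by group, hEw _ (hsub hg' (hconj hh)),
          hEw _ hg', hEH _ hh, hd.1 _ _ hg' (hconj hh), hdinv h hh]
      · rw [show g * w * (h * w) = g * (w * h * w⁻¹) * (w * w) by group,
          hEH _ (hsub (hsub hg' (hconj hh')) hwwV), hd.1 _ _ (hsub hg' (hconj hh')) hwwV,
          hd.1 _ _ hg' (hconj hh'), hdinv h hh', hdww, add_zero, hEw _ hg', hEw _ hh']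
    · have h0 : alType g ⊆ V := by
        obtain ⟨x, hx⟩ := mem_scalarSubgroup.mp hg
        rw [alType_eq g (Finset.empty_subset _) (m := 1)
          (by rw [prodOf_empty, alSet_one]; exact one_mem_lvl N) (x := x) (by simpa using hx)]
        exact Finset.empty_subset _
      rw [hEH g h0, hd.2 g hg]
    · rw [hEH _ (by rw [gammaElt, alType_toGL]; exact Finset.empty_subset _),
        Finset.card_insert_of_notMem he, Function.iterate_succ_apply']
      exact (eisAL_gammaElt hℓN hW c γ).trans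
        (congrArg (fun f => eisGamma ℓ f γ) (funext hcu))

include hℓN in
/-- **Residual norms.** -/
theorem exists_norm (hW : IsALPrimes N W) (h2 : ∀ a : A, a + a = 0)
    (hL : TwoLiftable (PAL N W hW)) {e : ℕ} (he : e ∈ W) {u : Gamma0 N → A} (hu : IsGammaHom u)
    (hinv : ∀ e' (he' : e' ∈ W) γ, u (alConj hW he' γ) = u γ) :
    ∃ v : Gamma0 N → A, IsGammaHom v ∧
      (∀ e' (he' : e' ∈ W), e' ≠ e → ∀ γ, v (alConj hW he' γ) = v γ) ∧
      ∀ γ, (eisGamma ℓ)^[W.card] u γ = v γ + v (alConj hW he γ) := by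
  classical
  have : NeZero ℓ := ⟨hℓ.out.ne_zero⟩
  have hWe : W.erase e ⊆ W := Finset.erase_subset e W
  obtain ⟨c, hc, hcu⟩ := exists_extension hℓN hW h2 (W.erase e) hWe hu
    fun e' he' => hinv e' (hWe he')
  set V := W.erase e
  set w := alElt hW he
  have hw : alType w = {e} := alType_alElt hW he
  have hcinv : ∀ γ : Gamma0 N, c (w * ⟨toGL N γ, toGL_mem_alGroup γ⟩ * w⁻¹)
      = c ⟨toGL N γ, toGL_mem_alGroup γ⟩ := fun γ => by
    show c (w * gammaElt hW γ * w⁻¹) = c (gammaElt hW γ)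
    rw [alElt_conj, hcu, hcu]
    exact (iterate_eisGamma_spec hℓN hW _ hu W (subset_refl W) hinv).2 e he γ
  set d := eisAL hℓN c
  have hd : IsExtHom hW V d := isExtHom_eisAL hℓN hc
  have hdinv : ∀ h, alType h ⊆ V → d (w * h * w⁻¹) = d h := fun h hh =>
    eisAL_conj hℓN hc.1 hcinv hh
  have hdww : d (w * w) = 0 := eisAL_sq hℓN hc.1 hw hcinv h2
  -- descend to the quotient by scalars
  let H0 : Subgroup (alGroup N W hW) :=
    { carrier := {g | alType g ⊆ V}
      one_mem' := by show alType _ ⊆ V; rw [alType_one]; exact Finset.empty_subset _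
      mul_mem' := fun {g h} (hg : alType g ⊆ V) (hh : alType h ⊆ V) => by
        show alType (g * h) ⊆ V
        rw [alType_mul]
        exact Finset.union_subset (Finset.sdiff_subset.trans hg) (Finset.sdiff_subset.trans hh)
      inv_mem' := fun {g} (hg : alType g ⊆ V) => by
        show alType g⁻¹ ⊆ V
        rwa [alType_inv] }
  let π := QuotientGroup.mk' (alScalars N W hW)
  have hscalV : alScalars N W hW ≤ H0 := fun g hg => by
    obtain ⟨x, hx⟩ := mem_scalarSubgroup.mp (Subgroup.mem_subgroupOf.mp hg)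
    show alType g ⊆ V
    rw [alType_eq g (Finset.empty_subset _) (m := 1)
      (by rw [prodOf_empty, alSet_one]; exact one_mem_lvl N) (x := x) (by simpa using hx)]
    exact Finset.empty_subset _
  have hmem : ∀ g, π g ∈ H0.map π ↔ alType g ⊆ V := fun g => by
    refine ⟨fun h => ?_, fun h => ⟨g, h, rfl⟩⟩
    obtain ⟨g', hg', e'⟩ := h
    have h1 : g'⁻¹ * g ∈ H0 := hscalV (QuotientGroup.eq.mp e')
    have := H0.mul_mem hg' h1
    rwa [mul_inv_cancel_left] at this
  let out : PAL N W hW → alGroup N W hW := fun p => p.out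
  have hπout : ∀ p, π (out p) = p := fun p => Quotient.out_eq p
  have hdout : ∀ g, alType g ⊆ V → d (out (π g)) = d g := fun g hg => by
    have h1 : g⁻¹ * out (π g) ∈ alScalars N W hW := QuotientGroup.eq.mp (hπout (π g)).symm
    rw [show out (π g) = g * (g⁻¹ * out (π g)) by group, hd.1 _ _ hg (hscalV h1),
      hd.2 _ (Subgroup.mem_subgroupOf.mp h1), add_zero]
  obtain ⟨b, hb, hbd⟩ := exists_norm_of_conjInvariant (H0.map π) hL (π w)
    (fun p => by
      obtain ⟨g, rfl⟩ := QuotientGroup.mk'_surjective _ p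
      rw [← map_inv, ← map_mul, hmem, hmem, alType_mul, alType_inv, hw]
      have hgW := alType_subset g
      by_cases heg : e ∈ alType g
      · exact Or.inr fun x hx => by
          simp only [Finset.mem_union, Finset.mem_sdiff, Finset.mem_singleton] at hx
          rcases hx with ⟨h1, h2⟩ | ⟨rfl, h2⟩
          · exact Finset.mem_erase.mpr ⟨h2, hgW h1⟩
          · exact absurd heg h2
      · exact Or.inl fun x hx => Finset.mem_erase.mpr ⟨fun h => heg (h ▸ hx), hgW hx⟩)
    (by
      rw [hmem, hw]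
      exact fun h => Finset.notMem_erase e W (h (Finset.mem_singleton_self e)))
    (fun p hp => by
      obtain ⟨g, rfl⟩ := QuotientGroup.mk'_surjective _ p
      rw [← map_inv, ← map_mul, ← map_mul, hmem, alType_conj]
      exact (hmem g).mp hp)
    (by rw [← map_mul, hmem, alType_mul, hw]; simp)
    h2 (fun p => d (out p))
    (fun p q hp hq => by
      obtain ⟨g, rfl⟩ := QuotientGroup.mk'_surjective _ p
      obtain ⟨h, rfl⟩ := QuotientGroup.mk'_surjective _ q
      have hg := (hmem g).mp hp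
      have hh := (hmem h).mp hq
      show d (out (π g * π h)) = d (out (π g)) + d (out (π h))
      rw [← map_mul, hdout _ (H0.mul_mem hg hh), hdout _ hg, hdout _ hh, hd.1 _ _ hg hh])
    (fun p hp => by
      obtain ⟨g, rfl⟩ := QuotientGroup.mk'_surjective _ p
      have hg := (hmem g).mp hp
      show d (out (π w * π g * (π w)⁻¹)) = d (out (π g))
      rw [← map_inv, ← map_mul, ← map_mul, hdout _ (by rwa [alType_conj]), hdout _ hg,
        hdinv g hg])
    (by
      show d (out (π w * π w)) = 0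
      rw [← map_mul, hdout _ (by rw [alType_mul, hw]; simp), hdww])
  have hbh : ∀ g, alType g ⊆ V → π g ∈ H0.map π := fun g hg => (hmem g).mpr hg
  have hb1 : b 1 = 0 := by
    have := hb 1 1 (one_mem _) (one_mem _)
    rwa [mul_one, left_eq_add] at this
  have hB : IsExtHom hW V fun g => b (π g) := by
    refine ⟨fun g h hg hh => ?_, fun g hg => ?_⟩
    · show b (π (g * h)) = _
      rw [map_mul, hb _ _ (hbh g hg) (hbh h hh)]
    · show b (π g) = 0
      rw [show π g = 1 from (QuotientGroup.eq_one_iff _).mpr (Subgroup.mem_subgroupOf.mpr hg), hb1]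
  refine ⟨fun γ => b (π (gammaElt hW γ)), hB.gamma, fun e' he' hne γ => ?_, fun γ => ?_⟩
  · have he'V : alType (alElt hW he') ⊆ V := by
      rw [alType_alElt]
      exact Finset.singleton_subset_iff.mpr (Finset.mem_erase.mpr ⟨hne, he'⟩)
    have hγV : alType (gammaElt hW γ) ⊆ V := by
      rw [gammaElt, alType_toGL]; exact Finset.empty_subset _
    show b (π (gammaElt hW (alConj hW he' γ))) = b (π (gammaElt hW γ))
    rw [← alElt_conj]
    refine (hB.1 _ _ (H0.mul_mem he'V hγV) (H0.inv_mem he'V)).trans ?_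
    beta_reduce
    rw [show b (π (alElt hW he' * gammaElt hW γ)) = _ from hB.1 _ _ he'V hγV,
      show b (π (alElt hW he')⁻¹) = -b (π (alElt hW he')) from c_inv (c := fun g => b (π g)) hB.1 he'V]
    abel
  · have hγV : alType (gammaElt hW γ) ⊆ V := by
      rw [gammaElt, alType_toGL]; exact Finset.empty_subset _
    show _ = b (π (gammaElt hW γ)) + b (π (gammaElt hW (alConj hW he γ)))
    rw [← alElt_conj, map_mul, map_mul, map_inv]
    refine Eq.trans ?_ (hbd (π (gammaElt hW γ)) (hbh _ hγV))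
    show _ = d (out (π (gammaElt hW γ)))
    rw [hdout _ hγV, ← Finset.card_erase_add_one he, Function.iterate_succ_apply']
    exact ((eisAL_gammaElt hℓN hW c γ).trans
      (congrArg (fun f => eisGamma ℓ f γ) (funext hcu))).symm

end Fermat.Agent.TwoAdic
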