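import Fermat.Agent.HeckeModule.TraceHecke
import Fermat.Agent.TwoAdic.Modules.ResidualNorm

/-!
Atkin–Lehner operators on `H¹(Γ₀(N), A(χ))` for a character `χ` of conductor `M` prime to the
Atkin–Lehner prime: involutions commuting with each other and with the Hecke operators.
-/

set_option autoImplicit false

open CongruenceSubgroup
open scoped MatrixGroups

universe uO uA

namespace Fermat.Agent.TwoAdic

open HeckeJ0 LevelRaising HeckeModule

section Matrices

variable {N f : ℕ}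

/-- Two Atkin–Lehner matrices of the same determinant differ by `Γ₀(N)` on the left. -/
lemma exists_eq_mul_alSet (hf : f ∣ N) (hf0 : f ≠ 0) {X Y : Mat} (hX : X ∈ alSet N f)
    (hY : Y ∈ alSet N f) : ∃ γ : Gamma0 N, X = ((γ : SL(2, ℤ)) : Mat) * Y := by
  obtain ⟨z, hz, e⟩ := exists_alSet_mul (g := f) (a := 1) (b := 1) (by simpa using hf) hf0
    (by simpa using hX) (by simpa using adjugate_mem_alSet hY)
  rw [mul_one, alSet_one] at hz
  refine ⟨lvlElt hz, ?_⟩
  have h := congrArg (· * Y) e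
  simp only [mul_assoc, Matrix.adjugate_mul, Matrix.mul_smul, mul_one, Matrix.smul_mul, hY.1] at h
  exact smul_right_injective _ (Int.natCast_ne_zero.mpr hf0) h

/-- Two Atkin–Lehner matrices of the same determinant differ by `Γ₀(N)` on the right. -/
lemma exists_eq_alSet_mul (hf : f ∣ N) (hf0 : f ≠ 0) {X Y : Mat} (hX : X ∈ alSet N f)
    (hY : Y ∈ alSet N f) : ∃ γ : Gamma0 N, X = Y * ((γ : SL(2, ℤ)) : Mat) := by
  obtain ⟨z, hz, e⟩ := exists_alSet_mul (g := f) (a := 1) (b := 1) (by simpa using hf) hf0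
    (by simpa using adjugate_mem_alSet hY) (by simpa using hX)
  rw [mul_one, alSet_one] at hz
  refine ⟨lvlElt hz, ?_⟩
  have h := congrArg (Y * ·) e
  simp only [← mul_assoc, Matrix.mul_adjugate, Matrix.smul_mul, one_mul, Matrix.mul_smul, hY.1] at h
  exact smul_right_injective _ (Int.natCast_ne_zero.mpr hf0) h

lemma lvl_mul_alSet (hf : f ∣ N) {X y : Mat} (hX : X ∈ alSet N f) (hy : y ∈ Lvl N) :
    y * X ∈ alSet N f := by
  obtain ⟨m, hm, e⟩ := exists_alSet_mul (g := 1) (a := 1) (b := f) (by simpa using hf) one_ne_zero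
    (by rw [one_mul, alSet_one]; exact hy) (by simpa using hX)
  rw [Nat.cast_one, one_smul] at e
  rw [e]
  simpa using hm

/-- Lower right entries modulo `M ∣ N` multiply. -/
lemma dUnit_cast {M : ℕ} (hM : M ∣ N) (γ : Gamma0 N) :
    ((ZMod.unitsMap hM (dUnit N γ) : (ZMod M)ˣ) : ZMod M) = (((γ : SL(2, ℤ)) 1 1 : ℤ) : ZMod M) := by
  rw [ZMod.unitsMap_def, Units.coe_map, MonoidHom.coe_coe, coe_dUnit, map_intCast]

lemma lowerLeft_cast {M : ℕ} (hM : M ∣ N) {X : Mat} (hX : (N : ℤ) ∣ X 1 0) :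
    ((X 1 0 : ℤ) : ZMod M) = 0 := by
  rw [ZMod.intCast_zmod_eq_zero_iff_dvd]
  exact (Int.natCast_dvd_natCast.mpr hM).trans hX

/-- From `X = γ Y`: the lower right entries modulo `M`. -/
lemma cast_lowerRight {M : ℕ} (hM : M ∣ N) {X Y : Mat} (γ : Gamma0 N)
    (h : X = ((γ : SL(2, ℤ)) : Mat) * Y) :
    ((X 1 1 : ℤ) : ZMod M)
      = ((ZMod.unitsMap hM (dUnit N γ) : (ZMod M)ˣ) : ZMod M) * ((Y 1 1 : ℤ) : ZMod M) := by
  rw [dUnit_cast, h, Matrix.mul_apply, Fin.sum_univ_two, Int.cast_add, Int.cast_mul, Int.cast_mul,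
    lowerLeft_cast hM (coe_mem_lvl γ).2, zero_mul, zero_add]

end Matrices

section AlMat

variable {N : ℕ} {W : Finset ℕ} (hW : IsALPrimes N W) {e : ℕ} (he : e ∈ W) {M : ℕ} (hM : M ∣ N)

include hW he in
lemma alMat_mem : alMat N e ∈ alSet N e := by
  have h := (alMat_spec hW he).1
  rwa [prodOf, Finset.prod_singleton, id] at h

include hW he hM in
/-- The chosen matrix is `diag(e, 1)` modulo `M`. -/
lemma alMat_cast (heM : e.Coprime M) :
    ((alMat N e 0 0 : ℤ) : ZMod M) = (e : ZMod M) ∧ ((alMat N e 1 1 : ℤ) : ZMod M) = 1 := by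
  obtain ⟨-, hNe, hen⟩ := alMat_spec hW he
  have hMn : M ∣ N / e := (Nat.Coprime.dvd_of_dvd_mul_right heM.symm (hNe.symm ▸ hM))
  refine ⟨by simp [alMat, wMat], ?_⟩
  have h := congrArg (Int.cast : ℤ → ZMod M) (al_spec (hW e he).1 hen)
  rw [Int.cast_sub, Int.cast_mul, Int.cast_mul, Int.cast_natCast, Int.cast_natCast, Int.cast_one,
    (ZMod.natCast_eq_zero_iff _ _).mpr hMn, zero_mul, sub_zero] at h
  simpa [alMat, wMat] using h

end AlMat

variable {O : Type uO} [CommRing O] {A : Type uA} [AddCommGroup A] [Module O A]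
  {N M : ℕ} {W : Finset ℕ} (hW : IsALPrimes N W) {e : ℕ} (he : e ∈ W) (hM : M ∣ N)
  (χ : (ZMod M)ˣ →* O)

/-- The character at level `N`. -/
noncomputable abbrev levelChar (hM : M ∣ N) (χ : (ZMod M)ˣ →* O) : (ZMod N)ˣ →* O :=
  χ.comp (ZMod.unitsMap hM)

lemma levelChar_dUnit (γ : Gamma0 N) (u : (ZMod M)ˣ)
    (h : ((ZMod.unitsMap hM (dUnit N γ) : (ZMod M)ˣ) : ZMod M) = (u : ZMod M)) :
    levelChar hM χ (dUnit N γ) = χ u := congrArg χ (Units.ext h)

lemma gammaRep_scalar (χ' : (ZMod N)ˣ →* O) (γ : Gamma0 N) (a : A) :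
    gammaRep (scalarRep χ' A) γ a = χ' (dUnit N γ) • a := rfl

variable (A) (heM : e.Coprime M) (c : O)

include hW he heM in
lemma alConj_char (γ : Gamma0 N) :
    levelChar hM χ (dUnit N (alConj hW he γ)) = levelChar hM χ (dUnit N γ) := by
  refine levelChar_dUnit hM χ _ (ZMod.unitsMap hM (dUnit N γ)) ?_
  have h := congrArg (Int.cast : ℤ → ZMod M) (congrFun (congrFun (alConj_spec hW he γ) 1) 1)
  simp only [Matrix.mul_apply, Fin.sum_univ_two, Int.cast_add, Int.cast_mul] at h
  rw [lowerLeft_cast hM (alMat_mem hW he).2.2.2, lowerLeft_cast hM (coe_mem_lvl _).2, zero_mul,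
    zero_add, zero_mul, zero_add, (alMat_cast hW he hM heM).2, one_mul, mul_one] at h
  rw [dUnit_cast, dUnit_cast]
  exact h.symm

/-- The data of the Atkin–Lehner operator at `e`, scaled by `c`. -/
noncomputable def alData : Data (toGL N) (toGL N) (gammaRep (scalarRep (levelChar hM χ) A))
    (gammaRep (scalarRep (levelChar hM χ) A)) {negOne N} {negOne N} Unit where
  α _ := matGL (alMat N e) (alMat_det_ne_zero hW he)
  ε _ := c • LinearMap.id
  exists_mul _ γ := ⟨(), alConj hW he γ,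
    (matGL_mul_toGL_iff _ _ _ _).mpr (alConj_spec hW he γ)⟩
  unique _ _ _ _ := rfl
  compat x y γ g hg := by
    obtain rfl : g = alConj hW he γ := toGL_injective (mul_right_cancel (hg.symm.trans
      ((matGL_mul_toGL_iff _ _ _ _).mpr (alConj_spec hW he γ))))
    refine LinearMap.ext fun a => ?_
    simp only [LinearMap.comp_apply, LinearMap.smul_apply, LinearMap.id_apply, gammaRep_scalar,
      alConj_char hW he hM χ heM γ]
    rw [smul_comm]
  triv x y k g hk hg := by
    rw [Set.mem_singleton_iff] at hk ⊢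
    subst hk
    have h := (matGL_mul_toGL_iff _ _ _ _).mp hg
    rw [show ((negOne N : SL(2, ℤ)) : Mat) = -1 by simp [negOne], mul_neg_one, ← neg_one_mul] at h
    refine Subtype.ext (Subtype.ext ?_)
    rw [show ((negOne N : SL(2, ℤ)) : Mat) = -1 by simp [negOne]]
    exact (mat_cancel_right (alMat_det_ne_zero hW he) h).symm

/-- The Atkin–Lehner operator at `e`, scaled by `c`. -/
noncomputable def alOp : Module.End O (Coh1 (scalarRep (levelChar hM χ) A)) :=
  (alData A hW he hM χ heM c).onH1 toGL_injective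

variable {A}

lemma alOp_toCoh (u : Cocycle (scalarRep (levelChar hM χ) A)) :
    alOp A hW he hM χ heM c (toCoh _ u)
      = toCoh _ ((alData A hW he hM χ heM c).onCocycles toGL_injective u) := rfl

/-- On cocycles: `c` times conjugation. -/
lemma alData_raw (u : Gamma0 N → A) (γ : Gamma0 N) :
    (alData A hW he hM χ heM c).raw u γ = c • u (alConj hW he γ) := by
  rw [Data.raw_apply, Fintype.sum_unique]
  show c • u _ = _
  rw [((alData A hW he hM χ heM c).spec_unique toGL_injective (x := default) (y := default)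
    (g := alConj hW he γ) ((matGL_mul_toGL_iff (alMat_det_ne_zero hW he)
      (alMat_det_ne_zero hW he) _ _).mpr (alConj_spec hW he γ))).2]

/-- `w² = 1` when `c² = χ(e)`. -/
theorem alOp_alOp (hc : c * c = χ (ZMod.unitOfCoprime e heM))
    (u : Coh1 (scalarRep (levelChar hM χ) A)) :
    alOp A hW he hM χ heM c (alOp A hW he hM χ heM c u) = u := by
  obtain ⟨-, hNe, hen⟩ := alMat_spec hW he
  obtain ⟨g, hg, hgg⟩ := exists_wMat_sq (hW e he).1 hen
  rw [hNe] at hg
  have hscal : (e : ℤ) • g = g * mm (e : ℤ) 0 0 e := by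
    conv_lhs => rw [mm_eta g, smul_mm]
    conv_rhs => rw [mm_eta g, mm_mul]
    rw [mm_inj]
    refine ⟨?_, ?_, ?_, ?_⟩ <;> ring
  have h := Data.comp_eq_card_smul toGL_injective toGL_injective (alData A hW he hM χ heM c)
    (alData A hW he hM χ heM c) (scalarGL_comm (hW e he).1.ne_zero) (fun _ => lvlElt hg)
    (fun _ => val_mul_eq (val_matGL _ (alMat_det_ne_zero hW he))
      (val_matGL _ (alMat_det_ne_zero hW he)) (val_toGL _)
      (val_matGL (mm (e : ℤ) 0 0 e) (by simp [(hW e he).1.ne_zero])) (hgg.trans hscal))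
    (fun _ => by
      refine LinearMap.ext fun a => ?_
      show c • c • gammaRep (scalarRep (levelChar hM χ) A) (lvlElt hg) a = a
      have hd : levelChar hM χ (dUnit N (lvlElt hg)) = χ (ZMod.unitOfCoprime e heM)⁻¹ := by
        refine levelChar_dUnit hM χ _ _ ?_
        rw [dUnit_cast]
        refine Units.eq_inv_of_mul_eq_one_left ?_
        have h11 := congrArg (Int.cast : ℤ → ZMod M) (congrFun (congrFun hgg 1) 1)
        change ((((alMat N e) * alMat N e) 1 1 : ℤ) : ZMod M) = _ at h11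
        rw [Matrix.mul_apply, Fin.sum_univ_two, Int.cast_add, Int.cast_mul, Int.cast_mul,
          lowerLeft_cast hM (alMat_mem hW he).2.2.2, zero_mul, zero_add,
          (alMat_cast hW he hM heM).2, mul_one, Matrix.smul_apply, smul_eq_mul, Int.cast_mul,
          Int.cast_natCast] at h11
        rw [ZMod.coe_unitOfCoprime]
        exact h11.symm
      rw [gammaRep_scalar, smul_smul, smul_smul, hd, hc, ← map_mul, mul_inv_cancel, map_one,
        one_smul]) u
  simp only [Fintype.card_prod, Fintype.card_unit, mul_one, Nat.cast_one, one_smul] at h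
  exact h

/-- Operators at two members commute. -/
theorem alOp_comm {e' : ℕ} (he' : e' ∈ W) (heM' : e'.Coprime M) (c' : O) (hne : e ≠ e')
    (u : Coh1 (scalarRep (levelChar hM χ) A)) :
    alOp A hW he hM χ heM c (alOp A hW he' hM χ heM' c' u)
      = alOp A hW he' hM χ heM' c' (alOp A hW he hM χ heM c u) := by
  have hdvd : 1 * e' * e ∣ N := by
    rw [one_mul]
    exact ((Nat.coprime_primes (hW e' he').1 (hW e he).1).mpr hne.symm).mul_dvd_of_dvd_of_dvd
      (hW e' he').2.1 (hW e he).2.1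
  obtain ⟨X, hX, eX⟩ := exists_alSet_mul hdvd one_ne_zero (by simpa using alMat_mem hW he')
    (by simpa using alMat_mem hW he)
  obtain ⟨Y, hY, eY⟩ := exists_alSet_mul (N := N) (g := 1) (a := e) (b := e')
    (by rwa [mul_right_comm] at hdvd) one_ne_zero (by simpa using alMat_mem hW he) (by simpa using alMat_mem hW he')
  rw [Nat.cast_one, one_smul] at eX eY
  rw [mul_comm e e'] at hY
  have hff : e' * e ≠ 0 := mul_ne_zero (hW e' he').1.ne_zero (hW e he).1.ne_zero
  obtain ⟨γ, hγ⟩ := exists_eq_mul_alSet (by simpa using hdvd) hff hX hY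
  refine Data.comp_eq_comp toGL_injective toGL_injective toGL_injective
    (alData A hW he' hM χ heM' c') (alData A hW he hM χ heM c) (alData A hW he hM χ heM c)
    (alData A hW he' hM χ heM' c') (Equiv.refl _) (fun _ => γ) (fun _ => ?_) (fun _ => ?_) u
  · refine Units.ext ?_
    show (matGL (alMat N e') (alMat_det_ne_zero hW he')).val *
        (matGL (alMat N e) (alMat_det_ne_zero hW he)).val
      = (toGL N γ).val * ((matGL (alMat N e) (alMat_det_ne_zero hW he)).val *
        (matGL (alMat N e') (alMat_det_ne_zero hW he')).val)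
    rw [val_matGL, val_matGL, val_toGL, ← Matrix.map_mul_intCast, ← Matrix.map_mul_intCast,
      ← Matrix.map_mul_intCast, eX, eY, hγ]
  · have h11 : ((X 1 1 : ℤ) : ZMod M) = 1 ∧ ((Y 1 1 : ℤ) : ZMod M) = 1 := by
      constructor
      · rw [← eX, Matrix.mul_apply, Fin.sum_univ_two, Int.cast_add, Int.cast_mul, Int.cast_mul,
          lowerLeft_cast hM (alMat_mem hW he').2.2.2, zero_mul, zero_add,
          (alMat_cast hW he hM heM).2, (alMat_cast hW he' hM heM').2, mul_one]
      · rw [← eY, Matrix.mul_apply, Fin.sum_univ_two, Int.cast_add, Int.cast_mul, Int.cast_mul,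
          lowerLeft_cast hM (alMat_mem hW he).2.2.2, zero_mul, zero_add,
          (alMat_cast hW he hM heM).2, (alMat_cast hW he' hM heM').2, mul_one]
    have hd := cast_lowerRight hM γ hγ
    rw [h11.1, h11.2, mul_one] at hd
    refine LinearMap.ext fun a => ?_
    show c • c' • gammaRep (scalarRep (levelChar hM χ) A) γ a = c' • c • a
    rw [gammaRep_scalar, levelChar_dUnit hM χ γ 1 (by rw [Units.val_one]; exact hd.symm), map_one,
      one_smul, smul_comm]

section Hecke

variable {ℓ : ℕ} [hℓ : Fact ℓ.Prime]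

/-- Atkin–Lehner operators commute with `T_ℓ`, `ℓ ∤ N`. -/
theorem alOp_heckeOp (hℓN : ¬ ℓ ∣ N) (u : Coh1 (scalarRep (levelChar hM χ) A)) :
    alOp A hW he hM χ heM c (heckeOp _ ℓ u) = heckeOp _ ℓ (alOp A hW he hM χ heM c u) := by
  have : NeZero ℓ := ⟨hℓ.out.ne_zero⟩
  have heN := (hW e he).2.1
  have he0 := (hW e he).1.ne_zero
  have hcop : ¬ ℓ ∣ e := fun h => hℓN (h.trans heN)
  have hm := alMat_mem hW he
  have key : ∀ i : Option (Fin ℓ), ∃ (j : Option (Fin ℓ)) (γ : Gamma0 N),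
      heckMat ℓ i * alMat N e = ((γ : SL(2, ℤ)) : Mat) * (alMat N e * heckMat ℓ j) := by
    intro i
    have hprod : heckMat ℓ i * alMat N e ∈ DetLevel N ((e : ℤ) * ℓ) := by
      refine ⟨by rw [Matrix.det_mul, det_heckMat, hm.1, mul_comm], ?_⟩
      cases i <;> simp [heckMat, Matrix.mul_apply, Fin.sum_univ_two] <;>
        first | exact hm.2.2.2 | exact hm.2.2.2.mul_left _
    obtain ⟨j, y, hy, ey⟩ := (fact_heckMat (N := N) hℓ.out hℓN (r := (e : ℤ))
      (by exact_mod_cast hcop)).fact _ hprod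
    have hps : IsCoprime (e : ℤ) (ℓ : ℤ) :=
      Int.isCoprime_iff_nat_coprime.mpr (by
        simpa using ((Nat.Prime.coprime_iff_not_dvd hℓ.out).mpr hcop).symm)
    have hN : (e : ℤ) ∣ (N : ℤ) := Int.natCast_dvd_natCast.mpr heN
    have hy' : y ∈ alSet N e := by
      refine ⟨hy.1, ?_, ?_, hy.2⟩
      · have h00 := congrFun (congrFun ey 0) 0
        simp only [Matrix.mul_apply, Fin.sum_univ_two] at h00
        have hd : (e : ℤ) ∣ heckMat ℓ i 0 0 * alMat N e 0 0 + heckMat ℓ i 0 1 * alMat N e 1 0 :=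
          dvd_add (hm.2.1.mul_left _) ((hN.trans hm.2.2.2).mul_left _)
        rw [h00] at hd
        cases j with
        | none =>
          simp only [heckMat, mm_zero_zero, mm_one_zero, mul_zero, add_zero] at hd
          exact hps.dvd_of_dvd_mul_right hd
        | some j => simpa [heckMat] using hd
      · have h11 := congrFun (congrFun ey 1) 1
        simp only [Matrix.mul_apply, Fin.sum_univ_two] at h11
        have hd : (e : ℤ) ∣ heckMat ℓ i 1 0 * alMat N e 0 1 + heckMat ℓ i 1 1 * alMat N e 1 1 := by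
          cases i <;> simp [heckMat] <;> first | exact hm.2.2.1 | exact hm.2.2.1.mul_left _
        rw [h11] at hd
        cases j with
        | none => simpa [heckMat] using hd
        | some j =>
          simp only [heckMat, mm_zero_one, mm_one_one] at hd
          exact hps.dvd_of_dvd_mul_right ((Int.dvd_add_right ((hN.trans hy.2).mul_right _)).mp hd)
    obtain ⟨γ, hγ⟩ := exists_eq_mul_alSet heN he0 hy' hm
    exact ⟨j, γ, by rw [ey, hγ, mul_assoc]⟩
  choose σ γ hσ using key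
  have hσi : Function.Injective σ := by
    intro i i' h
    have e1 := hσ i
    have e2 := hσ i'
    rw [h] at e1
    have h3 : (((γ i' : SL(2, ℤ)) : Mat) * ((γ i : SL(2, ℤ)) : Mat).adjugate) * heckMat ℓ i
        = heckMat ℓ i' := by
      refine mat_cancel_right (alMat_det_ne_zero hW he) ?_
      rw [mul_assoc, e1, e2, ← mul_assoc (((γ i' : SL(2, ℤ)) : Mat) *
          ((γ i : SL(2, ℤ)) : Mat).adjugate), mul_assoc ((γ i' : SL(2, ℤ)) : Mat),
        adjugate_mul_lvl (coe_mem_lvl (γ i)), mul_one]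
    exact (fact_heckMat_one hℓ.out hℓN).unique
      (lvl_mul (coe_mem_lvl _) (adjugate_mem_detLevel (coe_mem_lvl _))) (one_mem_lvl N)
      (h3.trans (one_mul _).symm)
  let τ : Option (Fin ℓ) ≃ Option (Fin ℓ) :=
    Equiv.ofBijective σ ⟨hσi, (Finite.injective_iff_surjective).mp hσi⟩
  let E : Idx N ℓ × Unit ≃ Unit × Idx N ℓ :=
    (Equiv.prodComm _ _).trans ((Equiv.refl Unit).prodCongr
      ((idxEquiv hℓN).symm.trans (τ.trans (idxEquiv hℓN))))
  refine Data.comp_eq_comp toGL_injective toGL_injective toGL_injective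
    (heckeData _ ℓ) (alData A hW he hM χ heM c) (alData A hW he hM χ heM c) (heckeData _ ℓ) E
    (fun p => γ ((idxEquiv hℓN).symm p.1)) ?_ ?_ u
  · rintro ⟨x, ⟨⟩⟩
    obtain ⟨i, rfl⟩ := (idxEquiv (N := N) hℓN).surjective x
    refine Units.ext ?_
    show (rep (idxEquiv hℓN i) : GL (Fin 2) ℝ).val *
        (matGL (alMat N e) (alMat_det_ne_zero hW he)).val
      = (toGL N (γ ((idxEquiv hℓN).symm (idxEquiv hℓN i)))).val *
        ((matGL (alMat N e) (alMat_det_ne_zero hW he)).val *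
          (rep (idxEquiv hℓN (σ ((idxEquiv hℓN).symm (idxEquiv hℓN i)))) : GL (Fin 2) ℝ).val)
    rw [Equiv.symm_apply_apply, val_matGL, val_toGL, rep_idxEquiv, rep_idxEquiv,
      ← Matrix.map_mul_intCast, ← Matrix.map_mul_intCast, ← Matrix.map_mul_intCast, hσ i]
  · rintro ⟨x, ⟨⟩⟩
    obtain ⟨i, rfl⟩ := (idxEquiv (N := N) hℓN).surjective x
    refine LinearMap.ext fun a => ?_
    show c • (levelChar hM χ (aUnit (idxEquiv hℓN i)) •
        (levelChar hM χ (dUnit N (γ ((idxEquiv hℓN).symm (idxEquiv hℓN i)))) • a))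
      = levelChar hM χ (aUnit (idxEquiv hℓN (σ ((idxEquiv hℓN).symm (idxEquiv hℓN i))))) • (c • a)
    rw [Equiv.symm_apply_apply, smul_smul (levelChar hM χ _) (levelChar hM χ _), ← map_mul,
      smul_comm]
    congr 1
    refine congrArg χ (Units.ext ?_)
    obtain ⟨ha1, ha2⟩ := coe_aUnit_idxEquiv hℓN i
    obtain ⟨hb1, hb2⟩ := coe_aUnit_idxEquiv hℓN (σ i)
    have h := congrArg (Int.cast : ℤ → ZMod M) (congrFun (congrFun (hσ i) 0) 0)
    simp only [Matrix.mul_apply, Fin.sum_univ_two, Int.cast_add, Int.cast_mul, hb2,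
      mul_zero, add_zero] at h
    rw [lowerLeft_cast hM hm.2.2.2, (alMat_cast hW he hM heM).1, mul_zero, zero_mul, mul_zero,
      add_zero, add_zero] at h
    have hg := congrArg (ZMod.castHom hM (ZMod M)) (gamma0_diag (γ i))
    rw [map_mul, map_one, map_intCast] at hg
    simp only [ZMod.unitsMap_def, Units.coe_map, Units.val_mul, MonoidHom.coe_coe, ha1, hb1,
      map_intCast, map_mul]
    refine (ZMod.unitOfCoprime e heM).isUnit.mul_left_injective ?_
    simp only [ZMod.coe_unitOfCoprime]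
    linear_combination (ZMod.castHom hM (ZMod M) ((dUnit N (γ i) : (ZMod N)ˣ) : ZMod N)) * h +
      ((heckMat ℓ (σ i) 0 0 : ℤ) : ZMod M) * (e : ZMod M) * hg

/-- The representatives of `U_ℓ`, `ℓ ∣ N`. -/
lemma exists_finEquiv (hℓN : ℓ ∣ N) :
    ∃ E : Fin ℓ ≃ Idx N ℓ, ∀ j, ((rep (E j) : GL (Fin 2) ℝ) : Matrix (Fin 2) (Fin 2) ℝ)
      = (heckMat ℓ (some j)).map (Int.cast : ℤ → ℝ) ∧ aUnit (E j) = 1 := by
  have : NeZero ℓ := ⟨hℓ.out.ne_zero⟩
  let f : Fin ℓ → Idx N ℓ := fun j =>
    ⟨(((j : ℕ) : ZMod ℓ) : OnePoint (ZMod ℓ)), fun _ => OnePoint.coe_ne_infty _⟩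
  have hf : Function.Bijective f := by
    refine ⟨fun i j h => Fin.ext ?_, fun x => ?_⟩
    · have h1 := congrArg ZMod.val (OnePoint.coe_injective (congrArg Subtype.val h))
      rwa [ZMod.val_cast_of_lt i.2, ZMod.val_cast_of_lt j.2] at h1
    · obtain ⟨z, hz⟩ := OnePoint.ne_infty_iff_exists.mp (x.2 hℓN)
      exact ⟨⟨z.val, z.val_lt⟩, Subtype.ext (by simp [f, hz])⟩
  refine ⟨Equiv.ofBijective f hf, fun j => ⟨?_, ?_⟩⟩
  · obtain ⟨z, hz, hx⟩ | ⟨hx, -, -⟩ := rep_cases (f j)
    · unfold IsTri at hx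
      have hz' : z.val = (j : ℕ) := by
        rw [← OnePoint.coe_injective hz, ZMod.val_cast_of_lt j.2]
      show (rep (f j) : Matrix (Fin 2) (Fin 2) ℝ) = _
      rw [hx, hz']
      ext a b
      fin_cases a <;> fin_cases b <;> simp [heckMat]
    · exact absurd hx (OnePoint.coe_ne_infty _)
  · rw [aUnit, dif_neg]
    exact OnePoint.coe_ne_infty _

/-- Atkin–Lehner operators commute with `U_ℓ`, `ℓ ∣ N`, `ℓ ≠ e`. -/
theorem alOp_heckeOp_dvd (hℓN : ℓ ∣ N) (hℓe : ℓ ≠ e)
    (u : Coh1 (scalarRep (levelChar hM χ) A)) :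
    alOp A hW he hM χ heM c (heckeOp _ ℓ u) = heckeOp _ ℓ (alOp A hW he hM χ heM c u) := by
  have : NeZero ℓ := ⟨hℓ.out.ne_zero⟩
  have hm := alMat_mem hW he
  have hℓ' := Nat.prime_iff_prime_int.mp hℓ.out
  have hcop : ¬ (ℓ : ℤ) ∣ (e : ℤ) := by
    exact_mod_cast fun h => hℓe ((Nat.prime_dvd_prime_iff_eq hℓ.out (hW e he).1).mp h)
  have hN : (ℓ : ℤ) ∣ (N : ℤ) := Int.natCast_dvd_natCast.mpr hℓN
  have hX := hm.1
  rw [Matrix.det_fin_two] at hX
  have h00 : ¬ (ℓ : ℤ) ∣ alMat N e 0 0 := fun h => hcop (by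
    rw [← hX]; exact dvd_sub (h.mul_right _) ((hN.trans hm.2.2.2).mul_left _))
  have key : ∀ j : Fin ℓ, ∃ (j' : Fin ℓ) (γ : Gamma0 N), heckMat ℓ (some j) * alMat N e
      = ((γ : SL(2, ℤ)) : Mat) * (alMat N e * heckMat ℓ (some j')) := by
    intro j
    have hj : ¬ (ℓ : ℤ) ∣ alMat N e 0 0 + (j : ℕ) * alMat N e 1 0 := fun h =>
      h00 ((Int.dvd_add_left ((hN.trans hm.2.2.2).mul_left _)).mp h)
    obtain ⟨j', u', hu'⟩ := exists_fin_dvd hℓ.out hj
      (alMat N e 0 1 + (j : ℕ) * alMat N e 1 1)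
    have hy : mm (alMat N e 0 0 + (j : ℕ) * alMat N e 1 0) u' ((ℓ : ℤ) * alMat N e 1 0)
        (alMat N e 1 1 - (j' : ℕ) * alMat N e 1 0) ∈ alSet N e := by
      refine ⟨?_, ?_, ?_, ?_⟩
      · rw [mm_det]
        linear_combination hX + (alMat N e 1 0) * hu'
      · simpa using dvd_add hm.2.1 (((Int.natCast_dvd_natCast.mpr (hW e he).2.1).trans
          hm.2.2.2).mul_left _)
      · simpa using dvd_sub hm.2.2.1 (((Int.natCast_dvd_natCast.mpr (hW e he).2.1).trans
          hm.2.2.2).mul_left _)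
      · simpa using hm.2.2.2.mul_left _
    obtain ⟨γ, hγ⟩ := exists_eq_mul_alSet (hW e he).2.1 (hW e he).1.ne_zero hy hm
    refine ⟨j', γ, ?_⟩
    rw [← mul_assoc, ← hγ]
    conv_lhs => rw [mm_eta (alMat N e)]
    simp only [heckMat, mm_mul, mm_inj]
    refine ⟨by ring, ?_, by ring, by ring⟩
    linear_combination hu'
  choose σ γ hσ using key
  have hσi : Function.Injective σ := by
    intro i i' h
    have e1 := hσ i
    have e2 := hσ i'
    rw [h] at e1
    have h3 : (((γ i' : SL(2, ℤ)) : Mat) * ((γ i : SL(2, ℤ)) : Mat).adjugate) *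
        heckMat ℓ (some i) = heckMat ℓ (some i') := by
      refine mat_cancel_right (alMat_det_ne_zero hW he) ?_
      rw [mul_assoc, e1, e2, ← mul_assoc (((γ i' : SL(2, ℤ)) : Mat) *
          ((γ i : SL(2, ℤ)) : Mat).adjugate), mul_assoc ((γ i' : SL(2, ℤ)) : Mat),
        adjugate_mul_lvl (coe_mem_lvl (γ i)), mul_one]
    generalize hy : (((γ i' : SL(2, ℤ)) : Mat) * ((γ i : SL(2, ℤ)) : Mat).adjugate) = y at h3
    have h01 := congrFun (congrFun h3 0) 1
    have h00' := congrFun (congrFun h3 0) 0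
    simp only [Matrix.mul_apply, Fin.sum_univ_two, heckMat, mm_zero_zero, mm_zero_one, mm_one_zero,
      mm_one_one, mul_zero, add_zero, mul_one] at h01 h00'
    rw [h00', one_mul] at h01
    exact fin_eq_of_dvd ⟨-y 0 1, by linear_combination h01⟩
  let τ : Fin ℓ ≃ Fin ℓ :=
    Equiv.ofBijective σ ⟨hσi, (Finite.injective_iff_surjective).mp hσi⟩
  obtain ⟨F, hF⟩ := exists_finEquiv (N := N) hℓN
  let E : Idx N ℓ × Unit ≃ Unit × Idx N ℓ :=
    (Equiv.prodComm _ _).trans ((Equiv.refl Unit).prodCongr (F.symm.trans (τ.trans F)))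
  refine Data.comp_eq_comp toGL_injective toGL_injective toGL_injective
    (heckeData _ ℓ) (alData A hW he hM χ heM c) (alData A hW he hM χ heM c) (heckeData _ ℓ) E
    (fun p => γ (F.symm p.1)) ?_ ?_ u
  · rintro ⟨x, ⟨⟩⟩
    obtain ⟨i, rfl⟩ := F.surjective x
    refine Units.ext ?_
    show (rep (F i) : GL (Fin 2) ℝ).val * (matGL (alMat N e) (alMat_det_ne_zero hW he)).val
      = (toGL N (γ (F.symm (F i)))).val * ((matGL (alMat N e) (alMat_det_ne_zero hW he)).val *
          (rep (F (σ (F.symm (F i)))) : GL (Fin 2) ℝ).val)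
    rw [Equiv.symm_apply_apply, val_matGL, val_toGL, (hF i).1, (hF (σ i)).1,
      ← Matrix.map_mul_intCast, ← Matrix.map_mul_intCast, ← Matrix.map_mul_intCast, hσ i]
  · rintro ⟨x, ⟨⟩⟩
    obtain ⟨i, rfl⟩ := F.surjective x
    refine LinearMap.ext fun a => ?_
    show c • (levelChar hM χ (aUnit (F i)) • (levelChar hM χ (dUnit N (γ (F.symm (F i)))) • a))
      = levelChar hM χ (aUnit (F (σ (F.symm (F i))))) • (c • a)
    rw [Equiv.symm_apply_apply, (hF i).2, (hF (σ i)).2, map_one, one_smul, one_smul]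
    have hd : levelChar hM χ (dUnit N (γ i)) = χ 1 := by
      refine levelChar_dUnit hM χ _ _ ?_
      have h := congrArg (Int.cast : ℤ → ZMod M) (congrFun (congrFun (hσ i) 0) 0)
      simp only [Matrix.mul_apply, Fin.sum_univ_two, heckMat, mm_zero_zero, mm_one_zero, mul_zero,
        add_zero, one_mul, mul_one, Int.cast_add, Int.cast_mul] at h
      rw [lowerLeft_cast hM hm.2.2.2, mul_zero, mul_zero, add_zero, add_zero,
        (alMat_cast hW he hM heM).1] at h
      have hg := congrArg (ZMod.castHom hM (ZMod M)) (gamma0_diag (γ i))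
      rw [map_mul, map_one, map_intCast] at hg
      rw [ZMod.unitsMap_def, Units.coe_map, MonoidHom.coe_coe, Units.val_one]
      refine (ZMod.unitOfCoprime e heM).isUnit.mul_left_injective ?_
      simp only [ZMod.coe_unitOfCoprime]
      linear_combination (ZMod.castHom hM (ZMod M) ((dUnit N (γ i) : (ZMod N)ˣ) : ZMod N)) * h +
        (e : ZMod M) * hg
    rw [hd, map_one, one_smul]

end Hecke

end Fermat.Agent.TwoAdic
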