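import Fermat.Agent.HeckeModule.LevelFree
import Mathlib.RingTheory.LocalRing.Module

/-!
Lifting of "kernel of `1 + w` equals image of `1 + w`" from the residue field: common fixed points
of commuting involutions of a finite free module over a local ring are a direct summand commuting
with base change, and consist of norms.
-/

set_option autoImplicit false

open IsLocalRing

universe uR uM uι uM'

namespace Fermat.Agent.TwoAdic

variable {R : Type uR} [CommRing R]

lemma map_mem_smul_top {M : Type uM} [AddCommGroup M] [Module R M] {M' : Type uM'}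
    [AddCommGroup M'] [Module R M'] (f : M →ₗ[R] M') (J : Ideal R) {x : M}
    (hx : x ∈ J • (⊤ : Submodule R M)) : f x ∈ J • (⊤ : Submodule R M') := by
  have := Submodule.mem_map_of_mem (f := f) hx
  rw [Submodule.map_smul''] at this
  exact Submodule.smul_mono le_rfl le_top this

variable {M : Type uM} [AddCommGroup M] [Module R M]

section One

variable [IsLocalRing R] [Module.Finite R M] [Module.Free R M]

/-- One involution: the module is two copies of a free submodule, exchanged by the involution. -/
theorem exists_split_involution (w : Module.End R M) (hw : ∀ x, w (w x) = x)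
    (h2 : (2 : R) ∈ maximalIdeal R)
    (hres : ∀ x, w x - x ∈ maximalIdeal R • (⊤ : Submodule R M) →
      ∃ v, x - (v + w v) ∈ maximalIdeal R • (⊤ : Submodule R M)) :
    ∃ (d : ℕ) (y : (Fin d → R) →ₗ[R] M),
      Function.Bijective (y.coprod (w ∘ₗ y) : ((Fin d → R) × (Fin d → R)) →ₗ[R] M) := by
  classical
  let : Field (R ⧸ maximalIdeal R) := Ideal.Quotient.field _
  set mM := maximalIdeal R • (⊤ : Submodule R M) with hmM
  let k := R ⧸ maximalIdeal R
  let V := M ⧸ mM
  have : Module.Finite k V := Module.Finite.of_restrictScalars_finite R k V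
  let wb : V →ₗ[k] V := LinearMap.extendScalarsOfSurjective Ideal.Quotient.mk_surjective
    (mM.mapQ mM w fun x hx => map_mem_smul_top w _ hx)
  have hwb : ∀ x : M, wb (Submodule.Quotient.mk x) = Submodule.Quotient.mk (w x) := fun _ => rfl
  have hwwb : ∀ v : V, wb (wb v) = v := fun v => by
    obtain ⟨x, rfl⟩ := mM.mkQ_surjective v
    exact congrArg Submodule.Quotient.mk (hw x)
  have hneg : ∀ v : V, v + v = 0 := fun v => by
    obtain ⟨x, rfl⟩ := mM.mkQ_surjective v
    rw [Submodule.mkQ_apply, ← Submodule.Quotient.mk_add, Submodule.Quotient.mk_eq_zero,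
      ← two_smul R x]
    exact Submodule.smul_mem_smul h2 Submodule.mem_top
  let nb : V →ₗ[k] V := LinearMap.id + wb
  have hnn : ∀ v, nb (nb v) = 0 := fun v => by
    show (v + wb v) + wb (v + wb v) = 0
    rw [map_add, hwwb, add_comm (wb v) v]
    exact hneg _
  have hker : ∀ v, nb v = 0 → ∃ u, nb u = v := fun v hv => by
    obtain ⟨x, rfl⟩ := mM.mkQ_surjective v
    have hx : w x - x ∈ mM := by
      rw [← Submodule.Quotient.mk_eq_zero (p := mM), Submodule.Quotient.mk_sub, ← hwb]
      have hv' : Submodule.Quotient.mk x + wb (Submodule.Quotient.mk x) = 0 := hv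
      rw [eq_neg_of_add_eq_zero_right hv', sub_eq_zero, neg_eq_iff_add_eq_zero]
      exact hneg _
    obtain ⟨u, hu⟩ := hres x hx
    exact ⟨Submodule.Quotient.mk u, ((Submodule.Quotient.eq _).mpr hu).symm⟩
  obtain ⟨C, hC⟩ := exists_isCompl (LinearMap.ker nb)
  let b := Module.finBasis k C
  choose lift hlift using fun i => mM.mkQ_surjective ((b i : C) : V)
  let y : (Fin (Module.finrank k C) → R) →ₗ[R] M := Fintype.linearCombination R lift
  let red : (Fin (Module.finrank k C) → R) → C := fun a =>
    ∑ i, Ideal.Quotient.mk (maximalIdeal R) (a i) • b i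
  have hy : ∀ a, Submodule.Quotient.mk (y a) = ((red a : C) : V) := fun a => by
    show mM.mkQ (Fintype.linearCombination R lift a) = _
    rw [Fintype.linearCombination_apply, map_sum, Submodule.coe_sum]
    refine Finset.sum_congr rfl fun i _ => ?_
    rw [map_smul, hlift, Submodule.coe_smul]
    rfl
  have hred0 : ∀ a, red a = 0 →
      a ∈ maximalIdeal R • (⊤ : Submodule R (Fin (Module.finrank k C) → R)) := by
    intro a ha
    have h0 := Fintype.linearIndependent_iff.mp b.linearIndependent _ ha
    rw [pi_eq_sum_univ' a]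
    exact sum_mem fun i _ =>
      Submodule.smul_mem_smul (Ideal.Quotient.eq_zero_iff_mem.mp (h0 i)) Submodule.mem_top
  set L := (y.coprod (w ∘ₗ y) :
    ((Fin (Module.finrank k C) → R) × (Fin (Module.finrank k C) → R)) →ₗ[R] M)
  have hL : ∀ a a', L (a, a') = y a + w (y a') := fun _ _ => rfl
  refine ⟨_, y, ?_, ?_⟩
  · obtain ⟨left, hleft⟩ := HeckeModule.exists_leftInverse_of_mod L (fun z hz => by
      obtain ⟨a, a'⟩ := z
      have h0 : ((red a : C) : V) + wb ((red a' : C) : V) = 0 := by
        rw [← hy, ← hy, hwb, ← Submodule.Quotient.mk_add, Submodule.Quotient.mk_eq_zero]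
        exact hz
      have h1 : ((red a + red a' : C) : V) ∈ LinearMap.ker nb := by
        have e : ((red a + red a' : C) : V) = nb ((red a' : C) : V) := by
          show _ = ((red a' : C) : V) + wb ((red a' : C) : V)
          rw [Submodule.coe_add, eq_neg_of_add_eq_zero_left h0, add_comm _ ((red a' : C) : V)]
          congr 1
          rw [neg_eq_iff_add_eq_zero]
          exact hneg _
        rw [LinearMap.mem_ker, e, hnn]
      have h2' : ((red a + red a' : C) : V) = 0 :=
        (Submodule.disjoint_def.mp hC.disjoint) _ h1 (red a + red a' : C).2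
      have h3 : nb ((red a' : C) : V) = 0 := by
        show ((red a' : C) : V) + wb ((red a' : C) : V) = 0
        rw [Submodule.coe_add] at h2'
        have e : ((red a : C) : V) = ((red a' : C) : V) :=
          (eq_neg_of_add_eq_zero_left h2').trans (neg_eq_iff_add_eq_zero.mpr (hneg _))
        rwa [e] at h0
      have h4 : red a' = 0 :=
        Subtype.ext ((Submodule.disjoint_def.mp hC.disjoint) _ (LinearMap.mem_ker.mpr h3)
          (red a').2)
      have h5 : red a = 0 := Subtype.ext (by simpa [h4] using h2')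
      rw [show (a, a') = LinearMap.inl R _ (Fin (Module.finrank k C) → R) a
        + LinearMap.inr R (Fin (Module.finrank k C) → R) _ a' by simp]
      exact add_mem (map_mem_smul_top _ _ (hred0 a h5)) (map_mem_smul_top _ _ (hred0 a' h4)))
    exact Function.LeftInverse.injective (g := left) fun z => LinearMap.congr_fun hleft z
  · refine HeckeModule.surjective_of_mod L fun x => ?_
    obtain ⟨z, hz, c, hc, hzc⟩ := Submodule.mem_sup.mp
      (hC.sup_eq_top ▸ (Submodule.mem_top : (Submodule.Quotient.mk x : V) ∈ ⊤))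
    obtain ⟨u, rfl⟩ := hker z hz
    obtain ⟨z', hz', c', hc', rfl⟩ := Submodule.mem_sup.mp
      (hC.sup_eq_top ▸ (Submodule.mem_top : u ∈ ⊤))
    rw [LinearMap.mem_ker] at hz'
    rw [map_add, hz', zero_add] at hzc
    have hsurj : ∀ d : C, ∃ a, red a = d := fun d => by
      choose r hr using fun i => Ideal.Quotient.mk_surjective (b.repr d i)
      refine ⟨r, ?_⟩
      show ∑ i, Ideal.Quotient.mk (maximalIdeal R) (r i) • b i = d
      simp only [hr]
      exact b.sum_repr d
    obtain ⟨a, ha⟩ := hsurj (⟨c, hc⟩ + ⟨c', hc'⟩)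
    obtain ⟨a', ha'⟩ := hsurj ⟨c', hc'⟩
    refine ⟨(a, a'), ?_⟩
    rw [← Submodule.Quotient.eq, hL, Submodule.Quotient.mk_add, ← hwb, hy, hy, ha, ha', ← hzc]
    show c + c' + wb c' = c' + wb c' + c
    abel

end One

section Family

variable {ι : Type uι} (w : ι → Module.End R M)

/-- The common fixed points of the members of `V`. -/
def fixedPart (V : Finset ι) : Submodule R M := ⨅ e ∈ V, LinearMap.ker (w e - 1)

lemma mem_fixedPart {V : Finset ι} {x : M} : x ∈ fixedPart w V ↔ ∀ e ∈ V, w e x = x := by
  simp only [fixedPart, Submodule.mem_iInf, LinearMap.mem_ker, LinearMap.sub_apply,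
    Module.End.one_apply, sub_eq_zero]

lemma fixedPart_mono {V V' : Finset ι} (h : V ⊆ V') : fixedPart w V' ≤ fixedPart w V :=
  fun _ hx => (mem_fixedPart w).mpr fun e he => (mem_fixedPart w).mp hx e (h he)

/-- Every residual class fixed by a subfamily is a norm for each of its members. -/
def IsResiduallyExact [IsLocalRing R] (W : Finset ι) : Prop :=
  ∀ V ⊆ W, ∀ e ∈ V, ∀ x : M,
    (∀ e' ∈ V, w e' x - x ∈ maximalIdeal R • (⊤ : Submodule R M)) →
      ∃ v : M, (∀ e' ∈ V, e' ≠ e → w e' v - v ∈ maximalIdeal R • (⊤ : Submodule R M)) ∧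
        x - (v + w e v) ∈ maximalIdeal R • (⊤ : Submodule R M)

variable [IsLocalRing R] [Module.Finite R M] [Module.Free R M] {W : Finset ι}
  (hw : ∀ e ∈ W, ∀ x, w e (w e x) = x)
  (hcomm : ∀ e ∈ W, ∀ e' ∈ W, ∀ x, w e (w e' x) = w e' (w e x))
  (h2 : (2 : R) ∈ maximalIdeal R) (hres : IsResiduallyExact w W)

include hw hcomm h2 hres

/-- The common fixed points form a direct summand, commute with base change, and consist of
norms. -/
theorem fixedPart_spec (V : Finset ι) (hV : V ⊆ W) :
    (∃ r : M →ₗ[R] fixedPart w V, ∀ x : fixedPart w V, r x = x) ∧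
      (∀ (J : Ideal R) (x : M), (∀ e ∈ V, w e x - x ∈ J • (⊤ : Submodule R M)) →
        ∃ y ∈ fixedPart w V, x - y ∈ J • (⊤ : Submodule R M)) ∧
      ∀ e ∈ V, ∀ x ∈ fixedPart w V, ∀ V' ⊆ V, e ∉ V' → ∃ y ∈ fixedPart w V', x = y + w e y := by
  classical
  induction V using Finset.strongInduction with
  | _ V ih =>
    rcases V.eq_empty_or_nonempty with rfl | ⟨e0, he0⟩
    · refine ⟨⟨LinearMap.id.codRestrict _ fun x => (mem_fixedPart w).mpr fun e he =>
          absurd he (Finset.notMem_empty e), fun x => Subtype.ext rfl⟩,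
        fun J x _ => ⟨x, (mem_fixedPart w).mpr fun e he => absurd he (Finset.notMem_empty e),
          by rw [sub_self]; exact zero_mem _⟩, fun e he => absurd he (Finset.notMem_empty e)⟩
    -- the step from `V.erase e` to `V`
    have step : ∀ e ∈ V, (∃ r : M →ₗ[R] fixedPart w V, ∀ x : fixedPart w V, r x = x) ∧
        (∀ (J : Ideal R) (x : M), (∀ e ∈ V, w e x - x ∈ J • (⊤ : Submodule R M)) →
          ∃ y ∈ fixedPart w V, x - y ∈ J • (⊤ : Submodule R M)) ∧
        ∀ x ∈ fixedPart w V, ∃ y ∈ fixedPart w (V.erase e), x = y + w e y := by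
      intro e he
      set V' := V.erase e
      have hV' : V' ⊆ W := (Finset.erase_subset e V).trans hV
      set F := fixedPart w V' with hF
      obtain ⟨⟨r, hr⟩, hlift, -⟩ := ih V' (Finset.erase_ssubset he) hV'
      have hFe : ∀ x ∈ F, w e x ∈ F := fun x hx => (mem_fixedPart w).mpr fun e' he' => by
        rw [← hcomm e (hV he) e' (hV' he'), (mem_fixedPart w).mp hx e' he']
      let we : Module.End R F := (w e).restrict hFe
      have hwe : ∀ x : F, ((we x : F) : M) = w e x := fun _ => rfl
      have hwwe : ∀ x : F, we (we x) = x := fun x => Subtype.ext (hw e (hV he) x)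
      have : Module.Finite R F := Module.Finite.of_surjective r fun x => ⟨x, hr x⟩
      have : Module.Projective R F :=
        Module.Projective.of_split F.subtype r (LinearMap.ext hr)
      have : Module.Free R F := Module.free_of_flat_of_isLocalRing
      have hred : ∀ (J : Ideal R) (x : F), (x : M) ∈ J • (⊤ : Submodule R M) →
          x ∈ J • (⊤ : Submodule R F) := fun J x hx => by
        rw [← hr x]; exact map_mem_smul_top r J hx
      have hresF : ∀ x : F, we x - x ∈ maximalIdeal R • (⊤ : Submodule R F) →
          ∃ v, x - (v + we v) ∈ maximalIdeal R • (⊤ : Submodule R F) := fun x hx => by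
        obtain ⟨v, hv, hxv⟩ := hres V hV e he x fun e' he' => by
          by_cases h : e' = e
          · subst h
            exact map_mem_smul_top F.subtype _ hx
          · rw [(mem_fixedPart w).mp x.2 e' (Finset.mem_erase.mpr ⟨h, he'⟩), sub_self]
            exact zero_mem _
        obtain ⟨y, hy, hvy⟩ := hlift (maximalIdeal R) v fun e' he' =>
          hv e' (Finset.mem_of_mem_erase he') (Finset.ne_of_mem_erase he')
        refine ⟨⟨y, hy⟩, hred _ _ ?_⟩
        have e1 : ((x - (⟨y, hy⟩ + we ⟨y, hy⟩) : F) : M)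
            = ((x : M) - (v + w e v)) + ((v - y) + w e (v - y)) := by
          simp only [Submodule.coe_sub, Submodule.coe_add, hwe, map_sub]
          abel
        rw [e1]
        exact add_mem hxv (add_mem hvy (map_mem_smul_top _ _ hvy))
      obtain ⟨d, y, hbij⟩ := exists_split_involution we hwwe h2 hresF
      let E := LinearEquiv.ofBijective _ hbij
      have hE : ∀ p : (Fin d → R) × (Fin d → R), E p = y p.1 + we (y p.2) := fun _ => rfl
      have hEw : ∀ p : (Fin d → R) × (Fin d → R), we (E p) = E (p.2, p.1) := fun p => by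
        rw [hE, hE, map_add, hwwe, add_comm]
      have hin : ∀ a, ((E (a, a) : F) : M) ∈ fixedPart w V := fun a => by
        refine (mem_fixedPart w).mpr fun e' he' => ?_
        by_cases h : e' = e
        · subst h
          rw [← hwe, hEw]
        · exact (mem_fixedPart w).mp (E (a, a)).2 e' (Finset.mem_erase.mpr ⟨h, he'⟩)
      have hfix : ∀ x ∈ fixedPart w V, ∃ (hxF : x ∈ F) (a : Fin d → R),
          (⟨x, hxF⟩ : F) = E (a, a) := fun x hx => by
        have hxF : x ∈ F := fixedPart_mono w (Finset.erase_subset e V) hx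
        refine ⟨hxF, (E.symm ⟨x, hxF⟩).1, ?_⟩
        obtain ⟨p, hp⟩ := E.surjective ⟨x, hxF⟩
        rw [← hp, E.symm_apply_apply]
        have h1 : we (E p) = E p := by
          rw [hp]; exact Subtype.ext ((mem_fixedPart w).mp hx e he)
        rw [hEw] at h1
        exact congrArg E (Prod.ext rfl (congrArg Prod.fst (E.injective h1)))
      refine ⟨⟨(F.subtype ∘ₗ E.toLinearMap ∘ₗ
          ((LinearMap.fst R _ _).prod (LinearMap.fst R (Fin d → R) (Fin d → R)))
            ∘ₗ E.symm.toLinearMap ∘ₗ r).codRestrict _ (fun x => hin _), fun x => ?_⟩,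
        fun J x hx => ?_, fun x hx => ?_⟩
      · obtain ⟨hxF, a, ha⟩ := hfix x x.2
        refine Subtype.ext ?_
        show ((E ((E.symm (r x)).1, (E.symm (r x)).1) : F) : M) = (x : M)
        rw [show r (x : M) = (⟨x, hxF⟩ : F) from hr ⟨x, hxF⟩, ha, E.symm_apply_apply, ← ha]
      · obtain ⟨z, hz, hxz⟩ := hlift J x fun e' he' => hx e' (Finset.mem_of_mem_erase he')
        obtain ⟨⟨a, b⟩, hp⟩ := E.surjective ⟨z, hz⟩
        have h1 : E (b, a) - E (a, b) ∈ J • (⊤ : Submodule R F) := by
          refine hred J _ ?_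
          rw [Submodule.coe_sub, ← show we (E (a, b)) = E (b, a) from hEw (a, b), hwe, hp]
          have e2 : w e z - z = (w e x - x) - (w e (x - z) - (x - z)) := by
            rw [map_sub]; abel
          rw [show w e ((⟨z, hz⟩ : F) : M) - ((⟨z, hz⟩ : F) : M) = w e z - z from rfl, e2]
          exact sub_mem (hx e he) (sub_mem (map_mem_smul_top _ _ hxz) hxz)
        have h2 : b - a ∈ J • (⊤ : Submodule R (Fin d → R)) := by
          have h3 := map_mem_smul_top (LinearMap.fst R _ _ ∘ₗ E.symm.toLinearMap) J h1
          simpa using h3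
        refine ⟨(E (a, a) : F), hin a, ?_⟩
        have e1 : (E (a, b) : F) - E (a, a) = E (0, b - a) := by
          rw [← map_sub]; simp
        have e3 : x - ((E (a, a) : F) : M) = (x - z) + (((E (a, b) - E (a, a) : F)) : M) := by
          rw [Submodule.coe_sub, hp]
          show _ = x - z + (z - _)
          abel
        rw [e3, e1]
        exact add_mem hxz (map_mem_smul_top
          (F.subtype ∘ₗ E.toLinearMap ∘ₗ LinearMap.inr R (Fin d → R) (Fin d → R)) J h2)
      · obtain ⟨hxF, a, ha⟩ := hfix x hx
        refine ⟨(y a : F), (y a).2, ?_⟩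
        show ((⟨x, hxF⟩ : F) : M) = _
        rw [ha]
        rfl
    refine ⟨(step e0 he0).1, (step e0 he0).2.1, fun e he x hx V' hV'V he' => ?_⟩
    obtain ⟨y, hy, hxy⟩ := (step e he).2.2 x hx
    exact ⟨y, fixedPart_mono w
      (fun a ha => Finset.mem_erase.mpr ⟨by rintro rfl; exact he' ha, hV'V ha⟩) hy, hxy⟩

/-- The fixed part is finite free. -/
theorem free_fixedPart : Module.Finite R (fixedPart w W) ∧ Module.Free R (fixedPart w W) := by
  obtain ⟨⟨r, hr⟩, -⟩ := fixedPart_spec w hw hcomm h2 hres W subset_rfl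
  have : Module.Finite R (fixedPart w W) := Module.Finite.of_surjective r fun x => ⟨x, hr x⟩
  have : Module.Projective R (fixedPart w W) :=
    Module.Projective.of_split (fixedPart w W).subtype r (LinearMap.ext hr)
  exact ⟨inferInstance, Module.free_of_flat_of_isLocalRing⟩

/-- A fixed point in `J • M` lies in `J` times the fixed part. -/
theorem mem_smul_fixedPart (J : Ideal R) (x : fixedPart w W)
    (hx : (x : M) ∈ J • (⊤ : Submodule R M)) :
    x ∈ J • (⊤ : Submodule R (fixedPart w W)) := by
  obtain ⟨⟨r, hr⟩, -⟩ := fixedPart_spec w hw hcomm h2 hres W subset_rfl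
  rw [← hr x]
  exact map_mem_smul_top r J hx

end Family

end Fermat.Agent.TwoAdic
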