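import Mathlib.RingTheory.Artinian.Module
import Mathlib.RingTheory.LocalRing.ResidueField.Basic
import Mathlib.RingTheory.Nakayama
import Mathlib.RingTheory.OrzechProperty
import Fermat.Agent.TwoAdic.Modules.Invol

/-!
Endomorphisms modulo the maximal ideal: nilpotent perturbations of automorphisms, and the
root of a quadratic relation singled out by nilpotence.
-/

set_option autoImplicit false

open IsLocalRing

universe uR uE uH

namespace Fermat.Agent.TwoAdic

variable {R : Type uR} [CommRing R]

section Perturb

variable [IsLocalRing R] {E : Type uE} [AddCommGroup E] [Module R E] [Module.Finite R E]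

/-- An automorphism plus an endomorphism nilpotent modulo the maximal ideal is an automorphism. -/
theorem bijective_add_of_nilMod {a b : Module.End R E} (ha : Function.Bijective a)
    (hab : ∀ x, a (b x) = b (a x)) {n : ℕ}
    (hb : ∀ x, (b ^ n) x ∈ maximalIdeal R • (⊤ : Submodule R E)) :
    Function.Bijective (a + b : Module.End R E) := by
  let P := LinearMap.range (a + b : Module.End R E) ⊔ maximalIdeal R • (⊤ : Submodule R E)
  have habk : ∀ (k : ℕ) x, a ((b ^ k) x) = (b ^ k) (a x) := by
    intro k
    induction k with
    | zero => exact fun x => rfl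
    | succ k ih => intro x; rw [pow_succ, Module.End.mul_apply, Module.End.mul_apply, ih, hab]
  have key : ∀ j, ∀ y, (b ^ (n - j)) y ∈ P := by
    intro j
    induction j with
    | zero => exact fun y => Submodule.mem_sup_right (hb y)
    | succ j ih =>
      intro y
      by_cases hj : n ≤ j
      · rw [show n - (j + 1) = n - j by omega]; exact ih y
      obtain ⟨z, rfl⟩ := ha.2 y
      have e : (b ^ (n - (j + 1))) (a z)
          = (a + b : Module.End R E) ((b ^ (n - (j + 1))) z) - (b ^ (n - j)) z := by
        rw [show n - j = n - (j + 1) + 1 by omega, pow_succ', Module.End.mul_apply,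
          LinearMap.add_apply, habk]
        abel
      rw [e]
      exact sub_mem (Submodule.mem_sup_left ⟨_, rfl⟩) (ih z)
  have hs : Function.Surjective (a + b : Module.End R E) := by
    refine LinearMap.range_eq_top.mp (eq_top_iff.mpr
      (Submodule.le_of_le_smul_of_le_jacobson_bot Module.Finite.fg_top
        (IsLocalRing.maximalIdeal_le_jacobson _) fun x _ => ?_))
    have := key n x
    rwa [Nat.sub_self, pow_zero, Module.End.one_apply] at this
  exact ⟨OrzechProperty.injective_of_surjective_endomorphism _ hs, hs⟩

/-- The reduction of a finite module is Artinian. -/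
theorem isArtinian_reduction :
    IsArtinian R (E ⧸ maximalIdeal R • (⊤ : Submodule R E)) := by
  let : Field (R ⧸ maximalIdeal R) := Ideal.Quotient.field _
  have : Module.Finite (R ⧸ maximalIdeal R) (E ⧸ maximalIdeal R • (⊤ : Submodule R E)) :=
    Module.Finite.of_restrictScalars_finite R _ _
  exact isArtinian_of_surjective_algebraMap (R := R ⧸ maximalIdeal R) Ideal.Quotient.mk_surjective

end Perturb

section Root

variable {V : Type uE} [AddCommGroup V] [Module R V] [IsArtinian R V]
  {H : Type uH} [AddCommGroup H] [Module R H]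

/-- An injective endomorphism stabilising a submodule of an Artinian module is onto on it. -/
theorem exists_eq_of_stable {S : Module.End R V} (hS : Function.Injective S) {P : Submodule R V}
    (hP : ∀ x ∈ P, S x ∈ P) {y : V} (hy : y ∈ P) : ∃ x ∈ P, S x = y := by
  have hi : Function.Injective (S.restrict hP) := fun x x' h =>
    Subtype.ext (hS (congrArg Subtype.val h))
  obtain ⟨x, hx⟩ := IsArtinian.surjective_of_injective_endomorphism _ hi ⟨y, hy⟩
  exact ⟨x, x.2, congrArg Subtype.val hx⟩

/-- If `(u - α) (u - β) = u ∘ τ` on the image of `J` with `τ` nilpotent and `u - β` injective, the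
image of `J` is stable by `u`. -/
theorem exists_apply_eq_of_root {J : H →ₗ[R] V} {u : Module.End R V} {τ : Module.End R H}
    {α β : R} {n : ℕ} (hn : ∀ a, J ((τ ^ n) a) = 0)
    (hinj : Function.Injective (u - β • 1 : Module.End R V))
    (hrel : ∀ a, (u - β • 1 : Module.End R V) ((u - α • 1 : Module.End R V) (J a)) = u (J (τ a)))
    (a : H) : ∃ b, u (J a) = J b := by
  have key : ∀ j, ∀ c, u (J ((τ ^ (n - j)) c)) ∈
      (LinearMap.range (τ ^ (n - j))).map J := by
    intro j
    induction j with
    | zero => intro c; rw [Nat.sub_zero, hn, map_zero]; exact zero_mem _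
    | succ j ih =>
      intro c
      by_cases hj : n ≤ j
      · rw [show n - (j + 1) = n - j by omega]; exact ih c
      set P := (LinearMap.range (τ ^ (n - j))).map J
      have hst : ∀ x ∈ P, (u - β • 1 : Module.End R V) x ∈ P := by
        rintro _ ⟨_, ⟨d, rfl⟩, rfl⟩
        exact sub_mem (ih d) (P.smul_mem β ⟨_, ⟨d, rfl⟩, rfl⟩)
      have hmem : u (J (τ ((τ ^ (n - (j + 1))) c))) ∈ P := by
        rw [← Module.End.mul_apply, ← pow_succ', show n - (j + 1) + 1 = n - j by omega]
        exact ih c
      rw [← hrel] at hmem
      obtain ⟨x, hxP, hx⟩ := exists_eq_of_stable hinj hst hmem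
      obtain ⟨_, ⟨d, rfl⟩, rfl⟩ := hxP
      have hx' : (u - α • 1 : Module.End R V) (J ((τ ^ (n - (j + 1))) c))
          = J ((τ ^ (n - j)) d) := (hinj hx).symm
      rw [LinearMap.sub_apply, LinearMap.smul_apply, Module.End.one_apply, sub_eq_iff_eq_add] at hx'
      rw [hx', show n - j = n - (j + 1) + 1 by omega, pow_succ, Module.End.mul_apply]
      exact add_mem ⟨_, ⟨τ d, rfl⟩, rfl⟩ (Submodule.smul_mem _ α ⟨_, ⟨c, rfl⟩, rfl⟩)
  have h := key n a
  rw [Nat.sub_self, pow_zero, Module.End.one_apply] at h
  obtain ⟨b, -, hb⟩ := h
  exact ⟨b, hb.symm⟩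

end Root

end Fermat.Agent.TwoAdic
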