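import Fermat.Agent.HeckeModule.LocLift
import Fermat.Agent.TwoAdic.Modules.NilMod

/-!
Comparison of localisations: operators congruent modulo nilpotents are invertible together, so
localising further at a compatible prime changes nothing.
-/

set_option autoImplicit false

open IsLocalRing

universe uO uA

namespace Fermat.Agent.TwoAdic

open HeckeModule

variable {O : Type uO} [CommRing O] {A : Type uA} [AddCommGroup A] [Module O A] {N : ℕ}
  {ρ : Representation O (ZMod N)ˣ A} {P P' : Submonoid (HeckePoly O)}

/-- The map to a further localisation. -/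
noncomputable def locMono (h : P ≤ P') : CohLoc P ρ →ₗ[HeckePoly O] CohLoc P' ρ where
  toFun x := LocalizedModule.liftOn x (fun p => LocalizedModule.mk p.1 ⟨p.2, h p.2.2⟩)
    fun p p' hp => by
      obtain ⟨u, hu⟩ := hp
      exact LocalizedModule.mk_eq.mpr ⟨⟨u, h u.2⟩, hu⟩
  map_add' x y := by
    induction x using LocalizedModule.induction_on with
    | _ a s =>
      induction y using LocalizedModule.induction_on with
      | _ b t =>
        rw [LocalizedModule.mk_add_mk, LocalizedModule.liftOn_mk, LocalizedModule.liftOn_mk,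
          LocalizedModule.liftOn_mk, LocalizedModule.mk_add_mk]
        rfl
  map_smul' r x := by
    induction x using LocalizedModule.induction_on with
    | _ a s =>
      rw [LocalizedModule.smul'_mk, LocalizedModule.liftOn_mk, RingHom.id_apply,
        LocalizedModule.liftOn_mk, LocalizedModule.smul'_mk]

lemma locMono_mk (h : P ≤ P') (u : Coh1 ρ) (s : P) :
    locMono h (LocalizedModule.mk u s) = LocalizedModule.mk u (⟨(s : HeckePoly O), h s.2⟩ : P') := by
  simp only [locMono, LinearMap.coe_mk, AddHom.coe_mk, LocalizedModule.liftOn_mk]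

/-- An element of the monoid acts bijectively on the localisation. -/
lemma bijective_smul_of_mem {s : HeckePoly O} (hs : s ∈ P) :
    Function.Bijective fun x : CohLoc P ρ => s • x :=
  (Module.End.isUnit_iff _).mp (IsLocalizedModule.map_units (LocalizedModule.mkLinearMap P (Coh1 ρ)) ⟨s, hs⟩)

/-- If the larger monoid already acts invertibly, nothing changes. -/
theorem locMono_bijective (h : P ≤ P')
    (hb : ∀ s ∈ P', Function.Bijective fun x : CohLoc P ρ => s • x) :
    Function.Bijective (locMono (ρ := ρ) h) := by
  refine ⟨(injective_iff_map_eq_zero _).mpr fun x hx => ?_, fun x => ?_⟩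
  · induction x using LocalizedModule.induction_on with
    | _ u s =>
      rw [locMono_mk, IsLocalizedModule.mk_eq_mk', IsLocalizedModule.mk'_eq_zero'] at hx
      obtain ⟨t, ht⟩ := hx
      rw [Submonoid.smul_def] at ht
      refine (hb _ t.2).1 ?_
      show (t : HeckePoly O) • LocalizedModule.mk u s = (t : HeckePoly O) • (0 : CohLoc P ρ)
      rw [LocalizedModule.smul'_mk, ht, LocalizedModule.zero_mk, smul_zero]
  · induction x using LocalizedModule.induction_on with
    | _ u s' =>
      obtain ⟨z, hz⟩ := (hb _ s'.2).2 (LocalizedModule.mk u 1)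
      refine ⟨z, (bijective_smul_of_mem s'.2).1 ?_⟩
      show (s' : HeckePoly O) • locMono h z = (s' : HeckePoly O) • LocalizedModule.mk u s'
      rw [← map_smul, show (s' : HeckePoly O) • z = _ from hz, locMono_mk, LocalizedModule.smul'_mk,
        LocalizedModule.mk_eq]
      exact ⟨1, by simp [Submonoid.smul_def]⟩

section NilMod

variable [IsLocalRing O] (E : Type*) [AddCommGroup E] [Module O E] [Module (HeckePoly O) E]
  [IsScalarTower O (HeckePoly O) E]

omit [Module (HeckePoly O) E] [IsScalarTower O (HeckePoly O) E] in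
lemma smul_mem_maxSmul {f : E →+ E} (hf : ∀ (r : O) x, f (r • x) = r • f x) {x : E}
    (hx : x ∈ maximalIdeal O • (⊤ : Submodule O E)) :
    f x ∈ maximalIdeal O • (⊤ : Submodule O E) :=
  map_mem_smul_top ({ toFun := f, map_add' := map_add f, map_smul' := hf } : E →ₗ[O] E) _ hx

lemma poly_smul_mem_maxSmul (a : HeckePoly O) {x : E}
    (hx : x ∈ maximalIdeal O • (⊤ : Submodule O E)) :
    a • x ∈ maximalIdeal O • (⊤ : Submodule O E) :=
  smul_mem_maxSmul E (f := DistribSMul.toAddMonoidHom E a) (fun r y => smul_comm a r y) hx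

/-- The Hecke polynomials acting nilpotently modulo the maximal ideal. -/
noncomputable def nilModIdeal : Ideal (HeckePoly O) :=
  Ideal.radical
    { carrier := {a | ∀ x : E, a • x ∈ maximalIdeal O • (⊤ : Submodule O E)}
      add_mem' := fun {a b} ha hb x => by rw [add_smul]; exact add_mem (ha x) (hb x)
      zero_mem' := fun x => by rw [zero_smul]; exact zero_mem _
      smul_mem' := fun r a ha x => by
        rw [smul_eq_mul, mul_smul]; exact poly_smul_mem_maxSmul E r (ha x) }

lemma mem_nilModIdeal {a : HeckePoly O} :
    a ∈ nilModIdeal E ↔ ∃ n : ℕ, ∀ x : E, a ^ n • x ∈ maximalIdeal O • (⊤ : Submodule O E) :=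
  Iff.rfl

lemma C_mem_nilModIdeal {r : O} (hr : r ∈ maximalIdeal O) :
    (MvPolynomial.C r : HeckePoly O) ∈ nilModIdeal E :=
  (mem_nilModIdeal E).mpr ⟨1, fun x => by
    rw [pow_one, ← MvPolynomial.algebraMap_eq, algebraMap_smul]
    exact Submodule.smul_mem_smul hr Submodule.mem_top⟩

/-- Congruent modulo nilpotents: invertible together. -/
theorem bijective_smul_of_congr [Module.Finite O E] {a b : HeckePoly O}
    (hb : Function.Bijective fun x : E => b • x) (hab : a - b ∈ nilModIdeal E) :
    Function.Bijective fun x : E => a • x := by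
  obtain ⟨n, hn⟩ := (mem_nilModIdeal E).mp hab
  let L := Algebra.lsmul O O E (A := HeckePoly O)
  have h : Function.Bijective (L b + L (a - b)) :=
    bijective_add_of_nilMod (n := n) hb (fun x => smul_comm b (a - b) x)
      fun x => by rw [← map_pow]; exact hn x
  rw [← map_add, add_sub_cancel] at h
  exact h

end NilMod

section Relax

variable {S S' : Set ℕ}

open Classical in
/-- Forget the primes of `S` outside `S'`: their operators are sent to prescribed scalars. -/
noncomputable def relaxHom (O : Type uO) [CommRing O] (S S' : Set ℕ) (t : ℕ → O) :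
    AwayPoly O S' →ₐ[O] AwayPoly O S :=
  MvPolynomial.aeval fun l : AwayIndex S' =>
    if h : ((l : Nat.Primes) : ℕ) ∈ S then MvPolynomial.C (t (l : Nat.Primes))
    else MvPolynomial.X ⟨l.1, h⟩

/-- The inclusion of the smaller polynomial ring. -/
noncomputable def restrictAway (O : Type uO) [CommRing O] (hS : S' ⊆ S) :
    AwayPoly O S →ₐ[O] AwayPoly O S' :=
  MvPolynomial.rename fun l : AwayIndex S => ⟨l.1, fun h => l.2 (hS h)⟩

variable (hS : S' ⊆ S) (t : ℕ → O)

lemma awayIncl_restrictAway (a : AwayPoly O S) :
    awayIncl O S' (restrictAway O hS a) = awayIncl O S a :=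
  MvPolynomial.rename_rename _ _ a

lemma relaxHom_restrictAway (a : AwayPoly O S) :
    relaxHom O S S' t (restrictAway O hS a) = a := by
  rw [relaxHom, restrictAway, MvPolynomial.aeval_rename]
  refine (congrArg (fun f => MvPolynomial.aeval f a) (funext fun l => ?_)).trans
    (MvPolynomial.aeval_X_left_apply a)
  simp [dif_neg l.2]

variable (m : Ideal (AwayPoly O S))

/-- The prime compatible with the prescribed scalars. -/
noncomputable abbrev relaxIdeal (S' : Set ℕ) (t : ℕ → O) : Ideal (AwayPoly O S') :=
  m.comap (relaxHom O S S' t)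

include hS in
lemma awayMonoid_le_relax [m.IsPrime] : awayMonoid m ≤ awayMonoid (relaxIdeal m S' t) := by
  rintro _ ⟨a, ha, rfl⟩
  refine ⟨restrictAway O hS a, ?_, awayIncl_restrictAway hS a⟩
  show restrictAway O hS a ∉ relaxIdeal m S' t
  rw [Ideal.mem_comap, relaxHom_restrictAway]
  exact ha

lemma le_relaxIdeal [IsLocalRing O]
    (hm : (maximalIdeal O).map (algebraMap O (AwayPoly O S)) ≤ m) :
    (maximalIdeal O).map (algebraMap O (AwayPoly O S')) ≤ relaxIdeal m S' t := by
  rw [Ideal.map_le_iff_le_comap]
  intro r hr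
  rw [Ideal.mem_comap, Ideal.mem_comap, AlgHom.commutes]
  exact hm (Ideal.mem_map_of_mem _ hr)

variable [IsLocalRing O] (E : Type*) [AddCommGroup E] [Module O E] [Module (HeckePoly O) E]
  [IsScalarTower O (HeckePoly O) E]

/-- A polynomial is congruent to its relaxation as soon as the forgotten variables are congruent to
their scalars. -/
theorem sub_relax_mem_nilModIdeal
    (ht : ∀ (l : Nat.Primes), (l : ℕ) ∈ S → (l : ℕ) ∉ S' →
      MvPolynomial.X l - MvPolynomial.C (t l) ∈ nilModIdeal E) (a : AwayPoly O S') :
    awayIncl O S' a - awayIncl O S (relaxHom O S S' t a) ∈ nilModIdeal E := by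
  induction a using MvPolynomial.induction_on with
  | C r =>
    rw [← MvPolynomial.algebraMap_eq, AlgHom.commutes, AlgHom.commutes, AlgHom.commutes, sub_self]
    exact zero_mem _
  | add p p' hp hp' =>
    rw [map_add, map_add, map_add, add_sub_add_comm]
    exact add_mem hp hp'
  | mul_X p l hp =>
    rw [map_mul, map_mul, map_mul, awayIncl_X]
    have key : (MvPolynomial.X (l : Nat.Primes) : HeckePoly O)
        - awayIncl O S (relaxHom O S S' t (MvPolynomial.X l)) ∈ nilModIdeal E := by
      rw [relaxHom, MvPolynomial.aeval_X]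
      by_cases h : ((l : Nat.Primes) : ℕ) ∈ S
      · rw [dif_pos h, ← MvPolynomial.algebraMap_eq, AlgHom.commutes, MvPolynomial.algebraMap_eq]
        exact ht l h l.2
      · rw [dif_neg h, awayIncl_X, sub_self]
        exact zero_mem _
    have e : awayIncl O S' p * MvPolynomial.X (l : Nat.Primes)
        - awayIncl O S (relaxHom O S S' t p) * awayIncl O S (relaxHom O S S' t (MvPolynomial.X l))
        = (awayIncl O S' p - awayIncl O S (relaxHom O S S' t p)) * MvPolynomial.X (l : Nat.Primes)
          + awayIncl O S (relaxHom O S S' t p) * (MvPolynomial.X (l : Nat.Primes)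
            - awayIncl O S (relaxHom O S S' t (MvPolynomial.X l))) := by ring
    rw [e]
    exact add_mem (Ideal.mul_mem_right _ _ hp) (Ideal.mul_mem_left _ _ key)

end Relax

/-- **Independence of the omitted primes.** If the omitted operators are scalars modulo nilpotents,
the localisations agree. -/
theorem locMono_relax_bijective [IsLocalRing O] {S S' : Set ℕ} (hS : S' ⊆ S) (t : ℕ → O)
    (m : Ideal (AwayPoly O S)) [m.IsPrime] [Module.Finite O (CohLoc (awayMonoid m) ρ)]
    (ht : ∀ (l : Nat.Primes), (l : ℕ) ∈ S → (l : ℕ) ∉ S' →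
      MvPolynomial.X l - MvPolynomial.C (t l) ∈ nilModIdeal (CohLoc (awayMonoid m) ρ)) :
    Function.Bijective (locMono (ρ := ρ) (awayMonoid_le_relax hS t m)) := by
  refine locMono_bijective _ ?_
  rintro _ ⟨a, ha, rfl⟩
  exact bijective_smul_of_congr _ (bijective_smul_of_mem (mem_awayMonoid ha))
    (sub_relax_mem_nilModIdeal t _ ht a)

end Fermat.Agent.TwoAdic
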