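import Fermat.Agent.TwoAdic.Modules.AtkinLevel
import Fermat.Agent.TwoAdic.Modules.LocCompare
import Fermat.Agent.Engine.Lifting.TraceAtkin
import Fermat.Agent.HeckeModule.LevelFree

/-!
The trace from level `qN` to level `N` without any hypothesis on the primes of `N`: it commutes
with every Hecke operator but the one at `q`, and the pair of transfers is onto after localising at
a prime whose excluded set need not contain the primes of the level.
-/

set_option autoImplicit false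

open CongruenceSubgroup IsLocalRing

universe uA

namespace Fermat.Agent.TwoAdic

open HeckeJ0 LevelRaising HeckeModule

section Commute

variable {O : Type} [CommRing O] {A : Type uA} [AddCommGroup A] [Module O A] {N q M : ℕ}
  [hq : Fact q.Prime] [NeZero N] (hM : M ∣ N) (χ : (ZMod M)ˣ →* O) (hqN : ¬ q ∣ N)
  (hMq : M ∣ q * N)

omit [NeZero N] in
/-- The trace commutes with the Hecke operators at all primes other than `q`. -/
theorem charTrace_heckeOp_of_ne {ℓ : ℕ} [hℓ : Fact ℓ.Prime] (hℓq : ℓ ≠ q)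
    (u : Coh1 (scalarRep (levelChar hMq χ) A)) :
    charTrace A hM χ hqN hMq (heckeOp _ ℓ u) = heckeOp _ ℓ (charTrace A hM χ hqN hMq u) := by
  by_cases hℓN : ℓ ∣ N
  · rw [charTrace_eq, charTrace_eq, castCoh_symm_heckeOp, Engine.Lifting.trace_uOp _ hqN hℓN]
  · exact charTrace_heckeOp hM χ hqN hMq (fun h => (hℓ.out.dvd_mul.mp h).elim
      (fun h' => hℓq ((Nat.prime_dvd_prime_iff_eq hℓ.out hq.out).mp h')) hℓN) u

end Commute

section Enlarge

variable {O : Type} [CommRing O] {S : Set ℕ} {m : Ideal (AwayPoly O S)} [m.IsPrime]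

/-- The localising set of a bigger excluded set is smaller. -/
theorem awayMonoid_comap_le {S₁ : Set ℕ} (h : S ⊆ S₁) :
    awayMonoid (m.comap (restrictAway O h).toRingHom) ≤ awayMonoid m := by
  rintro _ ⟨a, ha, rfl⟩
  exact ⟨restrictAway O h a, ha, awayIncl_restrictAway h a⟩

/-- An element `X_l ^ k - c` of the localising set lives at a prime outside `S`. -/
theorem notMem_of_pow_sub_mem [Nontrivial O] {l : Nat.Primes} {k : ℕ} (hk : k ≠ 0) {c : O}
    (h : MvPolynomial.X l ^ k - MvPolynomial.C c ∈ awayMonoid m) : (l : ℕ) ∉ S := by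
  classical
  intro hl
  obtain ⟨a, -, ha : awayIncl O S a = _⟩ := h
  let f : Nat.Primes → O := fun x => if x = l then 1 else 0
  have e : ∀ g : Nat.Primes → O, MvPolynomial.eval g (MvPolynomial.X l ^ k - MvPolynomial.C c)
      = MvPolynomial.eval (g ∘ Subtype.val : AwayIndex S → O) a := fun g => by
    rw [← ha, awayIncl, MvPolynomial.eval_rename]
  have hcomp : (f ∘ Subtype.val : AwayIndex S → O) = (fun _ => 0) ∘ Subtype.val :=
    funext fun x => if_neg fun hx : (x : Nat.Primes) = l => x.2 (hx ▸ hl)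
  have h1 := (e f).trans ((congrArg (MvPolynomial.eval · a) hcomp).trans (e fun _ => 0).symm)
  simp [f, zero_pow hk] at h1

/-- Such an element stays in the localising set of a bigger excluded set avoiding its prime. -/
theorem pow_sub_mem_comap [Nontrivial O] {S₁ : Set ℕ} (h : S ⊆ S₁) {l : Nat.Primes} {k : ℕ}
    {c : O} (hl : (l : ℕ) ∉ S₁)
    (hm : MvPolynomial.X l ^ k - MvPolynomial.C c ∈ awayMonoid m) :
    MvPolynomial.X l ^ k - MvPolynomial.C c ∈
      awayMonoid (m.comap (restrictAway O h).toRingHom) := by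
  obtain ⟨a, ha, he : awayIncl O S a = _⟩ := hm
  have h1 : awayIncl O S₁ (MvPolynomial.X (⟨l, hl⟩ : AwayIndex S₁) ^ k - MvPolynomial.C c) =
      MvPolynomial.X l ^ k - MvPolynomial.C c := by
    rw [map_sub, map_pow, awayIncl_X, ← MvPolynomial.algebraMap_eq, AlgHom.commutes,
      MvPolynomial.algebraMap_eq]
  refine ⟨_, fun hm' => ha ?_, h1⟩
  have h2 : restrictAway O h (MvPolynomial.X (⟨l, hl⟩ : AwayIndex S₁) ^ k - MvPolynomial.C c) = a :=
    MvPolynomial.rename_injective _ Subtype.val_injective (by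
      change awayIncl O S _ = awayIncl O S a
      rw [awayIncl_restrictAway, h1, he])
  exact h2 ▸ (Ideal.mem_comap.mp hm')

end Enlarge

section Onto

variable {O : Type} [CommRing O] [IsNoetherianRing O] [IsLocalRing O]
  [IsAdicComplete (maximalIdeal O) O] {p : ℕ} [CharP (ResidueField O) p] [Fact p.Prime]
  {N q : ℕ} [NeZero N] [hq : Fact q.Prime] {S : Set ℕ} {m : Ideal (AwayPoly O S)} [m.IsPrime]
  (hm : (maximalIdeal O).map (algebraMap O (AwayPoly O S)) ≤ m) {χ : (ZMod N)ˣ →* O}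

include hm in
/-- **The pair of transfers is onto**, the excluded set containing `q` but not necessarily the
primes of `N`. -/
theorem exists_mk_trace_eq (hqS : q ∈ S) (hE' : ExactHyp (awayMonoid m) (upChar q χ))
    (H : IharaPrimes (awayMonoid m) N q p) (hqN : ¬ q ∣ N)
    (hχ : ∀ u, χ u - 1 ∈ maximalIdeal O) (hN : Liftable O N)
    (hNk : Liftable (ResidueField O) N) (heven : χ (-1) = 1)
    (a b : CohLoc (awayMonoid m) (scalarRep χ O)) :
    ∃ (v : Coh1 (pullRep (scalarRep χ O) (dvd_mul_left N q))) (s : awayMonoid m),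
      LocalizedModule.mk (trace (scalarRep χ O) hqN v) s = a ∧
        LocalizedModule.mk (traceTwist (scalarRep χ O) hqN v) s = b := by
  let S₁ : Set ℕ := S ∪ {ℓ | ℓ ∣ q * N}
  have hsub : S ⊆ S₁ := Set.subset_union_left
  let m₀ := m.comap (restrictAway O hsub).toRingHom
  have hm₀ : (maximalIdeal O).map (algebraMap O (AwayPoly O S₁)) ≤ m₀ :=
    Ideal.map_le_iff_le_comap.mpr fun o ho => by
      rw [Ideal.mem_comap, Ideal.mem_comap]
      show restrictAway O hsub (algebraMap O _ o) ∈ m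
      rw [AlgHom.commutes]
      exact hm (Ideal.mem_map_of_mem _ ho)
  have hS₁ : ∀ ℓ : ℕ, ℓ.Prime → ℓ ∣ q * N → ℓ ∈ S₁ := fun _ _ h => Or.inr h
  -- primes prime to `qN`
  have hne : ∀ {ℓ : ℕ}, ℓ.Prime → ℓ ∉ S → ¬ ℓ ∣ N → ℓ ∉ S₁ := fun {ℓ} hℓ hS hN' h =>
    h.elim hS fun h' => (hℓ.dvd_mul.mp h').elim
      (fun h'' => hS ((Nat.prime_dvd_prime_iff_eq hℓ hq.out).mp h'' ▸ hqS)) hN'
  have hone : ∀ {ℓ : ℕ}, ℓ.Prime → (ℓ : ZMod N) = 1 → ¬ ℓ ∣ N := fun {ℓ} hℓ h1 h => by
    have h0 := congrArg (ZMod.castHom h (ZMod ℓ)) h1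
    rw [map_natCast, map_one, ZMod.natCast_self] at h0
    have := Fact.mk hℓ
    exact zero_ne_one h0
  have heisen : ∀ {ℓ : ℕ} [Fact ℓ.Prime], (ℓ : ZMod N) = 1 → eisen O ℓ ∈ awayMonoid m →
      eisen O ℓ ∈ awayMonoid m₀ := fun {ℓ} hℓ h1 h => by
    have h' : MvPolynomial.X (⟨ℓ, hℓ.out⟩ : Nat.Primes) ^ 1 - MvPolynomial.C ((ℓ : O) + 1) ∈
        awayMonoid m := by rwa [pow_one]
    have h'' := pow_sub_mem_comap hsub (l := ⟨ℓ, hℓ.out⟩)
      (hne hℓ.out (notMem_of_pow_sub_mem one_ne_zero h') (hone hℓ.out h1)) h'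
    rwa [pow_one] at h''
  have := H.primeℓ
  have := H.primer
  let H₀ : IharaPrimes (awayMonoid m₀) N q p :=
    { ℓ := H.ℓ
      r := H.r
      lt := H.lt
      ne_p := H.ne_p
      ne_q := H.ne_q
      ne_two := H.ne_two
      r_eq := H.r_eq
      ihara_mem := pow_sub_mem_comap hsub (l := ⟨H.ℓ, H.primeℓ.out⟩)
        (hne H.primeℓ.out (notMem_of_pow_sub_mem two_ne_zero H.ihara_mem)
          fun h => absurd (Nat.le_of_dvd (NeZero.pos N) h) (not_le.mpr H.lt)) H.ihara_mem
      eisen_mem := heisen H.r_eq H.eisen_mem }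
  have hE₀ : ExactHyp (awayMonoid m₀) χ :=
    ⟨⟨H.r, H.primer.out, H.r_eq, heisen H.r_eq H.eisen_mem⟩, hN, heven⟩
  obtain ⟨⟨ℓ, hℓ, hℓ1, hℓm⟩, hlift', heven'⟩ := hE'
  have := Fact.mk hℓ
  have hℓ1' : (ℓ : ZMod N) = 1 := by
    have := congrArg (ZMod.castHom (dvd_mul_left N q) (ZMod N)) hℓ1
    rwa [map_natCast, map_one] at this
  have hE₀' : ExactHyp (awayMonoid m₀) (upChar q χ) :=
    ⟨⟨ℓ, hℓ, hℓ1, heisen hℓ1' hℓm⟩, hlift', heven'⟩
  induction a using LocalizedModule.induction_on with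
  | _ u₁ s₁ =>
  induction b using LocalizedModule.induction_on with
  | _ u₂ s₂ =>
  obtain ⟨z, hz⟩ := surjective_locTrace_prod hm₀ hS₁ hE₀ H₀ hqN hχ hNk hE₀'
    (LocalizedModule.mk ((s₂ : HeckePoly O) • u₁) 1,
      LocalizedModule.mk ((s₁ : HeckePoly O) • u₂) 1)
  obtain ⟨h1, h2⟩ := Prod.mk.inj hz
  induction z using LocalizedModule.induction_on with
  | _ v t =>
  let t' : awayMonoid m := ⟨t, awayMonoid_comap_le hsub t.2⟩
  refine ⟨v, t' * (s₁ * s₂), ?_, ?_⟩
  · rw [locTrace, locLift_mk] at h1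
    obtain ⟨c, hc⟩ := LocalizedModule.mk_eq.mp h1
    refine LocalizedModule.mk_eq.mpr ⟨⟨c, awayMonoid_comap_le hsub c.2⟩, ?_⟩
    simp only [Submonoid.smul_def, Submonoid.coe_mul, one_smul, smul_smul,
      t'] at hc ⊢
    have := congrArg ((s₁ : HeckePoly O) • ·) hc
    simp only [smul_smul] at this
    rw [mul_comm (c : HeckePoly O) s₁, this]
    congr 1
    ring
  · rw [locTraceTwist, locLift_mk] at h2
    obtain ⟨c, hc⟩ := LocalizedModule.mk_eq.mp h2
    refine LocalizedModule.mk_eq.mpr ⟨⟨c, awayMonoid_comap_le hsub c.2⟩, ?_⟩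
    simp only [Submonoid.smul_def, Submonoid.coe_mul, one_smul, smul_smul,
      t'] at hc ⊢
    have := congrArg ((s₂ : HeckePoly O) • ·) hc
    simp only [smul_smul] at this
    rw [mul_comm (c : HeckePoly O) s₂, this]
    congr 1
    ring

end Onto

end Fermat.Agent.TwoAdic
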