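import Fermat.Agent.TwoAdic.Modules.NewQuotient
import Fermat.Agent.TwoAdic.Modules.CubeSquares
import Fermat.Agent.TwoAdic.Modules.TraceU

/-!
The trace between neighbouring levels of the signed cube, its composites with the old maps, its
surjectivity, and the non-vanishing of new quotients.
-/

set_option autoImplicit false

open CongruenceSubgroup IsLocalRing

universe uA

namespace Fermat.Agent.TwoAdic

open HeckeJ0 LevelRaising HeckeModule

attribute [local instance] ALSetup.isPrime

namespace ALSetup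

variable {O : Type} [CommRing O] [IsLocalRing O] (T : ALSetup O)

/-- The primes of the core are none of the Atkin–Lehner primes.  They may lie outside `S`: their
operators commute with the trace. -/
def CoreInS : Prop := ∀ ℓ : ℕ, ℓ.Prime → ℓ ∣ T.core → ℓ ∉ T.W

/-- This holds for every setup. -/
theorem coreInS : T.CoreInS := fun _ _ h hW => T.notDvd _ hW h

variable (A : Type uA) [AddCommGroup A] [Module O A] {q : ℕ} {V U : Finset ℕ}

lemma insert_dvd_mul (hqU : q ∉ U) (hUV : insert q U = V) :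
    1 * T.level V ∣ q * T.level U := by
  rw [one_mul, ← hUV, T.level_insert hqU]

lemma mul_dvd_insert (hqU : q ∉ U) (hUV : insert q U = V) :
    1 * (q * T.level U) ∣ T.level V := by
  rw [one_mul, ← hUV, T.level_insert hqU]

lemma isAL_mul (hV : V ⊆ T.W) (hqU : q ∉ U) (hUV : insert q U = V) :
    IsALPrimes (q * T.level U) V := by
  rw [← T.level_insert hqU, hUV]; exact T.isAL hV

lemma not_dvd_face (hV : V ⊆ T.W) (hqU : q ∉ U) (hUV : insert q U = V) : ¬ q ∣ T.level U :=
  T.not_dvd_level (((Finset.subset_insert q U).trans hUV.subset).trans hV)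
    (hV (hUV ▸ Finset.mem_insert_self q U)) hqU

lemma face_subset (hV : V ⊆ T.W) (hUV : insert q U = V) : U ⊆ T.W :=
  ((Finset.subset_insert q U).trans hUV.subset).trans hV

lemma mem_of_insert_eq (hUV : insert q U = V) : q ∈ V := hUV ▸ Finset.mem_insert_self q U

/-- If the primes of the core lie in `S`, so do those of `q * level U`. -/
lemma mem_S_of_dvd (hc : ∀ ℓ : ℕ, ℓ.Prime → ℓ ∣ T.core → ℓ ∈ T.S) (hV : V ⊆ T.W)
    (hUV : insert q U = V) {ℓ : ℕ} (hℓ : ℓ.Prime) (h : ℓ ∣ q * T.level U) : ℓ ∈ T.S := by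
  have hqW := hV (mem_of_insert_eq hUV)
  rcases hℓ.dvd_mul.mp h with h | h
  · rw [(Nat.prime_dvd_prime_iff_eq hℓ (T.prime q hqW)).mp h]
    exact T.mem_S q hqW
  rcases hℓ.dvd_mul.mp h with h | h
  · exact hc ℓ hℓ h
  · obtain ⟨a, ha, hla⟩ := ((Nat.prime_iff.mp hℓ).dvd_finsetProd_iff _).mp h
    have haW := T.face_subset hV hUV ha
    rw [(Nat.prime_dvd_prime_iff_eq hℓ (T.prime a haW)).mp hla]
    exact T.mem_S a haW

variable [hq : Fact q.Prime] (hS : T.CoreInS) (hV : V ⊆ T.W) (hqU : q ∉ U)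
  (hUV : insert q U = V)

/-- The trace on cohomology. -/
noncomputable def trCoh : Coh1 (scalarRep (T.char V) A) →ₗ[O] Coh1 (scalarRep (T.char U) A) :=
  charTrace A (T.dvd_level U) T.χ (T.not_dvd_face hV hqU hUV) ((T.dvd_level U).mul_left q) ∘ₗ
    charDegen A (T.dvd_level V) T.χ ((T.dvd_level U).mul_left q) one_ne_zero
      (T.insert_dvd_mul hqU hUV)

include hS in
lemma trCoh_heckeOp (ℓ : ℕ) [hℓ : Fact ℓ.Prime] (hℓS : ℓ ∉ T.S)
    (u : Coh1 (scalarRep (T.char V) A)) :
    T.trCoh A hV hqU hUV (heckeOp _ ℓ u) = heckeOp _ ℓ (T.trCoh A hV hqU hUV u) := by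
  have hqW := hV (mem_of_insert_eq hUV)
  have hℓq : ℓ ≠ q := fun h => hℓS (h ▸ T.mem_S q hqW)
  have : NeZero (T.level U) := ⟨T.level_ne_zero (T.face_subset hV hUV)⟩
  rw [trCoh, LinearMap.comp_apply, LinearMap.comp_apply,
    charDegen_heckeOp _ _ _ one_ne_zero _ hℓ.out.not_dvd_one
      (fun h => by rwa [← hUV, T.level_insert hqU]),
    charTrace_heckeOp_of_ne _ _ _ _ hℓq]

/-- The trace on localised cohomology. -/
noncomputable def tr : T.H V A →ₗ[O] T.H U A :=
  locLift (awayMonoid T.m) (T.trCoh A hV hqU hUV)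
    ((isAway_awayMonoid T.m).commute _ fun ℓ _ hℓ u =>
      T.trCoh_heckeOp A hS hV hqU hUV ℓ hℓ u)

variable {A}

lemma tr_mk (u : Coh1 (scalarRep (T.char V) A)) (s : awayMonoid T.m) :
    T.tr A hS hV hqU hUV (LocalizedModule.mk u s)
      = LocalizedModule.mk (charTrace A (T.dvd_level U) T.χ (T.not_dvd_face hV hqU hUV)
          ((T.dvd_level U).mul_left q) (charDegen A (T.dvd_level V) T.χ
            ((T.dvd_level U).mul_left q) one_ne_zero (T.insert_dvd_mul hqU hUV) u)) s :=
  locLift_mk _ _ _ _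

lemma tr_smul (a : AwayPoly O T.S) (x : T.H V A) :
    T.tr A hS hV hqU hUV (awayIncl O T.S a • x) = awayIncl O T.S a • T.tr A hS hV hqU hUV x :=
  locLift_smul _ _ _
    (map_awayIncl_smul _ (fun ℓ _ hℓ u => T.trCoh_heckeOp A hS hV hqU hUV ℓ hℓ u) a) x

/-- The trace commutes with the involutions at the other primes. -/
lemma w_tr {e : ℕ} (he : e ∈ U) (x : T.H V A) :
    T.w A (T.face_subset hV hUV) e (T.tr A hS hV hqU hUV x)
      = T.tr A hS hV hqU hUV (T.w A hV e x) := by
  have heV : e ∈ V := hUV ▸ Finset.mem_insert_of_mem he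
  induction x using LocalizedModule.induction_on with
  | _ u s =>
    rw [tr_mk, T.w_mk _ he, T.w_mk _ heV, tr_mk,
      alOp_charTrace (T.dvd_level U) T.χ _ ((T.dvd_level U).mul_left q)
        (T.isAL (T.face_subset hV hUV)) (T.isAL_mul hV hqU hUV) he heV,
      alOp_charDegen_one (T.dvd_level V) T.χ _ (T.isAL hV) (T.isAL_mul hV hqU hUV) heV heV]

/-- The trace commutes with the degeneracy maps prime to `q`. -/
lemma tr_res {V₁ U₁ : Finset ℕ} (h : V₁ ⊆ V) (h' : U₁ ⊆ U) (hqU₁ : q ∉ U₁)
    (hUV₁ : insert q U₁ = V₁) (x : T.H V₁ A) :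
    T.tr A hS hV hqU hUV (T.res A hV h x)
      = T.res A (T.face_subset hV hUV) h' (T.tr A hS (h.trans hV) hqU₁ hUV₁ x) := by
  induction x using LocalizedModule.induction_on with
  | _ u s =>
    rw [T.res_mk, tr_mk, tr_mk, T.res_mk, charDegen_one_comp,
      ← charTrace_charDegen_comm (T.dvd_level U₁) (T.dvd_level U) T.χ _
        (T.not_dvd_face hV hqU hUV) _ ((T.dvd_level U).mul_left q) (T.one_mul_level_dvd h')
        (by rw [one_mul]; exact Nat.mul_dvd_mul_left q (T.level_dvd h')),
      charDegen_one_comp]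

/-- `trace ∘ res = q + 1`. -/
lemma tr_res_self (x : T.H U A) :
    T.tr A hS hV hqU hUV (T.res A hV ((Finset.subset_insert q U).trans hUV.subset) x)
      = ((q : O) + 1) • x := by
  induction x using LocalizedModule.induction_on with
  | _ u s =>
    rw [T.res_mk, tr_mk, charDegen_one_comp, charTrace_charDegen_one]
    exact (LocalizedModule.smul'_mk _ _ _).symm

/-- The scalar relating `trace ∘ w_q` and the twisted trace. -/
noncomputable def twistConst (hq : q ∈ T.W) : O :=
  T.c q * T.χ (ZMod.unitOfCoprime q (T.coprime_M hq))⁻¹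

/-- `trace ∘ w_q ∘ res = c χ(q)⁻¹ T_q`. -/
lemma tr_w_res_self (x : T.H U A) :
    T.tr A hS hV hqU hUV
        (T.w A hV q (T.res A hV ((Finset.subset_insert q U).trans hUV.subset) x))
      = T.twistConst (hV (mem_of_insert_eq hUV)) •
          ((MvPolynomial.X (⟨q, hq.out⟩ : Nat.Primes) : HeckePoly O) • x) := by
  have hqV := mem_of_insert_eq hUV
  induction x using LocalizedModule.induction_on with
  | _ u s =>
    rw [T.res_mk, T.w_mk _ hqV, tr_mk,
      ← alOp_charDegen_one (T.dvd_level V) T.χ _ (T.isAL hV) (T.isAL_mul hV hqU hUV) hqV hqV,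
      charTrace_alOp_self (T.dvd_level U) T.χ _ _ (T.isAL_mul hV hqU hUV) hqV,
      charDegen_one_comp, charTraceTwist_charDegen_one, LocalizedModule.smul'_mk, X_smul,
      LocalizedModule.smul'_mk]
    rfl

/-- `(q + 1) + c χ(q)⁻¹ T_q`. -/
noncomputable def degOp (hqW : q ∈ T.W) (U : Finset ℕ) (A : Type uA) [AddCommGroup A]
    [Module O A] : Module.End O (T.H U A) :=
  ((q : O) + 1) • 1 +
    T.twistConst hqW • (DistribMulAction.toModuleEnd O (T.H U A))
      (MvPolynomial.X (⟨q, hq.out⟩ : Nat.Primes) : HeckePoly O)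

lemma degOp_apply (hqW : q ∈ T.W) (x : T.H U A) :
    T.degOp hqW U A x = ((q : O) + 1) • x +
      T.twistConst hqW • ((MvPolynomial.X (⟨q, hq.out⟩ : Nat.Primes) : HeckePoly O) • x) := rfl

/-- `trace ∘ (1 + w_q) ∘ res = (q + 1) + c χ(q)⁻¹ T_q`. -/
lemma tr_oldMap_self (x : T.H U A) :
    T.tr A hS hV hqU hUV (T.oldMap A hV ((Finset.subset_insert q U).trans hUV.subset) q x)
      = T.degOp (hV (mem_of_insert_eq hUV)) U A x := by
  rw [T.oldMap_apply, map_add, T.tr_res_self, T.tr_w_res_self, degOp_apply]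

lemma tr_mem_signed {x : T.H V A} (hx : x ∈ T.signed A hV) :
    T.tr A hS hV hqU hUV x ∈ T.signed A (T.face_subset hV hUV) :=
  T.mem_signed.mpr fun e he => by
    rw [T.w_tr hS hV hqU hUV he, T.mem_signed.mp hx e (hUV ▸ Finset.mem_insert_of_mem he)]

variable (A)

/-- The trace between signed parts. -/
noncomputable def down : T.signed A hV →ₗ[O] T.signed A (T.face_subset hV hUV) :=
  (T.tr A hS hV hqU hUV).restrict fun _ hx => T.tr_mem_signed hS hV hqU hUV hx

@[simp] lemma coe_down (x : T.signed A hV) :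
    (T.down A hS hV hqU hUV x : T.H U A) = T.tr A hS hV hqU hUV x := rfl

lemma down_oldSpace {B : Finset ℕ} (hqB : q ∉ B) :
    T.oldSpace A hV B
      ≤ (T.oldSpace A (T.face_subset hV hUV) B).comap (T.down A hS hV hqU hUV) := by
  refine iSup_le fun b => iSup_le fun hb => iSup_le fun hbB => ?_
  rintro _ ⟨⟨z, hz⟩, rfl⟩
  have hbq : b ≠ q := fun h => hqB (h ▸ hbB)
  have hbU : b ∈ U := (Finset.mem_insert.mp (hUV ▸ hb)).resolve_left hbq
  have hq₁ : q ∉ U.erase b := fun h => hqU (Finset.mem_of_mem_erase h)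
  have h₁ : insert q (U.erase b) = V.erase b := by
    rw [← hUV, Finset.erase_insert_of_ne hbq.symm]
  have hVb : V.erase b ⊆ T.W := (V.erase_subset b).trans hV
  rw [Submodule.mem_comap]
  convert T.oldSigned_mem_oldSpace A (T.face_subset hV hUV) hbU hbB
    ⟨T.tr A hS hVb hq₁ h₁ z, T.tr_mem_signed hS hVb hq₁ h₁ hz⟩ using 1
  refine Subtype.ext ?_
  rw [coe_down, coe_oldSigned, coe_oldSigned, T.oldMap_apply, T.oldMap_apply, map_add,
    ← T.w_tr hS hV hqU hUV hbU,
    T.tr_res hS hV hqU hUV (V.erase_subset b) (U.erase_subset b) hq₁ h₁]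

/-- The trace between new quotients. -/
noncomputable def downQuot {B : Finset ℕ} (hqB : q ∉ B) :
    T.NewQuot A hV B →ₗ[O] T.NewQuot A (T.face_subset hV hUV) B :=
  Submodule.mapQ _ _ (T.down A hS hV hqU hUV) (T.down_oldSpace A hS hV hqU hUV hqB)

section Complete

variable [IsNoetherianRing O] [IsAdicComplete (maximalIdeal O) O]

/-- A level at `q * level U` seen at `level V`. -/
noncomputable def fromMul :
    CohLoc (awayMonoid T.m) (pullRep (scalarRep (T.char U) O) (dvd_mul_left (T.level U) q))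
      →ₗ[O] T.H V O :=
  locLift (awayMonoid T.m)
    (charDegen O ((T.dvd_level U).mul_left q) T.χ (T.dvd_level V) one_ne_zero
        (T.mul_dvd_insert hqU hUV) ∘ₗ
      (castCoh (pullRep_scalarRep O (T.dvd_level U) T.χ _)).toLinearMap)
    ((isAway_awayMonoid T.m).commute _ fun ℓ hℓ hℓS u => by
      rw [LinearMap.comp_apply, LinearEquiv.coe_toLinearMap, castCoh_heckeOp,
        charDegen_heckeOp _ _ _ one_ne_zero _ hℓ.out.not_dvd_one fun h => ?_]
      · rfl
      · rwa [← T.level_insert hqU, hUV])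

omit [IsNoetherianRing O] [IsAdicComplete (maximalIdeal O) O] hq in
lemma liftable_residue (V : Finset ℕ) : Liftable (ResidueField O) (T.level V) :=
  (T.liftable V).imp
    (fun h => h.imp_left fun hu => by simpa only [map_ofNat] using hu.map (residue O))
    fun h => h.imp_left fun hu => by simpa only [map_ofNat] using hu.map (residue O)

lemma exists_tr_eq (H : IharaPrimes (awayMonoid T.m) (T.level U) q 2) (a b : T.H U O) :
    ∃ z : T.H V O, T.tr O hS hV hqU hUV z = a ∧
      T.tr O hS hV hqU hUV (T.w O hV q z) = T.twistConst (hV (mem_of_insert_eq hUV)) • b := by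
  have hU := T.face_subset hV hUV
  have hqN := T.not_dvd_face hV hqU hUV
  have hqV := mem_of_insert_eq hUV
  have : NeZero (T.level U) := ⟨T.level_ne_zero hU⟩
  have : CharP (ResidueField O) 2 := by
    refine CharTwo.of_one_ne_zero_of_two_eq_zero one_ne_zero ?_
    rw [← map_ofNat (residue O) 2, residue_eq_zero_iff]
    exact T.two
  have hE' : ExactHyp (awayMonoid T.m) (upChar q (T.char U)) := by
    have e : T.level V = q * T.level U := by rw [← hUV, T.level_insert hqU]
    obtain ⟨h1, h2, -⟩ := T.exact hV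
    refine ⟨e ▸ h1, e ▸ h2, ?_⟩
    show T.χ (ZMod.unitsMap _ (ZMod.unitsMap _ (-1))) = 1
    rw [show ZMod.unitsMap (T.dvd_level U) (ZMod.unitsMap (dvd_mul_left (T.level U) q) (-1)) = -1
      from Units.ext (by simp [ZMod.unitsMap_def]), T.even]
  obtain ⟨v, s, rfl, rfl⟩ := exists_mk_trace_eq (p := 2) T.le (T.mem_S q (hV hqV)) hE' H hqN
    (fun u => T.char_one _) (T.liftable U) (T.liftable_residue U) (T.exact hU).even a b
  refine ⟨T.fromMul hqU hUV (LocalizedModule.mk v s), ?_, ?_⟩
  · rw [fromMul, locLift_mk, tr_mk, LinearMap.comp_apply,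
      LinearEquiv.coe_toLinearMap, charDegen_one_comp, charDegen_one_self, charTrace_eq,
      LinearEquiv.symm_apply_apply]
  · rw [fromMul, locLift_mk, T.w_mk _ hqV, tr_mk,
      LinearMap.comp_apply, LinearEquiv.coe_toLinearMap,
      ← alOp_charDegen_one (T.dvd_level V) T.χ _ (T.isAL hV) (T.isAL_mul hV hqU hUV) hqV hqV,
      charTrace_alOp_self (T.dvd_level U) T.χ _ _ (T.isAL_mul hV hqU hUV) hqV,
      charDegen_one_comp, charDegen_one_self, charTraceTwist_eq, LinearEquiv.symm_apply_apply,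
      LocalizedModule.smul'_mk]
    rfl

/-- The trace between signed parts is onto. -/
theorem down_surjective (H : IharaPrimes (awayMonoid T.m) (T.level U) q 2) :
    Function.Surjective (T.down O hS hV hqU hUV) := by
  have hU := T.face_subset hV hUV
  have hqV := mem_of_insert_eq hUV
  have hUsub : U ⊆ V := (Finset.subset_insert q U).trans hUV.subset
  have : NeZero (T.level U) := ⟨T.level_ne_zero hU⟩
  obtain ⟨_, _⟩ := T.free_H hU
  have hres := (T.alHyp hU).residuallyExact fun a ha => T.mem_S a (hU ha)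
  have key : ∀ X : Finset ℕ, X ⊆ U → ∀ y ∈ fixedPart (T.w O hU) X,
      ∃ z ∈ fixedPart (T.w O hV) X,
        T.tr O hS hV hqU hUV z = y ∧ T.tr O hS hV hqU hUV (T.w O hV q z) = 0 := by
    intro X
    induction X using Finset.induction_on with
    | empty =>
      intro _ y _
      obtain ⟨z, h1, h2⟩ := T.exists_tr_eq hS hV hqU hUV H y 0
      exact ⟨z, (mem_fixedPart _).mpr fun e he => absurd he (Finset.notMem_empty e), h1,
        by rw [h2, smul_zero]⟩
    | insert e X heX ih =>
      intro hX y hy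
      have heU : e ∈ U := hX (Finset.mem_insert_self e X)
      obtain ⟨y', hy', rfl⟩ := (fixedPart_spec (T.w O hU) (W := U)
        (fun a ha => T.w_w hU ha) (fun a ha a' ha' => T.w_comm hU ha ha') T.two hres
        (insert e X) hX).2.2 e (Finset.mem_insert_self e X) y hy X (Finset.subset_insert e X) heX
      obtain ⟨z, hz, h1, h2⟩ := ih ((Finset.subset_insert e X).trans hX) y' hy'
      refine ⟨z + T.w O hV e z, (mem_fixedPart _).mpr fun a ha => ?_, ?_, ?_⟩
      · rw [map_add]
        rcases Finset.mem_insert.mp ha with rfl | ha'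
        · rw [T.w_w hV (hUsub heU), add_comm]
        · rw [T.w_comm hV (hUsub (hX (Finset.mem_insert_of_mem ha'))) (hUsub heU),
            (mem_fixedPart _).mp hz a ha']
      · rw [map_add, ← T.w_tr hS hV hqU hUV heU, h1]
      · rw [map_add, map_add, h2, zero_add, T.w_comm hV hqV (hUsub heU),
          ← T.w_tr hS hV hqU hUV heU, h2, map_zero]
  intro y
  obtain ⟨z, hz, h1, h2⟩ := key U subset_rfl (y : T.H U O) y.2
  refine ⟨⟨z + T.w O hV q z, T.mem_signed.mpr fun a ha => ?_⟩, Subtype.ext ?_⟩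
  · rw [map_add]
    rcases Finset.mem_insert.mp (hUV ▸ ha) with rfl | ha'
    · rw [T.w_w hV hqV, add_comm]
    · rw [T.w_comm hV ha hqV, (mem_fixedPart _).mp hz a ha']
  · rw [coe_down, map_add, h1, h2, add_zero]

omit [IsNoetherianRing O] [IsAdicComplete (maximalIdeal O) O] in
lemma down_oldSigned {b : ℕ} (hb : b ∈ V) (hbq : b = q)
    (x : T.signed A ((V.erase_subset b).trans hV)) :
    ∃ y : T.signed A (T.face_subset hV hUV), HEq x y ∧
      (T.down A hS hV hqU hUV (T.oldSigned A hV hb x) : T.H U A)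
        = T.degOp (hV (mem_of_insert_eq hUV)) U A y := by
  subst hbq
  obtain rfl : U = V.erase b := by rw [← hUV, Finset.erase_insert hqU]
  exact ⟨x, HEq.rfl, T.tr_oldMap_self hS hV hqU hUV (x : T.H (V.erase b) A)⟩

end Complete

end ALSetup

end Fermat.Agent.TwoAdic
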