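import Fermat.Agent.TwoAdic.Modules.IsoInstances

/-!
The prime of the Hecke algebra acts nilpotently modulo the maximal ideal, and forgetting primes
whose operators are scalars modulo nilpotents does not change the setups.
-/

set_option autoImplicit false

open CongruenceSubgroup IsLocalRing

namespace Fermat.Agent.TwoAdic

open HeckeJ0 LevelRaising HeckeModule

attribute [local instance] ALSetup.isPrime

/-- Elements of the prime act nilpotently modulo the maximal ideal. -/
theorem awayIncl_mem_nilModIdeal {O : Type} [CommRing O] [IsLocalRing O] {A : Type} [AddCommGroup A]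
    [Module O A] {N : ℕ} {ρ : Representation O (ZMod N)ˣ A} {S : Set ℕ}
    (m : Ideal (AwayPoly O S)) [m.IsPrime] [Module.Finite O (CohLoc (awayMonoid m) ρ)]
    {a : AwayPoly O S} (ha : a ∈ m) :
    awayIncl O S a ∈ nilModIdeal (CohLoc (awayMonoid m) ρ) := by
  classical
  let L := Algebra.lsmul O O (CohLoc (awayMonoid m) ρ) (A := HeckePoly O)
  obtain ⟨f, hf, hfa⟩ := LinearMap.exists_monic_and_aeval_eq_zero O (L (awayIncl O S a))
  have hex : ∃ i, IsUnit (f.coeff i) := ⟨f.natDegree, by rw [hf.coeff_natDegree]; exact isUnit_one⟩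
  set n := Nat.find hex with hn_def
  set q := f /ₘ (Polynomial.X ^ n) with hq_def
  set r := f %ₘ (Polynomial.X ^ n) with hr_def
  have hf' : r + Polynomial.X ^ n * q = f := Polynomial.modByMonic_add_div f _
  have hdeg : r.degree < n := by
    have := Polynomial.degree_modByMonic_lt f (Polynomial.monic_X_pow (R := O) n)
    rwa [Polynomial.degree_X_pow] at this
  have hr : ∀ i, r.coeff i ∈ maximalIdeal O := fun i => by
    by_cases hi : i < n
    · have hi' : r.coeff i = f.coeff i := by
        conv_rhs => rw [← hf']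
        rw [Polynomial.coeff_add, Polynomial.coeff_X_pow_mul', if_neg (not_le.mpr hi), add_zero]
      rw [hi']
      exact (IsLocalRing.mem_maximalIdeal _).mpr (Nat.find_min hex hi)
    · rw [Polynomial.coeff_eq_zero_of_degree_lt (lt_of_lt_of_le hdeg (by exact_mod_cast not_lt.mp hi))]
      exact zero_mem _
  have hq0 : IsUnit (q.coeff 0) := by
    have h : f.coeff n = q.coeff 0 := by
      conv_lhs => rw [← hf']
      rw [Polynomial.coeff_add, Polynomial.coeff_eq_zero_of_degree_lt hdeg, zero_add,
        Polynomial.coeff_X_pow_mul', if_pos le_rfl, Nat.sub_self]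
    exact h ▸ Nat.find_spec hex
  have hqm : Polynomial.aeval a q ∉ m := fun h => by
    have h0 : algebraMap O (AwayPoly O S) (q.coeff 0) ∈ m := by
      have : q = Polynomial.C (q.coeff 0) + Polynomial.X * q.divX := by
        rw [add_comm, Polynomial.X_mul_divX_add]
      rw [this, map_add, Polynomial.aeval_C, map_mul, Polynomial.aeval_X] at h
      exact (m.add_mem_iff_left (m.mul_mem_right _ ha)).mp h
    exact Ideal.IsPrime.ne_top ‹_› (Ideal.eq_top_of_isUnit_mem m h0 (hq0.map _))
  refine (mem_nilModIdeal _).mpr ⟨n, fun x => ?_⟩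
  obtain ⟨y, rfl⟩ := (bijective_smul_of_mem (ρ := ρ) (mem_awayMonoid hqm)).2 x
  have h0 : L (Polynomial.aeval (awayIncl O S a) f) y = 0 := by
    rw [← Polynomial.aeval_algHom_apply, hfa, LinearMap.zero_apply]
  rw [← hf', map_add, map_add, map_mul, map_pow, Polynomial.aeval_X, LinearMap.add_apply] at h0
  have h1 : L (awayIncl O S a ^ n * Polynomial.aeval (awayIncl O S a) q) y
      = awayIncl O S a ^ n • awayIncl O S (Polynomial.aeval a q) • y := by
    rw [← Polynomial.aeval_algHom_apply, smul_smul]
    rfl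
  show awayIncl O S a ^ n • awayIncl O S (Polynomial.aeval a q) • y ∈ _
  rw [← h1, eq_neg_of_add_eq_zero_right h0]
  refine neg_mem ?_
  rw [Polynomial.aeval_eq_sum_range, map_sum, LinearMap.sum_apply]
  refine sum_mem fun i _ => ?_
  rw [map_smul, LinearMap.smul_apply]
  exact Submodule.smul_mem_smul (hr i) Submodule.mem_top

namespace ALSetup

variable {O : Type} [CommRing O] [IsLocalRing O] (T : ALSetup O)

/-- The setup where the primes outside `S'` are forgotten at the values `t`. -/
@[reducible] noncomputable def relax (S' : Set ℕ) (hS : S' ⊆ T.S) (t : ℕ → O)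
    (hW : ∀ e ∈ T.W, e ∈ S') : ALSetup O where
  core := T.core
  M := T.M
  W := T.W
  χ := T.χ
  c := T.c
  S := S'
  m := relaxIdeal T.m S' t
  core_ne := T.core_ne
  prime := T.prime
  notDvd := T.notDvd
  dvd_core := T.dvd_core
  mem_S := hW
  isPrime := inferInstance
  le := le_relaxIdeal t T.m T.le
  two := T.two
  char_one := T.char_one
  even := T.even
  sq := T.sq
  eisenstein := by
    obtain ⟨ℓ, hℓ, hℓS, h1, hm⟩ := T.eisenstein
    refine ⟨ℓ, hℓ, fun h => hℓS (hS h), h1, fun h => hm ?_⟩
    rw [Ideal.mem_comap, map_sub, ← MvPolynomial.algebraMap_eq, AlgHom.commutes,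
      MvPolynomial.algebraMap_eq, awayX, relaxHom, MvPolynomial.aeval_X, dif_neg hℓS] at h
    exact h
  elliptic₄ := T.elliptic₄
  elliptic₃ := T.elliptic₃
  quartic := T.quartic

variable {S' : Set ℕ} (hS : S' ⊆ T.S) (t : ℕ → O) (hW : ∀ e ∈ T.W, e ∈ S')
  (A : Type) [AddCommGroup A] [Module O A]

/-- The map at level `V`. -/
noncomputable def relaxH (V : Finset ℕ) : T.H V A →ₗ[O] (T.relax S' hS t hW).H V A :=
  (locMono (awayMonoid_le_relax hS t T.m)).restrictScalars O

lemma relaxH_mk (V : Finset ℕ) (u : Coh1 (scalarRep (T.char V) A)) (s : awayMonoid T.m) :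
    T.relaxH hS t hW A V (LocalizedModule.mk u s) = LocalizedModule.mk u
      (⟨(s : HeckePoly O), awayMonoid_le_relax hS t T.m s.2⟩ :
        awayMonoid (T.relax S' hS t hW).m) :=
  locMono_mk _ u s

/-- **Forgetting primes changes nothing.** -/
noncomputable def relaxIso (hfin : ∀ V, V ⊆ T.W → Module.Finite O (T.H V A))
    (ht : ∀ (l : Nat.Primes), (l : ℕ) ∈ T.S → (l : ℕ) ∉ S' → ∀ V, V ⊆ T.W →
      MvPolynomial.X l - MvPolynomial.C (t l) ∈ nilModIdeal (T.H V A)) :
    LevelIso T (T.relax S' hS t hW) A where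
  subW := subset_rfl
  subS := hS
  toFun := T.relaxH hS t hW A
  bij hV := haveI := hfin _ hV; locMono_relax_bijective hS t T.m fun l h h' => ht l h h' _ hV
  map_w {V} hV e he x := by
    induction x using LocalizedModule.induction_on with
    | _ u s =>
      rw [T.w_mk hV he, relaxH_mk, relaxH_mk, (T.relax S' hS t hW).w_mk (V := V) hV he]
  map_res {V V'} hV h x := by
    induction x using LocalizedModule.induction_on with
    | _ u s =>
      rw [T.res_mk hV h, relaxH_mk, relaxH_mk, (T.relax S' hS t hW).res_mk (V := V) hV h]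
  map_X _ l _ x := (locMono (awayMonoid_le_relax hS t T.m)).map_smul (MvPolynomial.X l) x

/-- Finiteness of the localised cohomology. -/
lemma finite_H [IsNoetherianRing O] [IsAdicComplete (maximalIdeal O) O] [Module.Finite O A] {V : Finset ℕ} (hV : V ⊆ T.W) :
    Module.Finite O (T.H V A) :=
  haveI : NeZero (T.level V) := ⟨T.level_ne_zero hV⟩
  finite_cohLoc (scalarRep (T.char V) A) T.m T.le

end ALSetup

end Fermat.Agent.TwoAdic
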