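import Fermat.Agent.TwoAdic.Modules.IsoInstances

/-!
Taylor–Wiles levels: adding several auxiliary primes with simple roots and lifting the scalars to a
ring over `O` keeps the new quotients free, with the old ones as base.
-/

set_option autoImplicit false

open CongruenceSubgroup IsLocalRing

namespace Fermat.Agent.TwoAdic

open HeckeJ0 LevelRaising HeckeModule

attribute [local instance] ALSetup.isPrime

/-- Nilpotence modulo the maximal ideal passes to quotients. -/
lemma nilModIdeal_le_of_surjective {O : Type} [CommRing O] [IsLocalRing O] {E E' : Type}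
    [AddCommGroup E] [Module O E] [Module (HeckePoly O) E] [IsScalarTower O (HeckePoly O) E]
    [AddCommGroup E'] [Module O E'] [Module (HeckePoly O) E'] [IsScalarTower O (HeckePoly O) E']
    (f : E →ₗ[HeckePoly O] E') (hf : Function.Surjective f) :
    nilModIdeal (O := O) E ≤ nilModIdeal (O := O) E' := fun a ha => by
  obtain ⟨n, hn⟩ := (mem_nilModIdeal E).mp ha
  refine (mem_nilModIdeal E').mpr ⟨n, fun y => ?_⟩
  obtain ⟨x, rfl⟩ := hf y
  rw [← map_smul]
  exact map_mem_smul_top (f.restrictScalars O) _ (hn x)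

lemma relaxHom_self_apply {O : Type} [CommRing O] (S : Set ℕ) (t : ℕ → O) (a : AwayPoly O S) :
    relaxHom O S S t a = a := by
  induction a using MvPolynomial.induction_on with
  | C r => rw [← MvPolynomial.algebraMap_eq, AlgHom.commutes]
  | add p p' hp hp' => rw [map_add, hp, hp']
  | mul_X p l hp => rw [map_mul, hp, relaxHom, MvPolynomial.aeval_X, dif_neg l.2]

lemma relaxHom_relaxHom_apply {O : Type} [CommRing O] {S S₁ S₂ : Set ℕ} (h : S₁ ⊆ S)
    (t t₁ : ℕ → O) (ht : ∀ l : ℕ, l ∈ S → l ∉ S₁ → t₁ l = t l) (a : AwayPoly O S₂) :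
    relaxHom O S S₁ t₁ (relaxHom O S₁ S₂ t a) = relaxHom O S S₂ t a := by
  induction a using MvPolynomial.induction_on with
  | C r => rw [← MvPolynomial.algebraMap_eq, AlgHom.commutes, AlgHom.commutes, AlgHom.commutes]
  | add p p' hp hp' => rw [map_add, map_add, map_add, hp, hp']
  | mul_X p l hp =>
    rw [map_mul, map_mul, map_mul, hp]
    congr 1
    simp only [relaxHom, MvPolynomial.aeval_X]
    by_cases h1 : ((l : Nat.Primes) : ℕ) ∈ S₁
    · rw [dif_pos h1, dif_pos (h h1), MvPolynomial.aeval_C, MvPolynomial.algebraMap_eq]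
    · rw [dif_neg h1, MvPolynomial.aeval_X]
      by_cases hS : ((l : Nat.Primes) : ℕ) ∈ S
      · rw [dif_pos hS, dif_pos hS, ht _ hS h1]
      · rw [dif_neg hS, dif_neg hS]

lemma restrictAway_map_restrictAway {R O : Type} [CommRing R] [CommRing O] (σ : R →+* O)
    {S S₁ S₂ : Set ℕ} (h : S₁ ⊆ S) (h' : S₂ ⊆ S₁) (a : AwayPoly R S) :
    restrictAway O h' (MvPolynomial.map σ (restrictAway R h a))
      = restrictAway O (h'.trans h) (MvPolynomial.map σ a) := by
  simp only [restrictAway, MvPolynomial.map_rename, MvPolynomial.rename_rename]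
  rfl

namespace ALSetup

variable {O : Type} [CommRing O] [IsLocalRing O]

/-- Taylor–Wiles primes of a setup, with the two roots of `T_q`. -/
structure TWPrimes (T : ALSetup O) (Q : Finset ℕ) (α β : ℕ → O) : Prop where
  prime : ∀ q ∈ Q, q.Prime
  not_dvd : ∀ q ∈ Q, ¬ q ∣ T.level T.W
  mem_S : ∀ q ∈ Q, q ∈ T.S
  eisenstein : ∃ (ℓ : ℕ) (hℓ : ℓ.Prime) (hS : ℓ ∉ T.S),
    (ℓ : ZMod (prodOf Q * T.core * prodOf T.W)) = 1 ∧
      awayX O hℓ hS - MvPolynomial.C ((ℓ : O) + 1) ∉ T.m
  mul_sub : ∀ q ∈ Q, α q * β q - q ∈ maximalIdeal O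
  diff : ∀ q ∈ Q, IsUnit (α q - β q)
  sq : ∀ q ∈ Q, IsUnit (α q * α q - 1)
  det : ∀ q ∈ Q, IsUnit (((q : O) + 1) * ((q : O) + 1) - (α q + β q) * (α q + β q))
  nil : ∀ (l : Nat.Primes), (l : ℕ) ∈ Q → ∀ V, V ⊆ T.W →
    MvPolynomial.X l - MvPolynomial.C (α l + β l) ∈ nilModIdeal (T.H V O)

variable [IsNoetherianRing O] [IsAdicComplete (maximalIdeal O) O]

/-- **Auxiliary primes change nothing.** -/
theorem exists_twSetup (Q : Finset ℕ) (α β : ℕ → O) :
    ∀ T : ALSetup O, T.χ = 1 → T.TWPrimes Q α β →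
      ∃ T' : ALSetup O, T'.core = prodOf Q * T.core ∧ T'.M = T.M ∧ T'.W = T.W ∧ T'.c = T.c ∧
        T'.χ = 1 ∧ T'.S = T.S \ Q ∧
        (∀ a, a ∈ T'.m ↔ relaxHom O T.S T'.S α a ∈ T.m) ∧
        Nonempty (LevelIso T T' O) ∧ Nonempty (LevelIso T T' (O ⧸ maximalIdeal O)) := by
  classical
  induction Q using Finset.induction_on with
  | empty =>
    intro T hχ _
    refine ⟨T, by simp [prodOf], rfl, rfl, rfl, hχ, by simp, fun a => ?_, ⟨LevelIso.refl T O⟩,
      ⟨LevelIso.refl T _⟩⟩
    rw [relaxHom_self_apply]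
  | insert q Q hqQ ih =>
    intro T hχ D
    have hq : q ∈ insert q Q := Finset.mem_insert_self q Q
    have hsub : Q ⊆ insert q Q := Finset.subset_insert q Q
    have hp := D.prime q hq
    have hprod : prodOf (insert q Q) = q * prodOf Q := Finset.prod_insert hqQ
    obtain ⟨ℓ, hℓ, hS, h1, hm⟩ := D.eisenstein
    have hcast : ∀ d : ℕ, d ∣ prodOf (insert q Q) * T.core * prodOf T.W → (ℓ : ZMod d) = 1 :=
      fun d hd => by
        have := congrArg (ZMod.castHom hd (ZMod d)) h1
        rwa [map_natCast, map_one] at this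
    let P : T.Aux :=
      { q := q, α := α q, prime := hp, not_dvd := D.not_dvd q hq, mem_S := D.mem_S q hq
        eisenstein := ⟨ℓ, hℓ, hS, hcast _ ⟨prodOf Q, by rw [hprod]; ring⟩, hm⟩ }
    have : Fact P.q.Prime := ⟨hp⟩
    have hnilk : ∀ V, V ⊆ T.W →
        MvPolynomial.X (⟨q, hp⟩ : Nat.Primes) - MvPolynomial.C (α q + β q)
          ∈ nilModIdeal (T.H V (O ⧸ maximalIdeal O)) := fun V hV =>
      nilModIdeal_le_of_surjective
        (charMap (awayMonoid T.m) (T.char V) (maximalIdeal O).mkQ)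
        (haveI : NeZero (T.level V) := ⟨T.level_ne_zero hV⟩
         charMap_surjective (T.exact hV) _ (Submodule.mkQ_surjective _))
        (D.nil ⟨q, hp⟩ hq V hV)
    have hO : P.Regular (β q) O := fun V hV =>
      ⟨D.mul_sub q hq, D.diff q hq, D.sq q hq, D.det q hq, D.nil ⟨q, hp⟩ hq V hV⟩
    have hk : P.Regular (β q) (O ⧸ maximalIdeal O) := fun V hV =>
      ⟨D.mul_sub q hq, D.diff q hq, D.sq q hq, D.det q hq, hnilk V hV⟩
    have hne : ∀ x ∈ Q, x ≠ q := fun x hx h => hqQ (h ▸ hx)
    have D' : (T.addAux P).TWPrimes Q α β :=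
      { prime := fun x hx => D.prime x (hsub hx)
        not_dvd := fun x hx h => by
          rw [level_addAux] at h
          rcases (D.prime x (hsub hx)).dvd_mul.mp h with h | h
          · exact hne x hx ((Nat.prime_dvd_prime_iff_eq (D.prime x (hsub hx)) hp).mp h)
          · exact D.not_dvd x (hsub hx) h
        mem_S := fun x hx => ⟨D.mem_S x (hsub hx), fun h => hne x hx (Set.mem_singleton_iff.mp h)⟩
        eisenstein := ⟨ℓ, hℓ, fun h => hS h.1, hcast _ (by
          refine dvd_of_eq ?_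
          show prodOf Q * (P.q * T.core) * prodOf T.W = _
          rw [hprod]; show prodOf Q * (q * T.core) * prodOf T.W = _; ring), fun h => hm (by
            rw [Ideal.mem_comap, map_sub, ← MvPolynomial.algebraMap_eq, AlgHom.commutes,
              MvPolynomial.algebraMap_eq, awayX, relaxHom, MvPolynomial.aeval_X, dif_neg hS] at h
            exact h)⟩
        mul_sub := fun x hx => D.mul_sub x (hsub hx)
        diff := fun x hx => D.diff x (hsub hx)
        sq := fun x hx => D.sq x (hsub hx)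
        det := fun x hx => D.det x (hsub hx)
        nil := fun l hl V hV => LevelIso.mem_nilModIdeal_of_iso (auxIso P O hχ hO) hV
          (Or.inl ⟨D.mem_S _ (hsub hl), fun h => hne _ hl (Set.mem_singleton_iff.mp h)⟩) _
          (D.nil l (hsub hl) V hV) }
    obtain ⟨T', hcore, hM, hW, hc, hχ', hS', hmem, ⟨E⟩, ⟨Ek⟩⟩ := ih (T.addAux P) hχ D'
    refine ⟨T', by rw [hcore, hprod]; show prodOf Q * (q * T.core) = _; ring, hM, hW, hc, hχ', ?_,
      fun a => ?_, ⟨(auxIso P O hχ hO).trans E⟩,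
      ⟨(auxIso P (O ⧸ maximalIdeal O) hχ hk).trans Ek⟩⟩
    · rw [hS', Finset.coe_insert]
      show (T.S \ {q}) \ (Q : Set ℕ) = _
      rw [Set.sdiff_sdiff, Set.singleton_union]
    · rw [hmem a, Ideal.mem_comap]
      show relaxHom O T.S (T.S \ {q}) (fun _ => α q) (relaxHom O (T.S \ {q}) T'.S α a) ∈ T.m ↔ _
      rw [relaxHom_relaxHom_apply Set.sdiff_subset α (fun _ => α q) fun l hl h => by
        rw [show l = q from not_not.mp fun hne' => h ⟨hl, hne'⟩]]

end ALSetup

section Base

namespace ALSetup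

variable {R O : Type} [CommRing R] [IsLocalRing R] [IsNoetherianRing R]
  [IsAdicComplete (maximalIdeal R) R] [CommRing O] [IsLocalRing O] [IsNoetherianRing O]
  [IsAdicComplete (maximalIdeal O) O] {σ : R →+* O}

/-- **The modules of a Taylor–Wiles level.** Over the lifted scalars they are free, and their
reduction along `σ` is the module of the base setup. -/
theorem exists_twBase (T : ALSetup O) {T' : ALSetup O} (hχ' : T'.χ = 1) (E : LevelIso T T' O)
    (Ek : LevelIso T T' (O ⧸ maximalIdeal O)) (hσ : Function.Surjective σ) (L : T'.LiftChar σ)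
    {V B : Finset ℕ} (hV : V ⊆ T.W) (hBV : B ⊆ V) (hcube : T.CubeInjective hV B) :
    Module.Finite R ((T'.lift hσ L).NewQuot R (hV.trans E.subW) B) ∧
      Module.Free R ((T'.lift hσ L).NewQuot R (hV.trans E.subW) B) ∧
      ∃ g : (T'.lift hσ L).NewQuot R (hV.trans E.subW) B →ₛₗ[σ] T.NewQuot O hV B,
        Function.Surjective g ∧
        (∀ x, g x = 0 ↔ x ∈ RingHom.ker σ • (⊤ : Submodule R _)) ∧
        (∀ (a : AwayPoly R T.S) x,
          g ((T'.lift hσ L).newAct R (hV.trans E.subW) B (restrictAway R E.subS a) x)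
            = T.newAct O hV B (MvPolynomial.map σ a) (g x)) ∧
        ∀ {ι : Type} [Fintype ι]
          (b : Module.Basis ι R ((T'.lift hσ L).NewQuot R (hV.trans E.subW) B)),
          ∃ b' : Module.Basis ι O (T.NewQuot O hV B), ∀ i, b' i = g (b i) := by
  have hV' : V ⊆ T'.W := hV.trans E.subW
  let I := T'.liftIso hσ L O hχ'
  have hcube' : (T'.lift hσ L).CubeInjective hV' B := by
    rw [← (T'.lift hσ L).cubeInjective_map hσ hV' B,
      ← (T'.liftIso hσ L (O ⧸ maximalIdeal O) hχ').cubeInjective_iff hV' B,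
      Ek.cubeInjective_iff hV B]
    exact hcube
  obtain ⟨hfin, hfree⟩ := (T'.lift hσ L).free_newQuot hV' hBV hcube'
  let e : ((T'.lift hσ L).map hσ).NewQuot O hV' B ≃ₗ[O] T.NewQuot O hV B :=
    (I.quotEquiv hV' B).trans (E.quotEquiv hV B).symm
  refine ⟨hfin, hfree, e.toLinearMap.comp ((T'.lift hσ L).baseQuot hσ hV' B),
    e.surjective.comp ((T'.lift hσ L).baseQuot_surjective hσ hV' B), fun x => ?_, fun a x => ?_,
    fun {ι} _ b => ?_⟩
  · exact e.map_eq_zero_iff.trans ((T'.lift hσ L).baseQuot_eq_zero_iff hσ hV' B x)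
  · have h1 := (T'.lift hσ L).changeQuot_newAct hσ σ.toSemilinearMap hV' B
      (restrictAway R E.subS a) x
    have h2 := I.quotEquiv_newAct hV' B
      (MvPolynomial.map σ (restrictAway R E.subS a)) ((T'.lift hσ L).baseQuot hσ hV' B x)
    have h3 : restrictAway O I.subS (MvPolynomial.map σ (restrictAway R E.subS a))
        = restrictAway O E.subS (MvPolynomial.map σ a) := by
      exact restrictAway_map_restrictAway σ E.subS subset_rfl a
    have h4 := E.quotEquiv_newAct hV B (MvPolynomial.map σ a)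
      ((E.quotEquiv hV B).symm (I.quotEquiv hV' B ((T'.lift hσ L).baseQuot hσ hV' B x)))
    rw [LinearEquiv.apply_symm_apply] at h4
    refine (E.quotEquiv hV B).symm_apply_eq.mpr ?_
    exact (congrArg (I.quotEquiv hV' B) h1).trans (h2.trans ((congrArg
      (fun b => T'.newAct O hV' B b (I.quotEquiv hV' B ((T'.lift hσ L).baseQuot hσ hV' B x))) h3).trans
        h4.symm))
  · obtain ⟨b', hb'⟩ := (T'.lift hσ L).exists_basis_baseQuot hσ hV' B b
    refine ⟨b'.map e, fun i => ?_⟩
    rw [Module.Basis.map_apply, hb']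
    rfl

end ALSetup

end Base

end Fermat.Agent.TwoAdic
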