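import Fermat.Agent.TwoAdic.PatchingQuadratic
import Fermat.Agent.TwoAdic.Modules.TWSetup
import Fermat.Agent.Engine.Coefficients

/-!
The patching system of the Taylor–Wiles levels: free modules over the rings `TwQuot O 2 r n` with
a common base give the hypotheses of quadratic patching.
-/

set_option autoImplicit false

open IsLocalRing Filter

namespace Fermat.Agent.TwoAdic

/-- A given basis of the reduction lifts to a basis. -/
theorem exists_basis_lift {R O : Type} [CommRing R] [IsLocalRing R] [CommRing O] [Nontrivial O]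
    {σ : R →+* O} (hσ : Function.Surjective σ) {N : Type} [AddCommGroup N] [Module R N]
    [Module.Finite R N] [Module.Free R N] {M₀ : Type} [AddCommGroup M₀] [Module O M₀]
    (g : N →ₛₗ[σ] M₀) (hg : Function.Surjective g)
    (hker : ∀ x, g x = 0 → x ∈ RingHom.ker σ • (⊤ : Submodule R N))
    (hb : ∀ {ι : Type} [Fintype ι] (b : Module.Basis ι R N),
      ∃ b' : Module.Basis ι O M₀, ∀ i, b' i = g (b i))
    {d : ℕ} (b₀ : Module.Basis (Fin d) O M₀) :
    ∃ e : Module.Basis (Fin d) R N, ∀ j, g (e j) = b₀ j := by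
  classical
  have : RingHomSurjective σ := ⟨hσ⟩
  let c := Module.Free.chooseBasis R N
  obtain ⟨b', -⟩ := hb c
  let c' := c.reindex (b'.indexEquiv b₀)
  choose x hx using fun j => hg (b₀ j)
  let f : N →ₗ[R] N := c'.constr R x
  have hf : Function.Surjective f := by
    rw [← LinearMap.range_eq_top, Module.Basis.constr_range]
    refine top_le_iff.mp (Submodule.le_of_le_smul_of_le_jacobson_bot (I := RingHom.ker σ)
      Module.Finite.fg_top ?_ ?_)
    · rw [IsLocalRing.jacobson_eq_maximalIdeal]
      exacts [IsLocalRing.le_maximalIdeal (RingHom.ker_ne_top σ), bot_ne_top]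
    · intro y _
      choose r hr using fun j => hσ (b₀.repr (g y) j)
      have h : g (y - ∑ j, r j • x j) = 0 := by
        rw [map_sub, map_sum, sub_eq_zero]
        conv_lhs => rw [← b₀.sum_repr (g y)]
        exact Finset.sum_congr rfl fun j _ => by rw [LinearMap.map_smulₛₗ, hr, hx]
      rw [show y = (∑ j, r j • x j) + (y - ∑ j, r j • x j) by abel]
      exact add_mem (Submodule.mem_sup_left (sum_mem fun j _ =>
        Submodule.smul_mem _ _ (Submodule.subset_span ⟨j, rfl⟩)))
        (Submodule.mem_sup_right (hker _ h))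
  refine ⟨c'.map (LinearEquiv.ofBijective f
    (OrzechProperty.bijective_of_surjective_endomorphism f hf)), fun j => ?_⟩
  rw [Module.Basis.map_apply, LinearEquiv.ofBijective_apply]
  show g (c'.constr R x (c' j)) = _
  rw [Module.Basis.constr_basis, hx]

namespace ALSetup

open HeckeJ0 LevelRaising HeckeModule

attribute [local instance] ALSetup.isPrime

variable {R O : Type} [CommRing R] [IsLocalRing R] [IsNoetherianRing R]
  [IsAdicComplete (maximalIdeal R) R] [CommRing O] [IsLocalRing O] [IsNoetherianRing O]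
  [IsAdicComplete (maximalIdeal O) O] {σ : R →+* O}

/-- The base of a Taylor–Wiles level, with a basis over the given one. -/
theorem exists_twBasis (T : ALSetup O) {T' : ALSetup O} (hχ' : T'.χ = 1) (E : LevelIso T T' O)
    (Ek : LevelIso T T' (O ⧸ maximalIdeal O)) (hσ : Function.Surjective σ) (L : T'.LiftChar σ)
    {V B : Finset ℕ} (hV : V ⊆ T.W) (hBV : B ⊆ V) (hcube : T.CubeInjective hV B)
    {d : ℕ} (b₀ : Module.Basis (Fin d) O (T.NewQuot O hV B)) :
    ∃ (g : (T'.lift hσ L).NewQuot R (hV.trans E.subW) B →ₛₗ[σ] T.NewQuot O hV B)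
      (e : Module.Basis (Fin d) R ((T'.lift hσ L).NewQuot R (hV.trans E.subW) B)),
      (∀ j, g (e j) = b₀ j) ∧ ∀ (a : AwayPoly R T.S) x,
        g ((T'.lift hσ L).newAct R (hV.trans E.subW) B (restrictAway R E.subS a) x)
          = T.newAct O hV B (MvPolynomial.map σ a) (g x) := by
  obtain ⟨hfin, hfree, g, hg, hker, hact, hb⟩ := T.exists_twBase hχ' E Ek hσ L hV hBV hcube
  obtain ⟨e, he⟩ := exists_basis_lift hσ g hg (fun x h => (hker x).mp h) hb b₀
  exact ⟨g, e, he, hact⟩

end ALSetup

section LiftChar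

variable {R O : Type} [CommRing R] [IsLocalRing R] [CommRing O] [IsLocalRing O] {σ : R →+* O}

/-- The character `ψ²` with the scalars `± ψ`, for `ψ` trivial modulo `ker σ`. -/
noncomputable def ALSetup.LiftChar.ofSqrt (T : ALSetup O) (ι : O →+* R) (hι : ∀ o, σ (ι o) = o)
    (hχ : T.χ = 1) (h2 : (2 : R) ∈ maximalIdeal R) {M : ℕ} (hM : M ∣ T.core)
    (ψ : (ZMod M)ˣ →* R) (hψ : ∀ u, σ (ψ u) = 1) : T.LiftChar σ where
  M := M
  χ := ψ * ψ
  c e := ι (T.c e) * if h : e.Coprime M then ψ (ZMod.unitOfCoprime e h) else 1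
  dvd_core := hM
  two := h2
  char_one u := by
    refine IsLocalRing.le_maximalIdeal (RingHom.ker_ne_top σ) (RingHom.mem_ker.mpr ?_)
    rw [map_sub, MonoidHom.mul_apply, map_mul, hψ, map_one, one_mul, sub_self]
  even := by
    rw [MonoidHom.mul_apply, ← map_mul, neg_mul_neg, one_mul, map_one]
  sq e he h := by
    have h1 : T.c e * T.c e = 1 := by
      rw [T.sq e he (T.coprime_M he), hχ]; rfl
    rw [dif_pos h, MonoidHom.mul_apply]
    linear_combination (ψ (ZMod.unitOfCoprime e h) * ψ (ZMod.unitOfCoprime e h)) *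
      ((map_mul ι (T.c e) (T.c e)).symm.trans ((congrArg ι h1).trans (map_one ι)))
  map_χ u := by rw [MonoidHom.mul_apply, map_mul, hψ, one_mul]
  map_c e _ := by
    rw [map_mul, hι]
    split_ifs with h
    · rw [hψ, mul_one]
    · rw [map_one, mul_one]

end LiftChar

section System

variable {O : Type} [CommRing O] [IsDomain O] [IsDiscreteValuationRing O]
  [IsAdicComplete (maximalIdeal O) O] [Finite (ResidueField O)]

omit [IsDomain O] [IsDiscreteValuationRing O] [IsAdicComplete (maximalIdeal O) O]
  [Finite (ResidueField O)] in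
lemma twAug_surjective (r n : ℕ) : Function.Surjective (Engine.twAug O 2 r n) := fun o =>
  ⟨Engine.twConst O 2 r n o, by simp [Engine.twAug, Engine.twConst]⟩

omit [IsAdicComplete (maximalIdeal O) O] [Finite (ResidueField O)] in
lemma tendsToZero_twIdeal (h2 : (2 : O) ∈ maximalIdeal O) (r : ℕ) :
    Patch.TendsToZero (Engine.twIdeal O 2 r) := by
  intro k
  filter_upwards [Patch.eventually_ge k] with n hn
  refine Ideal.span_le.2 ?_
  rintro _ ⟨i, rfl⟩
  refine Ideal.pow_le_pow_right (by omega) (Engine.pow_sub_one_mem 2 ?_ ?_ (n + 1))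
  · rw [DefRing.mem_maximalIdeal_iff_constantCoeff, map_natCast]; exact h2
  · rw [add_sub_cancel_left]; exact DefRing.X_mem_maximalIdeal i

end System

end Fermat.Agent.TwoAdic
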