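import Fermat.Agent.TwoAdic.Modules.AtkinLevel

/-!
`U_q + w_q = res ∘ (twisted trace)` at level `qN` with trivial character, and its consequences:
the matrix of `U_q` on old classes, and `U_q² - 1` maps into the old classes.
-/

set_option autoImplicit false

open CongruenceSubgroup
open scoped MatrixGroups

universe uO uA

namespace Fermat.Agent.TwoAdic

open HeckeJ0 LevelRaising HeckeModule

variable {O : Type uO} [CommRing O] {A : Type uA} [AddCommGroup A] [Module O A] {N M q : ℕ}
  [hq : Fact q.Prime] (hqN : ¬ q ∣ N) (hM : M ∣ N) (hMq : M ∣ q * N) (χ : (ZMod M)ˣ →* O)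
  (hχ : χ = 1)

include hqN in
lemma isALPrimes_self : IsALPrimes (q * N) {q} := by
  intro e he
  rw [Finset.mem_singleton] at he
  subst he
  exact ⟨hq.out, dvd_mul_right _ N, fun h => hqN ((Nat.mul_dvd_mul_iff_left hq.out.pos).mp h)⟩

include hqN hM in
lemma coprime_self : q.Coprime M :=
  (Nat.Prime.coprime_iff_not_dvd hq.out).mpr fun h => hqN (h.trans hM)

omit hq in
include hχ in
lemma levelChar_eq_one {L : ℕ} (hL : M ∣ L) (u : (ZMod L)ˣ) : levelChar hL χ u = 1 := by
  subst hχ; rfl

omit hq in
lemma one_mul_dvd_self : 1 * N ∣ q * N := by rw [one_mul]; exact dvd_mul_left N q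

variable (A)

/-- The involution at `q` at level `qN`. -/
noncomputable abbrev wSelf : Module.End O (Coh1 (scalarRep (levelChar hMq χ) A)) :=
  alOp A (isALPrimes_self hqN) (Finset.mem_singleton_self q) hMq χ (coprime_self hqN hM) 1

/-- The inclusion of level `N` in level `qN`. -/
noncomputable abbrev resSelf :
    Coh1 (scalarRep (levelChar hM χ) A) →ₗ[O] Coh1 (scalarRep (levelChar hMq χ) A) :=
  charDegen A hM χ hMq one_ne_zero (one_mul_dvd_self (q := q) (N := N))

variable {A}

include hχ in
/-- `U_q + w_q = res ∘ traceTwist`. -/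
theorem heckeOp_add_wSelf (u : Coh1 (scalarRep (levelChar hMq χ) A)) :
    heckeOp _ q u + wSelf A hqN hM hMq χ u
      = resSelf A hM hMq χ (charTraceTwist A hM χ hqN hMq u) := by
  have : NeZero q := ⟨hq.out.ne_zero⟩
  obtain ⟨c, rfl⟩ := toCoh_surjective _ u
  obtain ⟨F, hF⟩ := exists_isEquivariant (toGL (q * N)) toGL_injective c
  have hX := alMat_mem (isALPrimes_self hqN) (Finset.mem_singleton_self q)
  have hnone : degenReps N q none ∈ alSet (q * N) q := by
    refine ⟨det_degenReps hqN none, ?_, ?_, ?_⟩ <;> simp [degenReps]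
  obtain ⟨γ0, hγ0⟩ := exists_eq_mul_alSet (dvd_mul_right q N) hq.out.ne_zero hnone hX
  obtain ⟨E, hE⟩ := exists_finEquiv (N := q * N) (dvd_mul_right q N)
  set DU := heckeData (scalarRep (levelChar hMq χ) A) q
  set Dw := alData A (isALPrimes_self hqN) (Finset.mem_singleton_self q) hMq χ
    (coprime_self hqN hM) 1
  set Dt := charTraceTwistData A hM χ hqN hMq
  set Di := charDegenData A hM χ hMq one_ne_zero (one_mul_dvd_self (q := q) (N := N))
  have h1 := (DU.isEquivariant_act toGL_injective hF).add (Dw.isEquivariant_act toGL_injective hF)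
  have h2 := Di.isEquivariant_act toGL_injective (Dt.isEquivariant_act toGL_injective hF)
  refine (cls_eq_of_equivariant
    (c := DU.onCocycles toGL_injective c + Dw.onCocycles toGL_injective c)
    (d := Di.onCocycles toGL_injective (Dt.onCocycles toGL_injective c)) h1 h2
    (-(c.1 γ0)) fun X => ?_)
  show (∑ x, DU.ε x (F (DU.α x * X))) + (∑ y : Unit, Dw.ε y (F (Dw.α y * X)))
    = (∑ z : Unit, Di.ε z (∑ i, Dt.ε i (F (Dt.α i * (Di.α z * X))))) + _
  simp only [Fintype.sum_unique]
  rw [← Equiv.sum_comp E, Fintype.sum_option]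
  show (∑ j, levelChar hMq χ (aUnit (E j)) • F (rep (E j) * X)) +
      (1 : O) • F (matGL (alMat (q * N) q)
        (alMat_det_ne_zero (isALPrimes_self hqN) (Finset.mem_singleton_self q)) * X)
    = (F (matGL (degenReps N q none) ((fact_degenReps hqN).det_ne_zero none) *
        (degenMat 1 * X)) + ∑ j : Fin q,
          F (matGL (degenReps N q (some j)) ((fact_degenReps hqN).det_ne_zero (some j)) *
            (degenMat 1 * X))) + _
  have e0 : matGL (degenReps N q none) ((fact_degenReps hqN).det_ne_zero none)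
      = toGL (q * N) γ0 * matGL (alMat (q * N) q)
        (alMat_det_ne_zero (isALPrimes_self hqN) (Finset.mem_singleton_self q)) :=
    Units.ext (by rw [Units.val_mul, val_matGL, val_toGL, val_matGL, ← Matrix.map_mul_intCast, hγ0])
  have e1 : ∀ j, matGL (degenReps N q (some j)) ((fact_degenReps hqN).det_ne_zero (some j))
      = rep (E j) :=
    fun j => Units.ext (by
      rw [val_matGL, (hE j).1]
      simp [degenReps, heckMat])
  rw [degenMat_one, one_mul, e0, mul_assoc (toGL (q * N) γ0), hF, gammaRep_scalar,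
    levelChar_eq_one χ hχ, one_smul]
  simp only [e1, levelChar_eq_one χ hχ, one_smul]
  abel

include hχ in
/-- The twisted trace is the trace after `w_q`. -/
theorem charTrace_eq_wSelf (u : Coh1 (scalarRep (levelChar hMq χ) A)) :
    charTraceTwist A hM χ hqN hMq (wSelf A hqN hM hMq χ u) = charTrace A hM χ hqN hMq u := by
  have hw := alOp_alOp (isALPrimes_self hqN) (Finset.mem_singleton_self q) hMq χ
    (coprime_self hqN hM) (1 : O) (by subst hχ; simp) u
  have h := charTrace_alOp_self (A := A) hM χ hqN hMq (isALPrimes_self hqN)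
    (Finset.mem_singleton_self q) (coprime_self hqN hM) (1 : O) (wSelf A hqN hM hMq χ u)
  rw [hw] at h
  rw [h]
  subst hχ
  simp

include hχ in
/-- `U_q (res a) = res (T_q a) - w_q (res a)`. -/
theorem heckeOp_resSelf (a : Coh1 (scalarRep (levelChar hM χ) A)) :
    heckeOp _ q (resSelf A hM hMq χ a)
      = resSelf A hM hMq χ (heckeOp _ q a) - wSelf A hqN hM hMq χ (resSelf A hM hMq χ a) :=
  eq_sub_of_add_eq (by
    rw [heckeOp_add_wSelf hqN hM hMq χ hχ, charTraceTwist_charDegen_one])

include hχ in
/-- `U_q (w_q (res a)) = q (res a)`. -/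
theorem heckeOp_wSelf_resSelf (a : Coh1 (scalarRep (levelChar hM χ) A)) :
    heckeOp _ q (wSelf A hqN hM hMq χ (resSelf A hM hMq χ a))
      = (q : O) • resSelf A hM hMq χ a := by
  have h := heckeOp_add_wSelf hqN hM hMq χ hχ (wSelf A hqN hM hMq χ (resSelf A hM hMq χ a))
  rw [alOp_alOp (isALPrimes_self hqN) (Finset.mem_singleton_self q) hMq χ (coprime_self hqN hM)
    (1 : O) (by subst hχ; simp), charTrace_eq_wSelf hqN hM hMq χ hχ, charTrace_charDegen_one,
    map_smul, add_smul, one_smul] at h
  exact add_right_cancel h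

include hχ in
/-- `U_q² - 1` maps into the classes `res`, `U_q res`. -/
theorem heckeOp_sq_sub (u : Coh1 (scalarRep (levelChar hMq χ) A)) :
    heckeOp _ q (heckeOp _ q u) - u
      = heckeOp _ q (resSelf A hM hMq χ (charTraceTwist A hM χ hqN hMq u))
        - resSelf A hM hMq χ (charTrace A hM χ hqN hMq u) := by
  have h := heckeOp_add_wSelf hqN hM hMq χ hχ u
  have h' := heckeOp_add_wSelf hqN hM hMq χ hχ (wSelf A hqN hM hMq χ u)
  rw [alOp_alOp (isALPrimes_self hqN) (Finset.mem_singleton_self q) hMq χ (coprime_self hqN hM)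
    (1 : O) (by subst hχ; simp), charTrace_eq_wSelf hqN hM hMq χ hχ] at h'
  rw [← h, map_add, ← h']
  abel

include hχ in
/-- The two traces of an old class. -/
theorem traces_old (a b : Coh1 (scalarRep (levelChar hM χ) A)) :
    charTrace A hM χ hqN hMq (resSelf A hM hMq χ a + wSelf A hqN hM hMq χ (resSelf A hM hMq χ b))
        = ((q : O) + 1) • a + heckeOp _ q b ∧
      charTraceTwist A hM χ hqN hMq
          (resSelf A hM hMq χ a + wSelf A hqN hM hMq χ (resSelf A hM hMq χ b))
        = heckeOp _ q a + ((q : O) + 1) • b := by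
  constructor
  · rw [map_add, charTrace_charDegen_one, charTrace_alOp_self, charTraceTwist_charDegen_one]
    subst hχ
    simp
  · rw [map_add, charTraceTwist_charDegen_one, charTrace_eq_wSelf hqN hM hMq χ hχ,
      charTrace_charDegen_one]

end Fermat.Agent.TwoAdic
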