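import Fermat.Agent.HeckeModule.Finite
import Fermat.Agent.TwoAdic.Modules.LocCompare
import Fermat.Agent.TwoAdic.Modules.TWRelations

/-!
Taylor–Wiles level: localising `H¹(Γ₀(qN))` at `U_q ≡ α`, a simple root of the characteristic
polynomial of `T_q`, gives `H¹(Γ₀(N))` back.
-/

set_option autoImplicit false

open IsLocalRing

namespace Fermat.Agent.TwoAdic

open HeckeJ0 LevelRaising HeckeModule

variable {O : Type} [CommRing O] [IsLocalRing O] {A : Type} [AddCommGroup A] [Module O A]
  {N M q : ℕ} [hq : Fact q.Prime] (hqN : ¬ q ∣ N) (hM : M ∣ N) (hMq : M ∣ q * N)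
  (χ : (ZMod M)ˣ →* O) (hχ : χ = 1) {S : Set ℕ} (hqS : q ∈ S) (m : Ideal (AwayPoly O S))
  [m.IsPrime]

/-- The auxiliary prime as an index. -/
def qIdx (q : ℕ) [hq : Fact q.Prime] : Nat.Primes := ⟨q, hq.out⟩

omit [IsLocalRing O] in
include hqS in
lemma resSelf_heckeOp {ℓ : ℕ} [hℓ : Fact ℓ.Prime] (hℓS : ℓ ∉ S)
    (u : Coh1 (scalarRep (levelChar hM χ) A)) :
    resSelf A hM hMq χ (heckeOp _ ℓ u) = heckeOp _ ℓ (resSelf A hM hMq χ u) :=
  charDegen_heckeOp hM χ hMq one_ne_zero one_mul_dvd_self hℓ.out.not_dvd_one
    (fun h => (hℓ.out.dvd_mul.mp h).resolve_left fun hq' =>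
      hℓS ((Nat.prime_dvd_prime_iff_eq hℓ.out hq.out).mp hq' ▸ hqS)) u

/-- The prime at level `qN`. -/
noncomputable abbrev twIdeal (α : O) : Ideal (AwayPoly O (S \ {q})) :=
  relaxIdeal m (S \ {q}) fun _ => α

/-- The map from level `N` to level `qN` localised at `U_q ≡ α`. -/
noncomputable def twMap (α : O) :
    CohLoc (awayMonoid m) (scalarRep (levelChar hM χ) A) →ₗ[O]
      CohLoc (awayMonoid (twIdeal (q := q) m α)) (scalarRep (levelChar hMq χ) A) :=
  (locMono (awayMonoid_le_relax Set.sdiff_subset (fun _ => α) m)).restrictScalars O ∘ₗ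
    locLift (awayMonoid m) (resSelf A hM hMq χ)
      ((isAway_awayMonoid m).commute _ fun _ _ hℓ u => resSelf_heckeOp hM hMq χ hqS hℓ u)

omit [IsLocalRing O] in
lemma twMap_mk (α : O) (u : Coh1 (scalarRep (levelChar hM χ) A)) (s : awayMonoid m) :
    twMap hM hMq χ hqS m α (LocalizedModule.mk u s) = LocalizedModule.mk (resSelf A hM hMq χ u)
      (⟨(s : HeckePoly O), awayMonoid_le_relax Set.sdiff_subset (fun _ => α) m s.2⟩ :
        awayMonoid (twIdeal (q := q) m α)) := by
  rw [twMap, LinearMap.comp_apply, locLift_mk, LinearMap.restrictScalars_apply, locMono_mk]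

variable (α β : O)

omit [IsLocalRing O] in
include hqN hqS hχ in
/-- The action on old classes, and its value at `α`. -/
lemma exists_old_coeff (a : AwayPoly O (S \ {q})) :
    ∃ x y g : HeckePoly O,
      (∀ v : Coh1 (scalarRep (levelChar hM χ) A),
        awayIncl O (S \ {q}) a • resSelf A hM hMq χ v
          = resSelf A hM hMq χ (x • v)
            + wSelf A hqN hM hMq χ (resSelf A hM hMq χ (y • v))) ∧
      awayIncl O S (relaxHom O S (S \ {q}) (fun _ => α) a)
          + g * (MvPolynomial.C α * MvPolynomial.C α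
            - MvPolynomial.C α * MvPolynomial.X (qIdx q) + MvPolynomial.C (q : O))
        = x + (MvPolynomial.X (qIdx q) - MvPolynomial.C α) * y := by
  induction a using MvPolynomial.induction_on with
  | C r =>
    refine ⟨MvPolynomial.C r, 0, 0, fun v => ?_, ?_⟩
    · simp only [zero_smul, map_zero, add_zero, ← MvPolynomial.algebraMap_eq, AlgHom.commutes,
        algebraMap_smul, map_smul]
    · simp only [← MvPolynomial.algebraMap_eq, AlgHom.commutes]
      ring
  | add p p' hp hp' =>
    obtain ⟨x, y, g, h1, h2⟩ := hp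
    obtain ⟨x', y', g', h1', h2'⟩ := hp'
    refine ⟨x + x', y + y', g + g', fun v => ?_, ?_⟩
    · simp only [map_add, add_smul, h1, h1']
      abel
    · rw [map_add, map_add]
      linear_combination h2 + h2'
  | mul_X p l hp =>
    obtain ⟨x, y, g, h1, h2⟩ := hp
    have : Fact ((l : Nat.Primes) : ℕ).Prime := ⟨(l : Nat.Primes).2⟩
    by_cases hl : ((l : Nat.Primes) : ℕ) ∈ S
    · have hlq : (l : Nat.Primes) = qIdx q :=
        Subtype.ext (not_not.mp fun hne => l.2 ⟨hl, hne⟩)
      refine ⟨MvPolynomial.X (qIdx q) * x + MvPolynomial.C (q : O) * y, -x,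
        MvPolynomial.C α * g + y, fun v => ?_, ?_⟩
      · rw [map_mul, awayIncl_X, hlq, mul_comm (awayIncl O (S \ {q}) p), mul_smul, h1 v]
        simp only [qIdx, smul_add, add_smul, mul_smul, neg_smul, X_smul,
          heckeOp_resSelf hqN hM hMq χ hχ, heckeOp_wSelf_resSelf hqN hM hMq χ hχ,
          ← MvPolynomial.algebraMap_eq, algebraMap_smul, map_add, map_smul, map_neg]
        abel
      · rw [map_mul, map_mul, show relaxHom O S (S \ {q}) (fun _ => α) (MvPolynomial.X l)
            = MvPolynomial.C α by rw [relaxHom, MvPolynomial.aeval_X, dif_pos hl],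
          ← MvPolynomial.algebraMap_eq, AlgHom.commutes, MvPolynomial.algebraMap_eq]
        linear_combination (MvPolynomial.C α : HeckePoly O) * h2
    · refine ⟨MvPolynomial.X (l : Nat.Primes) * x, MvPolynomial.X (l : Nat.Primes) * y,
        MvPolynomial.X (l : Nat.Primes) * g, fun v => ?_, ?_⟩
      · have hne : ((l : Nat.Primes) : ℕ) ≠ q := fun h => hl (by rw [h]; exact hqS)
        have hX : ∀ u : Coh1 (scalarRep (levelChar hM χ) A),
            (MvPolynomial.X (l : Nat.Primes) : HeckePoly O) • u
              = heckeOp _ ((l : Nat.Primes) : ℕ) u := fun u => X_smul _ _ u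
        have hX' : ∀ u : Coh1 (scalarRep (levelChar hMq χ) A),
            (MvPolynomial.X (l : Nat.Primes) : HeckePoly O) • u
              = heckeOp _ ((l : Nat.Primes) : ℕ) u := fun u => X_smul _ _ u
        rw [map_mul, awayIncl_X, mul_comm (awayIncl O (S \ {q}) p), mul_smul, h1, smul_add, mul_smul, mul_smul,
          hX', hX', hX, hX,
          resSelf_heckeOp hM hMq χ hqS hl, resSelf_heckeOp hM hMq χ hqS hl]
        congr 1
        exact (alOp_heckeOp_ne' hne).symm
      · rw [map_mul, map_mul, show relaxHom O S (S \ {q}) (fun _ => α) (MvPolynomial.X l)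
            = MvPolynomial.X ⟨l.1, hl⟩ by rw [relaxHom, MvPolynomial.aeval_X, dif_neg hl],
          awayIncl_X]
        linear_combination (MvPolynomial.X (l : Nat.Primes) : HeckePoly O) * h2
where
  alOp_heckeOp_ne' {ℓ : ℕ} [Fact ℓ.Prime] (hne : ℓ ≠ q)
      {u : Coh1 (scalarRep (levelChar hMq χ) A)} :
      wSelf A hqN hM hMq χ (heckeOp _ ℓ u) = heckeOp _ ℓ (wSelf A hqN hM hMq χ u) := by
    by_cases h : ℓ ∣ q * N
    · exact alOp_heckeOp_dvd _ _ _ _ _ _ h hne u
    · exact alOp_heckeOp _ _ _ _ _ _ h u

/-- The conditions at the auxiliary prime. -/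
structure TWRoot (q : ℕ) [Fact q.Prime] (α β : O) (E : Type) [AddCommGroup E] [Module O E]
    [Module (HeckePoly O) E] [IsScalarTower O (HeckePoly O) E] : Prop where
  mul_sub : α * β - q ∈ maximalIdeal O
  diff : IsUnit (α - β)
  sq : IsUnit (α * α - 1)
  det : IsUnit (((q : O) + 1) * ((q : O) + 1) - (α + β) * (α + β))
  nil : MvPolynomial.X (qIdx q) - MvPolynomial.C (α + β) ∈ nilModIdeal E

variable {α β} [Module.Finite O (CohLoc (awayMonoid m) (scalarRep (levelChar hM χ) A))]
  (H : TWRoot q α β (CohLoc (awayMonoid m) (scalarRep (levelChar hM χ) A)))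

include hqN hqS hχ H in
/-- The map to the auxiliary level is injective. -/
theorem twMap_injective : Function.Injective (twMap (A := A) hM hMq χ hqS m α) := by
  refine (injective_iff_map_eq_zero _).mpr fun e he => ?_
  induction e using LocalizedModule.induction_on with
  | _ u s =>
    rw [twMap_mk, IsLocalizedModule.mk_eq_mk', IsLocalizedModule.mk'_eq_zero'] at he
    obtain ⟨⟨_, a, ha, rfl⟩, ht⟩ := he
    obtain ⟨x, y, g, h1, h2⟩ := exists_old_coeff (A := A) hqN hM hMq χ hχ hqS α a
    have h0 : awayIncl O (S \ {q}) a • resSelf A hM hMq χ u = 0 := ht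
    rw [h1 u] at h0
    obtain ⟨t1, t2⟩ := traces_old hqN hM hMq χ hχ (x • u) (y • u)
    rw [h0, map_zero] at t1 t2
    rw [eq_comm, ← X_smul, ← algebraMap_smul (HeckePoly O) ((q : O) + 1),
      MvPolynomial.algebraMap_eq] at t1
    rw [eq_comm, ← X_smul, ← algebraMap_smul (HeckePoly O) ((q : O) + 1),
      MvPolynomial.algebraMap_eq] at t2
    -- `det` kills both coefficients
    set Q : HeckePoly O := MvPolynomial.C ((q : O) + 1)
    set T : HeckePoly O := MvPolynomial.X (qIdx q)
    have e1 : (Q * Q - T * T) • x • u = Q • (Q • x • u + T • y • u) - T • (T • x • u + Q • y • u) := by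
      simp only [sub_smul, mul_smul, smul_add, smul_comm Q T]
      abel
    have e2 : (Q * Q - T * T) • y • u = Q • (T • x • u + Q • y • u) - T • (Q • x • u + T • y • u) := by
      simp only [sub_smul, mul_smul, smul_add, smul_comm Q T]
      abel
    have k1 : (Q * Q - T * T) • x • u = 0 := by
      rw [e1, show Q • x • u + T • y • u = 0 from t1, show T • x • u + Q • y • u = 0 from t2,
        smul_zero, smul_zero, sub_zero]
    have k2 : (Q * Q - T * T) • y • u = 0 := by
      rw [e2, show Q • x • u + T • y • u = 0 from t1, show T • x • u + Q • y • u = 0 from t2,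
        smul_zero, smul_zero, sub_zero]
    set E := CohLoc (awayMonoid m) (scalarRep (levelChar hM χ) A)
    have hC : ∀ r : O, IsUnit r → Function.Bijective fun z : E => (MvPolynomial.C r : HeckePoly O) • z :=
      fun r hr => by
        simp only [← MvPolynomial.algebraMap_eq, algebraMap_smul]
        exact hr.smul_bijective
    -- the determinant is bijective
    have hdet : Function.Bijective fun z : E => (Q * Q - T * T) • z := by
      refine bijective_smul_of_congr E (hC _ H.det) ?_
      rw [map_sub, map_mul, map_mul, show Q * Q - T * T - (Q * Q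
          - MvPolynomial.C (α + β) * MvPolynomial.C (α + β))
          = -((T - MvPolynomial.C (α + β)) * (T + MvPolynomial.C (α + β))) by ring]
      exact neg_mem (Ideal.mul_mem_right _ _ H.nil)
    -- the value at `α` is bijective
    have hval : Function.Bijective fun z : E =>
        (x + (T - MvPolynomial.C α) * y) • z := by
      refine bijective_smul_of_congr E (bijective_smul_of_mem (mem_awayMonoid ha)) ?_
      rw [← h2, show (awayIncl O S) ((relaxHom O S (S \ {q}) fun _ => α) a)
          + g * (MvPolynomial.C α * MvPolynomial.C α - MvPolynomial.C α * T + MvPolynomial.C (q : O))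
          - (awayIncl O S) ((relaxHom O S (S \ {q}) fun _ => α) a)
          = g * (MvPolynomial.C α * -(T - MvPolynomial.C (α + β))
            + -MvPolynomial.C (α * β - (q : O))) by simp only [map_add, map_sub, map_mul]; ring]
      exact Ideal.mul_mem_left _ _ (add_mem (Ideal.mul_mem_left _ _ (neg_mem H.nil))
        (neg_mem (C_mem_nilModIdeal E H.mul_sub)))
    refine (hdet.comp hval).1 ?_
    show (Q * Q - T * T) • (x + (T - MvPolynomial.C α) * y) • LocalizedModule.mk u s
      = (Q * Q - T * T) • (x + (T - MvPolynomial.C α) * y) • (0 : E)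
    rw [smul_zero, smul_zero, LocalizedModule.smul'_mk, LocalizedModule.smul'_mk, add_smul,
      smul_add, mul_smul, smul_comm (Q * Q - T * T) (T - MvPolynomial.C α), k1, k2, smul_zero,
      add_zero, LocalizedModule.zero_mk]

variable [IsNoetherianRing O] [IsAdicComplete (maximalIdeal O) O] [NeZero N] [Module.Finite O A]

omit [Module.Finite O (CohLoc (awayMonoid m) (scalarRep (levelChar hM χ) A))] in
include hqN hqS hχ H in
/-- The map to the auxiliary level is surjective. -/
theorem twMap_surjective (hm : (maximalIdeal O).map (algebraMap O (AwayPoly O S)) ≤ m) :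
    Function.Surjective (twMap (A := A) hM hMq χ hqS m α) := by
  have : NeZero (q * N) := ⟨mul_ne_zero hq.out.ne_zero (NeZero.ne N)⟩
  set P' := awayMonoid (twIdeal (q := q) m α)
  have hm' := le_relaxIdeal (S' := S \ {q}) (fun _ => α) m hm
  have : Module.Finite O (CohLoc P' (scalarRep (levelChar hMq χ) A)) :=
    finite_cohLoc _ (twIdeal (q := q) m α) hm'
  set E := CohLoc P' (scalarRep (levelChar hMq χ) A)
  set mE := maximalIdeal O • (⊤ : Submodule O E) with hmE
  set V := E ⧸ mE
  have : IsArtinian O V := isArtinian_reduction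
  set Φ := twMap (A := A) hM hMq χ hqS m α
  let J : CohLoc (awayMonoid m) (scalarRep (levelChar hM χ) A) →ₗ[O] V := mE.mkQ ∘ₗ Φ
  let act : HeckePoly O → Module.End O V := fun a =>
    mE.mapQ mE (Algebra.lsmul O O E a) fun z hz => poly_smul_mem_maxSmul E a hz
  have hact : ∀ a z, act a (mE.mkQ z) = mE.mkQ (a • z) := fun _ _ => rfl
  have hbij : ∀ a ∈ P', Function.Injective (act a) := fun a ha => by
    have hs : Function.Surjective (act a) := fun z => by
      obtain ⟨z, rfl⟩ := mE.mkQ_surjective z
      obtain ⟨z', hz'⟩ := (bijective_smul_of_mem (P := P')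
        (ρ := scalarRep (levelChar hMq χ) A) ha).2 z
      exact ⟨mE.mkQ z', (hact a z').trans (congrArg mE.mkQ hz')⟩
    exact OrzechProperty.injective_of_surjective_endomorphism _ hs
  -- the operator at `q`
  let U : HeckePoly O := MvPolynomial.X (qIdx q)
  have hqS' : ((qIdx q : Nat.Primes) : ℕ) ∉ S \ {q} := fun h => h.2 rfl
  have hrelaxX : relaxHom O S (S \ {q}) (fun _ => α) (MvPolynomial.X ⟨qIdx q, hqS'⟩)
      = MvPolynomial.C α := by
    rw [relaxHom, MvPolynomial.aeval_X, dif_pos (show ((qIdx q : Nat.Primes) : ℕ) ∈ S from hqS)]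
  have hunit : ∀ r : O, IsUnit r → (MvPolynomial.C r : AwayPoly O S) ∉ m := fun r hr h =>
    ‹m.IsPrime›.ne_top (Ideal.eq_top_of_isUnit_mem _ h (hr.map MvPolynomial.C))
  have hUβ : U - MvPolynomial.C β ∈ P' := by
    refine ⟨MvPolynomial.X ⟨qIdx q, hqS'⟩ - MvPolynomial.C β, ?_, ?_⟩
    · show _ ∉ Ideal.comap _ m
      rw [Ideal.mem_comap, map_sub, hrelaxX]
      simp only [← MvPolynomial.algebraMap_eq, AlgHom.commutes, ← map_sub]
      exact hunit _ H.diff
    · show awayIncl O (S \ {q}) _ = _
      rw [map_sub, awayIncl_X, ← MvPolynomial.algebraMap_eq, AlgHom.commutes]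
      rfl
  have hUsq : U * U - 1 ∈ P' := by
    refine ⟨MvPolynomial.X ⟨qIdx q, hqS'⟩ * MvPolynomial.X ⟨qIdx q, hqS'⟩ - 1, ?_, ?_⟩
    · show _ ∉ Ideal.comap _ m
      rw [Ideal.mem_comap, map_sub, map_mul, map_one, hrelaxX, ← map_mul, ← map_one
        (MvPolynomial.C : O →+* AwayPoly O S), ← map_sub]
      exact hunit _ H.sq
    · show awayIncl O (S \ {q}) _ = _
      rw [map_sub, map_mul, map_one, awayIncl_X]
  -- the quadratic relation on the image
  let τ : Module.End O (CohLoc (awayMonoid m) (scalarRep (levelChar hM χ) A)) :=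
    Algebra.lsmul O O _ (U - MvPolynomial.C (α + β))
  have hquad : ∀ x, U • U • Φ x = U • Φ (U • x) - (q : O) • Φ x := by
    intro x
    induction x using LocalizedModule.induction_on with
    | _ v s =>
      simp only [Φ, LocalizedModule.smul'_mk, twMap_mk]
      rw [show ∀ (a b : Coh1 (scalarRep (levelChar hMq χ) A)) (t : P'),
          LocalizedModule.mk a t - LocalizedModule.mk b t = LocalizedModule.mk (a - b) t from
        fun a b t => by rw [sub_eq_iff_eq_add, mk_add_mk_same', sub_add_cancel]]
      refine congrArg (LocalizedModule.mk · _) ?_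
      simp only [U, qIdx, X_smul]
      rw [heckeOp_resSelf hqN hM hMq χ hχ, map_sub, heckeOp_wSelf_resSelf hqN hM hMq χ hχ]
  have hrel : ∀ x, (act U - β • 1 : Module.End O V) ((act U - α • 1 : Module.End O V) (J x))
      = act U (J (τ x)) := by
    intro x
    simp only [J, LinearMap.comp_apply, LinearMap.sub_apply, LinearMap.smul_apply,
      Module.End.one_apply, hact, ← map_smul, ← map_sub]
    have hτ : τ x = U • x - (α + β) • x := by
      show (U - MvPolynomial.C (α + β)) • x = _
      rw [sub_smul, ← MvPolynomial.algebraMap_eq, algebraMap_smul]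
    rw [hτ, Submodule.mkQ_apply, Submodule.mkQ_apply, Submodule.Quotient.eq]
    simp only [map_sub, map_smul, smul_sub]
    rw [smul_comm U (α + β) (Φ x), smul_comm U α (Φ x), hquad, smul_smul, add_smul]
    have e : U • Φ (U • x) - (q : O) • Φ x - α • U • Φ x - (β • U • Φ x - (β * α) • Φ x)
        - (U • Φ (U • x) - (α • U • Φ x + β • U • Φ x)) = (α * β - (q : O)) • Φ x := by
      rw [sub_smul, mul_comm α β]; abel
    rw [e]
    exact Submodule.smul_mem_smul H.mul_sub Submodule.mem_top
  obtain ⟨n, hn⟩ := (mem_nilModIdeal _).mp H.nil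
  have hJm : ∀ x ∈ maximalIdeal O • (⊤ : Submodule O
      (CohLoc (awayMonoid m) (scalarRep (levelChar hM χ) A))), J x = 0 := fun x hx =>
    (Submodule.Quotient.mk_eq_zero _).mpr (map_mem_smul_top Φ _ hx)
  have hroot : ∀ x, ∃ y, act U (J x) = J y := exists_apply_eq_of_root (n := n) (fun x => hJm _ (by
      rw [← map_pow]; exact hn x))
    (by
      have h := hbij _ hUβ
      have e : act (U - MvPolynomial.C β) = act U - β • 1 := by
        refine LinearMap.ext fun z => ?_
        obtain ⟨z, rfl⟩ := mE.mkQ_surjective z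
        rw [hact, LinearMap.sub_apply, LinearMap.smul_apply, Module.End.one_apply, hact,
          ← map_smul, ← map_sub, sub_smul, ← MvPolynomial.algebraMap_eq, algebraMap_smul]
      rwa [e] at h) hrel
  -- the image is stable by every operator outside the smaller set
  have hstab : ∀ (a : AwayPoly O (S \ {q})), ∀ z ∈ LinearMap.range J,
      act (awayIncl O (S \ {q}) a) z ∈ LinearMap.range J := by
    intro a
    induction a using MvPolynomial.induction_on with
    | C r =>
      rintro z ⟨x, rfl⟩
      refine ⟨r • x, ?_⟩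
      rw [← MvPolynomial.algebraMap_eq, AlgHom.commutes]
      simp only [J, LinearMap.comp_apply, hact, algebraMap_smul, map_smul]
    | add p p' hp hp' =>
      intro z hz
      obtain ⟨z', rfl⟩ := mE.mkQ_surjective z
      rw [hact, map_add, add_smul, map_add, ← hact, ← hact]
      exact add_mem (hp _ hz) (hp' _ hz)
    | mul_X p l hp =>
      rintro z ⟨x, rfl⟩
      have key : act (MvPolynomial.X (l : Nat.Primes)) (J x) ∈ LinearMap.range J := by
        by_cases hl : ((l : Nat.Primes) : ℕ) ∈ S
        · rw [show (l : Nat.Primes) = qIdx q from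
            Subtype.ext (not_not.mp fun hne => l.2 ⟨hl, hne⟩)]
          obtain ⟨y, hy⟩ := hroot x
          exact ⟨y, hy.symm⟩
        · refine ⟨(MvPolynomial.X (l : Nat.Primes) : HeckePoly O) • x, ?_⟩
          simp only [J, LinearMap.comp_apply, hact]
          refine congrArg mE.mkQ ?_
          induction x using LocalizedModule.induction_on with
          | _ v s =>
            have : Fact ((l : Nat.Primes) : ℕ).Prime := ⟨(l : Nat.Primes).2⟩
            show Φ _ = _ • Φ _
            simp only [Φ]
            rw [LocalizedModule.smul'_mk, twMap_mk, twMap_mk, LocalizedModule.smul'_mk]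
            refine congrArg (fun z => LocalizedModule.mk z _) ?_
            rw [show (MvPolynomial.X (l : Nat.Primes) : HeckePoly O) • v
                = heckeOp _ ((l : Nat.Primes) : ℕ) v from X_smul _ _ v,
              resSelf_heckeOp hM hMq χ hqS hl]
            exact (X_smul _ _ _).symm
      obtain ⟨z', hz'⟩ := mE.mkQ_surjective (J x)
      rw [map_mul, awayIncl_X, ← hz', hact, mul_smul, ← hact, ← hact, hz']
      exact hp _ key
  refine surjective_of_mod Φ fun z => ?_
  have hz : mE.mkQ z ∈ LinearMap.range J := by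
    induction z using LocalizedModule.induction_on with
    | _ v s =>
      obtain ⟨a, ha, hsa⟩ := s.2
      have hmem : (U * U - 1) * (s : HeckePoly O) ∈ P' := mul_mem hUsq s.2
      obtain ⟨b, hb, hba⟩ := hmem
      have h1 : act ((U * U - 1) * (s : HeckePoly O)) (mE.mkQ (LocalizedModule.mk v s))
          ∈ LinearMap.range J := by
        rw [hact, LocalizedModule.smul'_mk]
        obtain ⟨y, hy⟩ := hroot (LocalizedModule.mk (charTraceTwist A hM χ hqN hMq v) 1)
        refine ⟨y - LocalizedModule.mk (charTrace A hM χ hqN hMq v) 1, ?_⟩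
        rw [map_sub, ← hy]
        simp only [J, LinearMap.comp_apply, hact, ← map_sub, Φ]
        refine congrArg mE.mkQ ?_
        rw [twMap_mk, twMap_mk, LocalizedModule.smul'_mk]
        rw [show ∀ (a b : Coh1 (scalarRep (levelChar hMq χ) A)) (t : P'),
            LocalizedModule.mk a t - LocalizedModule.mk b t = LocalizedModule.mk (a - b) t from
          fun a b t => by rw [sub_eq_iff_eq_add, mk_add_mk_same', sub_add_cancel],
          mul_comm _ (s : HeckePoly O), mul_smul, ← Submonoid.smul_def, LocalizedModule.mk_cancel,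
          sub_smul, one_smul, mul_smul]
        refine congrArg₂ LocalizedModule.mk ?_ (Subtype.ext rfl)
        simp only [U, qIdx, X_smul]
        exact (heckeOp_sq_sub hqN hM hMq χ hχ v).symm
      have hinj := hbij _ (mul_mem hUsq s.2)
      obtain ⟨z', hz', hzz⟩ := exists_eq_of_stable hinj
        (P := LinearMap.range J) (fun z hz => by rw [← hba]; exact hstab b z hz) h1
      rwa [← hinj hzz]
  obtain ⟨x, hx⟩ := hz
  exact ⟨x, (Submodule.Quotient.eq _).mp hx⟩
where
  mk_add_mk_same' {R : Type} [CommRing R] {P : Submonoid R} {X : Type} [AddCommGroup X]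
      [Module R X] {a b : X} {t : P} :
      LocalizedModule.mk a t + LocalizedModule.mk b t = LocalizedModule.mk (a + b) t := by
    rw [LocalizedModule.mk_add_mk, ← smul_add, ← LocalizedModule.mk_cancel_common_left t t]

include hqN hqS hχ H in
/-- **Taylor–Wiles level.** -/
theorem twMap_bijective (hm : (maximalIdeal O).map (algebraMap O (AwayPoly O S)) ≤ m) :
    Function.Bijective (twMap (A := A) hM hMq χ hqS m α) :=
  ⟨twMap_injective hqN hM hMq χ hχ hqS m H, twMap_surjective hqN hM hMq χ hχ hqS m H hm⟩

end Fermat.Agent.TwoAdic
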