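import Fermat.Agent.HeckeModule.LocLift

/-!
`H¹(Γ₀(N), ·)` and its localisations are functorial in maps of coefficients that are semilinear
over a homomorphism of rings of scalars.
-/

set_option autoImplicit false

open CongruenceSubgroup

namespace Fermat.Agent.TwoAdic

open HeckeJ0 HeckeModule

variable {R O : Type} [CommRing R] [CommRing O] {σ : R →+* O}
  {A : Type} [AddCommGroup A] [Module R A] {B : Type} [AddCommGroup B] [Module O B]

section Coh

variable {N : ℕ} {ρ : Representation R (ZMod N)ˣ A} {ρ' : Representation O (ZMod N)ˣ B}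
  (f : A →ₛₗ[σ] B) (hf : ∀ u a, f (ρ u a) = ρ' u (f a))

include hf in
lemma semi_mem_cocycle (c : Cocycle ρ) :
    (fun γ => f (c.1 γ)) ∈ cocycles (gammaRep ρ') {negOne N} :=
  ⟨fun g h => by
    show f (c.1 (g * h)) = f (c.1 g) + gammaRep ρ' g (f (c.1 h))
    rw [c.2.1, map_add, gammaRep_apply, hf, gammaRep_apply],
    fun k hk => by
      show f (c.1 k) = 0
      rw [c.2.2 k hk, map_zero]⟩

/-- The semilinear map on cocycles. -/
noncomputable def semiCocycle : Cocycle ρ →ₛₗ[σ] Cocycle ρ' where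
  toFun c := ⟨fun γ => f (c.1 γ), semi_mem_cocycle f hf c⟩
  map_add' _ _ := Subtype.ext (funext fun _ => map_add f _ _)
  map_smul' r _ := Subtype.ext (funext fun _ => LinearMap.map_smulₛₗ f r _)

/-- The semilinear map on `H¹`. -/
noncomputable def semiCoh : Coh1 ρ →ₛₗ[σ] Coh1 ρ' :=
  (coboundaries (gammaRep ρ) {negOne N}).mapQ (coboundaries (gammaRep ρ') {negOne N})
    (semiCocycle f hf) fun c hc => by
      obtain ⟨a, ha⟩ := hc
      refine ⟨f a, funext fun γ => ?_⟩
      show gammaRep ρ' γ (f a) - f a = f (c.1 γ)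
      rw [gammaRep_apply, ← hf, ← map_sub]
      exact congrArg f (congrFun ha γ)

lemma semiCoh_toCoh (c : Cocycle ρ) :
    semiCoh f hf (toCoh ρ c) = toCoh ρ' (semiCocycle f hf c) := rfl

/-- Operators of the same data commute with semilinear maps of coefficients. -/
theorem semiCoh_onH1 {N' : ℕ} {σA : Representation R (ZMod N')ˣ A}
    {σB : Representation O (ZMod N')ˣ B} (hf' : ∀ u a, f (σA u a) = σB u (f a))
    {ι : Type*} [Fintype ι]
    (DA : Data (toGL N) (toGL N') (gammaRep ρ) (gammaRep σA) {negOne N} {negOne N'} ι)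
    (DB : Data (toGL N) (toGL N') (gammaRep ρ') (gammaRep σB) {negOne N} {negOne N'} ι)
    (hα : ∀ x, DA.α x = DB.α x) (hε : ∀ x a, f (DA.ε x a) = DB.ε x (f a)) (u : Coh1 ρ) :
    semiCoh f hf' (DA.onH1 toGL_injective u) = DB.onH1 toGL_injective (semiCoh f hf u) := by
  obtain ⟨c, rfl⟩ := toCoh_surjective ρ u
  refine congrArg (toCoh σB) (Subtype.ext (funext fun γ => ?_))
  show f (DA.raw c.1 γ) = DB.raw (fun δ => f (c.1 δ)) γ
  rw [Data.raw_apply, Data.raw_apply, map_sum]
  refine Finset.sum_congr rfl fun x _ => ?_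
  have h1 := DA.mul_spec x γ
  rw [hα, hα] at h1
  rw [hε, (DB.spec_unique toGL_injective h1).2]

lemma semiCoh_heckeOp (ℓ : ℕ) [Fact ℓ.Prime] (u : Coh1 ρ) :
    semiCoh f hf (heckeOp ρ ℓ u) = heckeOp ρ' ℓ (semiCoh f hf u) := by
  have : NeZero ℓ := ⟨(Fact.out : ℓ.Prime).ne_zero⟩
  exact semiCoh_onH1 f hf hf (heckeData ρ ℓ) (heckeData ρ' ℓ) (fun _ => rfl) (fun x a => hf _ a) u

lemma semiCoh_poly_smul (a : HeckePoly R) (u : Coh1 ρ) :
    semiCoh f hf (a • u) = MvPolynomial.map σ a • semiCoh f hf u := by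
  induction a using MvPolynomial.induction_on generalizing u with
  | C r =>
    rw [MvPolynomial.map_C, ← MvPolynomial.algebraMap_eq, ← MvPolynomial.algebraMap_eq,
      algebraMap_smul, algebraMap_smul, LinearMap.map_smulₛₗ]
  | add P Q hP hQ => rw [map_add, add_smul, add_smul, map_add, hP, hQ]
  | mul_X P l hP =>
    have : Fact (l : ℕ).Prime := ⟨l.2⟩
    rw [map_mul, MvPolynomial.map_X, mul_smul, mul_smul, hP]
    congr 1
    exact (congrArg (semiCoh f hf) (X_smul ρ (l : ℕ) u)).trans
      ((semiCoh_heckeOp f hf (l : ℕ) u).trans (X_smul ρ' (l : ℕ) _).symm)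

lemma semiCoh_injective (hfi : Function.Injective f) (hfs : Function.Surjective f) :
    Function.Injective (semiCoh f hf) := by
  refine (injective_iff_map_eq_zero _).mpr fun u hu => ?_
  obtain ⟨c, rfl⟩ := toCoh_surjective ρ u
  rw [semiCoh_toCoh, toCoh_eq_zero_iff] at hu
  obtain ⟨b, hb⟩ := hu
  obtain ⟨a, rfl⟩ := hfs b
  refine (toCoh_eq_zero_iff c).mpr ⟨a, fun γ => hfi ?_⟩
  rw [map_sub, hf]
  exact hb γ

lemma semiCoh_surjective (hfi : Function.Injective f) (hfs : Function.Surjective f) :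
    Function.Surjective (semiCoh f hf) := by
  intro v
  obtain ⟨c, rfl⟩ := toCoh_surjective ρ' v
  choose g hg using hfs
  have hd : (fun γ => g (c.1 γ)) ∈ cocycles (gammaRep ρ) {negOne N} := by
    refine ⟨fun γ δ => hfi ?_, fun k hk => hfi ?_⟩
    · show f (g (c.1 (γ * δ))) = f (g (c.1 γ) + gammaRep ρ γ (g (c.1 δ)))
      rw [map_add, gammaRep_apply, hf, hg, hg, hg, c.2.1, gammaRep_apply]
    · show f (g (c.1 k)) = f 0
      rw [hg, c.2.2 k hk, map_zero]
  exact ⟨toCoh ρ ⟨_, hd⟩, congrArg (toCoh ρ') (Subtype.ext (funext fun γ => hg _))⟩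

end Coh

section Loc

variable {N : ℕ} {ρ : Representation R (ZMod N)ˣ A} {ρ' : Representation O (ZMod N)ˣ B}
  (f : A →ₛₗ[σ] B) (hf : ∀ u a, f (ρ u a) = ρ' u (f a))
  {P : Submonoid (HeckePoly R)} {P' : Submonoid (HeckePoly O)}
  (hP : ∀ s ∈ P, MvPolynomial.map σ s ∈ P')

/-- The semilinear map on localisations. -/
noncomputable def semiLoc : CohLoc P ρ →ₛₗ[σ] CohLoc P' ρ' where
  toFun x := LocalizedModule.liftOn x
    (fun p => LocalizedModule.mk (semiCoh f hf p.1) ⟨_, hP _ p.2.2⟩) fun p p' h => by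
      obtain ⟨u, hu⟩ := h
      refine LocalizedModule.mk_eq.mpr ⟨⟨_, hP _ u.2⟩, ?_⟩
      simp only [Submonoid.smul_def] at hu ⊢
      rw [← semiCoh_poly_smul, ← semiCoh_poly_smul, ← semiCoh_poly_smul, ← semiCoh_poly_smul, hu]
  map_add' x y := by
    induction x using LocalizedModule.induction_on with
    | _ a s =>
      induction y using LocalizedModule.induction_on with
      | _ b t =>
        rw [LocalizedModule.mk_add_mk, LocalizedModule.liftOn_mk, LocalizedModule.liftOn_mk,
          LocalizedModule.liftOn_mk, LocalizedModule.mk_add_mk, map_add]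
        simp only [Submonoid.smul_def]
        rw [semiCoh_poly_smul, semiCoh_poly_smul]
        refine congrArg (LocalizedModule.mk _) (Subtype.ext ?_)
        exact map_mul (MvPolynomial.map σ) _ _
  map_smul' r x := by
    induction x using LocalizedModule.induction_on with
    | _ a s =>
      rw [LocalizedModule.smul'_mk, LocalizedModule.liftOn_mk, LocalizedModule.liftOn_mk,
        LocalizedModule.smul'_mk, LinearMap.map_smulₛₗ]

lemma semiLoc_mk (u : Coh1 ρ) (s : P) :
    semiLoc f hf hP (LocalizedModule.mk u s)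
      = LocalizedModule.mk (semiCoh f hf u) ⟨_, hP _ s.2⟩ := by
  simp only [semiLoc, LinearMap.coe_mk, AddHom.coe_mk, LocalizedModule.liftOn_mk]

lemma semiLoc_smul (a : HeckePoly R) (x : CohLoc P ρ) :
    semiLoc f hf hP (a • x) = MvPolynomial.map σ a • semiLoc f hf hP x := by
  induction x using LocalizedModule.induction_on with
  | _ u s =>
    rw [LocalizedModule.smul'_mk, semiLoc_mk, semiLoc_mk, semiCoh_poly_smul,
      LocalizedModule.smul'_mk]

/-- Localised maps commute with semilinear maps of coefficients. -/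
theorem semiLoc_locLift {N' : ℕ} {σA : Representation R (ZMod N')ˣ A}
    {σB : Representation O (ZMod N')ˣ B} (hf' : ∀ u a, f (σA u a) = σB u (f a))
    (gA : Coh1 ρ →ₗ[R] Coh1 σA) (hgA : ∀ s ∈ P, ∀ u, gA (s • u) = s • gA u)
    (gB : Coh1 ρ' →ₗ[O] Coh1 σB) (hgB : ∀ s ∈ P', ∀ u, gB (s • u) = s • gB u)
    (h : ∀ u, semiCoh f hf' (gA u) = gB (semiCoh f hf u)) (x : CohLoc P ρ) :
    semiLoc f hf' hP (locLift P gA hgA x) = locLift P' gB hgB (semiLoc f hf hP x) := by
  induction x using LocalizedModule.induction_on with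
  | _ u s => rw [locLift_mk, semiLoc_mk, semiLoc_mk, locLift_mk, h]

variable (hP' : ∀ t ∈ P', ∃ s ∈ P, MvPolynomial.map σ s = t)

include hP' in
lemma semiLoc_injective (hfi : Function.Injective f) (hfs : Function.Surjective f) :
    Function.Injective (semiLoc f hf hP) := by
  refine (injective_iff_map_eq_zero _).mpr fun x hx => ?_
  induction x using LocalizedModule.induction_on with
  | _ u s =>
    rw [semiLoc_mk, IsLocalizedModule.mk_eq_mk', IsLocalizedModule.mk'_eq_zero'] at hx
    obtain ⟨⟨t, ht⟩, h⟩ := hx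
    obtain ⟨t', ht', rfl⟩ := hP' t ht
    rw [Submonoid.mk_smul, ← semiCoh_poly_smul] at h
    rw [IsLocalizedModule.mk_eq_mk', IsLocalizedModule.mk'_eq_zero']
    exact ⟨⟨t', ht'⟩, semiCoh_injective f hf hfi hfs (h.trans (map_zero _).symm)⟩

include hP' in
lemma semiLoc_surjective (hfi : Function.Injective f) (hfs : Function.Surjective f) :
    Function.Surjective (semiLoc f hf hP) := by
  intro y
  induction y using LocalizedModule.induction_on with
  | _ v t =>
    obtain ⟨u, rfl⟩ := semiCoh_surjective f hf hfi hfs v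
    obtain ⟨s, hs, e⟩ := hP' _ t.2
    exact ⟨LocalizedModule.mk u ⟨s, hs⟩, (semiLoc_mk f hf hP u _).trans
      (congrArg (LocalizedModule.mk _) (Subtype.ext e))⟩

end Loc

end Fermat.Agent.TwoAdic
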