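import Fermat.Agent.TwoAdic.Modules.AtkinOp

/-!
Atkin–Lehner operators and change of level: they commute with the degeneracy map of `z ↦ z` and
with the trace, and turn the trace into the twisted trace at their own prime.
-/

set_option autoImplicit false

open CongruenceSubgroup
open scoped MatrixGroups

universe uO uA

namespace Fermat.Agent.TwoAdic

open HeckeJ0 LevelRaising HeckeModule

section Transport

variable {O : Type uO} [CommRing O] {A : Type uA} [AddCommGroup A] [Module O A]
  {Γ Γ' G : Type*} [Group Γ] [Group Γ'] [Group G] {i : Γ →* G} {j : Γ' →* G}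
  {ρ ρ' : Representation O Γ A} {σ σ' : Representation O Γ' A} {K : Set Γ} {K' : Set Γ'}
  {ι : Type*}

/-- The same double coset data for equal representations. -/
def reData (D : Data i j ρ σ K K' ι) (h : ρ = ρ') (h' : σ = σ') : Data i j ρ' σ' K K' ι where
  α := D.α
  ε := D.ε
  exists_mul := D.exists_mul
  unique := D.unique
  compat := by subst h h'; exact D.compat
  triv := D.triv

/-- Double coset data with coefficients scaled by `r`. -/
def smulData (r : O) (D : Data i j ρ σ K K' ι) : Data i j ρ σ K K' ι where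
  α := D.α
  ε x := r • D.ε x
  exists_mul := D.exists_mul
  unique := D.unique
  compat x y γ g h := by
    rw [LinearMap.smul_comp, LinearMap.comp_smul, D.compat x y γ g h]
  triv := D.triv

lemma smulData_onH1 [Fintype ι] (hi : Function.Injective i) (r : O) (D : Data i j ρ σ K K' ι)
    (u : H1 ρ K) : (smulData r D).onH1 hi u = r • D.onH1 hi u := by
  obtain ⟨c, rfl⟩ := cls_surjective ρ K u
  rw [Data.onH1_cls, Data.onH1_cls, ← map_smul]
  refine congrArg _ (Subtype.ext (funext fun γ => ?_))
  show (smulData r D).raw c.1 γ = r • D.raw c.1 γ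
  rw [Data.raw_apply, Data.raw_apply, Finset.smul_sum]
  refine Finset.sum_congr rfl fun x _ => ?_
  show r • D.ε x _ = r • D.ε x _
  rw [((smulData r D).spec_unique hi (x := x) (D.mul_spec x γ)).2]

variable {N N' : ℕ}

/-- `H¹` of equal representations. -/
noncomputable def castCoh {τ τ' : Representation O (ZMod N)ˣ A} (h : τ = τ') :
    Coh1 τ ≃ₗ[O] Coh1 τ' :=
  h ▸ LinearEquiv.refl O (Coh1 τ)

lemma castCoh_heckeOp {τ τ' : Representation O (ZMod N)ˣ A} (h : τ = τ') (ℓ : ℕ) [Fact ℓ.Prime]
    (u : Coh1 τ) : castCoh h (heckeOp τ ℓ u) = heckeOp τ' ℓ (castCoh h u) := by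
  subst h; rfl

lemma castCoh_symm_heckeOp {τ τ' : Representation O (ZMod N)ˣ A} (h : τ = τ') (ℓ : ℕ)
    [Fact ℓ.Prime] (u : Coh1 τ') :
    (castCoh h).symm (heckeOp τ' ℓ u) = heckeOp τ ℓ ((castCoh h).symm u) := by
  subst h; rfl

lemma reData_onH1_right [Fintype ι] {τ : Representation O (ZMod N)ˣ A}
    {υ υ' : Representation O (ZMod N')ˣ A}
    (D : Data (toGL N) (toGL N') (gammaRep τ) (gammaRep υ) {negOne N} {negOne N'} ι) (h : υ = υ')
    (u : Coh1 τ) :
    (reData D rfl (congrArg gammaRep h)).onH1 toGL_injective u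
      = castCoh h (D.onH1 toGL_injective u) := by
  subst h; rfl

lemma reData_onH1_left [Fintype ι] {τ τ' : Representation O (ZMod N)ˣ A}
    {υ : Representation O (ZMod N')ˣ A}
    (D : Data (toGL N) (toGL N') (gammaRep τ) (gammaRep υ) {negOne N} {negOne N'} ι) (h : τ = τ')
    (u : Coh1 τ') :
    (reData D (congrArg gammaRep h) rfl).onH1 toGL_injective u
      = D.onH1 toGL_injective ((castCoh h).symm u) := by
  subst h; rfl

end Transport

variable {O : Type uO} [CommRing O] {A : Type uA} [AddCommGroup A] [Module O A] {N N' M : ℕ}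
  (hM : M ∣ N) (χ : (ZMod M)ˣ →* O)

variable (A) in
/-- The coefficients of level `N` pulled back. -/
lemma pullRep_scalarRep (h : N ∣ N') :
    pullRep (scalarRep (levelChar hM χ) A) h = scalarRep (levelChar (hM.trans h) χ) A := by
  refine MonoidHom.ext fun u => LinearMap.ext fun a => ?_
  show χ (ZMod.unitsMap hM (ZMod.unitsMap h u)) • a = χ (ZMod.unitsMap (hM.trans h) u) • a
  exact congrArg (fun v => χ v • a) (DFunLike.congr_fun (ZMod.unitsMap_comp hM h) u)

section Degen

variable (A) (hM' : M ∣ N')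

/-- The data of the degeneracy map of `z ↦ d z`. -/
noncomputable def charDegenData {d : ℕ} (hd : d ≠ 0) (h : d * N ∣ N') :
    Data (toGL N) (toGL N') (gammaRep (scalarRep (levelChar hM χ) A))
      (gammaRep (scalarRep (levelChar hM' χ) A)) {negOne N} {negOne N'} Unit :=
  reData (degenData (scalarRep (levelChar hM χ) A) hd h) rfl
    (congrArg gammaRep (pullRep_scalarRep A hM χ _))

/-- The degeneracy map of `z ↦ d z`. -/
noncomputable def charDegen {d : ℕ} (hd : d ≠ 0) (h : d * N ∣ N') :
    Coh1 (scalarRep (levelChar hM χ) A) →ₗ[O] Coh1 (scalarRep (levelChar hM' χ) A) :=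
  (charDegenData A hM χ hM' hd h).onH1 toGL_injective

variable {A}

lemma charDegen_eq {d : ℕ} (hd : d ≠ 0) (h : d * N ∣ N')
    (u : Coh1 (scalarRep (levelChar hM χ) A)) :
    charDegen A hM χ hM' hd h u
      = castCoh (pullRep_scalarRep A hM χ _) (degen (scalarRep (levelChar hM χ) A) hd h u) :=
  reData_onH1_right _ _ u

/-- Degeneracy maps commute with the Hecke operators. -/
theorem charDegen_heckeOp {d : ℕ} (hd : d ≠ 0) (h : d * N ∣ N') {ℓ : ℕ} [Fact ℓ.Prime]
    (hℓd : ¬ ℓ ∣ d) (hℓN : ℓ ∣ N' → ℓ ∣ N) (u : Coh1 (scalarRep (levelChar hM χ) A)) :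
    charDegen A hM χ hM' hd h (heckeOp _ ℓ u) = heckeOp _ ℓ (charDegen A hM χ hM' hd h u) := by
  rw [charDegen_eq, charDegen_eq, degen_heckeOp _ hd h hℓd hℓN, castCoh_heckeOp]

lemma degenMat_one : degenMat 1 = 1 := by
  refine Units.ext ?_
  rw [val_degenMat one_ne_zero, Nat.cast_one, val_one_mat, Matrix.one_fin_two]

/-- Degeneracy maps of `z ↦ z` compose. -/
theorem charDegen_one_comp {N'' : ℕ} (hM'' : M ∣ N'') (h : 1 * N ∣ N') (h' : 1 * N' ∣ N'')
    (u : Coh1 (scalarRep (levelChar hM χ) A)) :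
    charDegen A hM' χ hM'' one_ne_zero h' (charDegen A hM χ hM' one_ne_zero h u)
      = charDegen A hM χ hM'' one_ne_zero
          (by rw [one_mul] at h h' ⊢; exact h.trans h') u := by
  refine Data.comp_eq toGL_injective toGL_injective (charDegenData A hM χ hM' one_ne_zero h)
    (charDegenData A hM' χ hM'' one_ne_zero h') _ (z := 1) (fun X => Commute.one_left X)
    (Equiv.prodPUnit Unit) (fun _ => 1) (fun p => ?_) (fun p => ?_) u
  · show degenMat 1 * degenMat 1 = toGL N 1 * (1 * degenMat 1)
    rw [degenMat_one, map_one, one_mul, one_mul]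
  · refine LinearMap.ext fun a => ?_
    show gammaRep (scalarRep (levelChar hM χ) A) 1 a = a
    rw [map_one, Module.End.one_apply]

variable {W W' : Finset ℕ} (hW : IsALPrimes N W) (hW' : IsALPrimes N' W') {e : ℕ} (he : e ∈ W)
  (he' : e ∈ W') (heM : e.Coprime M) (c : O)

include hW in
/-- Atkin–Lehner operators commute with the degeneracy map of `z ↦ z`. -/
theorem alOp_charDegen_one (h : 1 * N ∣ N') (u : Coh1 (scalarRep (levelChar hM χ) A)) :
    alOp A hW' he' hM' χ heM c (charDegen A hM χ hM' one_ne_zero h u)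
      = charDegen A hM χ hM' one_ne_zero h (alOp A hW he hM χ heM c u) := by
  have hX' := alMat_mem hW' he'
  have hX : alMat N' e ∈ alSet N e :=
    ⟨hX'.1, hX'.2.1, hX'.2.2.1,
      (Int.natCast_dvd_natCast.mpr (by rwa [one_mul] at h)).trans hX'.2.2.2⟩
  obtain ⟨γ, hγ⟩ := exists_eq_mul_alSet (hW e he).2.1 (hW e he).1.ne_zero hX (alMat_mem hW he)
  have hd := cast_lowerRight hM γ hγ
  rw [(alMat_cast hW' he' hM' heM).2, (alMat_cast hW he hM heM).2, mul_one] at hd
  refine Data.comp_eq_comp toGL_injective toGL_injective toGL_injective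
    (charDegenData A hM χ hM' one_ne_zero h) (alData A hW' he' hM' χ heM c)
    (alData A hW he hM χ heM c) (charDegenData A hM χ hM' one_ne_zero h) (Equiv.refl _)
    (fun _ => γ) (fun _ => ?_) (fun _ => ?_) u
  · show degenMat 1 * matGL (alMat N' e) (alMat_det_ne_zero hW' he')
      = toGL N γ * (matGL (alMat N e) (alMat_det_ne_zero hW he) * degenMat 1)
    rw [degenMat_one, one_mul, mul_one]
    refine Units.ext ?_
    rw [Units.val_mul, val_matGL, val_toGL, val_matGL, ← Matrix.map_mul_intCast, hγ]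
  · refine LinearMap.ext fun a => ?_
    show c • gammaRep (scalarRep (levelChar hM χ) A) γ a = c • a
    rw [gammaRep_scalar, levelChar_dUnit hM χ γ 1 (by rw [Units.val_one]; exact hd.symm), map_one,
      one_smul]

end Degen

section Trace

variable {q : ℕ} [hq : Fact q.Prime] (hqN : ¬ q ∣ N) (hMq : M ∣ q * N)

variable (A) in
/-- The data of the trace. -/
noncomputable def charTraceData :
    Data (toGL (q * N)) (toGL N) (gammaRep (scalarRep (levelChar hMq χ) A))
      (gammaRep (scalarRep (levelChar hM χ) A)) {negOne (q * N)} {negOne N} (Option (Fin q)) :=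
  reData (traceData (scalarRep (levelChar hM χ) A) hqN)
    (congrArg gammaRep (pullRep_scalarRep A hM χ _)) rfl

variable (A) in
/-- The data of the twisted trace. -/
noncomputable def charTraceTwistData :
    Data (toGL (q * N)) (toGL N) (gammaRep (scalarRep (levelChar hMq χ) A))
      (gammaRep (scalarRep (levelChar hM χ) A)) {negOne (q * N)} {negOne N} (Option (Fin q)) :=
  reData (traceTwistData (scalarRep (levelChar hM χ) A) hqN)
    (congrArg gammaRep (pullRep_scalarRep A hM χ _)) rfl

variable (A) in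
/-- The trace. -/
noncomputable def charTrace :
    Coh1 (scalarRep (levelChar hMq χ) A) →ₗ[O] Coh1 (scalarRep (levelChar hM χ) A) :=
  (charTraceData A hM χ hqN hMq).onH1 toGL_injective

variable (A) in
/-- The twisted trace. -/
noncomputable def charTraceTwist :
    Coh1 (scalarRep (levelChar hMq χ) A) →ₗ[O] Coh1 (scalarRep (levelChar hM χ) A) :=
  (charTraceTwistData A hM χ hqN hMq).onH1 toGL_injective

lemma charTrace_eq (u : Coh1 (scalarRep (levelChar hMq χ) A)) :
    charTrace A hM χ hqN hMq u = trace (scalarRep (levelChar hM χ) A) hqN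
      ((castCoh (pullRep_scalarRep A hM χ _)).symm u) :=
  reData_onH1_left _ _ u

lemma charTraceTwist_eq (u : Coh1 (scalarRep (levelChar hMq χ) A)) :
    charTraceTwist A hM χ hqN hMq u = traceTwist (scalarRep (levelChar hM χ) A) hqN
      ((castCoh (pullRep_scalarRep A hM χ _)).symm u) :=
  reData_onH1_left _ _ u

/-- The trace commutes with the Hecke operators prime to the level. -/
theorem charTrace_heckeOp {ℓ : ℕ} [Fact ℓ.Prime] (hℓN : ¬ ℓ ∣ q * N)
    (u : Coh1 (scalarRep (levelChar hMq χ) A)) :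
    charTrace A hM χ hqN hMq (heckeOp _ ℓ u) = heckeOp _ ℓ (charTrace A hM χ hqN hMq u) := by
  rw [charTrace_eq, charTrace_eq, castCoh_symm_heckeOp, trace_heckeOp _ hqN hℓN]

/-- The twisted trace commutes with the Hecke operators prime to the level. -/
theorem charTraceTwist_heckeOp {ℓ : ℕ} [Fact ℓ.Prime] (hℓN : ¬ ℓ ∣ q * N)
    (u : Coh1 (scalarRep (levelChar hMq χ) A)) :
    charTraceTwist A hM χ hqN hMq (heckeOp _ ℓ u)
      = heckeOp _ ℓ (charTraceTwist A hM χ hqN hMq u) := by
  rw [charTraceTwist_eq, charTraceTwist_eq, castCoh_symm_heckeOp, traceTwist_heckeOp _ hqN hℓN]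

/-- The trace of an old class is `q + 1` times the class. -/
theorem charTrace_charDegen_one (h : 1 * N ∣ q * N) (u : Coh1 (scalarRep (levelChar hM χ) A)) :
    charTrace A hM χ hqN hMq (charDegen A hM χ hMq one_ne_zero h u) = ((q : O) + 1) • u := by
  rw [charTrace_eq, charDegen_eq, LinearEquiv.symm_apply_apply]
  exact trace_degen_one hqN _ u

theorem charTraceTwist_charDegen_one (h : 1 * N ∣ q * N)
    (u : Coh1 (scalarRep (levelChar hM χ) A)) :
    charTraceTwist A hM χ hqN hMq (charDegen A hM χ hMq one_ne_zero h u) = heckeOp _ q u := by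
  rw [charTraceTwist_eq, charDegen_eq, LinearEquiv.symm_apply_apply]
  exact traceTwist_degen_one hqN _ u

variable {W W' : Finset ℕ} (hW : IsALPrimes N W) (hW' : IsALPrimes (q * N) W')

section Commute

variable {e : ℕ} (he : e ∈ W) (he' : e ∈ W') (heM : e.Coprime M) (c : O)

include hW in
/-- The trace commutes with the Atkin–Lehner operators at primes other than `q`. -/
theorem alOp_charTrace (u : Coh1 (scalarRep (levelChar hMq χ) A)) :
    alOp A hW he hM χ heM c (charTrace A hM χ hqN hMq u)
      = charTrace A hM χ hqN hMq (alOp A hW' he' hMq χ heM c u) := by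
  have hY := alMat_mem hW he
  have hX' := alMat_mem hW' he'
  have hX : alMat (q * N) e ∈ alSet N e :=
    ⟨hX'.1, hX'.2.1, hX'.2.2.1,
      (Int.natCast_dvd_natCast.mpr (dvd_mul_left N q)).trans hX'.2.2.2⟩
  have heN := (hW e he).2.1
  have he0 := (hW e he).1.ne_zero
  have hF := fact_traceMat' (q := q) hqN
  have hβN : ∀ i, traceMat N q i ∈ Lvl N := traceMat_mem_lvl hq.out hqN
  have key : ∀ i, ∃ (j : Option (Fin q)) (g : Gamma0 (q * N)),
      traceMat N q i * alMat N e
        = ((g : SL(2, ℤ)) : Mat) * (alMat (q * N) e * traceMat N q j) := fun i => by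
    obtain ⟨δ, hδ⟩ := exists_eq_alSet_mul heN he0 (lvl_mul_alSet heN hY (hβN i)) hX
    obtain ⟨j, y, hy, ey⟩ := hF.fact _ (coe_mem_lvl δ)
    refine ⟨j, alConj hW' he' (lvlElt hy), ?_⟩
    have h := alConj_spec hW' he' (lvlElt hy)
    change alMat (q * N) e * y = _ at h
    rw [hδ, ey, ← mul_assoc, h, mul_assoc]
  choose σ g hσ using key
  have hσi : Function.Injective σ := by
    intro i i' h
    have e1 := hσ i
    have e2 := hσ i'
    rw [h] at e1
    have h3 : (((g i' : SL(2, ℤ)) : Mat) * ((g i : SL(2, ℤ)) : Mat).adjugate) * traceMat N q i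
        = traceMat N q i' := by
      refine mat_cancel_right (alMat_det_ne_zero hW he) ?_
      rw [mul_assoc, e1, e2, ← mul_assoc (((g i' : SL(2, ℤ)) : Mat) *
          ((g i : SL(2, ℤ)) : Mat).adjugate), mul_assoc ((g i' : SL(2, ℤ)) : Mat),
        adjugate_mul_lvl (coe_mem_lvl (g i)), mul_one]
    exact hF.unique (lvl_mul (coe_mem_lvl _) (adjugate_mem_detLevel (coe_mem_lvl _)))
      (one_mem_lvl _) (h3.trans (one_mul _).symm)
  let τ : Option (Fin q) ≃ Option (Fin q) :=
    Equiv.ofBijective σ ⟨hσi, (Finite.injective_iff_surjective).mp hσi⟩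
  refine Data.comp_eq_comp toGL_injective toGL_injective toGL_injective
    (charTraceData A hM χ hqN hMq) (alData A hW he hM χ heM c) (alData A hW' he' hMq χ heM c)
    (charTraceData A hM χ hqN hMq) ((Equiv.prodComm _ _).trans ((Equiv.refl Unit).prodCongr τ))
    (fun p => g p.1) ?_ ?_ u
  · rintro ⟨i, ⟨⟩⟩
    refine Units.ext ?_
    show (matGL (traceMat N q i) (hF.det_ne_zero i)).val *
        (matGL (alMat N e) (alMat_det_ne_zero hW he)).val
      = (toGL (q * N) (g i)).val * ((matGL (alMat (q * N) e) (alMat_det_ne_zero hW' he')).val *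
          (matGL (traceMat N q (σ i)) (hF.det_ne_zero (σ i))).val)
    rw [val_matGL, val_matGL, val_matGL, val_matGL, val_toGL, ← Matrix.map_mul_intCast,
      ← Matrix.map_mul_intCast, ← Matrix.map_mul_intCast, hσ i]
  · rintro ⟨i, ⟨⟩⟩
    refine LinearMap.ext fun a => ?_
    show c • gammaRep (scalarRep (levelChar hMq χ) A) (g i) a = c • a
    rw [gammaRep_scalar, levelChar_dUnit hMq χ (g i) 1 ?_, map_one, one_smul]
    have h := congrArg (Int.cast : ℤ → ZMod M) (congrFun (congrFun (hσ i) 0) 0)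
    simp only [Matrix.mul_apply, Fin.sum_univ_two, Int.cast_add, Int.cast_mul] at h
    have hb : ∀ k, ((traceMat N q k 0 0 : ℤ) : ZMod M) = 1 ∧
        ((traceMat N q k 1 0 : ℤ) : ZMod M) = 0 := fun k => by
      obtain ⟨h1, h2⟩ := traceMat_apply_zero (N := N) (q := q) k
      constructor
      · simpa only [map_intCast, map_one] using congrArg (ZMod.castHom hM (ZMod M)) h1
      · simpa only [map_intCast, map_zero] using congrArg (ZMod.castHom hM (ZMod M)) h2
    rw [(hb i).1, (hb (σ i)).1, (hb (σ i)).2, lowerLeft_cast hM hY.2.2.2,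
      lowerLeft_cast hMq hX'.2.2.2, (alMat_cast hW he hM heM).1,
      (alMat_cast hW' he' hMq heM).1] at h
    have hg := congrArg (ZMod.castHom hMq (ZMod M)) (gamma0_diag (g i))
    rw [map_mul, map_one, map_intCast] at hg
    rw [ZMod.unitsMap_def, Units.coe_map, MonoidHom.coe_coe, Units.val_one]
    refine (ZMod.unitOfCoprime e heM).isUnit.mul_left_injective ?_
    simp only [ZMod.coe_unitOfCoprime]
    linear_combination (ZMod.castHom hMq (ZMod M)
        ((dUnit (q * N) (g i) : (ZMod (q * N))ˣ) : ZMod (q * N))) * h + (e : ZMod M) * hg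

end Commute

variable (hqW : q ∈ W') (hqM : q.Coprime M) (c : O)

/-- At its own prime the Atkin–Lehner operator exchanges the two traces. -/
theorem charTrace_alOp_self (u : Coh1 (scalarRep (levelChar hMq χ) A)) :
    charTrace A hM χ hqN hMq (alOp A hW' hqW hMq χ hqM c u)
      = (c * χ (ZMod.unitOfCoprime q hqM)⁻¹) • charTraceTwist A hM χ hqN hMq u := by
  have hX := alMat_mem hW' hqW
  have hF := fact_traceMat' (q := q) hqN
  have hD := fact_degenReps (q := q) hqN
  have hnone : degenReps N q none ∈ alSet (q * N) q := by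
    refine ⟨det_degenReps hqN none, ?_, ?_, ?_⟩ <;> simp [degenReps]
  obtain ⟨γ0, hγ0⟩ := exists_eq_mul_alSet (dvd_mul_right q N) hq.out.ne_zero hX hnone
  have key : ∀ i, ∃ (j : Option (Fin q)) (g : Gamma0 (q * N)),
      alMat (q * N) q * traceMat N q i = ((g : SL(2, ℤ)) : Mat) * degenReps N q j := fun i => by
    have h0 : degenReps N q none ∈ degenSet N q := by simpa using hD.mem 1 (one_mem_lvl _) none
    obtain ⟨j, y, hy, ey⟩ :=
      hD.fact _ (degenSet_mul_mem _ h0 _ (traceMat_mem_lvl hq.out hqN i))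
    refine ⟨j, γ0 * lvlElt hy, ?_⟩
    rw [hγ0, mul_assoc, ey, Subgroup.coe_mul, Matrix.SpecialLinearGroup.coe_mul, mul_assoc]
    rfl
  choose σ g hσ using key
  have hσi : Function.Injective σ := by
    intro i i' h
    have e1 := hσ i
    have e2 := hσ i'
    rw [h] at e1
    obtain ⟨y, hy, ey⟩ : ∃ y ∈ Lvl (q * N),
        (((g i' : SL(2, ℤ)) : Mat) * ((g i : SL(2, ℤ)) : Mat).adjugate) * alMat (q * N) q
          = alMat (q * N) q * y := by
      obtain ⟨δ, hδ⟩ := exists_eq_alSet_mul (dvd_mul_right q N) hq.out.ne_zero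
        (lvl_mul_alSet (dvd_mul_right q N) hX
          (lvl_mul (coe_mem_lvl (g i')) (adjugate_mem_detLevel (coe_mem_lvl (g i))))) hX
      exact ⟨_, coe_mem_lvl δ, hδ⟩
    refine hF.unique hy (one_mem_lvl _) ?_
    rw [one_mul]
    refine mat_cancel_left (alMat_det_ne_zero hW' hqW) ?_
    rw [← mul_assoc, ← ey, mul_assoc, e1, e2,
      ← mul_assoc (((g i' : SL(2, ℤ)) : Mat) * ((g i : SL(2, ℤ)) : Mat).adjugate),
      mul_assoc ((g i' : SL(2, ℤ)) : Mat), adjugate_mul_lvl (coe_mem_lvl (g i)), mul_one]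
  let τ : Option (Fin q) ≃ Option (Fin q) :=
    Equiv.ofBijective σ ⟨hσi, (Finite.injective_iff_surjective).mp hσi⟩
  refine (Data.comp_eq toGL_injective toGL_injective (alData A hW' hqW hMq χ hqM c)
    (charTraceData A hM χ hqN hMq)
    (smulData (c * χ (ZMod.unitOfCoprime q hqM)⁻¹) (charTraceTwistData A hM χ hqN hMq))
    (z := 1) (fun X => Commute.one_left X) ((Equiv.punitProd _).trans τ) (fun p => g p.2) ?_ ?_
    u).trans (smulData_onH1 _ _ _ u)
  · rintro ⟨⟨⟩, i⟩
    refine Units.ext ?_
    show (matGL (alMat (q * N) q) (alMat_det_ne_zero hW' hqW)).val *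
        (matGL (traceMat N q i) (hF.det_ne_zero i)).val
      = (toGL (q * N) (g i)).val * ((1 : GL (Fin 2) ℝ).val *
          (matGL (degenReps N q (σ i)) (hD.det_ne_zero (σ i))).val)
    rw [val_matGL, val_matGL, val_matGL, val_toGL, Units.val_one, one_mul,
      ← Matrix.map_mul_intCast, ← Matrix.map_mul_intCast, hσ i]
  · rintro ⟨⟨⟩, i⟩
    refine LinearMap.ext fun a => ?_
    show c • gammaRep (scalarRep (levelChar hMq χ) A) (g i) a
      = (c * χ (ZMod.unitOfCoprime q hqM)⁻¹) • a
    rw [gammaRep_scalar, levelChar_dUnit hMq χ (g i) (ZMod.unitOfCoprime q hqM)⁻¹ ?_, smul_smul]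
    have h := congrArg (Int.cast : ℤ → ZMod M) (congrFun (congrFun (hσ i) 0) 0)
    simp only [Matrix.mul_apply, Fin.sum_univ_two, Int.cast_add, Int.cast_mul] at h
    obtain ⟨hb1, hb2⟩ := traceMat_apply_zero (N := N) (q := q) i
    obtain ⟨hd1, hd2⟩ := degenReps_apply_zero (q := q) hqN (σ i)
    replace hb1 := congrArg (ZMod.castHom hM (ZMod M)) hb1
    replace hb2 := congrArg (ZMod.castHom hM (ZMod M)) hb2
    replace hd1 := congrArg (ZMod.castHom hM (ZMod M)) hd1
    replace hd2 := congrArg (ZMod.castHom hM (ZMod M)) hd2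
    simp only [map_intCast, map_one, map_zero] at hb1 hb2 hd1 hd2
    rw [hb1, hb2, hd1, hd2, (alMat_cast hW' hqW hMq hqM).1] at h
    have hg := congrArg (ZMod.castHom hMq (ZMod M)) (gamma0_diag (g i))
    rw [map_mul, map_one, map_intCast] at hg
    rw [ZMod.unitsMap_def, Units.coe_map, MonoidHom.coe_coe]
    refine Units.eq_inv_of_mul_eq_one_left ?_
    rw [ZMod.coe_unitOfCoprime]
    linear_combination (ZMod.castHom hMq (ZMod M)
        ((dUnit (q * N) (g i) : (ZMod (q * N))ˣ) : ZMod (q * N))) * h + hg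

end Trace

end Fermat.Agent.TwoAdic
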