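import Fermat.Agent.HeckeModule.LevelFree
import Fermat.Agent.TwoAdic.Modules.Invol
import Fermat.Agent.TwoAdic.Modules.AtkinLevel

/-!
Atkin–Lehner involutions on the localised `H¹(Γ₀(N), A(χ))`: they are residually exact, so their
common fixed points are free and commute with base change.
-/

set_option autoImplicit false

open CongruenceSubgroup IsLocalRing
open scoped MatrixGroups

universe uO uA uB

namespace Fermat.Agent.TwoAdic

open HeckeJ0 LevelRaising HeckeModule

section Nat

variable {O : Type uO} [CommRing O] {A : Type uA} [AddCommGroup A] [Module O A] {N M : ℕ}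
  {W : Finset ℕ} (hW : IsALPrimes N W) {e : ℕ} (he : e ∈ W) (hM : M ∣ N) (χ : (ZMod M)ˣ →* O)
  (heM : e.Coprime M) (c : O)

/-- Atkin–Lehner operators commute with maps of coefficients. -/
theorem alOp_cohMapO {B : Type uB} [AddCommGroup B] [Module O B] (f : A →ₗ[O] B)
    (u : Coh1 (scalarRep (levelChar hM χ) A)) :
    cohMapO f (isIntertwining_scalar (levelChar hM χ) f) (alOp A hW he hM χ heM c u)
      = alOp B hW he hM χ heM c (cohMapO f (isIntertwining_scalar (levelChar hM χ) f) u) :=
  cohMapO_onH1 f _ _ (alData A hW he hM χ heM c) (alData B hW he hM χ heM c) (fun _ => rfl)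
    (fun _ a => f.map_smul c a) u

/-- Atkin–Lehner operators commute with the Hecke operators at all other primes. -/
theorem alOp_heckeOp_ne {ℓ : ℕ} [Fact ℓ.Prime] (hℓe : ℓ ≠ e)
    (u : Coh1 (scalarRep (levelChar hM χ) A)) :
    alOp A hW he hM χ heM c (heckeOp _ ℓ u) = heckeOp _ ℓ (alOp A hW he hM χ heM c u) := by
  by_cases h : ℓ ∣ N
  · exact alOp_heckeOp_dvd hW he hM χ heM c h hℓe u
  · exact alOp_heckeOp hW he hM χ heM c h u

end Nat

lemma ne_of_notMem {S : Set ℕ} {ℓ e : ℕ} (hℓ : ℓ ∉ S) (he : e ∈ S) : ℓ ≠ e := by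
  rintro rfl; exact hℓ he

lemma mk_add_mk_same {R : Type*} [CommSemiring R] {S : Submonoid R} {M : Type*} [AddCommMonoid M]
    [Module R M] (a b : M) (s : S) :
    LocalizedModule.mk a s + LocalizedModule.mk b s = LocalizedModule.mk (a + b) s := by
  rw [LocalizedModule.mk_add_mk, ← smul_add, ← LocalizedModule.mk_cancel_common_left s s]

section Loc

variable {O : Type uO} [CommRing O] {A : Type uA} [AddCommGroup A] [Module O A] {N M : ℕ}
  {W : Finset ℕ} (hW : IsALPrimes N W) (hWM : ∀ e ∈ W, e.Coprime M) (hM : M ∣ N)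
  (χ : (ZMod M)ˣ →* O) (c : ℕ → O) {S : Set ℕ} {P : Submonoid (HeckePoly O)} (hP : IsAway S P)
  (hWS : ∀ e ∈ W, e ∈ S)

variable (A) in
/-- The localised Atkin–Lehner involution at `e` (the identity if `e ∉ W`). -/
noncomputable def alLoc (e : ℕ) :
    Module.End O (CohLoc P (scalarRep (levelChar hM χ) A)) :=
  if he : e ∈ W then
    locLift P (alOp A hW he hM χ (hWM e he) (c e))
      (hP.commute _ fun _ _ hℓ u =>
        alOp_heckeOp_ne hW he hM χ (hWM e he) (c e) (ne_of_notMem hℓ (hWS e he)) u)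
  else 1

lemma alLoc_mk {e : ℕ} (he : e ∈ W) (u : Coh1 (scalarRep (levelChar hM χ) A)) (s : P) :
    alLoc A hW hWM hM χ c hP hWS e (LocalizedModule.mk u s)
      = LocalizedModule.mk (alOp A hW he hM χ (hWM e he) (c e) u) s := by
  rw [alLoc, dif_pos he, locLift_mk]

/-- The localised Atkin–Lehner operators are involutions. -/
theorem alLoc_alLoc (hc : ∀ e (he : e ∈ W), c e * c e = χ (ZMod.unitOfCoprime e (hWM e he)))
    {e : ℕ} (he : e ∈ W) (x : CohLoc P (scalarRep (levelChar hM χ) A)) :
    alLoc A hW hWM hM χ c hP hWS e (alLoc A hW hWM hM χ c hP hWS e x) = x := by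
  induction x using LocalizedModule.induction_on with
  | _ u s => rw [alLoc_mk _ _ _ _ _ _ _ he, alLoc_mk _ _ _ _ _ _ _ he,
      alOp_alOp hW he hM χ _ _ (hc e he)]

/-- The localised Atkin–Lehner operators commute. -/
theorem alLoc_comm {e : ℕ} (he : e ∈ W) {e' : ℕ} (he' : e' ∈ W)
    (x : CohLoc P (scalarRep (levelChar hM χ) A)) :
    alLoc A hW hWM hM χ c hP hWS e (alLoc A hW hWM hM χ c hP hWS e' x)
      = alLoc A hW hWM hM χ c hP hWS e' (alLoc A hW hWM hM χ c hP hWS e x) := by
  rcases eq_or_ne e e' with rfl | hne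
  · rfl
  induction x using LocalizedModule.induction_on with
  | _ u s => rw [alLoc_mk _ _ _ _ _ _ _ he', alLoc_mk _ _ _ _ _ _ _ he,
      alLoc_mk _ _ _ _ _ _ _ he, alLoc_mk _ _ _ _ _ _ _ he', alOp_comm hW he hM χ _ _ he' _ _ hne]

/-- Localised Atkin–Lehner operators commute with the Hecke polynomials away from `S`. -/
theorem alLoc_smul (a : AwayPoly O S) (e : ℕ) (x : CohLoc P (scalarRep (levelChar hM χ) A)) :
    alLoc A hW hWM hM χ c hP hWS e (awayIncl O S a • x)
      = awayIncl O S a • alLoc A hW hWM hM χ c hP hWS e x := by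
  unfold alLoc
  by_cases he : e ∈ W
  · simp only [dif_pos he]
    exact locLift_smul _ _ _ (map_awayIncl_smul (S := S) _ (fun ℓ _ hℓ u =>
      alOp_heckeOp_ne hW he hM χ (hWM e he) (c e) (ne_of_notMem hℓ (hWS e he)) u) a) x
  · simp only [dif_neg he]
    rfl

/-- Localised Atkin–Lehner operators commute with maps of coefficients. -/
theorem charMap_alLoc {B : Type uB} [AddCommGroup B] [Module O B] (f : A →ₗ[O] B) (e : ℕ)
    (x : CohLoc P (scalarRep (levelChar hM χ) A)) :
    charMap P (levelChar hM χ) f (alLoc A hW hWM hM χ c hP hWS e x)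
      = alLoc B hW hWM hM χ c hP hWS e (charMap P (levelChar hM χ) f x) := by
  unfold alLoc
  by_cases he : e ∈ W
  · simp only [dif_pos he]
    exact locMap_locLift f _ _ _ _ _ _ (alOp_cohMapO hW he hM χ (hWM e he) (c e) f) x
  · simp only [dif_neg he]
    rfl

end Loc

section Residual

variable {O : Type} [CommRing O] {A : Type} [AddCommGroup A] [Module O A] {N M : ℕ}
  {W : Finset ℕ} (hW : IsALPrimes N W) (hWM : ∀ e ∈ W, e.Coprime M) (hM : M ∣ N)
  (χ : (ZMod M)ˣ →* O) (c : ℕ → O) {S : Set ℕ} {P : Submonoid (HeckePoly O)} (hP : IsAway S P)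
  (hWS : ∀ e ∈ W, e ∈ S) (hχ : ∀ u (a : A), χ u • a = a) (hc : ∀ e ∈ W, ∀ a : A, c e • a = a)

include hχ in
lemma isGammaHom_cocycle (u : Cocycle (scalarRep (levelChar hM χ) A)) : IsGammaHom u.1 := by
  refine ⟨fun γ δ => ?_, u.2.2 _ rfl⟩
  have h := u.2.1 γ δ
  rwa [gammaRep_scalar, show levelChar hM χ (dUnit N γ) • u.1 δ = u.1 δ from hχ _ _] at h

include hχ in
lemma toCoh_injective_of_trivial :
    Function.Injective (toCoh (scalarRep (levelChar hM χ) A)) := by
  refine (injective_iff_map_eq_zero _).mpr fun u hu => ?_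
  obtain ⟨a, ha⟩ := (toCoh_eq_zero_iff u).mp hu
  refine Subtype.ext (funext fun γ => ?_)
  rw [ha γ, scalarRep_apply, show levelChar hM χ (dUnit N γ) • a = a from hχ _ _, sub_self]
  rfl

/-- The class of a homomorphism. -/
noncomputable def homClass (u : Gamma0 N → A) (hu : IsGammaHom u)
    (hχ : ∀ u (a : A), χ u • a = a) : Coh1 (scalarRep (levelChar hM χ) A) :=
  toCoh _ ⟨u, fun γ δ => by
      rw [gammaRep_scalar, show levelChar hM χ (dUnit N γ) • u δ = u δ from hχ _ _]
      exact hu.1 γ δ,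
    fun k hk => by rw [Set.mem_singleton_iff] at hk; rw [hk]; exact hu.2⟩

include hc in
lemma alOp_homClass {e : ℕ} (he : e ∈ W) {u : Gamma0 N → A} (hu : IsGammaHom u)
    (h' : IsGammaHom fun γ => u (alConj hW he γ)) :
    alOp A hW he hM χ (hWM e he) (c e) (homClass hM χ u hu hχ)
      = homClass hM χ (fun γ => u (alConj hW he γ)) h' hχ := by
  refine congrArg (toCoh _) (Subtype.ext (funext fun γ => ?_))
  exact (alData_raw hW he hM χ (hWM e he) (c e) u γ).trans (hc e he _)

lemma eisen_smul_homClass {ℓ : ℕ} [Fact ℓ.Prime] (hℓN : ¬ ℓ ∣ N) {u : Gamma0 N → A}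
    (hu : IsGammaHom u) :
    eisen O ℓ • homClass hM χ u hu hχ
      = homClass hM χ (eisGamma ℓ u) (isGammaHom_eisGamma hℓN hu) hχ := by
  have : NeZero ℓ := ⟨(Fact.out : ℓ.Prime).ne_zero⟩
  rw [show eisen O ℓ = (MvPolynomial.X ⟨ℓ, Fact.out⟩ : HeckePoly O)
      - MvPolynomial.C ((ℓ : O) + 1) from rfl, sub_smul, X_smul, ← MvPolynomial.algebraMap_eq,
    algebraMap_smul]
  unfold homClass
  rw [heckeOp_toCoh, ← map_smul, ← map_sub]
  refine congrArg (toCoh _) (Subtype.ext (funext fun γ => ?_))
  show (heckeData (scalarRep (levelChar hM χ) A) ℓ).raw u γ - ((ℓ : O) + 1) • u γ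
    = (heckeData (trivRep N ℤ A) ℓ).raw u γ - (ℓ + 1) • u γ
  rw [← Nat.cast_add_one, Nat.cast_smul_eq_nsmul, Data.raw_apply, Data.raw_apply]
  refine congrArg₂ (· - ·) (Finset.sum_congr rfl fun x _ => ?_) rfl
  show levelChar hM χ (aUnit x) • u _ = u _
  rw [show levelChar hM χ (aUnit x) • _ = _ from hχ _ _]
  exact congrArg u (((heckeData (trivRep N ℤ A) ℓ).spec_unique toGL_injective
    ((heckeData (scalarRep (levelChar hM χ) A) ℓ).mul_spec x γ)).2).symm

include hWM hP hWS hχ hc in
/-- **Residual exactness.** A localised class fixed by a subfamily is a norm for each member. -/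
theorem exists_norm_loc (hPE : NonEisenstein N P) (h2 : ∀ a : A, a + a = 0) (V : Finset ℕ)
    (hV : V ⊆ W) (hL : TwoLiftable (PAL N V (hW.mono hV))) {e : ℕ} (he : e ∈ V)
    (x : CohLoc P (scalarRep (levelChar hM χ) A))
    (hx : ∀ e' ∈ V, alLoc A hW hWM hM χ c hP hWS e' x = x) :
    ∃ v, (∀ e' ∈ V, e' ≠ e → alLoc A hW hWM hM χ c hP hWS e' v = v) ∧
      x = v + alLoc A hW hWM hM χ c hP hWS e v := by
  classical
  obtain ⟨ℓ, hℓ, hℓ1, hℓP⟩ := hPE
  have : Fact ℓ.Prime := ⟨hℓ⟩
  have hℓN : ¬ ℓ ∣ N := fun h => by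
    have h1 := congrArg (ZMod.castHom h (ZMod ℓ)) hℓ1
    rw [map_natCast, map_one, ZMod.natCast_self] at h1
    exact zero_ne_one h1
  induction x using LocalizedModule.induction_on with
  | _ u s =>
    -- a representative fixed by all members
    have key : ∀ V' ⊆ V, ∃ t : P, ∀ e' (he' : e' ∈ V'),
        (∀ hW' : e' ∈ W, alOp A hW hW' hM χ (hWM e' hW') (c e') ((t : HeckePoly O) • u)
          = (t : HeckePoly O) • u) := by
      intro V'
      induction V' using Finset.induction_on with
      | empty => exact fun _ => ⟨1, fun e' he' => absurd he' (Finset.notMem_empty e')⟩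
      | insert a V' _ ih =>
        intro hV'
        obtain ⟨t, ht⟩ := ih ((Finset.subset_insert a V').trans hV')
        have ha : a ∈ W := hV (hV' (Finset.mem_insert_self a V'))
        have hfix := hx a (hV' (Finset.mem_insert_self a V'))
        rw [alLoc_mk _ _ _ _ _ _ _ ha, LocalizedModule.mk_eq] at hfix
        obtain ⟨t', ht'⟩ := hfix
        simp only [Submonoid.smul_def] at ht'
        refine ⟨t * (t' * s), fun e' he' hW' => ?_⟩
        have hcomm := hP.commute (alOp A hW hW' hM χ (hWM e' hW') (c e')) (fun l _ hl v =>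
          alOp_heckeOp_ne hW hW' hM χ (hWM e' hW') (c e') (ne_of_notMem hl (hWS e' hW')) v)
        rw [Submonoid.coe_mul, mul_smul]
        rcases Finset.mem_insert.mp he' with rfl | he''
        · rw [hcomm _ t.2, hcomm _ (t' * s).2, Submonoid.coe_mul, mul_smul, mul_smul]
          exact congrArg ((t : HeckePoly O) • ·) ht'
        · rw [smul_comm, hcomm _ (t' * s).2, ht e' he'' hW']
    obtain ⟨t, ht⟩ := key V subset_rfl
    obtain ⟨w, hw⟩ := toCoh_surjective (scalarRep (levelChar hM χ) A) ((t : HeckePoly O) • u)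
    have hwG := isGammaHom_cocycle hM χ hχ w
    have hinv : ∀ e' (he' : e' ∈ V) γ, w.1 (alConj (hW.mono hV) he' γ) = w.1 γ := by
      intro e' he' γ
      have h := ht e' he' (hV he')
      rw [← hw, alOp_toCoh] at h
      have h1 := congrFun (congrArg Subtype.val (toCoh_injective_of_trivial hM χ hχ h)) γ
      exact ((alData_raw hW (hV he') hM χ (hWM e' (hV he')) (c e') w.1 γ).trans
        (hc e' (hV he') _)).symm.trans h1
    obtain ⟨v, hv, hvinv, hvsum⟩ := exists_norm hℓN (hW.mono hV) h2 hL he hwG hinv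
    have hve : IsGammaHom fun γ => v (alConj hW (hV he) γ) := by
      refine ⟨fun γ δ => ?_, ?_⟩
      · have h1 := ((iterate_eisGamma_spec hℓN (hW.mono hV) V.card hwG V subset_rfl hinv).1).1 γ δ
        rw [hvsum, hvsum, hvsum, hv.1] at h1
        rw [add_add_add_comm] at h1
        exact add_left_cancel h1
      · have h1 := ((iterate_eisGamma_spec hℓN (hW.mono hV) V.card hwG V subset_rfl hinv).1).2
        rw [hvsum, hv.2, zero_add] at h1
        exact h1
    have hit : ∀ n, (eisen O ℓ) ^ n • homClass hM χ w.1 hwG hχ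
        = homClass hM χ ((eisGamma ℓ)^[n] w.1)
            (iterate_eisGamma_spec hℓN (hW.mono hV) n hwG V subset_rfl hinv).1 hχ := by
      intro n
      induction n with
      | zero => rw [pow_zero, one_smul]; rfl
      | succ n ih =>
        rw [pow_succ', mul_smul, ih, eisen_smul_homClass hM χ hχ hℓN]
        exact congrArg (toCoh _)
          (Subtype.ext (Function.iterate_succ_apply' (eisGamma ℓ) n w.1).symm)
    let d : P := t * ⟨eisen O ℓ ^ V.card, P.pow_mem hℓP _⟩
    refine ⟨LocalizedModule.mk (homClass hM χ v hv hχ) (d * s), fun e' he' hne => ?_, ?_⟩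
    · rw [alLoc_mk _ _ _ _ _ _ _ (hV he')]
      refine congrArg (LocalizedModule.mk · (d * s)) ?_
      have h' : IsGammaHom fun γ => v (alConj hW (hV he') γ) := by
        rw [show (fun γ => v (alConj hW (hV he') γ)) = v from funext (hvinv e' he' hne)]
        exact hv
      rw [alOp_homClass hW hWM hM χ c hχ hc (hV he') hv h']
      exact congrArg (toCoh _) (Subtype.ext (funext (hvinv e' he' hne)))
    · rw [alLoc_mk _ _ _ _ _ _ _ (hV he), alOp_homClass hW hWM hM χ c hχ hc (hV he) hv hve,
        mk_add_mk_same,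
        ← LocalizedModule.mk_cancel_common_left d s u]
      refine congrArg (LocalizedModule.mk · (d * s)) ?_
      show ((t : HeckePoly O) * eisen O ℓ ^ V.card) • u = _
      rw [mul_comm, mul_smul, ← hw, show toCoh _ w = homClass hM χ w.1 hwG hχ from rfl, hit]
      unfold homClass
      rw [← map_add]
      exact congrArg (toCoh _) (Subtype.ext (funext hvsum))

end Residual

section Free

variable {O : Type} [CommRing O] [IsNoetherianRing O] [IsLocalRing O]
  [IsAdicComplete (maximalIdeal O) O] {N M : ℕ} [NeZero N] {W : Finset ℕ} (hW : IsALPrimes N W)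
  (hWM : ∀ e ∈ W, e.Coprime M) (hM : M ∣ N) (χ : (ZMod M)ˣ →* O) (c : ℕ → O) {S : Set ℕ}
  {m : Ideal (AwayPoly O S)} [m.IsPrime] (hWS : ∀ e ∈ W, e ∈ S)

/-- What makes the signed parts free and compatible with base change. -/
structure ALHyp : Prop where
  le : (maximalIdeal O).map (algebraMap O (AwayPoly O S)) ≤ m
  exact : ExactHyp (awayMonoid m) (levelChar hM χ)
  two : (2 : O) ∈ maximalIdeal O
  char_one : ∀ u, χ u - 1 ∈ maximalIdeal O
  sq : ∀ e (he : e ∈ W), c e * c e = χ (ZMod.unitOfCoprime e (hWM e he))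
  lift : ∀ (V : Finset ℕ) (hV : V ⊆ W), TwoLiftable (PAL N V (hW.mono hV))

variable {hW hWM hM χ c} (H : ALHyp hW hWM hM χ c (m := m))

include H in
omit [IsNoetherianRing O] [IsAdicComplete (maximalIdeal O) O] [NeZero N] in
lemma ALHyp.sign_one {e : ℕ} (he : e ∈ W) : c e - 1 ∈ maximalIdeal O := by
  have h := H.char_one (ZMod.unitOfCoprime e (hWM e he))
  rw [← H.sq e he] at h
  have h' : (c e - 1) * (c e - 1) ∈ maximalIdeal O := by
    rw [show (c e - 1) * (c e - 1) = c e * c e - 1 - 2 * (c e - 1) by ring]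
    exact sub_mem h (Ideal.mul_mem_right _ _ H.two)
  exact ((maximalIdeal.isMaximal O).isPrime.mem_or_mem h').elim id id

omit [IsAdicComplete (maximalIdeal O) O] [NeZero N] in
include H in
/-- Residually, the fixed classes of an Atkin–Lehner involution are its norms. -/
theorem ALHyp.residuallyExact :
    IsResiduallyExact (alLoc O hW hWM hM χ c (isAway_awayMonoid m) hWS) W := by
  intro V hV e he x hx
  let k := O ⧸ maximalIdeal O
  let f : O →ₗ[O] k := (maximalIdeal O).mkQ
  have hk : ∀ r : O, r - 1 ∈ maximalIdeal O → ∀ a : k, r • a = a := fun r hr a => by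
    obtain ⟨b, rfl⟩ := Submodule.mkQ_surjective (maximalIdeal O) a
    rw [← map_smul, Submodule.mkQ_apply, Submodule.mkQ_apply, Submodule.Quotient.eq, smul_eq_mul,
      show r * b - b = (r - 1) * b by ring]
    exact Ideal.mul_mem_right _ _ hr
  have h2 : ∀ a : k, a + a = 0 := fun a => by
    obtain ⟨b, rfl⟩ := Submodule.mkQ_surjective (maximalIdeal O) a
    rw [← map_add, Submodule.mkQ_apply, Submodule.Quotient.mk_eq_zero, ← two_mul]
    exact Ideal.mul_mem_right _ _ H.two
  have hker := ker_charMap_mkQ H.exact (maximalIdeal O)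
  obtain ⟨v, hv, hxv⟩ := exists_norm_loc (A := k) hW hWM hM χ c (isAway_awayMonoid m) hWS
    (fun u => hk _ (H.char_one u)) (fun e' he' => hk _ (H.sign_one he')) H.exact.nonEisenstein h2
    V hV (H.lift V hV) he (charMap _ _ f x) fun e' he' => by
      rw [← charMap_alLoc, ← sub_eq_zero, ← map_sub]
      exact (hker _).mpr (hx e' he')
  obtain ⟨v', rfl⟩ := charMap_surjective H.exact f (Submodule.mkQ_surjective _) v
  refine ⟨v', fun e' he' hne => (hker _).mp ?_, (hker _).mp ?_⟩
  · show charMap _ _ f _ = 0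
    rw [map_sub, charMap_alLoc, hv e' he' hne, sub_self]
  · show charMap _ _ f _ = 0
    rw [map_sub, map_add, charMap_alLoc, ← hxv, sub_self]

variable (W) in
/-- The part where each Atkin–Lehner operator at a member of `W` is the identity. -/
noncomputable abbrev signedPart (hW : IsALPrimes N W) (hWM : ∀ e ∈ W, e.Coprime M) (hM : M ∣ N)
    (χ : (ZMod M)ˣ →* O) (c : ℕ → O) (hWS : ∀ e ∈ W, e ∈ S) :
    Submodule O (CohChar (awayMonoid m) (levelChar hM χ) O) :=
  fixedPart (alLoc O hW hWM hM χ c (isAway_awayMonoid m) hWS) W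

include H in
/-- The signed part is finite free. -/
theorem ALHyp.free_signedPart :
    Module.Finite O (signedPart W hW hWM hM χ c (m := m) hWS) ∧
      Module.Free O (signedPart W hW hWM hM χ c (m := m) hWS) := by
  obtain ⟨hfin, hfree⟩ := free_cohChar_of_complete m (levelChar hM χ) H.le H.exact
  exact free_fixedPart _ (fun e he => alLoc_alLoc _ _ _ _ _ _ _ H.sq he)
    (fun e he e' he' => alLoc_comm _ _ _ _ _ _ _ he he') H.two (H.residuallyExact hWS)

include H in
/-- The signed part commutes with reduction: a class fixed modulo `J` comes from the signed part. -/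
theorem ALHyp.exists_signedPart_sub_mem (J : Ideal O)
    (x : CohChar (awayMonoid m) (levelChar hM χ) O)
    (hx : ∀ e ∈ W, alLoc O hW hWM hM χ c (isAway_awayMonoid m) hWS e x - x
      ∈ J • (⊤ : Submodule O (CohChar (awayMonoid m) (levelChar hM χ) O))) :
    ∃ y ∈ signedPart W hW hWM hM χ c (m := m) hWS,
      x - y ∈ J • (⊤ : Submodule O (CohChar (awayMonoid m) (levelChar hM χ) O)) := by
  obtain ⟨hfin, hfree⟩ := free_cohChar_of_complete m (levelChar hM χ) H.le H.exact
  exact (fixedPart_spec _ (fun e he => alLoc_alLoc _ _ _ _ _ _ _ H.sq he)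
    (fun e he e' he' => alLoc_comm _ _ _ _ _ _ _ he he') H.two (H.residuallyExact hWS) W
    subset_rfl).2.1 J x hx

include H in
/-- An element of the signed part divisible by `J` is so inside it. -/
theorem ALHyp.mem_smul_signedPart (J : Ideal O)
    (x : signedPart W hW hWM hM χ c (m := m) hWS)
    (hx : (x : CohChar (awayMonoid m) (levelChar hM χ) O)
      ∈ J • (⊤ : Submodule O (CohChar (awayMonoid m) (levelChar hM χ) O))) :
    x ∈ J • (⊤ : Submodule O (signedPart W hW hWM hM χ c (m := m) hWS)) := by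
  obtain ⟨hfin, hfree⟩ := free_cohChar_of_complete m (levelChar hM χ) H.le H.exact
  exact mem_smul_fixedPart _ (fun e he => alLoc_alLoc _ _ _ _ _ _ _ H.sq he)
    (fun e he e' he' => alLoc_comm _ _ _ _ _ _ _ he he') H.two (H.residuallyExact hWS) J x hx

end Free

end Fermat.Agent.TwoAdic
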