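import Fermat.Agent.TwoAdic.Modules.Setup

/-!
The top new quotient of a cube of levels: it commutes with base change, and it is free as soon as
the degeneracy maps of the faces are injective modulo the maximal ideal.
-/

set_option autoImplicit false

open CongruenceSubgroup IsLocalRing

universe uA

namespace Fermat.Agent.TwoAdic

open HeckeJ0 LevelRaising HeckeModule

attribute [local instance] ALSetup.isPrime

namespace ALSetup

variable {O : Type} [CommRing O] [IsLocalRing O] (T : ALSetup O)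
  (A : Type uA) [AddCommGroup A] [Module O A]

lemma dvd_of_notMem_S {V V' : Finset ℕ} (hV : V ⊆ T.W) {ℓ : ℕ} (hℓ : ℓ.Prime) (hℓS : ℓ ∉ T.S)
    (h : ℓ ∣ T.level V) : ℓ ∣ T.level V' := by
  rcases hℓ.dvd_mul.mp h with h | h
  · exact h.mul_right _
  · obtain ⟨a, ha, hla⟩ := ((Nat.prime_iff.mp hℓ).dvd_finsetProd_iff _).mp h
    exact absurd (T.mem_S a (hV ha))
      (((Nat.prime_dvd_prime_iff_eq hℓ (T.prime a (hV ha))).mp hla) ▸ hℓS)

lemma one_mul_level_dvd {V V' : Finset ℕ} (h : V' ⊆ V) : 1 * T.level V' ∣ T.level V := by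
  rw [one_mul]; exact T.level_dvd h

section Maps

variable {V V' : Finset ℕ} (hV : V ⊆ T.W) (h : V' ⊆ V)

lemma charDegen_comm (ℓ : ℕ) [hℓ : Fact ℓ.Prime] (hℓS : ℓ ∉ T.S)
    (u : Coh1 (scalarRep (T.char V') A)) (hV : V ⊆ T.W) :
    charDegen A (T.dvd_level V') T.χ (T.dvd_level V) one_ne_zero (T.one_mul_level_dvd h)
        (heckeOp _ ℓ u)
      = heckeOp _ ℓ (charDegen A (T.dvd_level V') T.χ (T.dvd_level V) one_ne_zero
          (T.one_mul_level_dvd h) u) :=
  charDegen_heckeOp _ _ _ one_ne_zero _ hℓ.out.not_dvd_one (T.dvd_of_notMem_S hV hℓ.out hℓS) u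

/-- The degeneracy map of `z ↦ z`. -/
noncomputable def res : T.H V' A →ₗ[O] T.H V A :=
  locLift (awayMonoid T.m)
    (charDegen A (T.dvd_level V') T.χ (T.dvd_level V) one_ne_zero (T.one_mul_level_dvd h))
    ((isAway_awayMonoid T.m).commute _ fun ℓ _ hℓ u => T.charDegen_comm A h ℓ hℓ u hV)

variable {A}

lemma res_mk (u : Coh1 (scalarRep (T.char V') A)) (s : awayMonoid T.m) :
    T.res A hV h (LocalizedModule.mk u s) = LocalizedModule.mk
      (charDegen A (T.dvd_level V') T.χ (T.dvd_level V) one_ne_zero (T.one_mul_level_dvd h) u) s :=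
  locLift_mk _ _ _ _

lemma w_mk {e : ℕ} (he : e ∈ V) (u : Coh1 (scalarRep (T.char V) A)) (s : awayMonoid T.m) :
    T.w A hV e (LocalizedModule.mk u s) = LocalizedModule.mk
      (alOp A (T.isAL hV) he (T.dvd_level V) T.χ (T.coprime_M (hV he)) (T.c e) u) s :=
  alLoc_mk _ _ _ _ _ _ _ he u s

lemma w_w {e : ℕ} (he : e ∈ V) (x : T.H V A) : T.w A hV e (T.w A hV e x) = x :=
  alLoc_alLoc _ _ _ _ _ _ _ (fun a ha => T.sq a (hV ha) _) he x

lemma w_comm {e : ℕ} (he : e ∈ V) {e' : ℕ} (he' : e' ∈ V) (x : T.H V A) :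
    T.w A hV e (T.w A hV e' x) = T.w A hV e' (T.w A hV e x) :=
  alLoc_comm _ _ _ _ _ _ _ he he' x

lemma w_res {e : ℕ} (he : e ∈ V') (x : T.H V' A) :
    T.w A hV e (T.res A hV h x) = T.res A hV h (T.w A (h.trans hV) e x) := by
  induction x using LocalizedModule.induction_on with
  | _ u s => rw [res_mk, w_mk _ _ (h he), w_mk _ _ he, res_mk,
      alOp_charDegen_one (T.dvd_level V') T.χ (T.dvd_level V) (T.isAL (h.trans hV)) (T.isAL hV)
        he (h he) _ _ (T.one_mul_level_dvd h)]

lemma res_res {V'' : Finset ℕ} (h' : V'' ⊆ V') (x : T.H V'' A) :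
    T.res A hV h (T.res A (h.trans hV) h' x) = T.res A hV (h'.trans h) x := by
  induction x using LocalizedModule.induction_on with
  | _ u s => rw [res_mk, res_mk, res_mk, charDegen_one_comp]

lemma res_smul (a : AwayPoly O T.S) (x : T.H V' A) :
    T.res A hV h (awayIncl O T.S a • x) = awayIncl O T.S a • T.res A hV h x :=
  locLift_smul _ _ _
    (map_awayIncl_smul _ (fun ℓ _ hℓ u => T.charDegen_comm A h ℓ hℓ u hV) a) x

lemma charMap_res {B : Type uA} [AddCommGroup B] [Module O B] (f : A →ₗ[O] B) (x : T.H V' A) :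
    charMap (awayMonoid T.m) (T.char V) f (T.res A hV h x)
      = T.res B hV h (charMap (awayMonoid T.m) (T.char V') f x) :=
  locMap_locLift f _ _ _ _ _ _ (fun u => cohMapO_onH1 f _ _
    (charDegenData A (T.dvd_level V') T.χ (T.dvd_level V) one_ne_zero (T.one_mul_level_dvd h))
    (charDegenData B (T.dvd_level V') T.χ (T.dvd_level V) one_ne_zero (T.one_mul_level_dvd h))
    (fun _ => rfl) (fun _ _ => rfl) u) x

end Maps

/-- The old map at `b`: `x ↦ res x + w_b (res x)`. -/
noncomputable def oldMap {V V' : Finset ℕ} (hV : V ⊆ T.W) (h : V' ⊆ V) (b : ℕ) :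
    T.H V' A →ₗ[O] T.H V A :=
  (LinearMap.id + T.w A hV b) ∘ₗ T.res A hV h

variable {A}

lemma oldMap_apply {V V' : Finset ℕ} (hV : V ⊆ T.W) (h : V' ⊆ V) (b : ℕ) (x : T.H V' A) :
    T.oldMap A hV h b x = T.res A hV h x + T.w A hV b (T.res A hV h x) := rfl

lemma oldMap_mem_signed {V : Finset ℕ} (hV : V ⊆ T.W) {b : ℕ} (hb : b ∈ V)
    {x : T.H (V.erase b) A} (hx : x ∈ T.signed A ((V.erase_subset b).trans hV)) :
    T.oldMap A hV (V.erase_subset b) b x ∈ T.signed A hV := by
  refine T.mem_signed.mpr fun e he => ?_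
  rw [oldMap_apply, map_add]
  by_cases heb : e = b
  · subst heb
    rw [T.w_w hV he, add_comm]
  · have he' : e ∈ V.erase b := Finset.mem_erase.mpr ⟨heb, he⟩
    rw [T.w_comm hV he hb, T.w_res hV _ he', T.mem_signed.mp hx e he']

/-- Old maps at two primes commute. -/
lemma oldMap_oldMap {V U U' : Finset ℕ} (hV : V ⊆ T.W) (hU' : U' ⊆ V) (hU : U ⊆ U') {a b : ℕ}
    (ha : a ∈ U') (x : T.H U A) :
    T.oldMap A hV hU' b (T.oldMap A (hU'.trans hV) hU a x)
      = T.res A hV (hU.trans hU') x + T.w A hV a (T.res A hV (hU.trans hU') x)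
        + T.w A hV b (T.res A hV (hU.trans hU') x + T.w A hV a (T.res A hV (hU.trans hU') x)) := by
  rw [oldMap_apply, oldMap_apply, map_add (T.res A hV hU'), T.res_res hV hU' hU,
    ← T.w_res hV hU' ha, T.res_res hV hU' hU]

lemma charMap_oldMap {B : Type uA} [AddCommGroup B] [Module O B] {V V' : Finset ℕ}
    (hV : V ⊆ T.W) (h : V' ⊆ V) (b : ℕ) (f : A →ₗ[O] B) (x : T.H V' A) :
    charMap (awayMonoid T.m) (T.char V) f (T.oldMap A hV h b x)
      = T.oldMap B hV h b (charMap (awayMonoid T.m) (T.char V') f x) := by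
  rw [oldMap_apply, oldMap_apply, map_add, T.charMap_w, T.charMap_res]

variable (A)

/-- The old map at `b` between signed parts. -/
noncomputable def oldSigned {V : Finset ℕ} (hV : V ⊆ T.W) {b : ℕ} (hb : b ∈ V) :
    T.signed A ((V.erase_subset b).trans hV) →ₗ[O] T.signed A hV :=
  (T.oldMap A hV (V.erase_subset b) b).restrict fun _ hx => T.oldMap_mem_signed hV hb hx

@[simp] lemma coe_oldSigned {V : Finset ℕ} (hV : V ⊆ T.W) {b : ℕ} (hb : b ∈ V)
    (x : T.signed A ((V.erase_subset b).trans hV)) :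
    (T.oldSigned A hV hb x : T.H V A) = T.oldMap A hV (V.erase_subset b) b x := rfl

/-- The old subspace at the primes of `B`. -/
noncomputable def oldSpace {V : Finset ℕ} (hV : V ⊆ T.W) (B : Finset ℕ) :
    Submodule O (T.signed A hV) :=
  ⨆ (b : ℕ) (hb : b ∈ V) (_ : b ∈ B), LinearMap.range (T.oldSigned A hV hb)

lemma oldSigned_mem_oldSpace {V : Finset ℕ} (hV : V ⊆ T.W) {B : Finset ℕ} {b : ℕ} (hb : b ∈ V)
    (hbB : b ∈ B) (x : T.signed A ((V.erase_subset b).trans hV)) :
    T.oldSigned A hV hb x ∈ T.oldSpace A hV B :=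
  Submodule.mem_iSup_of_mem b (Submodule.mem_iSup_of_mem hb
    (Submodule.mem_iSup_of_mem hbB ⟨x, rfl⟩))

/-- The new quotient at the primes of `B`. -/
abbrev NewQuot {V : Finset ℕ} (hV : V ⊆ T.W) (B : Finset ℕ) : Type _ :=
  T.signed A hV ⧸ T.oldSpace A hV B

lemma oldSigned_mapsTo {V : Finset ℕ} (hV : V ⊆ T.W) {b : ℕ} (hb : b ∈ V) (B : Finset ℕ) :
    T.oldSpace A ((V.erase_subset b).trans hV) B
      ≤ (T.oldSpace A hV B).comap (T.oldSigned A hV hb) := by
  refine iSup_le fun a => iSup_le fun ha => iSup_le fun haB => ?_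
  rintro _ ⟨⟨z, hz⟩, rfl⟩
  have haV : a ∈ V := Finset.mem_of_mem_erase ha
  have hab : b ∈ V.erase a := Finset.mem_erase.mpr ⟨(Finset.ne_of_mem_erase ha).symm, hb⟩
  -- the same class seen from the other face
  obtain ⟨U, hU⟩ : ∃ U, (V.erase b).erase a = U := ⟨_, rfl⟩
  have hU' : (V.erase a).erase b = U := by rw [Finset.erase_right_comm, hU]
  subst hU
  have hsub : (V.erase b).erase a ⊆ V.erase a :=
    Finset.erase_subset_erase a (V.erase_subset b)
  have hz' : T.oldMap A ((V.erase_subset a).trans hV) hsub b z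
      ∈ T.signed A ((V.erase_subset a).trans hV) := by
    refine T.mem_signed.mpr fun e he => ?_
    rw [oldMap_apply, map_add]
    by_cases heb : e = b
    · subst heb
      rw [T.w_w _ he, add_comm]
    · have he' : e ∈ (V.erase b).erase a :=
        Finset.mem_erase.mpr ⟨Finset.ne_of_mem_erase he,
          Finset.mem_erase.mpr ⟨heb, Finset.mem_of_mem_erase he⟩⟩
      rw [T.w_comm _ he hab, T.w_res _ _ he', T.mem_signed.mp hz e he']
  rw [Submodule.mem_comap]
  convert T.oldSigned_mem_oldSpace A hV haV haB ⟨_, hz'⟩ using 1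
  refine Subtype.ext ?_
  simp only [coe_oldSigned]
  rw [T.oldMap_oldMap hV (V.erase_subset b) ((V.erase b).erase_subset a) ha,
    T.oldMap_oldMap hV (V.erase_subset a) hsub hab, map_add, map_add, T.w_comm hV haV hb]
  abel

/-- The map of new quotients from the face `V ∖ b`. -/
noncomputable def faceMap {V : Finset ℕ} (hV : V ⊆ T.W) {b : ℕ} (hb : b ∈ V) (B : Finset ℕ) :
    T.NewQuot A ((V.erase_subset b).trans hV) B →ₗ[O] T.NewQuot A hV B :=
  Submodule.mapQ _ _ (T.oldSigned A hV hb) (T.oldSigned_mapsTo A hV hb B)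

variable {A} {B' : Type uA} [AddCommGroup B'] [Module O B']

/-- Change of coefficients on signed parts. -/
noncomputable def signedMap {V : Finset ℕ} (hV : V ⊆ T.W) (f : A →ₗ[O] B') :
    T.signed A hV →ₗ[O] T.signed B' hV :=
  ((charMap (awayMonoid T.m) (T.char V) f).restrictScalars O).restrict
    fun _ hx => T.charMap_mem_signed hV f hx

lemma signedMap_oldSigned {V : Finset ℕ} (hV : V ⊆ T.W) {b : ℕ} (hb : b ∈ V) (f : A →ₗ[O] B')
    (x : T.signed A ((V.erase_subset b).trans hV)) :
    T.signedMap hV f (T.oldSigned A hV hb x)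
      = T.oldSigned B' hV hb (T.signedMap ((V.erase_subset b).trans hV) f x) :=
  Subtype.ext (T.charMap_oldMap hV (V.erase_subset b) b f (x : T.H (V.erase b) A))

lemma signedMap_mapsTo {V : Finset ℕ} (hV : V ⊆ T.W) (B : Finset ℕ) (f : A →ₗ[O] B') :
    T.oldSpace A hV B ≤ (T.oldSpace B' hV B).comap (T.signedMap hV f) := by
  refine iSup_le fun b => iSup_le fun hb => iSup_le fun hbB => ?_
  rintro _ ⟨z, rfl⟩
  rw [Submodule.mem_comap, T.signedMap_oldSigned]
  exact T.oldSigned_mem_oldSpace B' hV hb hbB _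

/-- Change of coefficients on new quotients. -/
noncomputable def quotMap {V : Finset ℕ} (hV : V ⊆ T.W) (B : Finset ℕ) (f : A →ₗ[O] B') :
    T.NewQuot A hV B →ₗ[O] T.NewQuot B' hV B :=
  Submodule.mapQ _ _ (T.signedMap hV f) (T.signedMap_mapsTo hV B f)

lemma quotMap_faceMap {V : Finset ℕ} (hV : V ⊆ T.W) {b : ℕ} (hb : b ∈ V) (B : Finset ℕ)
    (f : A →ₗ[O] B') (x : T.NewQuot A ((V.erase_subset b).trans hV) B) :
    T.quotMap hV B f (T.faceMap A hV hb B x)
      = T.faceMap B' hV hb B (T.quotMap ((V.erase_subset b).trans hV) B f x) := by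
  obtain ⟨x, rfl⟩ := Submodule.mkQ_surjective _ x
  exact congrArg Submodule.Quotient.mk (T.signedMap_oldSigned hV hb f x)

section Complete

variable [IsNoetherianRing O] [IsAdicComplete (maximalIdeal O) O]

/-- The new quotient surjects onto its reduction. -/
theorem quotMap_mkQ_surjective {V : Finset ℕ} (hV : V ⊆ T.W) (B : Finset ℕ) (J : Ideal O) :
    Function.Surjective (T.quotMap hV B J.mkQ) := by
  intro y
  obtain ⟨⟨y, hy⟩, rfl⟩ := Submodule.mkQ_surjective _ y
  obtain ⟨x, hx, hxy⟩ := T.exists_signed_map_eq hV J y hy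
  exact ⟨Submodule.mkQ _ ⟨x, hx⟩, congrArg Submodule.Quotient.mk (Subtype.ext hxy)⟩

/-- **Base change**: the kernel of the reduction of a new quotient. -/
theorem quotMap_mkQ_eq_zero_iff {V : Finset ℕ} (hV : V ⊆ T.W) (B : Finset ℕ) (J : Ideal O)
    (u : T.NewQuot O hV B) :
    T.quotMap hV B J.mkQ u = 0 ↔ u ∈ J • (⊤ : Submodule O (T.NewQuot O hV B)) := by
  constructor
  · obtain ⟨x, rfl⟩ := Submodule.mkQ_surjective _ u
    intro hx
    have hx' : T.signedMap hV J.mkQ x ∈ T.oldSpace (O ⧸ J) hV B :=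
      (Submodule.Quotient.mk_eq_zero _).mp hx
    have hlift : T.oldSpace (O ⧸ J) hV B
        ≤ (T.oldSpace O hV B).map (T.signedMap hV J.mkQ) := by
      refine iSup_le fun b => iSup_le fun hb => iSup_le fun hbB => ?_
      rintro _ ⟨⟨z, hz⟩, rfl⟩
      obtain ⟨z', hz', hzz⟩ := T.exists_signed_map_eq ((V.erase_subset b).trans hV) J z hz
      refine ⟨_, T.oldSigned_mem_oldSpace O hV hb hbB ⟨z', hz'⟩, ?_⟩
      rw [T.signedMap_oldSigned]
      exact congrArg _ (Subtype.ext hzz)
    obtain ⟨x', hx'', hxx⟩ := hlift hx'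
    have hsub : x - x' ∈ J • (⊤ : Submodule O (T.signed O hV)) := by
      refine T.mem_smul_signed hV J _ ?_
      have : T.signedMap hV J.mkQ (x - x') = 0 := by rw [map_sub, hxx, sub_self]
      exact congrArg Subtype.val this
    have hx0 : (T.oldSpace O hV B).mkQ x' = 0 := (Submodule.Quotient.mk_eq_zero _).mpr hx''
    have := map_mem_smul_top (T.oldSpace O hV B).mkQ J hsub
    rwa [map_sub, hx0, sub_zero] at this
  · intro hu
    induction hu using Submodule.smul_induction_on' with
    | smul r hr u _ =>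
      rw [map_smul]
      obtain ⟨y, hy⟩ := Submodule.mkQ_surjective _ (T.quotMap hV B J.mkQ u)
      rw [← hy, ← map_smul]
      have : r • y = 0 := Subtype.ext ?_
      · rw [this, map_zero]
      show r • (y : T.H V (O ⧸ J)) = 0
      rw [show r • (y : T.H V (O ⧸ J))
        = (MvPolynomial.C r : HeckePoly O) • (y : T.H V (O ⧸ J)) by
          rw [← MvPolynomial.algebraMap_eq, algebraMap_smul],
        ← charMap_smul_id,
        show r • (LinearMap.id : (O ⧸ J) →ₗ[O] O ⧸ J) = 0 from ?_, charMap_zero]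
      refine LinearMap.ext fun z => ?_
      obtain ⟨z, rfl⟩ := Submodule.mkQ_surjective J z
      show r • Submodule.mkQ J z = 0
      rw [← map_smul, Submodule.mkQ_apply, Submodule.Quotient.mk_eq_zero]
      exact J.mul_mem_right _ hr
    | add a _ b _ ha hb => rw [map_add, ha, hb, add_zero]

omit [IsNoetherianRing O] [IsAdicComplete (maximalIdeal O) O] in
lemma oldSpace_insert_le {V : Finset ℕ} (hV : V ⊆ T.W) {b : ℕ} (hb : b ∈ V) (B : Finset ℕ) :
    T.oldSpace O hV (insert b B)
      ≤ T.oldSpace O hV B ⊔ LinearMap.range (T.oldSigned O hV hb) := by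
  refine iSup_le fun a => iSup_le fun ha => iSup_le fun haB => ?_
  rcases Finset.mem_insert.mp haB with rfl | haB
  · exact le_sup_right
  · exact le_sup_of_le_left (le_iSup_of_le a (le_iSup_of_le ha (le_iSup_of_le haB le_rfl)))

/-- The injectivity modulo the maximal ideal of the faces of the cube on `B` inside `V`. -/
def CubeInjective {V : Finset ℕ} (hV : V ⊆ T.W) (B : Finset ℕ) : Prop :=
  ∀ (U : Finset ℕ) (hU : U ⊆ V) (B₀ : Finset ℕ) (b : ℕ) (hb : b ∈ U),
    B₀ ⊆ U → B₀ ⊆ B → b ∈ B → b ∉ B₀ →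
      Function.Injective (T.faceMap (O ⧸ maximalIdeal O) (hU.trans hV) hb B₀)

/-- **The new quotient of an injective cube is free.** -/
theorem free_newQuot {B : Finset ℕ} : ∀ {V : Finset ℕ} (hV : V ⊆ T.W), B ⊆ V →
    T.CubeInjective hV B →
    Module.Finite O (T.NewQuot O hV B) ∧ Module.Free O (T.NewQuot O hV B) := by
  classical
  induction B using Finset.induction_on with
  | empty =>
    intro V hV _ _
    obtain ⟨_, _⟩ := T.free_signed hV
    have h0 : T.oldSpace O hV ∅ = ⊥ := le_bot_iff.mp (iSup_le fun b => iSup_le fun _ =>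
      iSup_le fun h => absurd h (Finset.notMem_empty b))
    exact ⟨Module.Finite.equiv (Submodule.quotEquivOfEqBot _ h0).symm,
      Module.Free.of_equiv (Submodule.quotEquivOfEqBot _ h0).symm⟩
  | insert b B hbB ih =>
    intro V hV hBV hinj
    have hb : b ∈ V := hBV (Finset.mem_insert_self b B)
    have hB : B ⊆ V := (Finset.subset_insert b B).trans hBV
    have hB' : B ⊆ V.erase b := fun a ha =>
      Finset.mem_erase.mpr ⟨fun h => hbB (h ▸ ha), hB ha⟩
    obtain ⟨_, _⟩ := ih hV hB fun U hU B₀ a ha h1 h2 h3 h4 =>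
      hinj U hU B₀ a ha h1 (h2.trans (Finset.subset_insert b B)) (Finset.mem_insert_of_mem h3) h4
    obtain ⟨_, _⟩ := ih ((V.erase_subset b).trans hV) hB' fun U hU B₀ a ha h1 h2 h3 h4 =>
      hinj U (hU.trans (V.erase_subset b)) B₀ a ha h1 (h2.trans (Finset.subset_insert b B))
        (Finset.mem_insert_of_mem h3) h4
    obtain ⟨left, hleft⟩ := exists_leftInverse_of_mod (T.faceMap O hV hb B) fun x hx => by
      rw [← T.quotMap_mkQ_eq_zero_iff] at hx ⊢
      rw [T.quotMap_faceMap] at hx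
      exact hinj V subset_rfl B b hb hB (Finset.subset_insert b B) (Finset.mem_insert_self b B)
        hbB (hx.trans (map_zero _).symm)
    have hle : T.oldSpace O hV B ≤ T.oldSpace O hV (insert b B) :=
      iSup_le fun a => iSup_le fun ha => iSup_le fun haB =>
        le_iSup_of_le a (le_iSup_of_le ha (le_iSup_of_le (Finset.mem_insert_of_mem haB) le_rfl))
    let π : T.NewQuot O hV B →ₗ[O] T.NewQuot O hV (insert b B) :=
      Submodule.mapQ _ _ LinearMap.id hle
    have hπ : Function.Surjective π := fun y => by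
      obtain ⟨y, rfl⟩ := Submodule.mkQ_surjective _ y
      exact ⟨Submodule.mkQ _ y, rfl⟩
    let q : T.NewQuot O hV B →ₗ[O] T.NewQuot O hV B :=
      LinearMap.id - T.faceMap O hV hb B ∘ₗ left
    have hq : T.oldSpace O hV (insert b B)
        ≤ LinearMap.ker (q ∘ₗ (T.oldSpace O hV B).mkQ) := by
      refine (T.oldSpace_insert_le hV hb B).trans (sup_le (fun x hx => ?_) ?_)
      · rw [LinearMap.mem_ker, LinearMap.comp_apply,
          show (T.oldSpace O hV B).mkQ x = 0 from (Submodule.Quotient.mk_eq_zero _).mpr hx, map_zero]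
      · rintro _ ⟨z, rfl⟩
        rw [LinearMap.mem_ker, LinearMap.comp_apply, show (T.oldSpace O hV B).mkQ
          (T.oldSigned O hV hb z) = T.faceMap O hV hb B (Submodule.mkQ _ z) from rfl]
        show _ - T.faceMap O hV hb B (left (T.faceMap O hV hb B _)) = 0
        rw [show left (T.faceMap O hV hb B _) = _ from LinearMap.congr_fun hleft _]
        exact sub_self _
    let s : T.NewQuot O hV (insert b B) →ₗ[O] T.NewQuot O hV B := Submodule.liftQ _ _ hq
    have hπs : π ∘ₗ s = LinearMap.id := by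
      refine Submodule.linearMap_qext _ (LinearMap.ext fun x => ?_)
      show π (Submodule.mkQ _ x - T.faceMap O hV hb B (left _)) = _
      rw [map_sub]
      have h0 : ∀ z, π (T.faceMap O hV hb B z) = 0 := fun z => by
        obtain ⟨z, rfl⟩ := Submodule.mkQ_surjective _ z
        exact (Submodule.Quotient.mk_eq_zero _).mpr
          (T.oldSigned_mem_oldSpace O hV hb (Finset.mem_insert_self b B) z)
      rw [h0, sub_zero]
      rfl
    have : Module.Finite O (T.NewQuot O hV (insert b B)) := Module.Finite.of_surjective π hπ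
    have : Module.Projective O (T.NewQuot O hV (insert b B)) :=
      Module.Projective.of_split s π hπs
    exact ⟨inferInstance, Module.free_of_flat_of_isLocalRing⟩

end Complete

end ALSetup

end Fermat.Agent.TwoAdic
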