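import Fermat.Agent.TwoAdic.Modules.Invol
import Mathlib.Data.Finset.NoncommProd
import Mathlib.Tactic.Abel

/-!
Norms of commuting involutions of a finite free module that are residually exact: after any change
of coefficients the common fixed points are the norms and the kernel of the norm is spanned by the
ranges of the differences `w e - 1`.
-/

set_option autoImplicit false

open IsLocalRing

universe uR uM uN uι

namespace Fermat.Agent.TwoAdic

section Basic

variable {R : Type uR} [CommRing R] {M : Type uM} [AddCommGroup M] [Module R M] {ι : Type uι}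
  (w : ι → Module.End R M) (hc : ∀ e e', Commute (w e) (w e'))

/-- The product of `1 + w e` over the members of `V`. -/
def normOn (V : Finset ι) : Module.End R M :=
  V.noncommProd (fun e => 1 + w e) fun a _ b _ _ =>
    ((Commute.one_left _).add_left ((Commute.one_right _).add_right (hc a b)))

lemma normOn_empty : normOn w hc ∅ = 1 := Finset.noncommProd_empty _ _

variable [DecidableEq ι]

lemma normOn_insert {e : ι} {V : Finset ι} (he : e ∉ V) :
    normOn w hc (insert e V) = (1 + w e) * normOn w hc V :=
  Finset.noncommProd_insert_of_notMem _ _ _ _ he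

omit [DecidableEq ι] in
lemma commute_normOn (e : ι) (V : Finset ι) : Commute (w e) (normOn w hc V) :=
  Finset.noncommProd_commute _ _ _ _ fun a _ => (Commute.one_right _).add_right (hc e a)

/-- A norm is fixed. -/
lemma w_normOn {e : ι} {V : Finset ι} (he : e ∈ V) (hw : ∀ x, w e (w e x) = x) (x : M) :
    w e (normOn w hc V x) = normOn w hc V x := by
  obtain ⟨V', he', rfl⟩ : ∃ V', e ∉ V' ∧ V = insert e V' :=
    ⟨V.erase e, Finset.notMem_erase e V, (Finset.insert_erase he).symm⟩
  rw [normOn_insert w hc he']
  show w e (normOn w hc V' x + w e (normOn w hc V' x)) = normOn w hc V' x + w e (normOn w hc V' x)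
  rw [map_add, hw, add_comm]

/-- The norm ignores the involutions of its members. -/
lemma normOn_w {e : ι} {V : Finset ι} (he : e ∈ V) (hw : ∀ x, w e (w e x) = x) (x : M) :
    normOn w hc V (w e x) = normOn w hc V x := by
  rw [← Module.End.mul_apply, ← (commute_normOn w hc e V).eq, Module.End.mul_apply,
    w_normOn w hc he hw]

variable {M' : Type uN} [AddCommGroup M'] [Module R M'] (w' : ι → Module.End R M')
  (hc' : ∀ e e', Commute (w' e) (w' e'))

/-- Additive maps commuting with the involutions commute with the norms. -/
lemma map_normOn (f : M →+ M') {V : Finset ι} (hf : ∀ e ∈ V, ∀ x, f (w e x) = w' e (f x)) (x : M) :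
    f (normOn w hc V x) = normOn w' hc' V (f x) := by
  induction V using Finset.induction_on generalizing x with
  | empty => rw [normOn_empty, normOn_empty]; rfl
  | insert e V he ih =>
    rw [normOn_insert w hc he, normOn_insert w' hc' he]
    show f (normOn w hc V x + w e (normOn w hc V x)) = normOn w' hc' V (f x) + w' e (normOn w' hc' V (f x))
    rw [map_add, hf e (Finset.mem_insert_self e V),
      ih (fun a ha => hf a (Finset.mem_insert_of_mem ha))]

end Basic

section Exact

variable {R : Type uR} [CommRing R] [IsLocalRing R] {M : Type uM} [AddCommGroup M] [Module R M]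
  [Module.Finite R M] [Module.Free R M] {M' : Type uN} [AddCommGroup M'] [Module R M']
  {ι : Type uι} [DecidableEq ι] (w : ι → Module.End R M) (hc : ∀ e e', Commute (w e) (w e'))
  {W : Finset ι} (hw : ∀ e ∈ W, ∀ x, w e (w e x) = x) (h2 : (2 : R) ∈ maximalIdeal R)
  (hres : IsResiduallyExact w W)

include h2 hres in
omit [Module.Finite R M] [Module.Free R M] in
/-- Residual exactness does not see the sign of an involution. -/
lemma isResiduallyExact_update_neg (e : ι) : IsResiduallyExact (Function.update w e (-w e)) W := by
  have hcong : ∀ (a : ι) (x : M), Function.update w e (-w e) a x - w a x ∈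
      maximalIdeal R • (⊤ : Submodule R M) := fun a x => by
    by_cases h : a = e
    · subst h
      rw [Function.update_self, LinearMap.neg_apply,
        show -(w a x) - w a x = (2 : R) • (-(w a x)) by rw [two_smul]; abel]
      exact Submodule.smul_mem_smul h2 Submodule.mem_top
    · rw [Function.update_of_ne h, sub_self]
      exact zero_mem _
  intro V hV a ha x hx
  obtain ⟨v, hv, hxv⟩ := hres V hV a ha x fun b hb => by
    have := sub_mem (hx b hb) (hcong b x)
    rwa [sub_sub_sub_cancel_left] at this
  refine ⟨v, fun b hb hne => ?_, ?_⟩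
  · have := add_mem (hcong b v) (hv b hb hne)
    rwa [sub_add_sub_cancel] at this
  · have := sub_mem hxv (hcong a v)
    rwa [show x - (v + w a v) - (Function.update w e (-w e) a v - w a v) =
      x - (v + Function.update w e (-w e) a v) by abel] at this

include hw h2 hres in
/-- Common fixed points are norms. -/
theorem exists_normOn_eq_of_fixed {V : Finset ι} (hV : V ⊆ W) {x : M}
    (hx : x ∈ fixedPart w V) : ∃ y, normOn w hc V y = x := by
  induction V using Finset.induction_on generalizing x with
  | empty => exact ⟨x, by rw [normOn_empty]; rfl⟩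
  | insert e V he ih =>
    obtain ⟨y, hy, hxy⟩ := (fixedPart_spec w hw
      (fun a _ b _ x => LinearMap.congr_fun (hc a b).eq x) h2 hres _ hV).2.2 e
      (Finset.mem_insert_self e V) x hx V (Finset.subset_insert e V) he
    obtain ⟨z, rfl⟩ := ih ((Finset.subset_insert e V).trans hV) hy
    exact ⟨z, by rw [normOn_insert w hc he]; exact hxy.symm⟩

variable (f : M →ₗ[R] M') (hf : Function.Surjective f) {J : Ideal R}
  (hker : ∀ x, f x = 0 ↔ x ∈ J • (⊤ : Submodule R M)) (w' : ι → Module.End R M')
  (hc' : ∀ e e', Commute (w' e) (w' e')) (hfw : ∀ e x, f (w e x) = w' e (f x))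

include hc hw h2 hres hf hker hfw in
/-- **Fixed classes are norms**, with any coefficients. -/
theorem exists_normOn_eq {V : Finset ι} (hV : V ⊆ W) {x : M'} (hx : ∀ e ∈ V, w' e x = x) :
    ∃ y, normOn w' hc' V y = x := by
  obtain ⟨x, rfl⟩ := hf x
  obtain ⟨y, hy, hxy⟩ := (fixedPart_spec w hw
    (fun a _ b _ x => LinearMap.congr_fun (hc a b).eq x) h2 hres V hV).2.1 J x fun e he => by
      rw [← hker, map_sub, hfw, hx e he, sub_self]
  obtain ⟨z, rfl⟩ := exists_normOn_eq_of_fixed w hc hw h2 hres hV hy
  refine ⟨f z, ?_⟩
  rw [show normOn w' hc' V (f z) = f (normOn w hc V z) from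
    (map_normOn w hc w' hc' f.toAddMonoidHom (fun e _ x => hfw e x) z).symm]
  exact (sub_eq_zero.mp (by rw [← map_sub]; exact (hker _).mpr hxy)).symm

include hc hw h2 hres hf hker hfw in
/-- **The kernel of the norm** is spanned by the differences `w e - 1`. -/
theorem ker_normOn_le {V : Finset ι} (hV : V ⊆ W) {x : M'} (hx : normOn w' hc' V x = 0) :
    x ∈ V.sup fun e => LinearMap.range (w' e - 1) := by
  induction V using Finset.induction_on generalizing x with
  | empty => rw [normOn_empty] at hx; exact (show x = 0 from hx) ▸ zero_mem _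
  | insert e V he ih =>
    have hVW : V ⊆ W := (Finset.subset_insert e V).trans hV
    have heW : e ∈ W := hV (Finset.mem_insert_self e V)
    have hw'2 : ∀ a ∈ W, ∀ z, w' a (w' a z) = z := fun a ha z => by
      obtain ⟨z, rfl⟩ := hf z
      rw [← hfw, ← hfw, hw a ha]
    rw [normOn_insert w' hc' he] at hx
    obtain ⟨y0, hy0⟩ := hf (normOn w' hc' V x)
    let u := Function.update w e (-w e)
    have hu : ∀ a, a ≠ e → u a = w a := fun a h => Function.update_of_ne h _ _
    have hue : u e = -w e := Function.update_self _ _ _
    have huw : ∀ a ∈ W, ∀ z, u a (u a z) = z := fun a ha z => by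
      by_cases h : a = e
      · subst h
        rw [hue, LinearMap.neg_apply, LinearMap.neg_apply, map_neg, neg_neg, hw a ha]
      · rw [hu a h, hw a ha]
    have huc : ∀ a b, Commute (u a) (u b) := fun a b => by
      have h1 : ∀ c, u c = w c ∨ u c = -w c := fun c => by
        by_cases h : c = e
        · subst h; exact Or.inr hue
        · exact Or.inl (hu c h)
      rcases h1 a with ha | ha <;> rcases h1 b with hb | hb <;> rw [ha, hb]
      exacts [hc a b, (hc a b).neg_right, (hc a b).neg_left, (hc a b).neg_left.neg_right]
    have spec := fixedPart_spec u huw (fun a _ b _ z => LinearMap.congr_fun (huc a b).eq z) h2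
      (isResiduallyExact_update_neg w h2 hres e) (insert e V) hV
    obtain ⟨y, hy, hyy⟩ := spec.2.1 J y0 fun a ha => by
      rw [← hker, map_sub, sub_eq_zero]
      rcases Finset.mem_insert.mp ha with rfl | haV
      · rw [hue, LinearMap.neg_apply, map_neg, hfw, hy0]
        exact neg_eq_of_add_eq_zero_left hx
      · rw [hu a fun h => he (h ▸ haV), hfw, hy0]
        exact w_normOn w' hc' haV (hw'2 a (hVW haV)) x
    obtain ⟨v, hv, hyv⟩ := spec.2.2 e (Finset.mem_insert_self e V) y hy V
      (Finset.subset_insert e V) he
    have hv' : v ∈ fixedPart w V := (mem_fixedPart w).mpr fun a ha => by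
      rw [← hu a fun h => he (h ▸ ha)]
      exact (mem_fixedPart u).mp hv a ha
    obtain ⟨v0, rfl⟩ := exists_normOn_eq_of_fixed w hc hw h2 hres hVW hv'
    have h1 : normOn w' hc' V (x - (f v0 - w' e (f v0))) = 0 := by
      have hfy : f y = normOn w' hc' V x := by
        rw [← hy0]
        exact (sub_eq_zero.mp (by rw [← map_sub]; exact (hker _).mpr hyy)).symm
      rw [map_sub, map_sub, ← hfy, hyv, hue, LinearMap.neg_apply, ← sub_eq_add_neg, map_sub,
        hfw, ← Module.End.mul_apply (normOn w' hc' V) (w' e), ← (commute_normOn w' hc' e V).eq,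
        Module.End.mul_apply,
        show normOn w' hc' V (f v0) = f (normOn w hc V v0) from
          (map_normOn w hc w' hc' f.toAddMonoidHom (fun a _ z => hfw a z) v0).symm, sub_self]
    rw [Finset.sup_insert]
    refine Submodule.mem_sup.mpr ⟨_, ?_, _, ih hVW h1, add_sub_cancel _ _⟩
    refine ⟨-(f v0), ?_⟩
    show w' e (-(f v0)) - -(f v0) = _
    rw [map_neg]
    abel

end Exact

end Fermat.Agent.TwoAdic
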