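import Fermat.Agent.TwoAdic.Modules.NewQuotient
import Fermat.Agent.TwoAdic.Modules.NormExact

/-!
The norms of the involutions of a setup: with coefficients in a quotient of `O` the signed classes
are the norms, and the kernel of the norm is spanned by the differences `w e - 1`.
-/

set_option autoImplicit false

open IsLocalRing

universe uA

namespace Fermat.Agent.TwoAdic

open HeckeJ0 LevelRaising HeckeModule

attribute [local instance] ALSetup.isPrime

namespace ALSetup

variable {O : Type} [CommRing O] [IsLocalRing O] (T : ALSetup O) {A : Type uA} [AddCommGroup A]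
  [Module O A]

lemma w_of_notMem {V : Finset ℕ} (hV : V ⊆ T.W) {e : ℕ} (he : e ∉ V) : T.w A hV e = 1 := by
  rw [ALSetup.w, alLoc, dif_neg he]

lemma commute_w {V : Finset ℕ} (hV : V ⊆ T.W) (e e' : ℕ) :
    Commute (T.w A hV e) (T.w A hV e') := by
  by_cases he : e ∈ V
  · by_cases he' : e' ∈ V
    · exact LinearMap.ext fun x => T.w_comm hV he he' x
    · rw [T.w_of_notMem hV he']; exact Commute.one_right _
  · rw [T.w_of_notMem hV he]; exact Commute.one_left _

variable (A) in
/-- The norm of the involutions of a level. -/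
noncomputable def norm {V : Finset ℕ} (hV : V ⊆ T.W) : Module.End O (T.H V A) :=
  normOn (T.w A hV) (T.commute_w hV) V

lemma norm_mem_signed {V : Finset ℕ} (hV : V ⊆ T.W) (x : T.H V A) :
    T.norm A hV x ∈ T.signed A hV :=
  T.mem_signed.mpr fun _ he => w_normOn _ _ he (fun z => T.w_w hV he z) x

lemma norm_w {V : Finset ℕ} (hV : V ⊆ T.W) {e : ℕ} (he : e ∈ V) (x : T.H V A) :
    T.norm A hV (T.w A hV e x) = T.norm A hV x :=
  normOn_w _ _ he (fun z => T.w_w hV he z) x

/-- Additive maps commuting with the involutions commute with the norm. -/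
lemma map_norm {V : Finset ℕ} (hV : V ⊆ T.W) (f : T.H V A →+ T.H V A)
    (hf : ∀ e ∈ V, ∀ x, f (T.w A hV e x) = T.w A hV e (f x)) (x : T.H V A) :
    f (T.norm A hV x) = T.norm A hV (f x) :=
  map_normOn _ _ _ _ f hf x

/-- The norm of a class from the face without `b` is old. -/
lemma norm_res {V : Finset ℕ} (hV : V ⊆ T.W) {b : ℕ} {S : Finset ℕ} (hbS : b ∉ S)
    (hS : insert b S = V) (x : T.H S A) :
    T.norm A hV (T.res A hV ((Finset.subset_insert b S).trans hS.subset) x)
      = T.oldMap A hV ((Finset.subset_insert b S).trans hS.subset) b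
          (T.norm A (((Finset.subset_insert b S).trans hS.subset).trans hV) x) := by
  subst hS
  show normOn _ _ (insert b S) _ = _
  rw [normOn_insert _ _ hbS, oldMap_apply]
  have h : normOn (T.w A hV) (T.commute_w hV) S (T.res A hV (Finset.subset_insert b S) x)
      = T.res A hV (Finset.subset_insert b S)
          (T.norm A ((Finset.subset_insert b S).trans hV) x) :=
    (map_normOn (T.w A ((Finset.subset_insert b S).trans hV)) (T.commute_w _) (T.w A hV)
      (T.commute_w hV) (T.res A hV (Finset.subset_insert b S)).toAddMonoidHom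
      (fun e he y => (T.w_res hV (Finset.subset_insert b S) he y).symm) x).symm
  show normOn (T.w A hV) (T.commute_w hV) S _ + T.w A hV b (normOn (T.w A hV) (T.commute_w hV) S _) = _
  rw [h]

section Quotient

variable [IsNoetherianRing O] [IsAdicComplete (maximalIdeal O) O] {V : Finset ℕ} (hV : V ⊆ T.W)
  (J : Ideal O)

omit [IsAdicComplete (maximalIdeal O) O] in
include hV in
lemma reduce_hyps :
    Function.Surjective ((charMap (awayMonoid T.m) (T.char V) J.mkQ).restrictScalars O) ∧
      ∀ x, (charMap (awayMonoid T.m) (T.char V) J.mkQ).restrictScalars O x = 0 ↔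
        x ∈ J • (⊤ : Submodule O (T.H V O)) :=
  have : NeZero (T.level V) := ⟨T.level_ne_zero hV⟩
  ⟨charMap_surjective (T.exact hV) J.mkQ J.mkQ_surjective, ker_charMap_mkQ (T.exact hV) J⟩

/-- **Signed classes are norms.** -/
theorem exists_norm_eq {x : T.H V (O ⧸ J)} (hx : x ∈ T.signed (O ⧸ J) hV) :
    ∃ y, T.norm (O ⧸ J) hV y = x := by
  have : NeZero (T.level V) := ⟨T.level_ne_zero hV⟩
  obtain ⟨hfin, hfree⟩ := T.free_H hV
  obtain ⟨hsurj, hker⟩ := T.reduce_hyps hV J
  exact exists_normOn_eq (T.w O hV) (T.commute_w hV) (fun e he z => T.w_w hV he z) T.two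
    ((T.alHyp hV).residuallyExact fun a ha => T.mem_S a (hV ha)) _ hsurj hker
    (T.w (O ⧸ J) hV) (T.commute_w hV) (fun e z => T.charMap_w hV _ e z) subset_rfl
    (T.mem_signed.mp hx)

/-- **The kernel of the norm.** -/
theorem norm_eq_zero {x : T.H V (O ⧸ J)} (hx : T.norm (O ⧸ J) hV x = 0) :
    x ∈ V.sup fun e => LinearMap.range (T.w (O ⧸ J) hV e - 1) := by
  have : NeZero (T.level V) := ⟨T.level_ne_zero hV⟩
  obtain ⟨hfin, hfree⟩ := T.free_H hV
  obtain ⟨hsurj, hker⟩ := T.reduce_hyps hV J
  exact ker_normOn_le (T.w O hV) (T.commute_w hV) (fun e he z => T.w_w hV he z) T.two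
    ((T.alHyp hV).residuallyExact fun a ha => T.mem_S a (hV ha)) _ hsurj hker
    (T.w (O ⧸ J) hV) (T.commute_w hV) (fun e z => T.charMap_w hV _ e z) subset_rfl hx

end Quotient

end ALSetup

end Fermat.Agent.TwoAdic
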