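import Mathlib.Data.Nat.Squarefree
import Mathlib.GroupTheory.QuotientGroup.Basic
import Fermat.Agent.HeckeModule.Trace

/-!
The group of scalar multiples of Atkin–Lehner matrices, and its quotient by the scalars.
-/

set_option autoImplicit false

open Matrix.SpecialLinearGroup
open scoped MatrixGroups

namespace Fermat.Agent.TwoAdic

open LevelRaising HeckeModule

/-- Atkin–Lehner matrices at a divisor `f` of `N`. -/
def alSet (N f : ℕ) : Set Mat :=
  {m | m.det = f ∧ (f : ℤ) ∣ m 0 0 ∧ (f : ℤ) ∣ m 1 1 ∧ (N : ℤ) ∣ m 1 0}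

/-- The members of `W` are primes dividing `N` exactly once. -/
def IsALPrimes (N : ℕ) (W : Finset ℕ) : Prop :=
  ∀ e ∈ W, e.Prime ∧ e ∣ N ∧ ¬ e * e ∣ N

lemma IsALPrimes.mono {N : ℕ} {W W' : Finset ℕ} (h : IsALPrimes N W) (hW : W' ⊆ W) :
    IsALPrimes N W' := fun e he => h e (hW he)

/-- The product of two Atkin–Lehner matrices. -/
theorem exists_alSet_mul {N g a b : ℕ} (h : g * a * b ∣ N) (hg : g ≠ 0) {m m' : Mat}
    (hm : m ∈ alSet N (g * a)) (hm' : m' ∈ alSet N (g * b)) :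
    ∃ m'' ∈ alSet N (a * b), m * m' = (g : ℤ) • m'' := by
  obtain ⟨hd, ⟨x1, hx1⟩, ⟨w1, hw1⟩, z1, hz1⟩ := hm
  obtain ⟨hd', ⟨x2, hx2⟩, ⟨w2, hw2⟩, z2, hz2⟩ := hm'
  obtain ⟨n, rfl⟩ := h
  push_cast at hx1 hw1 hz1 hx2 hw2 hz2 hd hd'
  set m'' : Mat := mm ((a : ℤ) * b * ((g : ℤ) * x1 * x2 + n * m 0 1 * z2))
    ((a : ℤ) * x1 * m' 0 1 + m 0 1 * (b : ℤ) * w2)
    ((g : ℤ) * a * b * n * ((b : ℤ) * z1 * x2 + (a : ℤ) * w1 * z2))
    ((a : ℤ) * b * ((n : ℤ) * z1 * m' 0 1 + (g : ℤ) * w1 * w2)) with hm''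
  have e : m * m' = (g : ℤ) • m'' := by
    conv_lhs => rw [mm_eta m, mm_eta m', hx1, hw1, hz1, hx2, hw2, hz2]
    rw [hm'', mm_mul, smul_mm, mm_inj]
    refine ⟨?_, ?_, ?_, ?_⟩ <;> ring
  refine ⟨m'', ⟨?_, ?_, ?_, ?_⟩, e⟩
  · have := congrArg Matrix.det e
    rw [Matrix.det_mul, hd, hd', Matrix.det_smul, Fintype.card_fin] at this
    push_cast
    refine mul_left_cancel₀ (pow_ne_zero 2 (show (g : ℤ) ≠ 0 by exact_mod_cast hg)) ?_
    linear_combination -this
  · rw [hm'']; push_cast; exact Dvd.intro _ rfl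
  · rw [hm'']; push_cast; exact Dvd.intro _ rfl
  · rw [hm'']; push_cast; exact Dvd.intro _ rfl

lemma adjugate_mem_alSet {N f : ℕ} {m : Mat} (hm : m ∈ alSet N f) : m.adjugate ∈ alSet N f := by
  obtain ⟨hd, hx, hw, hz⟩ := hm
  refine ⟨by rw [Matrix.det_adjugate, hd]; simp, ?_, ?_, ?_⟩ <;> rw [Matrix.adjugate_fin_two]
  · simpa using hw
  · simpa using hx
  · simpa using hz.neg_right

lemma alSet_one (N : ℕ) : alSet N 1 = Lvl N := by
  ext m
  simp [alSet, LevelRaising.DetLevel]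

lemma map_natCast_smul (k : ℕ) (m : Mat) :
    ((k : ℤ) • m).map (Int.cast : ℤ → ℝ) = (k : ℝ) • m.map (Int.cast : ℤ → ℝ) := by
  ext i j
  rw [Matrix.map_apply, Matrix.smul_apply, Matrix.smul_apply, Matrix.map_apply, smul_eq_mul,
    smul_eq_mul]
  push_cast
  rfl

section Primes

variable {N : ℕ} {W : Finset ℕ}

/-- The product of the members. -/
def prodOf (U : Finset ℕ) : ℕ := U.prod id

@[simp] lemma prodOf_empty : prodOf ∅ = 1 := rfl

lemma prodOf_ne_zero (hW : IsALPrimes N W) {U : Finset ℕ} (hU : U ⊆ W) : prodOf U ≠ 0 :=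
  Finset.prod_ne_zero_iff.mpr fun e he => (hW e (hU he)).1.ne_zero

lemma squarefree_prodOf (hW : IsALPrimes N W) {U : Finset ℕ} (hU : U ⊆ W) :
    Squarefree (prodOf U) := by
  have h : ∀ e ∈ U, e.Prime := fun e he => (hW e (hU he)).1
  refine Finset.squarefree_prod_of_pairwise_isCoprime (fun a ha b hb hab => ?_)
    fun e he => (h e he).squarefree
  exact Nat.coprime_iff_isRelPrime.mp ((Nat.coprime_primes (h a ha) (h b hb)).mpr hab)

lemma prodOf_dvd (hW : IsALPrimes N W) {U : Finset ℕ} (hU : U ⊆ W) : prodOf U ∣ N :=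
  Finset.prod_primes_dvd N (fun e he => Nat.prime_iff.mp (hW e (hU he)).1)
    fun e he => (hW e (hU he)).2.1

lemma eq_of_prodOf_eq (hW : IsALPrimes N W) {U U' : Finset ℕ} (hU : U ⊆ W) (hU' : U' ⊆ W)
    (h : prodOf U = prodOf U') : U = U' := by
  rw [← Nat.primeFactors_prod (s := U) fun e he => (hW e (hU he)).1,
    ← Nat.primeFactors_prod (s := U') fun e he => (hW e (hU' he)).1]
  exact congrArg _ h

/-- The scalar multiples of the Atkin–Lehner matrices attached to subsets of `W`. -/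
noncomputable def alGroup (N : ℕ) (W : Finset ℕ) (hW : IsALPrimes N W) :
    Subgroup (GL (Fin 2) ℝ) where
  carrier := {g | ∃ U ⊆ W, ∃ m ∈ alSet N (prodOf U), ∃ r : ℝ,
    (g : Matrix (Fin 2) (Fin 2) ℝ) = r • m.map (Int.cast : ℤ → ℝ)}
  one_mem' := ⟨∅, Finset.empty_subset _, 1, by
    rw [prodOf, Finset.prod_empty, alSet_one]; exact one_mem_lvl N, 1, by simp⟩
  mul_mem' := by
    rintro g g' ⟨U, hU, m, hm, r, hg⟩ ⟨U', hU', m', hm', r', hg'⟩
    have hd1 : prodOf U = prodOf (U ∩ U') * prodOf (U \ U') :=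
      (Finset.prod_inter_mul_prod_sdiff U U' _).symm
    have hd2 : prodOf U' = prodOf (U ∩ U') * prodOf (U' \ U) := by
      rw [Finset.inter_comm]; exact (Finset.prod_inter_mul_prod_sdiff U' U _).symm
    rw [hd1] at hm
    rw [hd2] at hm'
    have hdvd : prodOf (U ∩ U') * prodOf (U \ U') * prodOf (U' \ U) ∣ N := by
      rw [← hd1, prodOf, prodOf, ← Finset.prod_union Finset.disjoint_sdiff,
        Finset.union_sdiff_self_eq_union]
      exact prodOf_dvd hW (Finset.union_subset hU hU')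
    obtain ⟨m'', hm'', e⟩ := exists_alSet_mul hdvd
      (prodOf_ne_zero hW (Finset.inter_subset_left.trans hU)) hm hm'
    refine ⟨U \ U' ∪ U' \ U, Finset.union_subset (Finset.sdiff_subset.trans hU)
      (Finset.sdiff_subset.trans hU'), m'', ?_, r * r' * (prodOf (U ∩ U') : ℝ), ?_⟩
    · rw [prodOf, Finset.prod_union]
      · exact hm''
      · exact disjoint_sdiff_sdiff
    · rw [Units.val_mul, hg, hg', Matrix.smul_mul, Matrix.mul_smul, smul_smul,
        ← Matrix.map_mul_intCast, e, map_natCast_smul, smul_smul]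
  inv_mem' := by
    rintro g ⟨U, hU, m, hm, r, hg⟩
    refine ⟨U, hU, m.adjugate, adjugate_mem_alSet hm, (r * (prodOf U : ℝ))⁻¹, ?_⟩
    have hr : r ≠ 0 := by
      intro h0
      rw [h0, zero_smul] at hg
      have := congrArg Matrix.det hg
      rw [Matrix.det_zero] at this
      exact (Matrix.GeneralLinearGroup.det g).ne_zero this
    have hf : (prodOf U : ℝ) ≠ 0 := Nat.cast_ne_zero.mpr (prodOf_ne_zero hW hU)
    refine Units.inv_eq_of_mul_eq_one_right ?_
    rw [hg, Matrix.smul_mul, Matrix.mul_smul, smul_smul, ← Matrix.map_mul_intCast,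
      Matrix.mul_adjugate, hm.1,
      map_natCast_smul, Matrix.map_one _ Int.cast_zero Int.cast_one, smul_smul]
    rw [show r * (r * (prodOf U : ℝ))⁻¹ * (prodOf U : ℝ) = 1 by field_simp, one_smul]

variable {hW : IsALPrimes N W}

lemma alGroup_mono {W' : Finset ℕ} (h : W' ⊆ W) : alGroup N W' (hW.mono h) ≤ alGroup N W hW := by
  rintro g ⟨U, hU, rest⟩
  exact ⟨U, hU.trans h, rest⟩

/-- The presentation of an element is unique up to sign. -/
theorem alGroup_unique {U U' : Finset ℕ} (hW : IsALPrimes N W) (hU : U ⊆ W) (hU' : U' ⊆ W)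
    {m m' : Mat} (hm : m ∈ alSet N (prodOf U)) (hm' : m' ∈ alSet N (prodOf U')) {r r' : ℝ}
    (hr : r ≠ 0) (h : r • m.map (Int.cast : ℤ → ℝ) = r' • m'.map (Int.cast : ℤ → ℝ)) :
    U = U' ∧ (m' = m ∨ m' = -m) := by
  have hm0 : m ≠ 0 := by
    intro h0
    have := hm.1
    rw [h0, Matrix.det_zero, eq_comm, Int.natCast_eq_zero] at this
    exact prodOf_ne_zero hW hU this
  obtain ⟨i, j, hij⟩ : ∃ i j, m i j ≠ 0 := by
    by_contra! hall
    exact hm0 (Matrix.ext hall)
  have e : m i j • m' = m' i j • m := by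
    ext a b
    have hab := congrFun (congrFun h a) b
    have hij' := congrFun (congrFun h i) j
    simp only [Matrix.smul_apply, Matrix.map_apply, smul_eq_mul] at hab hij'
    have hr' : r' ≠ 0 := by
      intro h0
      rw [h0, zero_mul, mul_eq_zero, Int.cast_eq_zero] at hij'
      exact hij'.elim hr hij
    have : (r * r') * ((m i j : ℝ) * (m' a b : ℝ) - (m' i j : ℝ) * (m a b : ℝ)) = 0 := by
      linear_combination (r' * (m' a b : ℝ)) * hij' - (r' * (m' i j : ℝ)) * hab
    have h2 := (mul_eq_zero.mp this).resolve_left (mul_ne_zero hr hr')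
    simp only [Matrix.smul_apply, smul_eq_mul]
    exact_mod_cast sub_eq_zero.mp h2
  have hdet := congrArg Matrix.det e
  rw [Matrix.det_smul, Matrix.det_smul, hm.1, hm'.1, Fintype.card_fin] at hdet
  have hff : prodOf U = prodOf U' := by
    have hnat : (m i j).natAbs ^ 2 * prodOf U' = (m' i j).natAbs ^ 2 * prodOf U := by
      have := congrArg Int.natAbs hdet
      rw [Int.natAbs_mul, Int.natAbs_mul, Int.natAbs_pow, Int.natAbs_pow, Int.natAbs_natCast,
        Int.natAbs_natCast] at this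
      exact this
    have hsq := squarefree_prodOf hW hU
    have hsq' := squarefree_prodOf hW hU'
    refine Nat.eq_of_factorization_eq hsq.ne_zero hsq'.ne_zero fun p => ?_
    have hij0 : (m i j).natAbs ≠ 0 := Int.natAbs_ne_zero.mpr hij
    have hij0' : (m' i j).natAbs ≠ 0 := by
      intro h0
      rw [h0, zero_pow two_ne_zero, zero_mul, mul_eq_zero] at hnat
      exact hnat.elim (pow_ne_zero 2 hij0) hsq'.ne_zero
    have hp := congrArg (fun n => n.factorization p) hnat
    simp only [Nat.factorization_mul (pow_ne_zero 2 hij0) hsq'.ne_zero,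
      Nat.factorization_mul (pow_ne_zero 2 hij0') hsq.ne_zero, Nat.factorization_pow,
      Finsupp.add_apply, Finsupp.smul_apply, smul_eq_mul] at hp
    have h1 := hsq.natFactorization_le_one p
    have h2 := hsq'.natFactorization_le_one p
    omega
  refine ⟨eq_of_prodOf_eq hW hU hU' hff, ?_⟩
  rw [← hff] at hdet
  have hsq2 : m i j ^ 2 = m' i j ^ 2 :=
    mul_right_cancel₀ (Int.natCast_ne_zero.mpr (prodOf_ne_zero hW hU)) hdet
  rcases eq_or_eq_neg_of_sq_eq_sq _ _ hsq2 with hs | hs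
  · left
    rw [← hs] at e
    exact smul_right_injective _ hij e
  · right
    rw [show m' i j = -m i j by linarith, neg_smul, ← smul_neg] at e
    exact smul_right_injective _ hij e

/-- The scalar matrices. -/
noncomputable def scalarSubgroup : Subgroup (GL (Fin 2) ℝ) :=
  (Units.map (Matrix.scalar (Fin 2) : ℝ →+* Matrix (Fin 2) (Fin 2) ℝ).toMonoidHom).range

lemma mem_scalarSubgroup {g : GL (Fin 2) ℝ} :
    g ∈ scalarSubgroup ↔ ∃ r : ℝ, (g : Matrix (Fin 2) (Fin 2) ℝ) = r • 1 := by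
  constructor
  · rintro ⟨u, rfl⟩
    exact ⟨u, by simp [Matrix.smul_one_eq_diagonal]⟩
  · rintro ⟨r, hr⟩
    have hr0 : r ≠ 0 := by
      intro h0
      rw [h0, zero_smul] at hr
      have := congrArg Matrix.det hr
      rw [Matrix.det_zero] at this
      exact (Matrix.GeneralLinearGroup.det g).ne_zero this
    exact ⟨Units.mk0 r hr0, Units.ext (by simp [hr, Matrix.smul_one_eq_diagonal])⟩

lemma commute_of_mem_scalarSubgroup {g : GL (Fin 2) ℝ} (h : g ∈ scalarSubgroup)
    (M : GL (Fin 2) ℝ) : Commute g M := by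
  obtain ⟨r, hr⟩ := mem_scalarSubgroup.mp h
  refine Units.ext ?_
  rw [Units.val_mul, Units.val_mul, hr, Matrix.smul_mul, Matrix.mul_smul, one_mul, mul_one]

lemma scalarSubgroup_le : scalarSubgroup ≤ alGroup N W hW := fun g hg => by
  obtain ⟨r, hr⟩ := mem_scalarSubgroup.mp hg
  exact ⟨∅, Finset.empty_subset _, 1, by
    rw [prodOf, Finset.prod_empty, alSet_one]; exact one_mem_lvl N, r, by simp [hr]⟩

/-- The scalars inside the group. -/
noncomputable abbrev alScalars (N : ℕ) (W : Finset ℕ) (hW : IsALPrimes N W) :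
    Subgroup (alGroup N W hW) :=
  scalarSubgroup.subgroupOf (alGroup N W hW)

instance : (alScalars N W hW).Normal :=
  ⟨fun x hx g => by
    rw [Subgroup.mem_subgroupOf] at hx ⊢
    rw [Subgroup.coe_mul, Subgroup.coe_mul, ← (commute_of_mem_scalarSubgroup hx _).eq,
      Subgroup.coe_inv, mul_inv_cancel_right]
    exact hx⟩

lemma toGL_mem_alGroup (γ : CongruenceSubgroup.Gamma0 N) : toGL N γ ∈ alGroup N W hW :=
  ⟨∅, Finset.empty_subset _, _, by
    rw [prodOf, Finset.prod_empty, alSet_one]; exact coe_mem_lvl γ, 1, by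
      rw [one_smul]; exact val_toGL γ⟩

lemma matGL_mem_alGroup {U : Finset ℕ} (hU : U ⊆ W) {m : Mat} (hm : m ∈ alSet N (prodOf U))
    (h0 : m.det ≠ 0) : matGL m h0 ∈ alGroup N W hW :=
  ⟨U, hU, m, hm, 1, by rw [one_smul]; exact val_matGL m h0⟩

/-- The extended group modulo scalars. -/
abbrev PAL (N : ℕ) (W : Finset ℕ) (hW : IsALPrimes N W) : Type :=
  alGroup N W hW ⧸ alScalars N W hW

end Primes

end Fermat.Agent.TwoAdic
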