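import Fermat.Agent.TwoAdic.Modules.TWLevel
import Fermat.Agent.TwoAdic.Modules.QuotAction

/-!
Adding an auxiliary prime `q` at a simple root `α` of `T_q` does not change the signed modules and
their new quotients.
-/

set_option autoImplicit false

open CongruenceSubgroup IsLocalRing

namespace Fermat.Agent.TwoAdic

open HeckeJ0 LevelRaising HeckeModule

attribute [local instance] ALSetup.isPrime

section General

variable {O : Type} [CommRing O] [IsLocalRing O] {A : Type} [AddCommGroup A] [Module O A]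
  {N N' M q : ℕ} [hq : Fact q.Prime] {hM : M ∣ N} {hM' : M ∣ N'} (χ : (ZMod M)ˣ →* O)
  {S : Set ℕ} (m : Ideal (AwayPoly O S)) [m.IsPrime] (α : O)

variable (hM hM') in
/-- The map to the auxiliary level, for any name of that level. -/
noncomputable def auxMap (hqS : q ∈ S) (hN' : N' = q * N) :
    CohLoc (awayMonoid m) (scalarRep (levelChar hM χ) A) →ₗ[O]
      CohLoc (awayMonoid (twIdeal (q := q) m α)) (scalarRep (levelChar hM' χ) A) :=
  (locMono (awayMonoid_le_relax Set.sdiff_subset (fun _ => α) m)).restrictScalars O ∘ₗ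
    locLift (awayMonoid m)
      (charDegen A hM χ hM' one_ne_zero (hN' ▸ one_mul_dvd_self (q := q) (N := N)))
      ((isAway_awayMonoid m).commute _ fun ℓ hℓ hℓS u => by
        subst hN'; exact resSelf_heckeOp hM hM' χ hqS hℓS u)

omit [IsLocalRing O] in
lemma auxMap_mk (hqS : q ∈ S) (hN' : N' = q * N) (u : Coh1 (scalarRep (levelChar hM χ) A))
    (s : awayMonoid m) :
    auxMap hM hM' χ m α hqS hN' (LocalizedModule.mk u s) = LocalizedModule.mk
      (charDegen A hM χ hM' one_ne_zero (hN' ▸ one_mul_dvd_self (q := q) (N := N)) u)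
      (⟨(s : HeckePoly O), awayMonoid_le_relax Set.sdiff_subset (fun _ => α) m s.2⟩ :
        awayMonoid (twIdeal (q := q) m α)) := by
  rw [auxMap, LinearMap.comp_apply, locLift_mk, LinearMap.restrictScalars_apply, locMono_mk]

theorem auxMap_bijective [IsNoetherianRing O] [IsAdicComplete (maximalIdeal O) O] [NeZero N]
    [Module.Finite O A] (hqS : q ∈ S) (hN' : N' = q * N) (hqN : ¬ q ∣ N) (hχ : χ = 1) {β : O}
    (hm : (maximalIdeal O).map (algebraMap O (AwayPoly O S)) ≤ m)
    (H : TWRoot q α β (CohLoc (awayMonoid m) (scalarRep (levelChar hM χ) A))) :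
    Function.Bijective (auxMap (A := A) hM hM' χ m α hqS hN') := by
  subst hN'
  have := finite_cohLoc (scalarRep (levelChar hM χ) A) m hm
  exact twMap_bijective hqN hM hM' χ hχ hqS m H hm

end General

namespace ALSetup

variable {O : Type} [CommRing O] [IsLocalRing O] (T : ALSetup O)

/-- An auxiliary prime of the level, with a simple root of `T_q`. -/
structure Aux where
  /-- the prime -/
  q : ℕ
  /-- the root -/
  α : O
  prime : q.Prime
  not_dvd : ¬ q ∣ T.level T.W
  mem_S : q ∈ T.S
  eisenstein : ∃ (ℓ : ℕ) (hℓ : ℓ.Prime) (hS : ℓ ∉ T.S),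
    (ℓ : ZMod (q * T.core * prodOf T.W)) = 1 ∧ awayX O hℓ hS - MvPolynomial.C ((ℓ : O) + 1) ∉ T.m

variable {T} (P : T.Aux)

instance Aux.fact : Fact P.q.Prime := ⟨P.prime⟩

lemma Aux.notMem : P.q ∉ T.W := fun h =>
  P.not_dvd ((Finset.dvd_prod_of_mem id h).mul_left _)

lemma Aux.not_dvd_level {V : Finset ℕ} (hV : V ⊆ T.W) : ¬ P.q ∣ T.level V := fun h =>
  P.not_dvd (h.trans (T.level_dvd hV))

variable (T) in
/-- The setup with the auxiliary prime in the level, localised at `U_q ≡ α`. -/
@[reducible] noncomputable def addAux (P : T.Aux) : ALSetup O where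
  core := P.q * T.core
  M := T.M
  W := T.W
  χ := T.χ
  c := T.c
  S := T.S \ {P.q}
  m := twIdeal (q := P.q) T.m P.α
  core_ne := mul_ne_zero P.prime.ne_zero T.core_ne
  prime := T.prime
  notDvd e he h := ((T.prime e he).dvd_mul.mp h).elim
    (fun h => P.notMem ((Nat.prime_dvd_prime_iff_eq (T.prime e he) P.prime).mp h ▸ he))
    (T.notDvd e he)
  dvd_core := T.dvd_core.mul_left _
  mem_S e he := ⟨T.mem_S e he, fun h => P.notMem (Set.mem_singleton_iff.mp h ▸ he)⟩
  isPrime := inferInstance
  le := le_relaxIdeal (fun _ => P.α) T.m T.le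
  two := T.two
  char_one := T.char_one
  even := T.even
  sq := T.sq
  eisenstein := by
    obtain ⟨ℓ, hℓ, hS, h1, hm⟩ := P.eisenstein
    refine ⟨ℓ, hℓ, fun h => hS h.1, h1, fun h => hm ?_⟩
    rw [Ideal.mem_comap, map_sub, ← MvPolynomial.algebraMap_eq, AlgHom.commutes,
      MvPolynomial.algebraMap_eq, awayX, relaxHom, MvPolynomial.aeval_X, dif_neg hS] at h
    exact h
  elliptic₄ t ht := T.elliptic₄ (ZMod.castHom (dvd_mul_left T.core P.q) _ t) (by
    have := congrArg (ZMod.castHom (dvd_mul_left T.core P.q) (ZMod T.core)) ht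
    simpa only [map_add, map_pow, map_one, map_zero] using this)
  elliptic₃ t ht := T.elliptic₃ (ZMod.castHom (dvd_mul_left T.core P.q) _ t) (by
    have := congrArg (ZMod.castHom (dvd_mul_left T.core P.q) (ZMod T.core)) ht
    simpa only [map_add, map_pow, map_one, map_zero] using this)
  quartic e he := by
    obtain ⟨r, hr, hrc, h⟩ := T.quartic e he
    exact ⟨r, hr, hrc.mul_left _, h⟩

lemma level_addAux (V : Finset ℕ) : (T.addAux P).level V = P.q * T.level V := mul_assoc _ _ _

variable (A : Type) [AddCommGroup A] [Module O A]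

/-- The map from level `V` to the level with the auxiliary prime. -/
noncomputable def auxH (V : Finset ℕ) : T.H V A →ₗ[O] (T.addAux P).H V A :=
  auxMap (T.dvd_level V) ((T.addAux P).dvd_level V) T.χ T.m P.α P.mem_S (level_addAux P V)

variable {A}

lemma one_mul_dvd_addAux (V : Finset ℕ) : 1 * T.level V ∣ (T.addAux P).level V := by
  rw [one_mul, level_addAux]; exact dvd_mul_left _ _

lemma auxH_mk (V : Finset ℕ) (u : Coh1 (scalarRep (T.char V) A)) (s : awayMonoid T.m) :
    auxH P A V (LocalizedModule.mk u s) = LocalizedModule.mk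
      (charDegen A (T.dvd_level V) T.χ ((T.addAux P).dvd_level V) one_ne_zero
        (one_mul_dvd_addAux P V) u)
      (⟨(s : HeckePoly O), awayMonoid_le_relax Set.sdiff_subset (fun _ => P.α) T.m s.2⟩ :
        awayMonoid (T.addAux P).m) :=
  auxMap_mk _ _ _ _ _ u s

lemma auxH_w {V : Finset ℕ} (hV : V ⊆ T.W) {e : ℕ} (he : e ∈ V) (x : T.H V A) :
    auxH P A V (T.w A hV e x) = (T.addAux P).w A (V := V) hV e (auxH P A V x) := by
  induction x using LocalizedModule.induction_on with
  | _ u s =>
    rw [T.w_mk hV he, auxH_mk, auxH_mk, (T.addAux P).w_mk (V := V) hV he]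
    exact congrArg (LocalizedModule.mk · _) (alOp_charDegen_one (T.dvd_level V) T.χ
      ((T.addAux P).dvd_level V) (T.isAL hV) ((T.addAux P).isAL (V := V) hV) he he
      (T.coprime_M (hV he)) (T.c e) (one_mul_dvd_addAux P V) u).symm

lemma auxH_res {V V' : Finset ℕ} (hV : V ⊆ T.W) (h : V' ⊆ V) (x : T.H V' A) :
    auxH P A V (T.res A hV h x) = (T.addAux P).res A (V := V) hV h (auxH P A V' x) := by
  induction x using LocalizedModule.induction_on with
  | _ u s =>
    rw [T.res_mk hV h, auxH_mk, auxH_mk, (T.addAux P).res_mk (V := V) hV h]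
    refine congrArg (LocalizedModule.mk · _) ?_
    exact (charDegen_one_comp _ _ _ _ _ _ u).trans (charDegen_one_comp _ _ _ _ _ _ u).symm

/-- The conditions at the auxiliary prime at all levels. -/
def Aux.Regular (β : O) (A : Type) [AddCommGroup A] [Module O A] : Prop :=
  ∀ V, V ⊆ T.W → TWRoot P.q P.α β (T.H V A)

section Equiv

variable [IsNoetherianRing O] [IsAdicComplete (maximalIdeal O) O] [Module.Finite O A]
  {β : O} (hχ : T.χ = 1) (hP : P.Regular β A) {V : Finset ℕ} (hV : V ⊆ T.W)

include hχ hP hV in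
theorem auxH_bijective : Function.Bijective (auxH P A V) :=
  haveI : NeZero (T.level V) := ⟨T.level_ne_zero hV⟩
  auxMap_bijective T.χ T.m P.α P.mem_S (level_addAux P V) (P.not_dvd_level hV) hχ T.le (hP V hV)

end Equiv

end ALSetup

end Fermat.Agent.TwoAdic
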