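import Fermat.Agent.TwoAdic.Modules.QuotAction
import Fermat.Agent.TwoAdic.Modules.SemiCoh
import Mathlib.LinearAlgebra.Basis.Basic

/-!
Change of coefficients along a surjection `σ : R → O` of local rings: the signed modules, their new
quotients and the Hecke actions at `O` are those at `R` modulo the kernel.
-/

set_option autoImplicit false

open CongruenceSubgroup IsLocalRing

namespace Fermat.Agent.TwoAdic

open HeckeJ0 LevelRaising HeckeModule

attribute [local instance] ALSetup.isPrime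

/-- A surjection of local rings maps the maximal ideal into the maximal ideal. -/
lemma map_mem_maximalIdeal {R O : Type*} [CommRing R] [IsLocalRing R] [CommRing O] [IsLocalRing O]
    {σ : R →+* O} (hσ : Function.Surjective σ) {r : R} (hr : r ∈ maximalIdeal R) :
    σ r ∈ maximalIdeal O := by
  rw [mem_maximalIdeal, mem_nonunits_iff] at hr ⊢
  intro hu
  obtain ⟨s, hs⟩ := hσ hu.unit⁻¹.val
  have hk : σ (r * s - 1) = 0 := by rw [map_sub, map_mul, hs, map_one, IsUnit.mul_val_inv, sub_self]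
  have hk' : r * s - 1 ∈ maximalIdeal R :=
    IsLocalRing.le_maximalIdeal (RingHom.ker_ne_top σ) (RingHom.mem_ker.mpr hk)
  have h1 : r * s ∈ maximalIdeal R := Ideal.mul_mem_right _ _ hr
  exact (maximalIdeal R).ne_top_iff_one.mp (maximalIdeal.isMaximal R).ne_top
    (by simpa using sub_mem h1 hk')

namespace ALSetup

variable {R O : Type} [CommRing R] [IsLocalRing R] [CommRing O] [IsLocalRing O] (T : ALSetup R)
  {σ : R →+* O} (hσ : Function.Surjective σ)

lemma ker_map_le :
    RingHom.ker (MvPolynomial.map (σ := AwayIndex T.S) σ) ≤ T.m := by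
  rw [MvPolynomial.ker_map]
  refine (Ideal.map_mono ?_).trans (MvPolynomial.algebraMap_eq (σ := AwayIndex T.S) (R := R) ▸ T.le)
  exact IsLocalRing.le_maximalIdeal (RingHom.ker_ne_top σ)

include hσ in
lemma map_notMem {a : AwayPoly R T.S} (ha : a ∉ T.m) :
    MvPolynomial.map σ a ∉ T.m.map (MvPolynomial.map (σ := AwayIndex T.S) σ) := fun h => ha (by
  have h' := Ideal.mem_comap.mpr h
  rw [Ideal.comap_map_of_surjective' _ (MvPolynomial.map_surjective _ hσ)] at h'
  exact (sup_le le_rfl T.ker_map_le) h')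

/-- The same data with scalars pushed along `σ`. -/
noncomputable def map : ALSetup O where
  core := T.core
  M := T.M
  W := T.W
  χ := (σ : R →* O).comp T.χ
  c e := σ (T.c e)
  S := T.S
  m := T.m.map (MvPolynomial.map σ)
  core_ne := T.core_ne
  prime := T.prime
  notDvd := T.notDvd
  dvd_core := T.dvd_core
  mem_S := T.mem_S
  isPrime := Ideal.map_isPrime_of_surjective (MvPolynomial.map_surjective _ hσ) T.ker_map_le
  le := by
    rw [Ideal.map_le_iff_le_comap]
    intro x hx
    obtain ⟨r, rfl⟩ := hσ x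
    have hr : r ∈ maximalIdeal R := by
      rw [mem_maximalIdeal, mem_nonunits_iff] at hx ⊢
      exact fun hu => hx (hu.map σ)
    rw [Ideal.mem_comap, MvPolynomial.algebraMap_eq, ← MvPolynomial.map_C]
    exact Ideal.mem_map_of_mem _ (show MvPolynomial.C r ∈ T.m from
      T.le (Ideal.mem_map_of_mem (algebraMap R (AwayPoly R T.S)) hr))
  two := by rw [← map_ofNat σ 2]; exact map_mem_maximalIdeal hσ T.two
  char_one u := by
    have := map_mem_maximalIdeal hσ (T.char_one u)
    rwa [map_sub, map_one] at this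
  even := by
    show σ (T.χ (-1)) = 1
    rw [T.even, map_one]
  sq e he h := by
    show σ _ * σ _ = σ _
    rw [← map_mul, T.sq e he h]
  eisenstein := by
    obtain ⟨ℓ, hℓ, hS, h1, hm⟩ := T.eisenstein
    refine ⟨ℓ, hℓ, hS, h1, ?_⟩
    have := T.map_notMem hσ hm
    rwa [map_sub, awayX, MvPolynomial.map_X, MvPolynomial.map_C, map_add, map_natCast, map_one]
      at this
  elliptic₄ := T.elliptic₄
  elliptic₃ := T.elliptic₃
  quartic := T.quartic

omit [IsLocalRing O] in
lemma map_awayIncl (a : AwayPoly R T.S) :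
    MvPolynomial.map σ (awayIncl R T.S a) = awayIncl O T.S (MvPolynomial.map σ a) :=
  MvPolynomial.map_rename σ Subtype.val a

include hσ in
lemma map_mem_monoid : ∀ s ∈ awayMonoid T.m, MvPolynomial.map σ s ∈ awayMonoid (T.map hσ).m := by
  rintro _ ⟨a, ha, rfl⟩
  exact ⟨_, T.map_notMem hσ ha, (T.map_awayIncl a).symm⟩

include hσ in
lemma exists_mem_monoid :
    ∀ t ∈ awayMonoid (T.map hσ).m, ∃ s ∈ awayMonoid T.m, MvPolynomial.map σ s = t := by
  rintro _ ⟨a, ha, rfl⟩
  obtain ⟨b, rfl⟩ := MvPolynomial.map_surjective _ hσ a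
  exact ⟨_, mem_awayMonoid fun hb => ha (Ideal.mem_map_of_mem _ hb), T.map_awayIncl b⟩

variable {A : Type} [AddCommGroup A] [Module R A] {B : Type} [AddCommGroup B] [Module O B]
  (f : A →ₛₗ[σ] B)

lemma semi_scalarRep (V : Finset ℕ) (u : (ZMod (T.level V))ˣ) (a : A) :
    f (scalarRep (T.char V) A u a) = scalarRep ((T.map hσ).char V) B u (f a) :=
  LinearMap.map_smulₛₗ f _ a

/-- Change of coefficients on localised cohomology. -/
noncomputable def changeH (V : Finset ℕ) : T.H V A →ₛₗ[σ] (T.map hσ).H V B :=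
  semiLoc f (T.semi_scalarRep hσ f V) (T.map_mem_monoid hσ)

lemma changeH_smul (V : Finset ℕ) (a : HeckePoly R) (x : T.H V A) :
    T.changeH hσ f V (a • x) = MvPolynomial.map σ a • T.changeH hσ f V x :=
  semiLoc_smul _ _ _ a x

lemma changeH_w {V : Finset ℕ} (hV : V ⊆ T.W) (e : ℕ) (x : T.H V A) :
    T.changeH hσ f V (T.w A hV e x) = (T.map hσ).w B hV e (T.changeH hσ f V x) := by
  unfold ALSetup.w alLoc
  by_cases he : e ∈ V
  · simp only [dif_pos he]
    refine semiLoc_locLift f (T.semi_scalarRep hσ f V) (T.map_mem_monoid hσ)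
      (T.semi_scalarRep hσ f V) _ _ _ _ (fun u => ?_) x
    exact semiCoh_onH1 f _ _ (alData A (T.isAL hV) he (T.dvd_level V) T.χ _ (T.c e))
      (alData B (T.isAL hV) he (T.dvd_level V) (T.map hσ).χ _ (σ (T.c e))) (fun _ => rfl)
      (fun _ a => LinearMap.map_smulₛₗ f (T.c e) a) u
  · simp only [dif_neg he]
    rfl

lemma changeH_res {V V' : Finset ℕ} (hV : V ⊆ T.W) (h : V' ⊆ V) (x : T.H V' A) :
    T.changeH hσ f V (T.res A hV h x) = (T.map hσ).res B hV h (T.changeH hσ f V' x) :=
  semiLoc_locLift f (T.semi_scalarRep hσ f V') (T.map_mem_monoid hσ) (T.semi_scalarRep hσ f V)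
    _ _ _ _ (fun u => semiCoh_onH1 f _ _
      (charDegenData A (T.dvd_level V') T.χ (T.dvd_level V) one_ne_zero (T.one_mul_level_dvd h))
      (charDegenData B (T.dvd_level V') (T.map hσ).χ (T.dvd_level V) one_ne_zero
        (T.one_mul_level_dvd h))
      (fun _ => rfl) (fun _ _ => rfl) u) x

lemma changeH_oldMap {V V' : Finset ℕ} (hV : V ⊆ T.W) (h : V' ⊆ V) (b : ℕ) (x : T.H V' A) :
    T.changeH hσ f V (T.oldMap A hV h b x)
      = (T.map hσ).oldMap B hV h b (T.changeH hσ f V' x) := by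
  rw [T.oldMap_apply, (T.map hσ).oldMap_apply, map_add, T.changeH_w, T.changeH_res]

lemma changeH_mem_signed {V : Finset ℕ} (hV : V ⊆ T.W) {x : T.H V A} (hx : x ∈ T.signed A hV) :
    T.changeH hσ f V x ∈ (T.map hσ).signed B hV :=
  (T.map hσ).mem_signed.mpr fun e he => by rw [← T.changeH_w, T.mem_signed.mp hx e he]

/-- Change of coefficients on signed parts. -/
noncomputable def changeSigned {V : Finset ℕ} (hV : V ⊆ T.W) :
    T.signed A hV →ₛₗ[σ] (T.map hσ).signed B hV :=
  ((T.changeH hσ f V).comp (T.signed A hV).subtype).codRestrict _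
    fun x => T.changeH_mem_signed hσ f hV x.2

lemma changeSigned_oldSigned {V : Finset ℕ} (hV : V ⊆ T.W) {b : ℕ} (hb : b ∈ V)
    (x : T.signed A ((V.erase_subset b).trans hV)) :
    T.changeSigned hσ f hV (T.oldSigned A hV hb x)
      = (T.map hσ).oldSigned B hV hb (T.changeSigned hσ f ((V.erase_subset b).trans hV) x) :=
  Subtype.ext (T.changeH_oldMap hσ f hV (V.erase_subset b) b (x : T.H (V.erase b) A))

lemma changeSigned_mapsTo {V : Finset ℕ} (hV : V ⊆ T.W) (B₀ : Finset ℕ) :
    T.oldSpace A hV B₀ ≤ ((T.map hσ).oldSpace B hV B₀).comap (T.changeSigned hσ f hV) := by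
  refine iSup_le fun b => iSup_le fun hb => iSup_le fun hbB => ?_
  rintro _ ⟨x, rfl⟩
  rw [Submodule.mem_comap, T.changeSigned_oldSigned]
  exact (T.map hσ).oldSigned_mem_oldSpace B hV hb hbB _

/-- Change of coefficients on new quotients. -/
noncomputable def changeQuot {V : Finset ℕ} (hV : V ⊆ T.W) (B₀ : Finset ℕ) :
    T.NewQuot A hV B₀ →ₛₗ[σ] (T.map hσ).NewQuot B hV B₀ :=
  Submodule.mapQ _ _ (T.changeSigned hσ f hV) (T.changeSigned_mapsTo hσ f hV B₀)

lemma changeQuot_mk {V : Finset ℕ} (hV : V ⊆ T.W) (B₀ : Finset ℕ) (x : T.signed A hV) :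
    T.changeQuot hσ f hV B₀ (Submodule.Quotient.mk x)
      = Submodule.Quotient.mk (T.changeSigned hσ f hV x) := rfl

/-- Change of coefficients commutes with the maps from faces. -/
lemma changeQuot_faceMap {V : Finset ℕ} (hV : V ⊆ T.W) {b : ℕ} (hb : b ∈ V) (B₀ : Finset ℕ)
    (x : T.NewQuot A ((V.erase_subset b).trans hV) B₀) :
    T.changeQuot hσ f hV B₀ (T.faceMap A hV hb B₀ x)
      = (T.map hσ).faceMap B hV hb B₀
          (T.changeQuot hσ f ((V.erase_subset b).trans hV) B₀ x) := by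
  obtain ⟨x, rfl⟩ := Submodule.mkQ_surjective _ x
  exact congrArg Submodule.Quotient.mk (T.changeSigned_oldSigned hσ f hV hb x)

/-- Change of coefficients commutes with the Hecke action. -/
lemma changeQuot_newAct {V : Finset ℕ} (hV : V ⊆ T.W) (B₀ : Finset ℕ) (a : AwayPoly R T.S)
    (x : T.NewQuot A hV B₀) :
    T.changeQuot hσ f hV B₀ (T.newAct A hV B₀ a x)
      = (T.map hσ).newAct B hV B₀ (MvPolynomial.map σ a) (T.changeQuot hσ f hV B₀ x) := by
  obtain ⟨x, rfl⟩ := Submodule.mkQ_surjective _ x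
  refine congrArg Submodule.Quotient.mk (Subtype.ext ?_)
  show T.changeH hσ f V (awayIncl R T.S a • (x : T.H V A))
    = awayIncl O T.S (MvPolynomial.map σ a) • T.changeH hσ f V x
  rw [T.changeH_smul, T.map_awayIncl]

section Bijective

variable {f} (hf : Function.Bijective f)
include hf

lemma changeH_injective (V : Finset ℕ) : Function.Injective (T.changeH hσ f V) :=
  semiLoc_injective _ _ _ (T.exists_mem_monoid hσ) hf.1 hf.2

lemma changeSigned_bijective {V : Finset ℕ} (hV : V ⊆ T.W) :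
    Function.Bijective (T.changeSigned hσ f hV) := by
  refine ⟨fun x y h => Subtype.ext (T.changeH_injective hσ hf V (congrArg Subtype.val h)),
    fun ⟨y, hy⟩ => ?_⟩
  obtain ⟨x, rfl⟩ := semiLoc_surjective f (T.semi_scalarRep hσ f V) (T.map_mem_monoid hσ)
    (T.exists_mem_monoid hσ) hf.1 hf.2 y
  refine ⟨⟨x, T.mem_signed.mpr fun e he => T.changeH_injective hσ hf V ?_⟩, rfl⟩
  rw [T.changeH_w]
  exact (T.map hσ).mem_signed.mp hy e he

lemma changeQuot_bijective {V : Finset ℕ} (hV : V ⊆ T.W) (B₀ : Finset ℕ) :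
    Function.Bijective (T.changeQuot hσ f hV B₀) := by
  have : RingHomSurjective σ := ⟨hσ⟩
  refine ⟨(injective_iff_map_eq_zero _).mpr fun u hu => ?_, fun v => ?_⟩
  · obtain ⟨x, rfl⟩ := Submodule.mkQ_surjective _ u
    rw [Submodule.mkQ_apply, changeQuot_mk, Submodule.Quotient.mk_eq_zero] at hu
    have hle : (T.map hσ).oldSpace B hV B₀
        ≤ (T.oldSpace A hV B₀).map (T.changeSigned hσ f hV) := by
      refine iSup_le fun b => iSup_le fun hb => iSup_le fun hbB => ?_
      rintro _ ⟨z, rfl⟩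
      obtain ⟨z, rfl⟩ := (T.changeSigned_bijective hσ hf ((V.erase_subset b).trans hV)).2 z
      exact ⟨_, T.oldSigned_mem_oldSpace A hV hb hbB z, T.changeSigned_oldSigned hσ f hV hb z⟩
    obtain ⟨y, hy, hxy⟩ := hle hu
    obtain rfl := (T.changeSigned_bijective hσ hf hV).1 hxy
    exact (Submodule.Quotient.mk_eq_zero _).mpr hy
  · obtain ⟨y, rfl⟩ := Submodule.mkQ_surjective _ v
    obtain ⟨x, rfl⟩ := (T.changeSigned_bijective hσ hf hV).2 y
    exact ⟨Submodule.Quotient.mk x, rfl⟩

end Bijective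

/-- Change of coefficients after a map of coefficients. -/
lemma changeH_charMap {A' : Type} [AddCommGroup A'] [Module R A'] (g : A' →ₗ[R] A) (V : Finset ℕ)
    (x : T.H V A') :
    T.changeH hσ f V (charMap (awayMonoid T.m) (T.char V) g x)
      = T.changeH hσ (f.comp g) V x := by
  induction x using LocalizedModule.induction_on with
  | _ u s =>
    rw [charMap, locMap_mk]
    refine (semiLoc_mk f _ _ _ s).trans ((congrArg (LocalizedModule.mk · _) ?_).trans
      (semiLoc_mk (f.comp g) _ _ u s).symm)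
    obtain ⟨c, rfl⟩ := toCoh_surjective (scalarRep (T.char V) A') u
    rfl

lemma changeQuot_quotMap {A' : Type} [AddCommGroup A'] [Module R A'] (g : A' →ₗ[R] A)
    {V : Finset ℕ} (hV : V ⊆ T.W) (B₀ : Finset ℕ) (x : T.NewQuot A' hV B₀) :
    T.changeQuot hσ f hV B₀ (T.quotMap hV B₀ g x) = T.changeQuot hσ (f.comp g) hV B₀ x := by
  obtain ⟨x, rfl⟩ := Submodule.mkQ_surjective _ x
  exact congrArg Submodule.Quotient.mk (Subtype.ext (T.changeH_charMap hσ f g V (x : T.H V A')))

/-- `R / ker σ → O`. -/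
noncomputable def quotKer : (R ⧸ RingHom.ker σ) →ₛₗ[σ] O :=
  Submodule.liftQ (RingHom.ker σ) σ.toSemilinearMap fun _ hr => LinearMap.mem_ker.mpr ((RingHom.mem_ker (f := σ)).mp hr)

include hσ in
omit [IsLocalRing R] [IsLocalRing O] in
lemma quotKer_bijective : Function.Bijective (quotKer (σ := σ)) := by
  refine ⟨(injective_iff_map_eq_zero _).mpr fun u hu => ?_, fun v => ?_⟩
  · obtain ⟨r, rfl⟩ := Submodule.mkQ_surjective _ u
    exact (Submodule.Quotient.mk_eq_zero _).mpr (RingHom.mem_ker.mpr hu)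
  · obtain ⟨r, rfl⟩ := hσ v
    exact ⟨Submodule.Quotient.mk r, rfl⟩

/-- The base change map of new quotients. -/
noncomputable def baseQuot {V : Finset ℕ} (hV : V ⊆ T.W) (B₀ : Finset ℕ) :
    T.NewQuot R hV B₀ →ₛₗ[σ] (T.map hσ).NewQuot O hV B₀ :=
  T.changeQuot hσ σ.toSemilinearMap hV B₀

lemma baseQuot_eq {V : Finset ℕ} (hV : V ⊆ T.W) (B₀ : Finset ℕ) (x : T.NewQuot R hV B₀) :
    T.baseQuot hσ hV B₀ x
      = T.changeQuot hσ quotKer hV B₀ (T.quotMap hV B₀ (RingHom.ker σ).mkQ x) := by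
  rw [T.changeQuot_quotMap]
  rfl

section Complete

variable [IsNoetherianRing R] [IsAdicComplete (maximalIdeal R) R]

/-- The base change map is onto. -/
theorem baseQuot_surjective {V : Finset ℕ} (hV : V ⊆ T.W) (B₀ : Finset ℕ) :
    Function.Surjective (T.baseQuot hσ hV B₀) := fun y => by
  obtain ⟨z, rfl⟩ := (T.changeQuot_bijective hσ (quotKer_bijective hσ) hV B₀).2 y
  obtain ⟨x, rfl⟩ := T.quotMap_mkQ_surjective hV B₀ (RingHom.ker σ) z
  exact ⟨x, T.baseQuot_eq hσ hV B₀ x⟩

/-- **Base change.** Its kernel is `ker σ` times everything. -/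
theorem baseQuot_eq_zero_iff {V : Finset ℕ} (hV : V ⊆ T.W) (B₀ : Finset ℕ)
    (x : T.NewQuot R hV B₀) :
    T.baseQuot hσ hV B₀ x = 0
      ↔ x ∈ RingHom.ker σ • (⊤ : Submodule R (T.NewQuot R hV B₀)) := by
  rw [T.baseQuot_eq, ← T.quotMap_mkQ_eq_zero_iff hV B₀]
  exact map_eq_zero_iff _ (T.changeQuot_bijective hσ (quotKer_bijective hσ) hV B₀).1

/-- A basis over `R` gives a basis over `O`. -/
theorem exists_basis_baseQuot {V : Finset ℕ} (hV : V ⊆ T.W) (B₀ : Finset ℕ) {ι : Type*}
    [Fintype ι] (b : Module.Basis ι R (T.NewQuot R hV B₀)) :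
    ∃ b' : Module.Basis ι O ((T.map hσ).NewQuot O hV B₀),
      ∀ i, b' i = T.baseQuot hσ hV B₀ (b i) := by
  set v : ι → (T.map hσ).NewQuot O hV B₀ := fun i => T.baseQuot hσ hV B₀ (b i)
  have hspan : ⊤ ≤ Submodule.span O (Set.range v) := fun y _ => by
    obtain ⟨x, rfl⟩ := T.baseQuot_surjective hσ hV B₀ y
    rw [← b.sum_repr x, map_sum]
    refine sum_mem fun i _ => ?_
    rw [LinearMap.map_smulₛₗ]
    exact Submodule.smul_mem _ _ (Submodule.subset_span ⟨i, rfl⟩)
  have hli : LinearIndependent O v := by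
    refine Fintype.linearIndependent_iff.mpr fun c hc i => ?_
    choose r hr using fun i => hσ (c i)
    have h0 : T.baseQuot hσ hV B₀ (∑ i, r i • b i) = 0 := by
      rw [map_sum, ← hc]
      exact Finset.sum_congr rfl fun i _ => by rw [LinearMap.map_smulₛₗ, hr]
    have h1 := map_mem_smul_top ((Finsupp.lapply i).comp b.repr.toLinearMap) _
      ((T.baseQuot_eq_zero_iff hσ hV B₀ _).mp h0)
    rw [smul_eq_mul, Ideal.mul_top, LinearMap.comp_apply, LinearEquiv.coe_toLinearMap,
      Finsupp.lapply_apply, b.repr_sum_self, RingHom.mem_ker, hr] at h1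
    exact h1
  exact ⟨Module.Basis.mk hli hspan, fun i => Module.Basis.mk_apply hli hspan i⟩

end Complete

/-- The map of residue fields. -/
noncomputable def residueMap : (R ⧸ maximalIdeal R) →ₛₗ[σ] (O ⧸ maximalIdeal O) :=
  Submodule.mapQ (maximalIdeal R) (maximalIdeal O) σ.toSemilinearMap
    fun _ hr => map_mem_maximalIdeal hσ hr

lemma residueMap_bijective : Function.Bijective (residueMap hσ) := by
  refine ⟨(injective_iff_map_eq_zero _).mpr fun u hu => ?_, fun v => ?_⟩
  · obtain ⟨r, rfl⟩ := Submodule.mkQ_surjective _ u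
    refine (Submodule.Quotient.mk_eq_zero _).mpr ?_
    have hu' : σ r ∈ maximalIdeal O := (Submodule.Quotient.mk_eq_zero _).mp hu
    rw [mem_maximalIdeal, mem_nonunits_iff] at hu' ⊢
    exact fun h => hu' (h.map σ)
  · obtain ⟨x, rfl⟩ := Submodule.mkQ_surjective _ v
    obtain ⟨r, rfl⟩ := hσ x
    exact ⟨Submodule.Quotient.mk r, rfl⟩

/-- Injectivity of the cube does not depend on the coefficients. -/
theorem cubeInjective_map {V : Finset ℕ} (hV : V ⊆ T.W) (B₀ : Finset ℕ) :
    (T.map hσ).CubeInjective hV B₀ ↔ T.CubeInjective hV B₀ := by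
  refine forall₂_congr fun U hU => forall₃_congr fun B₁ b hb => imp_congr_right fun _ =>
    imp_congr_right fun _ => imp_congr_right fun _ => imp_congr_right fun _ => ?_
  have hbij := fun (U' : Finset ℕ) (hU' : U' ⊆ T.W) =>
    T.changeQuot_bijective hσ (residueMap_bijective hσ) hU' B₁
  have hcomm := T.changeQuot_faceMap hσ (residueMap hσ) (hU.trans hV) hb B₁
  constructor
  · intro h x y hxy
    refine (hbij _ _).1 (h ?_)
    rw [← hcomm, ← hcomm, hxy]
  · intro h x y hxy
    obtain ⟨x, rfl⟩ := (hbij _ ((U.erase_subset b).trans (hU.trans hV))).2 x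
    obtain ⟨y, rfl⟩ := (hbij _ ((U.erase_subset b).trans (hU.trans hV))).2 y
    rw [← hcomm, ← hcomm] at hxy
    rw [h ((hbij _ _).1 hxy)]

end ALSetup

end Fermat.Agent.TwoAdic
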