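import Mathlib.RingTheory.IntegralDomain
import Mathlib.GroupTheory.SpecificGroups.Cyclic
import Mathlib.NumberTheory.LegendreSymbol.JacobiSymbol
import Fermat.Agent.HeckeModule.Elliptic
import Fermat.Agent.TwoAdic.LiftGroup
import Fermat.Agent.TwoAdic.Modules.AtkinGroup

/-!
Liftability of cocycles of the group generated by `Γ₀(N)` and Atkin–Lehner elements: each
Atkin–Lehner prime `e` has an auxiliary prime `r ≡ 1 (mod 4)` of the level at which `e` is not a
square, so the quartic character of `d²/det` lifts the sign attached to `e`.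
-/

set_option autoImplicit false

open CongruenceSubgroup
open scoped MatrixGroups

namespace Fermat.Agent.TwoAdic

open LevelRaising HeckeModule

/-- Liftability is invariant under isomorphism. -/
theorem twoLiftable_congr {G G' : Type} [Group G] [Group G'] (e : G ≃* G') (h : TwoLiftable G) :
    TwoLiftable G' := by
  intro A B _ _ σ τ f hfeq hf n hker c hc
  obtain ⟨d, hd, hdc⟩ := h A B (σ.comp e.toMonoidHom) (τ.comp e.toMonoidHom) f
    (fun g a => hfeq _ a) hf n hker (fun g => c (e g)) (fun g g' => by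
      simp only [map_mul, hc (e g) (e g'), MonoidHom.coe_comp, Function.comp_apply,
        MulEquiv.coe_toMonoidHom])
  refine ⟨fun g => d (e.symm g), fun g g' => ?_, fun g => ?_⟩
  · show d (e.symm (g * g')) = _
    rw [map_mul, hd]
    simp
  · rw [hdc, MulEquiv.apply_symm_apply]

variable {N : ℕ} {W : Finset ℕ} {hW : IsALPrimes N W}

/-- `Γ₀(N)` modulo scalars. -/
noncomputable def toPAL (N : ℕ) (W : Finset ℕ) (hW : IsALPrimes N W) : Gamma0 N →* PAL N W hW :=
  (QuotientGroup.mk' _).comp ((toGL N).codRestrict _ fun γ => toGL_mem_alGroup γ)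

lemma isALPrimes_empty (N : ℕ) : IsALPrimes N ∅ := fun _ he => absurd he (Finset.notMem_empty _)

lemma toPAL_surjective : Function.Surjective (toPAL N ∅ (isALPrimes_empty N)) := by
  intro p
  obtain ⟨⟨g, U, hU, m, hm, r, hg⟩, rfl⟩ := QuotientGroup.mk'_surjective _ p
  obtain rfl := Finset.subset_empty.mp hU
  rw [prodOf, Finset.prod_empty, alSet_one] at hm
  refine ⟨lvlElt hm, QuotientGroup.eq.mpr ?_⟩
  refine Subgroup.mem_subgroupOf.mpr (mem_scalarSubgroup.mpr ⟨r, ?_⟩)
  show (((toGL N (lvlElt hm))⁻¹ * g : GL (Fin 2) ℝ) : Matrix (Fin 2) (Fin 2) ℝ) = _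
  have e : (toGL N (lvlElt hm) : Matrix (Fin 2) (Fin 2) ℝ) = m.map (Int.cast : ℤ → ℝ) :=
    val_toGL _
  rw [Units.val_mul, hg, Matrix.mul_smul, ← e, ← Units.val_mul, inv_mul_cancel]
  rfl

lemma toPAL_eq_one {γ : Gamma0 N} (h : toPAL N W hW γ = 1) : γ = 1 ∨ γ = negOne N := by
  obtain ⟨r, hr⟩ := mem_scalarSubgroup.mp (Subgroup.mem_subgroupOf.mp
    ((QuotientGroup.eq_one_iff _).mp h))
  have h1 : (1 : Mat) ∈ alSet N (prodOf ∅) := by
    rw [prodOf, Finset.prod_empty, alSet_one]; exact one_mem_lvl N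
  have hγ : ((γ : SL(2, ℤ)) : Mat) ∈ alSet N (prodOf ∅) := by
    rw [prodOf, Finset.prod_empty, alSet_one]; exact coe_mem_lvl γ
  obtain ⟨-, h2⟩ := alGroup_unique (isALPrimes_empty N) le_rfl le_rfl hγ h1 (r := 1) (r' := r)
    one_ne_zero (by
      rw [one_smul, ← val_toGL, Matrix.map_one _ Int.cast_zero Int.cast_one]
      exact hr)
  rcases h2 with h2 | h2
  · exact Or.inl (Subtype.ext (Subtype.ext h2.symm))
  · refine Or.inr (Subtype.ext (Subtype.ext ?_))
    rw [show ((negOne N : SL(2, ℤ)) : Mat) = -1 by simp [negOne], h2, neg_neg]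

/-- `Γ₀(N)` modulo scalars is liftable in the absence of elliptic points. -/
theorem twoLiftable_empty (h4 : ∀ t : ZMod N, t ^ 2 + 1 ≠ 0)
    (h3 : ∀ t : ZMod N, t ^ 2 + t + 1 ≠ 0) : TwoLiftable (PAL N ∅ (isALPrimes_empty N)) := by
  intro A B _ _ σ τ f hfeq hf n _ c hc
  set π := toPAL N ∅ (isALPrimes_empty N)
  let up : ∀ (M : Type) [AddCommGroup M], AddMonoid.End M →* Module.End ℤ M := fun M _ =>
    { toFun := fun g => AddMonoidHom.toIntLinearMap g
      map_one' := rfl
      map_mul' := fun _ _ => rfl }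
  let σ' : Representation ℤ (Gamma0 N) A := (up A).comp (σ.comp π)
  let τ' : Representation ℤ (Gamma0 N) B := (up B).comp (τ.comp π)
  have hπ : π (negOne N) = 1 := by
    refine (QuotientGroup.eq_one_iff _).mpr (Subgroup.mem_subgroupOf.mpr ?_)
    refine mem_scalarSubgroup.mpr ⟨-1, ?_⟩
    show (toGL N (negOne N) : Matrix (Fin 2) (Fin 2) ℝ) = _
    rw [val_toGL]
    ext i j
    fin_cases i <;> fin_cases j <;> simp [negOne]
  have hc1 : c 1 = 0 := by
    have h := hc 1 1
    rwa [mul_one, map_one, AddMonoid.End.coe_one, id, left_eq_add] at h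
  have hc' : (fun γ => c (π γ)) ∈ cocycles τ' {negOne N} := by
    refine ⟨fun g g' => ?_, fun k hk => ?_⟩
    · show c (π (g * g')) = c (π g) + τ (π g) (c (π g'))
      rw [map_mul, hc]
    · rw [Set.mem_singleton_iff] at hk
      subst hk
      show c (π _) = 0
      rw [hπ, hc1]
  obtain ⟨a, ha⟩ := exists_cocycle_lift_rep (ρA := σ') (ρB := τ') f.toIntLinearMap
    (fun u x => hfeq _ x) hf (by
      show up A (σ (π (negOne N))) = 1
      rw [hπ, map_one, map_one])
    (show Liftable ℤ N from ⟨Or.inr (S_smul_ne_self h4), Or.inr (elV_smul_ne_self h3)⟩) ⟨_, hc'⟩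
  obtain ⟨s, hs⟩ := (toPAL_surjective (N := N)).hasRightInverse
  have key : ∀ γ, a.1 (s (π γ)) = a.1 γ := by
    intro γ
    have h1 : π (γ⁻¹ * s (π γ)) = 1 := by rw [map_mul, map_inv, hs, inv_mul_cancel]
    rcases toPAL_eq_one h1 with h2 | h2
    · exact congrArg a.1 (inv_mul_eq_one.mp h2).symm
    · rw [show s (π γ) = γ * negOne N from inv_mul_eq_iff_eq_mul.mp h2, a.2.1, a.2.2 _ rfl,
        map_zero, add_zero]
  refine ⟨fun p => a.1 (s p), fun g g' => ?_, fun g => ?_⟩
  · show a.1 (s (g * g')) = _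
    rw [show g * g' = π (s g * s g') by rw [map_mul, hs, hs], key, a.2.1]
    show a.1 (s g) + σ (π (s g)) (a.1 (s g')) = _
    rw [hs]
  · refine (ha (s g)).trans ?_
    show c (π (s g)) = c g
    rw [hs]

/-- A surjection `(ℤ/r)ˣ → ℤ/4` for `r ≡ 1 (mod 4)` detecting squares. -/
theorem exists_quartic {r : ℕ} [Fact r.Prime] (hr : r % 4 = 1) :
    ∃ χ : (ZMod r)ˣ →* Multiplicative (ZMod 4),
      ∀ u, ((χ u).toAdd = 0 ∨ (χ u).toAdd = 2) ↔ IsSquare u := by
  have h4 : 4 ∣ Nat.card (ZMod r)ˣ := by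
    rw [Nat.card_eq_fintype_card, ZMod.card_units_eq_totient,
      Nat.totient_prime (Fact.out : r.Prime)]
    omega
  let e := zmodCyclicMulEquiv (inferInstance : IsCyclic (ZMod r)ˣ)
  let φ : ZMod (Nat.card (ZMod r)ˣ) →+* ZMod 4 := ZMod.castHom h4 (ZMod 4)
  refine ⟨(AddMonoidHom.toMultiplicative φ.toAddMonoidHom).comp e.symm.toMonoidHom,
    fun u => ⟨fun h => ?_, ?_⟩⟩
  · change φ (e.symm u).toAdd = 0 ∨ φ (e.symm u).toAdd = 2 at h
    set a := (e.symm u).toAdd with ha
    have hdec : ∀ x : ZMod 4, x = 0 ∨ x = 2 → x.val % 2 = 0 := by decide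
    have heven : a.val % 2 = 0 := by
      have := hdec _ h
      rw [show φ a = (a.val : ZMod 4) by
        conv_lhs => rw [← ZMod.natCast_zmod_val a]
        exact map_natCast φ _, ZMod.val_natCast] at this
      omega
    refine ⟨e (Multiplicative.ofAdd ((a.val / 2 : ℕ) : ZMod (Nat.card (ZMod r)ˣ))), ?_⟩
    rw [← map_mul, ← ofAdd_add, ← Nat.cast_add, show a.val / 2 + a.val / 2 = a.val by omega,
      ZMod.natCast_zmod_val, ha, ofAdd_toAdd, MulEquiv.apply_symm_apply]
  · rintro ⟨v, rfl⟩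
    show φ (e.symm (v * v)).toAdd = 0 ∨ φ (e.symm (v * v)).toAdd = 2
    rw [map_mul, toAdd_mul, map_add]
    have hdec : ∀ x : ZMod 4, x + x = 0 ∨ x + x = 2 := by decide
    exact hdec _

section Value

variable {r : ℕ} [hrp : Fact r.Prime] (hrN : r ∣ N) (hrW : r ∉ W)

lemma prodOf_cast_ne_zero (hW : IsALPrimes N W) (hrW : r ∉ W) {U : Finset ℕ}
    (hU : U ⊆ W) : (prodOf U : ZMod r) ≠ 0 := by
  have hr : r.Prime := hrp.out
  rw [Ne, ZMod.natCast_eq_zero_iff, prodOf, hr.prime.dvd_finsetProd_iff]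
  rintro ⟨e, he, hdvd⟩
  exact hrW (((Nat.prime_dvd_prime_iff_eq hr (hW e (hU he)).1).mp hdvd) ▸ hU he)

/-- The value `d²/det` modulo `r` of an element. -/
noncomputable def alValue (hW : IsALPrimes N W) (g : alGroup N W hW) : ZMod r :=
  ((g.2.choose_spec.2.choose 1 1 : ℤ) : ZMod r) ^ 2 * ((prodOf g.2.choose : ℕ) : ZMod r)⁻¹

lemma alValue_eq (g : alGroup N W hW) {U : Finset ℕ} (hU : U ⊆ W) {m : Mat}
    (hm : m ∈ alSet N (prodOf U)) {x : ℝ}
    (hg : ((g : GL (Fin 2) ℝ) : Matrix (Fin 2) (Fin 2) ℝ) = x • m.map (Int.cast : ℤ → ℝ)) :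
    alValue hW g = ((m 1 1 : ℤ) : ZMod r) ^ 2 * ((prodOf U : ℕ) : ZMod r)⁻¹ := by
  obtain ⟨hm0, x0, hg0⟩ := g.2.choose_spec.2.choose_spec
  have hx : x ≠ 0 := by
    intro h0
    rw [h0, zero_smul] at hg
    have := congrArg Matrix.det hg
    rw [Matrix.det_zero] at this
    exact (Matrix.GeneralLinearGroup.det (g : GL (Fin 2) ℝ)).ne_zero this
  obtain ⟨hUU, hmm⟩ := alGroup_unique hW hU g.2.choose_spec.1 hm hm0 hx (hg.symm.trans hg0)
  refine congrArg₂ (fun a b : ZMod r => a * b⁻¹) ?_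
    (congrArg (fun V : Finset ℕ => ((prodOf V : ℕ) : ZMod r)) hUU.symm)
  rcases hmm with h | h <;> rw [h]
  simp

variable (hW)

/-- `d²/det` as a homomorphism. -/
noncomputable def alValueHom : alGroup N W hW →* ZMod r where
  toFun := alValue hW
  map_one' := by
    rw [alValue_eq (U := ∅) (1 : alGroup N W hW) (Finset.empty_subset _) (m := 1)
      (by rw [prodOf, Finset.prod_empty, alSet_one]; exact one_mem_lvl N) (x := 1) (by simp)]
    simp
  map_mul' := by
    intro g g'
    obtain ⟨U, hU, m, hm, x, hg⟩ := g.2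
    obtain ⟨U', hU', m', hm', x', hg'⟩ := g'.2
    rw [alValue_eq g hU hm hg, alValue_eq g' hU' hm' hg']
    have hd1 : prodOf U = prodOf (U ∩ U') * prodOf (U \ U') :=
      (Finset.prod_inter_mul_prod_sdiff U U' _).symm
    have hd2 : prodOf U' = prodOf (U ∩ U') * prodOf (U' \ U) := by
      rw [Finset.inter_comm]; exact (Finset.prod_inter_mul_prod_sdiff U' U _).symm
    have hG := prodOf_cast_ne_zero (r := r) hW hrW
      (Finset.inter_subset_left (s₂ := U') |>.trans hU)
    have hm1 := hm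
    have hm1' := hm'
    rw [hd1] at hm1
    rw [hd2] at hm1'
    have hdvd : prodOf (U ∩ U') * prodOf (U \ U') * prodOf (U' \ U) ∣ N := by
      rw [← hd1, prodOf, prodOf, ← Finset.prod_union Finset.disjoint_sdiff,
        Finset.union_sdiff_self_eq_union]
      exact prodOf_dvd hW (Finset.union_subset hU hU')
    obtain ⟨m'', hm'', e⟩ := exists_alSet_mul hdvd
      (prodOf_ne_zero hW (Finset.inter_subset_left.trans hU)) hm1 hm1'
    have hU'' : U \ U' ∪ U' \ U ⊆ W := Finset.union_subset (Finset.sdiff_subset.trans hU)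
      (Finset.sdiff_subset.trans hU')
    have hp : prodOf (U \ U' ∪ U' \ U) = prodOf (U \ U') * prodOf (U' \ U) :=
      Finset.prod_union disjoint_sdiff_sdiff
    rw [alValue_eq _ hU'' (hp.symm ▸ hm'') (x := x * x' * (prodOf (U ∩ U') : ℝ)) (by
      rw [Subgroup.coe_mul, Units.val_mul, hg, hg', Matrix.smul_mul, Matrix.mul_smul, smul_smul,
        ← Matrix.map_mul_intCast, e, map_natCast_smul, smul_smul])]
    have h11 := congrArg (Int.cast : ℤ → ZMod r) (congrFun (congrFun e 1) 1)
    have hc : ((m 1 0 : ℤ) : ZMod r) = 0 := by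
      rw [ZMod.intCast_zmod_eq_zero_iff_dvd]
      exact (Int.natCast_dvd_natCast.mpr hrN).trans hm.2.2.2
    simp only [Matrix.mul_apply, Fin.sum_univ_two, Matrix.smul_apply, smul_eq_mul, Int.cast_add,
      Int.cast_mul, Int.cast_natCast] at h11
    rw [hc, zero_mul, zero_add] at h11
    rw [hp, hd1, hd2, Nat.cast_mul, Nat.cast_mul, Nat.cast_mul]
    generalize ((prodOf (U \ U') : ℕ) : ZMod r) = a
    generalize ((prodOf (U' \ U) : ℕ) : ZMod r) = b
    generalize ((prodOf (U ∩ U') : ℕ) : ZMod r) = G at hG h11 ⊢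
    simp only [mul_inv]
    field_simp
    linear_combination (-(a⁻¹ * b⁻¹) * (((m 1 1 : ℤ) : ZMod r) * ((m' 1 1 : ℤ) : ZMod r) +
      G * ((m'' 1 1 : ℤ) : ZMod r))) * h11

end Value

/-- **Liftability of the extended group.** -/
theorem twoLiftable_PAL (h4 : ∀ t : ZMod N, t ^ 2 + 1 ≠ 0) (h3 : ∀ t : ZMod N, t ^ 2 + t + 1 ≠ 0)
    (W : Finset ℕ) (hW : IsALPrimes N W)
    (hr : ∀ e ∈ W, ∃ r : ℕ, r.Prime ∧ r ∣ N ∧ r % 4 = 1 ∧ r ∉ W ∧ jacobiSym (e : ℤ) r = -1 ∧
      ∀ e' ∈ W, e' ≠ e → jacobiSym (e' : ℤ) r = 1) :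
    TwoLiftable (PAL N W hW) := by
  induction W using Finset.induction_on with
  | empty => exact twoLiftable_empty h4 h3
  | insert e W' he ih =>
    have hW' : IsALPrimes N W' := hW.mono (Finset.subset_insert _ _)
    have ih' := ih hW' fun e' he' => by
      obtain ⟨r, h1, h2, h5, h6, h7, h8⟩ := hr e' (Finset.mem_insert_of_mem he')
      exact ⟨r, h1, h2, h5, fun h => h6 (Finset.mem_insert_of_mem h), h7,
        fun e'' he'' => h8 e'' (Finset.mem_insert_of_mem he'')⟩
    obtain ⟨r, hrp, hrN, hr4, hrW, hje, hje'⟩ := hr e (Finset.mem_insert_self _ _)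
    have : Fact r.Prime := ⟨hrp⟩
    obtain ⟨χ, hχ⟩ := exists_quartic hr4
    let v : alGroup N (insert e W') hW →* (ZMod r)ˣ := (alValueHom hW hrN hrW).toHomUnits
    have hv : alScalars N (insert e W') hW ≤ (χ.comp v).ker := by
      intro g hg
      obtain ⟨x, hx⟩ := mem_scalarSubgroup.mp (Subgroup.mem_subgroupOf.mp hg)
      have : v g = 1 := Units.ext (by
        show alValue hW g = 1
        rw [alValue_eq (U := ∅) g (Finset.empty_subset _) (m := 1)
          (by rw [prodOf, Finset.prod_empty, alSet_one]; exact one_mem_lvl N) (x := x)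
          (by rw [Matrix.map_one _ Int.cast_zero Int.cast_one]; exact hx)]
        simp)
      rw [MonoidHom.mem_ker, MonoidHom.comp_apply, this, map_one]
    let ε : PAL N (insert e W') hW →* Multiplicative (ZMod 4) := QuotientGroup.lift _ (χ.comp v) hv
    let inc : alGroup N W' hW' →* alGroup N (insert e W') hW :=
      Subgroup.inclusion (alGroup_mono (Finset.subset_insert _ _))
    let incP : PAL N W' hW' →* PAL N (insert e W') hW :=
      QuotientGroup.map _ _ inc fun g hg => hg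
    have hincP : Function.Injective incP := (injective_iff_map_eq_one incP).mpr fun p hp => by
      obtain ⟨g, rfl⟩ := QuotientGroup.mk'_surjective _ p
      exact (QuotientGroup.eq_one_iff _).mpr ((QuotientGroup.eq_one_iff (inc g)).mp hp :)
    have hsq : ∀ U ⊆ insert e W', IsSquare ((prodOf U : ℕ) : ZMod r) ↔ e ∉ U := by
      intro U hU
      have hres : ∀ e' ∈ insert e W', e' ≠ e → IsSquare ((e' : ℕ) : ZMod r) := by
        intro e' he' hne
        have h := hje' e' he' hne
        rw [← jacobiSym.legendreSym.to_jacobiSym] at h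
        simpa using (legendreSym.eq_one_iff r (by
          intro h0
          rw [(legendreSym.eq_zero_iff r _).mpr h0] at h
          exact zero_ne_one h)).mp h
      have hnon : ¬ IsSquare ((e : ℕ) : ZMod r) := by
        rw [← jacobiSym.legendreSym.to_jacobiSym] at hje
        simpa using (legendreSym.eq_neg_one_iff r).mp hje
      have hprod : ∀ V ⊆ insert e W', e ∉ V → IsSquare ((prodOf V : ℕ) : ZMod r) := fun V hV heV => by
        rw [prodOf, Nat.cast_prod]
        exact Finset.isSquare_prod (s := V) (fun x : ℕ => ((id x : ℕ) : ZMod r)) fun x hx => hres x (hV hx) fun hxe => heV (hxe ▸ hx)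
      refine ⟨fun h heU => hnon ?_, hprod U hU⟩
      have hne := prodOf_cast_ne_zero (r := r) hW hrW ((Finset.erase_subset e U).trans hU)
      have h' := h.mul (hprod (U.erase e) ((Finset.erase_subset e U).trans hU)
        (Finset.notMem_erase e U)).inv
      unfold prodOf at h' hne
      rwa [← Finset.mul_prod_erase U id heU, Nat.cast_mul, id, mul_assoc,
        mul_inv_cancel₀ hne, mul_one] at h'
    have hmem : ∀ (g : GL (Fin 2) ℝ) (U : Finset ℕ) (hU : U ⊆ insert e W') (m : Mat)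
        (hm : m ∈ alSet N (prodOf U)) (x : ℝ)
        (hg : (g : Matrix (Fin 2) (Fin 2) ℝ) = x • m.map (Int.cast : ℤ → ℝ)),
        ((QuotientGroup.mk' _ ⟨g, U, hU, m, hm, x, hg⟩ : PAL N (insert e W') hW) ∈ incP.range ↔
          e ∉ U) ∧
        (IsSquare (v ⟨g, U, hU, m, hm, x, hg⟩) ↔ e ∉ U) := by
      intro g U hU m hm x hg
      have hval : ((v ⟨g, U, hU, m, hm, x, hg⟩ : (ZMod r)ˣ) : ZMod r)
          = ((m 1 1 : ℤ) : ZMod r) ^ 2 * ((prodOf U : ℕ) : ZMod r)⁻¹ :=
        alValue_eq _ hU hm hg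
      have hx : x ≠ 0 := by
        intro h0
        rw [h0, zero_smul] at hg
        have := congrArg Matrix.det hg
        rw [Matrix.det_zero] at this
        exact (Matrix.GeneralLinearGroup.det g).ne_zero this
      refine ⟨⟨?_, fun heU => ?_⟩, ?_⟩
      · rintro ⟨q, hq⟩
        obtain ⟨g', rfl⟩ := QuotientGroup.mk'_surjective _ q
        have h1 : (g'.1 : GL (Fin 2) ℝ)⁻¹ * g ∈ scalarSubgroup :=
          Subgroup.mem_subgroupOf.mp (QuotientGroup.eq.mp hq)
        have h2 : g ∈ alGroup N W' hW' := by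
          rw [show g = g'.1 * (g'.1⁻¹ * g) by simp]
          exact mul_mem g'.2 (scalarSubgroup_le h1)
        obtain ⟨U', hU', m', hm', x', hg'⟩ := h2
        obtain ⟨rfl, -⟩ := alGroup_unique hW hU (hU'.trans (Finset.subset_insert _ _)) hm hm' hx
          (hg.symm.trans hg')
        exact fun h => he (hU' h)
      · have hU' : U ⊆ W' := fun y hy => (Finset.mem_insert.mp (hU hy)).resolve_left
          fun h => heU (h ▸ hy)
        exact ⟨QuotientGroup.mk' _ ⟨g, U, hU', m, hm, x, hg⟩, rfl⟩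
      · have hd : ((m 1 1 : ℤ) : ZMod r) ≠ 0 := by
          intro h0
          rw [h0, zero_pow two_ne_zero, zero_mul] at hval
          exact (v _).ne_zero hval
        rw [← hsq U hU]
        refine ⟨fun ⟨y, hy⟩ => ⟨((m 1 1 : ℤ) : ZMod r) / (y : ZMod r), ?_⟩, fun ⟨y, hy⟩ => ?_⟩
        · have hne := prodOf_cast_ne_zero (r := r) hW hrW hU
          have := congrArg Units.val hy
          rw [hval, Units.val_mul] at this
          field_simp at this ⊢
          linear_combination -this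
        · have hne := prodOf_cast_ne_zero (r := r) hW hrW hU
          have hy0 : y ≠ 0 := fun h0 => hne (by rw [hy, h0, mul_zero])
          refine ⟨Units.mk0 (((m 1 1 : ℤ) : ZMod r) * y⁻¹) (mul_ne_zero hd (inv_ne_zero hy0)), ?_⟩
          refine Units.ext ?_
          rw [hval, hy, Units.val_mul, Units.val_mk0]
          field_simp
    have hH : ∀ p, p ∈ incP.range ↔ (ε p).toAdd = 0 ∨ (ε p).toAdd = 2 := by
      intro p
      obtain ⟨⟨g, U, hU, m, hm, x, hg⟩, rfl⟩ := QuotientGroup.mk'_surjective _ p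
      obtain ⟨h1, h2⟩ := hmem g U hU m hm x hg
      exact h1.trans (h2.symm.trans (hχ _).symm)
    obtain ⟨hep, heN, hee⟩ := hW e (Finset.mem_insert_self _ _)
    obtain ⟨n, hn⟩ := heN
    have hdiv : N / e = n := by rw [hn, Nat.mul_div_cancel_left _ hep.pos]
    have hen : ¬ e ∣ n := fun h => hee (hn ▸ mul_dvd_mul_left e h)
    have hw : wMat n e ∈ alSet N (prodOf {e}) := by
      rw [prodOf, Finset.prod_singleton, id]
      refine ⟨det_wMat hep hen, ?_, ?_, ?_⟩
      · simp [wMat]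
      · simp [wMat]
      · simp [wMat, hn, mul_comm]
    have hw0 : (wMat n e).det ≠ 0 := by rw [det_wMat hep hen]; exact_mod_cast hep.ne_zero
    set w : PAL N (insert e W') hW := QuotientGroup.mk' _
      ⟨matGL (wMat n e) hw0, {e}, by simp, wMat n e, hw, 1, by
        rw [one_smul]; exact val_matGL _ hw0⟩
    have hwodd : ¬ ((ε w).toAdd = 0 ∨ (ε w).toAdd = 2) := fun h =>
      ((hmem _ {e} (by simp) (wMat n e) hw 1 (by rw [one_smul]; exact val_matGL _ hw0)).1.mp
        ((hH w).mpr h)) (Finset.mem_singleton_self e)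
    obtain ⟨w', hw'⟩ : ∃ w', (ε w').toAdd = 1 := by
      have key : ∀ x : ZMod 4, ¬ (x = 0 ∨ x = 2) → x = 1 ∨ -x = 1 := by decide
      rcases key _ hwodd with h | h
      · exact ⟨w, h⟩
      · exact ⟨w⁻¹, by rw [map_inv, toAdd_inv, h]⟩
    exact twoLiftable_of_index_two incP.range ε hH w' hw'
      (twoLiftable_congr (MonoidHom.ofInjective hincP) ih')

end Fermat.Agent.TwoAdic
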