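import Fermat.Agent.HeckeModule.TraceSurjective
import Fermat.Agent.TwoAdic.Norms
import Fermat.Agent.TwoAdic.Modules.Liftable

/-!
The Eisenstein operator `T_ℓ - (ℓ + 1)`, `ℓ ≡ 1 (mod N)`, on homomorphisms of the extended group:
it makes classes invariant under an Atkin–Lehner element and kills the obstruction at its square,
so that invariant classes become norms.
-/

set_option autoImplicit false

open CongruenceSubgroup
open scoped MatrixGroups

namespace Fermat.Agent.TwoAdic

open HeckeJ0 LevelRaising HeckeModule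

variable {N : ℕ} {W : Finset ℕ} {hW : IsALPrimes N W}

lemma scalar_ne_zero {g : GL (Fin 2) ℝ} {r : ℝ} {M : Matrix (Fin 2) (Fin 2) ℝ}
    (h : (g : Matrix (Fin 2) (Fin 2) ℝ) = r • M) : r ≠ 0 := by
  rintro rfl
  rw [zero_smul] at h
  have := congrArg Matrix.det h
  rw [Matrix.det_zero] at this
  exact (Matrix.GeneralLinearGroup.det g).ne_zero this

/-- The set of Atkin–Lehner primes of an element. -/
noncomputable def alType (g : alGroup N W hW) : Finset ℕ := g.2.choose

lemma alType_eq (g : alGroup N W hW) {U : Finset ℕ} (hU : U ⊆ W) {m : Mat}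
    (hm : m ∈ alSet N (prodOf U)) {x : ℝ}
    (hg : ((g : GL (Fin 2) ℝ) : Matrix (Fin 2) (Fin 2) ℝ) = x • m.map (Int.cast : ℤ → ℝ)) :
    alType g = U := by
  obtain ⟨m0, hm0, x0, hg0⟩ := g.2.choose_spec.2
  exact ((alGroup_unique hW hU g.2.choose_spec.1 hm hm0 (scalar_ne_zero hg)
    (hg.symm.trans hg0)).1).symm

lemma alType_subset (g : alGroup N W hW) : alType g ⊆ W := g.2.choose_spec.1

lemma alType_mul (g g' : alGroup N W hW) :
    alType (g * g') = alType g \ alType g' ∪ alType g' \ alType g := by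
  obtain ⟨U, hU, m, hm, r, hg⟩ := g.2
  obtain ⟨U', hU', m', hm', r', hg'⟩ := g'.2
  rw [alType_eq g hU hm hg, alType_eq g' hU' hm' hg']
  have hd1 : prodOf U = prodOf (U ∩ U') * prodOf (U \ U') :=
    (Finset.prod_inter_mul_prod_sdiff U U' _).symm
  have hd2 : prodOf U' = prodOf (U ∩ U') * prodOf (U' \ U) := by
    rw [Finset.inter_comm]; exact (Finset.prod_inter_mul_prod_sdiff U' U _).symm
  have hdvd : prodOf (U ∩ U') * prodOf (U \ U') * prodOf (U' \ U) ∣ N := by
    rw [← hd1, prodOf, prodOf, ← Finset.prod_union Finset.disjoint_sdiff,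
      Finset.union_sdiff_self_eq_union]
    exact prodOf_dvd hW (Finset.union_subset hU hU')
  rw [hd1] at hm
  rw [hd2] at hm'
  obtain ⟨m'', hm'', e⟩ := exists_alSet_mul hdvd
    (prodOf_ne_zero hW (Finset.inter_subset_left.trans hU)) hm hm'
  refine alType_eq _ (Finset.union_subset (Finset.sdiff_subset.trans hU)
    (Finset.sdiff_subset.trans hU')) (m := m'') ?_ (x := r * r' * (prodOf (U ∩ U') : ℝ)) ?_
  · rw [prodOf, Finset.prod_union disjoint_sdiff_sdiff]
    exact hm''
  · rw [Subgroup.coe_mul, Units.val_mul, hg, hg', Matrix.smul_mul, Matrix.mul_smul, smul_smul,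
      ← Matrix.map_mul_intCast, e, map_natCast_smul, smul_smul]

lemma alType_one : alType (1 : alGroup N W hW) = ∅ :=
  alType_eq _ (Finset.empty_subset _) (m := 1)
    (by rw [prodOf, Finset.prod_empty, alSet_one]; exact one_mem_lvl N) (x := 1) (by simp)

lemma alType_inv (g : alGroup N W hW) : alType g⁻¹ = alType g := by
  have h := alType_mul g⁻¹ g
  rw [inv_mul_cancel, alType_one] at h
  have h' := h.symm
  simp only [Finset.union_eq_empty, Finset.sdiff_eq_empty_iff_subset] at h'
  exact Finset.Subset.antisymm h'.1 h'.2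

lemma alType_conj (g h : alGroup N W hW) : alType (g * h * g⁻¹) = alType h := by
  rw [alType_mul, alType_mul, alType_inv]
  ext x
  simp only [Finset.mem_union, Finset.mem_sdiff]
  tauto

lemma alType_toGL (γ : Gamma0 N) :
    alType (⟨toGL N γ, toGL_mem_alGroup γ⟩ : alGroup N W hW) = ∅ :=
  alType_eq _ (Finset.empty_subset _)
    (by rw [prodOf, Finset.prod_empty, alSet_one]; exact coe_mem_lvl γ) (x := 1)
    (by rw [one_smul]; exact val_toGL γ)

/-- An element of empty type is an element of `Γ₀(N)` times a scalar. -/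
lemma exists_of_alType_eq_empty {g : alGroup N W hW} (h : alType g = ∅) :
    ∃ (γ : Gamma0 N) (s : GL (Fin 2) ℝ), s ∈ scalarSubgroup ∧
      (g : GL (Fin 2) ℝ) = toGL N γ * s := by
  obtain ⟨U, hU, m, hm, r, hg⟩ := g.2
  obtain rfl : U = ∅ := (alType_eq g hU hm hg).symm.trans h
  rw [prodOf, Finset.prod_empty, alSet_one] at hm
  refine ⟨lvlElt hm, (toGL N (lvlElt hm))⁻¹ * g, mem_scalarSubgroup.mpr ⟨r, ?_⟩, by simp⟩
  rw [Units.val_mul, hg, Matrix.mul_smul,
    show m.map (Int.cast : ℤ → ℝ) = (toGL N (lvlElt hm) : Matrix (Fin 2) (Fin 2) ℝ) from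
      (val_toGL (lvlElt hm)).symm, ← Units.val_mul, inv_mul_cancel]
  rfl

section Hecke

variable {ℓ : ℕ} [hℓ : Fact ℓ.Prime] (hℓN : ¬ ℓ ∣ N)

include hℓN in
lemma exists_rep_mul_al (x : Idx N ℓ) (g : alGroup N W hW) :
    ∃ (y : Idx N ℓ) (g' : alGroup N W hW),
      rep x * (g : GL (Fin 2) ℝ) = (g' : GL (Fin 2) ℝ) * rep y ∧ alType g' = alType g := by
  obtain ⟨U, hU, m, hm, r, hg⟩ := g.2
  obtain ⟨i, rfl⟩ := (idxEquiv (N := N) hℓN).surjective x
  have hUd := prodOf_dvd hW hU
  have hcop : ¬ ℓ ∣ prodOf U := fun h => hℓN (h.trans hUd)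
  have hprod : heckMat ℓ i * m ∈ DetLevel N ((prodOf U : ℤ) * ℓ) := by
    refine ⟨by rw [Matrix.det_mul, det_heckMat, hm.1, mul_comm], ?_⟩
    cases i <;> simp [heckMat, Matrix.mul_apply, Fin.sum_univ_two] <;>
      first | exact hm.2.2.2 | exact hm.2.2.2.mul_left _
  obtain ⟨j, y, hy, e⟩ := (fact_heckMat (N := N) hℓ.out hℓN (r := (prodOf U : ℤ))
    (by exact_mod_cast hcop)).fact _ hprod
  have hps : IsCoprime (prodOf U : ℤ) (ℓ : ℤ) :=
    (Int.isCoprime_iff_nat_coprime.mpr (by
      simpa using ((Nat.Prime.coprime_iff_not_dvd hℓ.out).mpr hcop).symm))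
  have hN : (prodOf U : ℤ) ∣ (N : ℤ) := Int.natCast_dvd_natCast.mpr hUd
  have hy' : y ∈ alSet N (prodOf U) := by
    refine ⟨hy.1, ?_, ?_, hy.2⟩
    · have h00 := congrFun (congrFun e 0) 0
      simp only [Matrix.mul_apply, Fin.sum_univ_two] at h00
      have hd : (prodOf U : ℤ) ∣ heckMat ℓ i 0 0 * m 0 0 + heckMat ℓ i 0 1 * m 1 0 :=
        dvd_add (hm.2.1.mul_left _) ((hN.trans hm.2.2.2).mul_left _)
      rw [h00] at hd
      cases j with
      | none =>
        simp only [heckMat, mm_zero_zero, mm_one_zero, mul_zero, add_zero] at hd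
        exact hps.dvd_of_dvd_mul_right hd
      | some j => simpa [heckMat] using hd
    · have h11 := congrFun (congrFun e 1) 1
      simp only [Matrix.mul_apply, Fin.sum_univ_two] at h11
      have hd : (prodOf U : ℤ) ∣ heckMat ℓ i 1 0 * m 0 1 + heckMat ℓ i 1 1 * m 1 1 := by
        cases i <;> simp [heckMat] <;> first | exact hm.2.2.1 | exact hm.2.2.1.mul_left _
      rw [h11] at hd
      cases j with
      | none => simpa [heckMat] using hd
      | some j =>
        simp only [heckMat, mm_zero_one, mm_one_one] at hd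
        exact hps.dvd_of_dvd_mul_right ((Int.dvd_add_right ((hN.trans hy.2).mul_right _)).mp hd)
  have hval : ((rep (idxEquiv hℓN i) * g * (rep (idxEquiv hℓN j))⁻¹ : GL (Fin 2) ℝ) :
      Matrix (Fin 2) (Fin 2) ℝ) = r • y.map (Int.cast : ℤ → ℝ) := by
    have h1 : (r • y.map (Int.cast : ℤ → ℝ)) *
        (rep (idxEquiv (N := N) hℓN j) : Matrix (Fin 2) (Fin 2) ℝ)
        = (rep (idxEquiv (N := N) hℓN i) : Matrix (Fin 2) (Fin 2) ℝ) * (g : GL (Fin 2) ℝ) := by
      rw [rep_idxEquiv, rep_idxEquiv, hg, Matrix.smul_mul, Matrix.mul_smul,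
        ← Matrix.map_mul_intCast, ← Matrix.map_mul_intCast, e]
    rw [Units.val_mul, Units.val_mul, ← h1, mul_assoc, ← Units.val_mul, mul_inv_cancel,
      Units.val_one, mul_one]
  refine ⟨_, ⟨_, U, hU, y, hy', r, hval⟩, (inv_mul_cancel_right _ _).symm, ?_⟩
  rw [alType_eq _ hU hy' hval, alType_eq g hU hm hg]

include hℓN in
lemma unique_rep_al (x y : Idx N ℓ) (g : alGroup N W hW)
    (h : (g : GL (Fin 2) ℝ) * rep x = rep y) : x = y := by
  obtain ⟨U, hU, m, hm, r, hg⟩ := g.2
  obtain ⟨i, rfl⟩ := (idxEquiv (N := N) hℓN).surjective x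
  obtain ⟨j, rfl⟩ := (idxEquiv (N := N) hℓN).surjective y
  have hm' := congrArg Units.val h
  rw [Units.val_mul, hg, rep_idxEquiv, rep_idxEquiv, Matrix.smul_mul, ← Matrix.map_mul_intCast]
    at hm'
  have hℓ0 : (ℓ : ℝ) ≠ 0 := Nat.cast_ne_zero.mpr hℓ.out.ne_zero
  have hdet : r ^ 2 * (prodOf U : ℝ) = 1 := by
    have h' := congrArg Matrix.det hm'
    rw [Matrix.det_smul, Fintype.card_fin,
      show (m * heckMat ℓ i).map (Int.cast : ℤ → ℝ)
        = (Int.castRingHom ℝ).mapMatrix (m * heckMat ℓ i) from rfl,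
      show (heckMat ℓ j).map (Int.cast : ℤ → ℝ)
        = (Int.castRingHom ℝ).mapMatrix (heckMat ℓ j) from rfl, ← RingHom.map_det,
      ← RingHom.map_det, Matrix.det_mul, det_heckMat, det_heckMat, hm.1] at h'
    simp only [eq_intCast, Int.cast_mul, Int.cast_natCast] at h'
    exact mul_right_cancel₀ hℓ0 (by linear_combination h')
  set t : ℤ := (m * heckMat ℓ i) 0 0
  set u : ℤ := heckMat ℓ j 0 0
  have hu : u ≠ 0 := by
    cases j <;> simp [u, heckMat, hℓ.out.ne_zero]
  have ht : r * (t : ℝ) = (u : ℝ) := congrFun (congrFun hm' 0) 0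
  have hnat : (prodOf U) * u.natAbs ^ 2 = t.natAbs ^ 2 := by
    have : (prodOf U : ℤ) * u ^ 2 = t ^ 2 := by
      have : ((prodOf U : ℝ)) * (u : ℝ) ^ 2 = (t : ℝ) ^ 2 := by
        rw [← ht]
        linear_combination (t : ℝ) ^ 2 * hdet
      exact_mod_cast this
    simpa [Int.natAbs_mul, Int.natAbs_pow] using congrArg Int.natAbs this
  have hU1 : prodOf U = 1 := by
    refine Nat.eq_of_factorization_eq (prodOf_ne_zero hW hU) one_ne_zero fun p => ?_
    have hp := congrArg (fun n => n.factorization p) hnat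
    simp only [Nat.factorization_mul (prodOf_ne_zero hW hU) (pow_ne_zero 2 (Int.natAbs_ne_zero.mpr hu)),
      Nat.factorization_pow, Finsupp.add_apply, Finsupp.smul_apply, smul_eq_mul] at hp
    have h1 := (squarefree_prodOf hW hU).natFactorization_le_one p
    simp only [Nat.factorization_one, Finsupp.coe_zero, Pi.zero_apply]
    omega
  rw [hU1, alSet_one] at hm
  rw [hU1, Nat.cast_one, mul_one] at hdet
  rcases sq_eq_one_iff.mp hdet with rfl | rfl
  · refine rep_unique (lvlElt hm : SL(2, ℤ)) ?_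
    refine Eq.trans (congrArg (· * _) ?_) h
    refine Units.ext ?_
    show (toGL N (lvlElt hm) : Matrix (Fin 2) (Fin 2) ℝ) = _
    rw [val_toGL, hg, one_smul]
    rfl
  · have hneg : (-m : Mat) ∈ Lvl N :=
      ⟨by rw [Matrix.det_neg, hm.1]; simp, by simpa using hm.2.neg_right⟩
    refine rep_unique (lvlElt hneg : SL(2, ℤ)) ?_
    refine Eq.trans (congrArg (· * _) ?_) h
    refine Units.ext ?_
    show (toGL N (lvlElt hneg) : Matrix (Fin 2) (Fin 2) ℝ) = _
    rw [val_toGL, hg, neg_one_smul]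
    ext a b
    simp [lvlElt]

variable (A : Type) [AddCommGroup A] (hW)

/-- The data of `T_ℓ` on the extended group, trivial coefficients. -/
noncomputable def extData : Data (alGroup N W hW).subtype (alGroup N W hW).subtype
    (Representation.trivial ℤ (alGroup N W hW) A) (Representation.trivial ℤ (alGroup N W hW) A)
    {g | (g : GL (Fin 2) ℝ) ∈ scalarSubgroup} {g | (g : GL (Fin 2) ℝ) ∈ scalarSubgroup}
    (Idx N ℓ) where
  α := rep
  ε _ := LinearMap.id
  exists_mul x g := by
    obtain ⟨y, g', h, -⟩ := exists_rep_mul_al hℓN x g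
    exact ⟨y, g', h⟩
  unique x y g h := unique_rep_al hℓN x y g h
  compat _ _ _ _ _ := rfl
  triv x y k g hk h := by
    have h1 : (k : GL (Fin 2) ℝ) * rep x = (g : GL (Fin 2) ℝ) * rep y := by
      rw [(commute_of_mem_scalarSubgroup hk _).eq]; exact h
    obtain rfl := unique_rep_al hℓN x y (g⁻¹ * k) (by
      rw [Subgroup.coe_mul, Subgroup.coe_inv, mul_assoc, h1, inv_mul_cancel_left])
    show (g : GL (Fin 2) ℝ) ∈ scalarSubgroup
    rw [← mul_right_cancel h1]
    exact hk

lemma alType_tr (x : Idx N ℓ) (g : alGroup N W hW) :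
    alType ((extData hW hℓN A).tr x g) = alType g := by
  obtain ⟨y, g', h, ht⟩ := exists_rep_mul_al hℓN x g
  rw [((extData hW hℓN A).spec_unique Subtype.val_injective (γ := g) h).2, ht]

variable {A hW} [NeZero ℓ]

/-- The Eisenstein operator on functions on the group. -/
noncomputable def eisAL (c : alGroup N W hW → A) (g : alGroup N W hW) : A :=
  (extData hW hℓN A).raw c g - (ℓ + 1) • c g

variable {e : ℕ} {W' : Finset ℕ} {c : alGroup N W hW → A}
  (hc : ∀ g h, alType g ⊆ W' → alType h ⊆ W' → c (g * h) = c g + c h)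

include hc in
lemma eisAL_mul {g h : alGroup N W hW} (hg : alType g ⊆ W') (hh : alType h ⊆ W') :
    eisAL hℓN c (g * h) = eisAL hℓN c g + eisAL hℓN c h := by
  set D := extData hW hℓN A
  have hp : D.raw c (g * h) = D.raw c g + D.raw c h := by
    rw [Data.raw_apply, Data.raw_apply, Data.raw_apply]
    refine Eq.trans (b := ∑ x, (c (D.tr x g) + c (D.tr (D.permEquiv Subtype.val_injective g x) h)))
      (Finset.sum_congr rfl fun x _ => ?_) ?_
    · show c (D.tr x (g * h)) = _
      rw [(D.perm_mul Subtype.val_injective g h x).2]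
      exact hc _ _ (by rw [alType_tr]; exact hg) (by rw [alType_tr]; exact hh)
    · rw [Finset.sum_add_distrib,
        Equiv.sum_comp (D.permEquiv Subtype.val_injective g) fun x => c (D.tr x h)]
      rfl
  simp only [eisAL]
  rw [hp, hc g h hg hh, smul_add]
  abel

variable (hscal : ∀ g : alGroup N W hW, (g : GL (Fin 2) ℝ) ∈ scalarSubgroup → c g = 0)

include hscal in
lemma eisAL_scalar {g : alGroup N W hW} (hg : (g : GL (Fin 2) ℝ) ∈ scalarSubgroup) :
    eisAL hℓN c g = 0 := by
  rw [eisAL, Data.raw_apply, hscal g hg, smul_zero, sub_zero]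
  refine Finset.sum_eq_zero fun x _ => ?_
  show c _ = 0
  exact hscal _ ((extData hW hℓN A).triv _ _ g _ hg ((extData hW hℓN A).mul_spec x g))

variable {w : alGroup N W hW} (hw : alType w = {e})
  (hinv : ∀ γ : Gamma0 N, c (w * ⟨toGL N γ, toGL_mem_alGroup γ⟩ * w⁻¹)
    = c ⟨toGL N γ, toGL_mem_alGroup γ⟩)

include hc hinv in
/-- The defect of invariance vanishes on elements of empty type. -/
lemma conj_eq_of_alType_empty {a : alGroup N W hW} (ha : alType a = ∅) :
    c (w * a * w⁻¹) = c a := by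
  obtain ⟨γ, s, hs, e'⟩ := exists_of_alType_eq_empty ha
  set g0 : alGroup N W hW := ⟨toGL N γ, toGL_mem_alGroup γ⟩
  set s0 : alGroup N W hW := ⟨s, scalarSubgroup_le hs⟩
  obtain rfl : a = g0 * s0 := Subtype.ext e'
  have hg0 : alType g0 = ∅ := alType_toGL γ
  have hs0 : alType s0 = ∅ := by
    obtain ⟨r, hr⟩ := mem_scalarSubgroup.mp hs
    exact alType_eq _ (Finset.empty_subset _) (m := 1)
      (by rw [prodOf, Finset.prod_empty, alSet_one]; exact one_mem_lvl N) (x := r) (by simpa using hr)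
  have hcomm : w * (g0 * s0) * w⁻¹ = w * g0 * w⁻¹ * s0 := by
    rw [mul_assoc, mul_assoc, mul_assoc, mul_assoc]
    congr 2
    exact Subtype.ext (commute_of_mem_scalarSubgroup hs _).eq
  rw [hcomm, hc _ _ (by rw [alType_conj, hg0]; exact Finset.empty_subset _)
    (by rw [hs0]; exact Finset.empty_subset _), hinv, hc _ _
    (by rw [hg0]; exact Finset.empty_subset _) (by rw [hs0]; exact Finset.empty_subset _)]

include hc in
lemma c_inv {g : alGroup N W hW} (hg : alType g ⊆ W') : c g⁻¹ = -c g := by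
  have h1 := hc 1 1 (by simp [alType_one]) (by simp [alType_one])
  rw [mul_one, left_eq_add] at h1
  have h := hc g⁻¹ g (by rw [alType_inv]; exact hg) hg
  rw [inv_mul_cancel, h1] at h
  exact eq_neg_of_add_eq_zero_left h.symm

omit [NeZero ℓ] in
include hℓN in
lemma alType_tr_mul_inv (x : Idx N ℓ) :
    alType ((extData hW hℓN A).tr x w * w⁻¹) = ∅ := by
  rw [alType_mul, alType_inv, alType_tr]
  simp

include hc hinv in
/-- After the Eisenstein operator, classes invariant on `Γ₀(N)` are invariant. -/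
theorem eisAL_conj {h : alGroup N W hW} (hh : alType h ⊆ W') :
    eisAL hℓN c (w * h * w⁻¹) = eisAL hℓN c h := by
  set D := extData hW hℓN A
  have hinj : Function.Injective (alGroup N W hW).subtype := Subtype.val_injective
  set δ : alGroup N W hW → A := fun a => c (w * a * w⁻¹) - c a with hδ
  have hδa : ∀ {a b : alGroup N W hW}, alType a ⊆ W' → alType b ⊆ W' →
      δ (a * b) = δ a + δ b := fun {a b} ha hb => by
    simp only [hδ]
    rw [show w * (a * b) * w⁻¹ = w * a * w⁻¹ * (w * b * w⁻¹) by group,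
      hc _ _ (by rwa [alType_conj]) (by rwa [alType_conj]), hc _ _ ha hb]
    abel
  let π : Idx N ℓ → Idx N ℓ := D.permEquiv hinj w
  let x' : Idx N ℓ → Idx N ℓ := D.permEquiv hinj (w * h * w⁻¹)
  have key : ∀ x, c (D.tr x (w * h * w⁻¹)) = c (D.tr x w * w⁻¹) - c (D.tr (x' x) w * w⁻¹)
      + (c (D.tr (π x) h) + δ h) := by
    intro x
    have h1 : D.tr x (w * h * w⁻¹) * D.tr (x' x) w = D.tr x w * D.tr (π x) h :=
      ((D.perm_mul hinj (w * h * w⁻¹) w x).2.symm.trans (by rw [inv_mul_cancel_right])).trans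
        (D.perm_mul hinj w h x).2
    have h2 : D.tr x (w * h * w⁻¹) =
        D.tr x w * w⁻¹ * (w * D.tr (π x) h * w⁻¹) * (D.tr (x' x) w * w⁻¹)⁻¹ := by
      rw [eq_mul_inv_iff_mul_eq, ← mul_assoc, h1]
      group
    have t1 : alType (D.tr x w * w⁻¹) ⊆ W' := by
      rw [alType_tr_mul_inv hℓN]; exact Finset.empty_subset _
    have t2 : alType (D.tr (x' x) w * w⁻¹) ⊆ W' := by
      rw [alType_tr_mul_inv hℓN]; exact Finset.empty_subset _
    have t3 : alType (D.tr (π x) h) ⊆ W' := by rw [alType_tr]; exact hh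
    have t4 : alType (w * D.tr (π x) h * w⁻¹) ⊆ W' := by rw [alType_conj]; exact t3
    have hδeq : δ (D.tr (π x) h) = δ h := by
      have hz : alType (h⁻¹ * D.tr (π x) h) = ∅ := by
        rw [alType_mul, alType_inv, alType_tr]; simp
      have h0 : δ (h⁻¹ * D.tr (π x) h) = 0 :=
        sub_eq_zero.mpr (conj_eq_of_alType_empty hc hinv hz)
      conv_lhs => rw [show D.tr (π x) h = h * (h⁻¹ * D.tr (π x) h) by group]
      rw [hδa hh (by rw [hz]; exact Finset.empty_subset _), h0, add_zero]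
    rw [h2, hc _ _ (by
        rw [alType_mul, alType_tr_mul_inv hℓN, alType_conj]
        simpa using t3) (by rw [alType_inv]; exact t2), hc _ _ t1 t4, c_inv hc t2, ← hδeq]
    simp only [hδ]
    abel
  have hp : D.raw c (w * h * w⁻¹) = D.raw c h + (ℓ + 1) • δ h := by
    rw [Data.raw_apply, Data.raw_apply]
    refine (Finset.sum_congr rfl fun x _ => key x).trans ?_
    rw [Finset.sum_add_distrib, Finset.sum_sub_distrib, Finset.sum_add_distrib,
      Equiv.sum_comp (D.permEquiv hinj (w * h * w⁻¹)) fun x => c (D.tr x w * w⁻¹), sub_self,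
      zero_add, Equiv.sum_comp (D.permEquiv hinj w) fun x => c (D.tr x h), Finset.sum_const,
      Finset.card_univ, HeckeModule.card_idx hℓN]
    rfl
  simp only [eisAL]
  rw [hp, hδ]
  simp only [smul_sub]
  abel

include hc hinv hw in
/-- The obstruction at `w²` disappears in characteristic two. -/
theorem eisAL_sq (h2 : ∀ a : A, a + a = 0) : eisAL hℓN c (w * w) = 0 := by
  set D := extData hW hℓN A
  have hinj : Function.Injective (alGroup N W hW).subtype := Subtype.val_injective
  let π : Idx N ℓ → Idx N ℓ := D.permEquiv hinj w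
  have hww : alType (w * w) ⊆ W' := by
    rw [alType_mul, hw]; simp
  have key : ∀ x, c (D.tr x (w * w))
      = c (D.tr x w * w⁻¹) + c (D.tr (π x) w * w⁻¹) + c (w * w) := by
    intro x
    rw [(D.perm_mul hinj w w x).2]
    show c (D.tr x w * D.tr (π x) w) = _
    rw [show D.tr x w * D.tr (π x) w
        = D.tr x w * w⁻¹ * (w * (D.tr (π x) w * w⁻¹) * w⁻¹) * (w * w) by group]
    have t1 : alType (D.tr x w * w⁻¹) ⊆ W' := by
      rw [alType_tr_mul_inv hℓN]; exact Finset.empty_subset _
    have t2 : alType (w * (D.tr (π x) w * w⁻¹) * w⁻¹) ⊆ W' := by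
      rw [alType_conj, alType_tr_mul_inv hℓN]; exact Finset.empty_subset _
    rw [hc _ _ (by rw [alType_mul, alType_conj, alType_tr_mul_inv hℓN,
      alType_tr_mul_inv hℓN]; simp) hww, hc _ _ t1 t2,
      conj_eq_of_alType_empty hc hinv (alType_tr_mul_inv hℓN _)]
  have hp : D.raw c (w * w) = (ℓ + 1) • c (w * w) := by
    rw [Data.raw_apply]
    refine (Finset.sum_congr rfl fun x _ => key x).trans ?_
    rw [Finset.sum_add_distrib, Finset.sum_add_distrib,
      Equiv.sum_comp (D.permEquiv hinj w) fun x => c (D.tr x w * w⁻¹), h2, zero_add,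
      Finset.sum_const, Finset.card_univ, HeckeModule.card_idx hℓN]
  rw [eisAL, hp, sub_self]

end Hecke

end Fermat.Agent.TwoAdic
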