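import Fermat.Agent.TwoAdic.Modules.LevelIso
import Fermat.Agent.TwoAdic.Modules.AuxLevel
import Fermat.Agent.TwoAdic.Modules.CoeffChange

/-!
The isomorphisms of setups: an auxiliary prime, a lift of the coefficients.
-/

set_option autoImplicit false

open CongruenceSubgroup IsLocalRing

namespace Fermat.Agent.TwoAdic

open HeckeJ0 LevelRaising HeckeModule

attribute [local instance] ALSetup.isPrime

namespace ALSetup

section Aux

variable {O : Type} [CommRing O] [IsLocalRing O] [IsNoetherianRing O]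
  [IsAdicComplete (maximalIdeal O) O] {T : ALSetup O} (P : T.Aux) {β : O}
  (A : Type) [AddCommGroup A] [Module O A] [Module.Finite O A]
  (hχ : T.χ = 1) (hP : P.Regular β A)

omit [IsNoetherianRing O] [IsAdicComplete (maximalIdeal O) O] [Module.Finite O A] in
lemma auxH_X {V : Finset ℕ} {l : Nat.Primes} (hl : (l : ℕ) ≠ P.q) (x : T.H V A) :
    auxH P A V ((MvPolynomial.X l : HeckePoly O) • x)
      = (MvPolynomial.X l : HeckePoly O) • auxH P A V x := by
  have : Fact (l : ℕ).Prime := ⟨l.2⟩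
  induction x using LocalizedModule.induction_on with
  | _ u s =>
    rw [LocalizedModule.smul'_mk, auxH_mk, auxH_mk, LocalizedModule.smul'_mk]
    refine congrArg (LocalizedModule.mk · _) ?_
    refine (congrArg _ (X_smul (scalarRep (T.char V) A) (l : ℕ) u)).trans
      ((charDegen_heckeOp _ _ _ one_ne_zero _ l.2.not_dvd_one (fun h => ?_) u).trans
        (X_smul _ (l : ℕ) _).symm)
    rw [level_addAux] at h
    exact (l.2.dvd_mul.mp h).resolve_left fun h' =>
      hl ((Nat.prime_dvd_prime_iff_eq l.2 P.prime).mp h')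

/-- The auxiliary prime changes nothing. -/
noncomputable def auxIso : LevelIso T (T.addAux P) A where
  subW := subset_rfl
  subS := Set.sdiff_subset
  toFun := auxH P A
  bij hV := auxH_bijective P hχ hP hV
  map_w hV _ he x := auxH_w P hV he x
  map_res hV h x := auxH_res P hV h x
  map_X _ _ hl x := auxH_X P A (fun h => hl.elim (fun h' => h'.2 h) fun h' => h' (h ▸ P.mem_S)) x

end Aux

section Lift

variable {R O : Type} [CommRing R] [IsLocalRing R] [CommRing O] [IsLocalRing O] (T : ALSetup O)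
  {σ : R →+* O}

/-- The conditions on a character with values in a ring `R` over `O`. -/
structure LiftChar (σ : R →+* O) where
  /-- the conductor -/
  M : ℕ
  /-- the character -/
  χ : (ZMod M)ˣ →* R
  /-- the scalars of the involutions -/
  c : ℕ → R
  dvd_core : M ∣ T.core
  two : (2 : R) ∈ maximalIdeal R
  char_one : ∀ u, χ u - 1 ∈ maximalIdeal R
  even : χ (-1) = 1
  sq : ∀ e (_ : e ∈ T.W) (h : e.Coprime M), c e * c e = χ (ZMod.unitOfCoprime e h)
  map_χ : ∀ u, σ (χ u) = 1
  map_c : ∀ e ∈ T.W, σ (c e) = T.c e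

variable (hσ : Function.Surjective σ) (L : T.LiftChar σ)

/-- The setup with the scalars lifted to `R` and the character inserted. -/
@[reducible] noncomputable def lift : ALSetup R where
  core := T.core
  M := L.M
  W := T.W
  χ := L.χ
  c := L.c
  S := T.S
  m := T.m.comap (MvPolynomial.map σ)
  core_ne := T.core_ne
  prime := T.prime
  notDvd := T.notDvd
  dvd_core := L.dvd_core
  mem_S := T.mem_S
  isPrime := inferInstance
  le := by
    rw [Ideal.map_le_iff_le_comap]
    intro r hr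
    rw [Ideal.mem_comap, Ideal.mem_comap, MvPolynomial.algebraMap_eq, MvPolynomial.map_C,
      ← MvPolynomial.algebraMap_eq]
    exact T.le (Ideal.mem_map_of_mem _ (map_mem_maximalIdeal hσ hr))
  two := L.two
  char_one := L.char_one
  even := L.even
  sq := L.sq
  eisenstein := by
    obtain ⟨ℓ, hℓ, hS, h1, hm⟩ := T.eisenstein
    refine ⟨ℓ, hℓ, hS, h1, ?_⟩
    rwa [Ideal.mem_comap, map_sub, awayX, MvPolynomial.map_X, MvPolynomial.map_C, map_add,
      map_natCast, map_one]
  elliptic₄ := T.elliptic₄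
  elliptic₃ := T.elliptic₃
  quartic := T.quartic

lemma map_lift_m : ((T.lift hσ L).map hσ).m = T.m :=
  Ideal.map_comap_of_surjective _ (MvPolynomial.map_surjective σ hσ) T.m

variable (A : Type) [AddCommGroup A] [Module O A] (hχ : T.χ = 1)

include hχ in
lemma semi_scalarRep_lift (V : Finset ℕ) (u : (ZMod (T.level V))ˣ) (a : A) :
    (LinearMap.id : A →ₗ[O] A) (scalarRep (((T.lift hσ L).map hσ).char V) A u a)
      = scalarRep (T.char V) A u ((LinearMap.id : A →ₗ[O] A) a) := by
  show σ (L.χ (ZMod.unitsMap ((T.lift hσ L).dvd_level V) u)) • a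
    = T.χ (ZMod.unitsMap (T.dvd_level V) u) • a
  rw [L.map_χ, hχ]
  rfl

lemma lift_mem_monoid : ∀ s ∈ awayMonoid ((T.lift hσ L).map hσ).m,
    MvPolynomial.map (RingHom.id O) s ∈ awayMonoid T.m := by
  rintro _ ⟨a, ha, rfl⟩
  rw [MvPolynomial.map_id]
  exact ⟨a, fun h => ha (T.map_lift_m hσ L ▸ h), rfl⟩

lemma exists_lift_mem_monoid : ∀ t ∈ awayMonoid T.m,
    ∃ s ∈ awayMonoid ((T.lift hσ L).map hσ).m, MvPolynomial.map (RingHom.id O) s = t := by
  rintro _ ⟨a, ha, rfl⟩
  exact ⟨awayIncl O T.S a, ⟨a, fun h => ha (T.map_lift_m hσ L ▸ h), rfl⟩, by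
    rw [MvPolynomial.map_id]; rfl⟩

/-- The map at level `V`. -/
noncomputable def liftH (V : Finset ℕ) : ((T.lift hσ L).map hσ).H V A →ₗ[O] T.H V A :=
  semiLoc (LinearMap.id : A →ₗ[O] A) (T.semi_scalarRep_lift hσ L A hχ V) (T.lift_mem_monoid hσ L)

lemma liftH_w {V : Finset ℕ} (hV : V ⊆ T.W) {e : ℕ} (he : e ∈ V)
    (x : ((T.lift hσ L).map hσ).H V A) :
    T.liftH hσ L A hχ V (((T.lift hσ L).map hσ).w A hV e x)
      = T.w A hV e (T.liftH hσ L A hχ V x) := by
  unfold liftH ALSetup.w alLoc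
  simp only [dif_pos he]
  refine semiLoc_locLift (LinearMap.id : A →ₗ[O] A) (T.semi_scalarRep_lift hσ L A hχ V)
    (T.lift_mem_monoid hσ L) (T.semi_scalarRep_lift hσ L A hχ V) _ _ _ _ (fun u => ?_) x
  exact semiCoh_onH1 _ _ _
    (alData A (((T.lift hσ L).map hσ).isAL (V := V) hV) he (((T.lift hσ L).map hσ).dvd_level V)
      ((T.lift hσ L).map hσ).χ (((T.lift hσ L).map hσ).coprime_M (hV he)) (σ (L.c e)))
    (alData A (T.isAL hV) he (T.dvd_level V) T.χ (T.coprime_M (hV he)) (T.c e)) (fun _ => rfl)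
    (fun _ a => by
      show σ (L.c e) • a = T.c e • a
      rw [L.map_c e (hV he)]) u

lemma liftH_res {V V' : Finset ℕ} (hV : V ⊆ T.W) (h : V' ⊆ V)
    (x : ((T.lift hσ L).map hσ).H V' A) :
    T.liftH hσ L A hχ V (((T.lift hσ L).map hσ).res A hV h x)
      = T.res A hV h (T.liftH hσ L A hχ V' x) :=
  semiLoc_locLift (LinearMap.id : A →ₗ[O] A) (T.semi_scalarRep_lift hσ L A hχ V')
    (T.lift_mem_monoid hσ L) (T.semi_scalarRep_lift hσ L A hχ V) _ _ _ _
    (fun u => semiCoh_onH1 _ _ _
      (charDegenData A (((T.lift hσ L).map hσ).dvd_level V') ((T.lift hσ L).map hσ).χ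
        (((T.lift hσ L).map hσ).dvd_level V) one_ne_zero (T.one_mul_level_dvd h))
      (charDegenData A (T.dvd_level V') T.χ (T.dvd_level V) one_ne_zero (T.one_mul_level_dvd h))
      (fun _ => rfl) (fun _ _ => rfl) u) x

lemma liftH_smul (V : Finset ℕ) (a : HeckePoly O) (x : ((T.lift hσ L).map hσ).H V A) :
    T.liftH hσ L A hχ V (a • x) = a • T.liftH hσ L A hχ V x := by
  refine (semiLoc_smul _ _ _ a x).trans ?_
  rw [MvPolynomial.map_id]
  rfl

/-- Lifting the scalars and pushing them back changes nothing. -/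
noncomputable def liftIso : LevelIso ((T.lift hσ L).map hσ) T A where
  subW := subset_rfl
  subS := subset_rfl
  toFun := T.liftH hσ L A hχ
  bij _ := ⟨semiLoc_injective _ _ _ (T.exists_lift_mem_monoid hσ L) (fun _ _ h => h)
      fun a => ⟨a, rfl⟩,
    semiLoc_surjective _ _ _ (T.exists_lift_mem_monoid hσ L) (fun _ _ h => h) fun a => ⟨a, rfl⟩⟩
  map_w hV _ he x := T.liftH_w hσ L A hχ hV he x
  map_res hV h x := T.liftH_res hσ L A hχ hV h x
  map_X _ _ _ x := T.liftH_smul hσ L A hχ _ _ x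

end Lift

end ALSetup

end Fermat.Agent.TwoAdic
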