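import Fermat.Agent.TwoAdic.Modules.LocCompare
import Fermat.Agent.TwoAdic.Modules.QuotAction

/-!
Isomorphisms of two setups at all levels: they carry signed parts, new quotients, faces and Hecke
actions over.
-/

set_option autoImplicit false

open IsLocalRing

universe uA

namespace Fermat.Agent.TwoAdic

open HeckeModule

attribute [local instance] ALSetup.isPrime

namespace ALSetup

variable {O : Type} [CommRing O] [IsLocalRing O]

/-- Compatible bijections between two setups at the levels `V ⊆ W`. -/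
structure LevelIso (T T' : ALSetup O) (A : Type uA) [AddCommGroup A] [Module O A] where
  subW : T.W ⊆ T'.W
  subS : T'.S ⊆ T.S
  /-- the map at level `V` -/
  toFun : ∀ V : Finset ℕ, T.H V A →ₗ[O] T'.H V A
  bij : ∀ {V : Finset ℕ}, V ⊆ T.W → Function.Bijective (toFun V)
  map_w : ∀ {V : Finset ℕ} (hV : V ⊆ T.W) {e : ℕ}, e ∈ V → ∀ x : T.H V A,
    toFun V (T.w A hV e x) = T'.w A (hV.trans subW) e (toFun V x)
  map_res : ∀ {V V' : Finset ℕ} (hV : V ⊆ T.W) (h : V' ⊆ V) (x : T.H V' A),
    toFun V (T.res A hV h x) = T'.res A (hV.trans subW) h (toFun V' x)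
  map_X : ∀ {V : Finset ℕ}, V ⊆ T.W → ∀ (l : Nat.Primes),
    ((l : ℕ) ∈ T'.S ∨ (l : ℕ) ∉ T.S) → ∀ x : T.H V A,
      toFun V ((MvPolynomial.X l : HeckePoly O) • x)
        = (MvPolynomial.X l : HeckePoly O) • toFun V x

namespace LevelIso

variable {T T' T'' : ALSetup O} {A : Type uA} [AddCommGroup A] [Module O A]

/-- The composite. -/
noncomputable def trans (E : LevelIso T T' A) (E' : LevelIso T' T'' A) : LevelIso T T'' A where
  subW := E.subW.trans E'.subW
  subS := E'.subS.trans E.subS
  toFun V := E'.toFun V ∘ₗ E.toFun V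
  bij hV := (E'.bij (hV.trans E.subW)).comp (E.bij hV)
  map_w hV e he x := by
    rw [LinearMap.comp_apply, LinearMap.comp_apply, E.map_w hV he, E'.map_w (hV.trans E.subW) he]
  map_res hV h x := by
    rw [LinearMap.comp_apply, LinearMap.comp_apply, E.map_res hV h, E'.map_res (hV.trans E.subW) h]
  map_X hV l hl x := by
    rw [LinearMap.comp_apply, LinearMap.comp_apply,
      E.map_X hV l (hl.imp (fun h => E'.subS h) id),
      E'.map_X (hV.trans E.subW) l (hl.imp id fun h h' => h (E.subS h'))]

/-- The identity. -/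
noncomputable def refl (T : ALSetup O) (A : Type uA) [AddCommGroup A] [Module O A] : LevelIso T T A where
  subW := subset_rfl
  subS := subset_rfl
  toFun _ := LinearMap.id
  bij _ := Function.bijective_id
  map_w _ _ _ _ := rfl
  map_res _ _ _ := rfl
  map_X _ _ _ _ := rfl

variable (E : LevelIso T T' A) {V : Finset ℕ} (hV : V ⊆ T.W)

include hV in
/-- Polynomials away from the larger set commute with the map. -/
lemma map_smul_away (a : AwayPoly O T.S) (x : T.H V A) :
    E.toFun V (awayIncl O T.S a • x) = awayIncl O T.S a • E.toFun V x := by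
  induction a using MvPolynomial.induction_on generalizing x with
  | C r =>
    rw [← MvPolynomial.algebraMap_eq, AlgHom.commutes, algebraMap_smul, algebraMap_smul, map_smul]
  | add P Q hP hQ => rw [map_add, add_smul, add_smul, map_add, hP, hQ]
  | mul_X P l hP => rw [map_mul, awayIncl_X, mul_smul, mul_smul, hP, E.map_X hV _ (Or.inr l.2)]

include E hV in
/-- Nilpotence modulo the maximal ideal carries over. -/
lemma mem_nilModIdeal_of_iso {l : Nat.Primes} (hl : (l : ℕ) ∈ T'.S ∨ (l : ℕ) ∉ T.S) (r : O)
    (h : MvPolynomial.X l - MvPolynomial.C r ∈ nilModIdeal (T.H V A)) :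
    MvPolynomial.X l - MvPolynomial.C r ∈ nilModIdeal (T'.H V A) := by
  obtain ⟨n, hn⟩ := (mem_nilModIdeal _).mp h
  refine (mem_nilModIdeal _).mpr ⟨n, fun y => ?_⟩
  obtain ⟨x, rfl⟩ := (E.bij hV).2 y
  have key : ∀ k : ℕ, ∀ z : T.H V A,
      E.toFun V ((MvPolynomial.X l - MvPolynomial.C r : HeckePoly O) ^ k • z)
        = (MvPolynomial.X l - MvPolynomial.C r : HeckePoly O) ^ k • E.toFun V z := by
    intro k
    induction k with
    | zero => intro z; rw [pow_zero, one_smul, one_smul]
    | succ k ih =>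
      intro z
      rw [pow_succ, mul_smul, mul_smul, ih, sub_smul, sub_smul, map_sub, E.map_X hV l hl,
        ← MvPolynomial.algebraMap_eq, algebraMap_smul, algebraMap_smul, map_smul]
  rw [← key]
  exact map_mem_smul_top (E.toFun V) _ (hn x)

/-- The bijection of signed parts. -/
noncomputable def signedEquiv : T.signed A hV ≃ₗ[O] T'.signed A (hV.trans E.subW) :=
  LinearEquiv.ofBijective
    ((E.toFun V).restrict fun x hx => T'.mem_signed.mpr fun e he => by
      rw [← E.map_w hV he, T.mem_signed.mp hx e he])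
    ⟨fun x y h => Subtype.ext ((E.bij hV).1 (congrArg Subtype.val h)), fun y => by
      obtain ⟨x, hx⟩ := (E.bij hV).2 y.1
      refine ⟨⟨x, T.mem_signed.mpr fun e he => (E.bij hV).1 ?_⟩, Subtype.ext hx⟩
      rw [E.map_w hV he, hx, T'.mem_signed.mp y.2 e he]⟩

lemma signedEquiv_oldSigned {b : ℕ} (hb : b ∈ V)
    (x : T.signed A ((V.erase_subset b).trans hV)) :
    E.signedEquiv hV (T.oldSigned A hV hb x)
      = T'.oldSigned A (hV.trans E.subW) hb (E.signedEquiv ((V.erase_subset b).trans hV) x) := by
  refine Subtype.ext ?_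
  show E.toFun V (T.oldMap A hV (V.erase_subset b) b x)
    = T'.oldMap A (hV.trans E.subW) (V.erase_subset b) b (E.toFun (V.erase b) x)
  rw [T.oldMap_apply, T'.oldMap_apply, map_add, E.map_w hV hb, E.map_res hV]

lemma map_signedEquiv_oldSpace (B : Finset ℕ) :
    (T.oldSpace A hV B).map (E.signedEquiv hV).toLinearMap
      = T'.oldSpace A (hV.trans E.subW) B := by
  refine le_antisymm (Submodule.map_le_iff_le_comap.mpr
    (iSup_le fun b => iSup_le fun hb => iSup_le fun hbB => ?_))
    (iSup_le fun b => iSup_le fun hb => iSup_le fun hbB => ?_)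
  · rintro _ ⟨z, rfl⟩
    rw [Submodule.mem_comap, LinearEquiv.coe_coe, E.signedEquiv_oldSigned]
    exact T'.oldSigned_mem_oldSpace A (hV.trans E.subW) hb hbB _
  · rintro _ ⟨z, rfl⟩
    obtain ⟨z', rfl⟩ := (E.signedEquiv ((V.erase_subset b).trans hV)).surjective z
    exact ⟨_, T.oldSigned_mem_oldSpace A hV hb hbB z', E.signedEquiv_oldSigned hV hb z'⟩

/-- The bijection of new quotients. -/
noncomputable def quotEquiv (B : Finset ℕ) :
    T.NewQuot A hV B ≃ₗ[O] T'.NewQuot A (hV.trans E.subW) B :=
  Submodule.Quotient.equiv _ _ (E.signedEquiv hV) (E.map_signedEquiv_oldSpace hV B)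

lemma quotEquiv_faceMap {b : ℕ} (hb : b ∈ V) (B : Finset ℕ)
    (x : T.NewQuot A ((V.erase_subset b).trans hV) B) :
    E.quotEquiv hV B (T.faceMap A hV hb B x)
      = T'.faceMap A (hV.trans E.subW) hb B
          (E.quotEquiv ((V.erase_subset b).trans hV) B x) := by
  obtain ⟨x, rfl⟩ := Submodule.mkQ_surjective _ x
  exact congrArg Submodule.Quotient.mk (E.signedEquiv_oldSigned hV hb x)

/-- The Hecke actions away from the larger set agree. -/
lemma quotEquiv_newAct (B : Finset ℕ) (a : AwayPoly O T.S) (x : T.NewQuot A hV B) :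
    E.quotEquiv hV B (T.newAct A hV B a x)
      = T'.newAct A (hV.trans E.subW) B (restrictAway O E.subS a) (E.quotEquiv hV B x) := by
  obtain ⟨x, rfl⟩ := Submodule.mkQ_surjective _ x
  refine congrArg Submodule.Quotient.mk (Subtype.ext ?_)
  show E.toFun V (awayIncl O T.S a • (x : T.H V A))
    = awayIncl O T'.S (restrictAway O E.subS a) • E.toFun V (x : T.H V A)
  rw [awayIncl_restrictAway, E.map_smul_away hV]

end LevelIso

/-- Injectivity of the cube carries over along an isomorphism of setups. -/
theorem LevelIso.cubeInjective_iff [IsNoetherianRing O] [IsAdicComplete (maximalIdeal O) O]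
    {T T' : ALSetup O} (E : LevelIso T T' (O ⧸ maximalIdeal O)) {V : Finset ℕ} (hV : V ⊆ T.W)
    (B : Finset ℕ) :
    T'.CubeInjective (hV.trans E.subW) B ↔ T.CubeInjective hV B := by
  refine forall₂_congr fun U hU => forall₃_congr fun B₁ b hb => imp_congr_right fun _ =>
    imp_congr_right fun _ => imp_congr_right fun _ => imp_congr_right fun _ => ?_
  have hU' := (U.erase_subset b).trans (hU.trans hV)
  constructor
  · intro h x y hxy
    refine (E.quotEquiv hU' B₁).injective (h ?_)
    rw [← E.quotEquiv_faceMap (hU.trans hV) hb, ← E.quotEquiv_faceMap (hU.trans hV) hb, hxy]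
  · intro h x y hxy
    obtain ⟨x, rfl⟩ := (E.quotEquiv hU' B₁).surjective x
    obtain ⟨y, rfl⟩ := (E.quotEquiv hU' B₁).surjective y
    rw [← E.quotEquiv_faceMap (hU.trans hV) hb, ← E.quotEquiv_faceMap (hU.trans hV) hb] at hxy
    rw [h ((E.quotEquiv (hU.trans hV) B₁).injective hxy)]

end ALSetup

end Fermat.Agent.TwoAdic
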