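import Fermat.Agent.TwoAdic.Modules.AtkinLoc
import Fermat.Agent.HeckeModule.Elliptic

/-!
The family of levels `core · ∏ V`, `V` a set of Atkin–Lehner primes: everything needed at all
levels at once, and the resulting signed parts.
-/

set_option autoImplicit false

open CongruenceSubgroup IsLocalRing

universe uA

namespace Fermat.Agent.TwoAdic

open HeckeJ0 LevelRaising HeckeModule

/-- The data and conditions of the signed `2`-adic modules. -/
structure ALSetup (O : Type) [CommRing O] [IsLocalRing O] where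
  /-- the part of the level prime to the Atkin–Lehner primes -/
  core : ℕ
  /-- the conductor of the character -/
  M : ℕ
  /-- the Atkin–Lehner primes -/
  W : Finset ℕ
  /-- the character (trivial modulo the maximal ideal) -/
  χ : (ZMod M)ˣ →* O
  /-- the scalars of the involutions (signs times square roots of `χ e`) -/
  c : ℕ → O
  /-- the primes whose operators are not used -/
  S : Set ℕ
  /-- the prime of the Hecke polynomials -/
  m : Ideal (AwayPoly O S)
  core_ne : core ≠ 0
  prime : ∀ e ∈ W, e.Prime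
  notDvd : ∀ e ∈ W, ¬ e ∣ core
  dvd_core : M ∣ core
  mem_S : ∀ e ∈ W, e ∈ S
  isPrime : m.IsPrime
  le : (maximalIdeal O).map (algebraMap O (AwayPoly O S)) ≤ m
  two : (2 : O) ∈ maximalIdeal O
  char_one : ∀ u, χ u - 1 ∈ maximalIdeal O
  even : χ (-1) = 1
  sq : ∀ e (_ : e ∈ W) (h : e.Coprime M), c e * c e = χ (ZMod.unitOfCoprime e h)
  eisenstein : ∃ (ℓ : ℕ) (hℓ : ℓ.Prime) (hS : ℓ ∉ S), (ℓ : ZMod (core * prodOf W)) = 1 ∧
    awayX O hℓ hS - MvPolynomial.C ((ℓ : O) + 1) ∉ m
  elliptic₄ : ∀ t : ZMod core, t ^ 2 + 1 ≠ 0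
  elliptic₃ : ∀ t : ZMod core, t ^ 2 + t + 1 ≠ 0
  quartic : ∀ e ∈ W, ∃ r : ℕ, r.Prime ∧ r ∣ core ∧ r % 4 = 1 ∧ jacobiSym (e : ℤ) r = -1 ∧
    ∀ e' ∈ W, e' ≠ e → jacobiSym (e' : ℤ) r = 1

attribute [local instance] ALSetup.isPrime

namespace ALSetup

variable {O : Type} [CommRing O] [IsLocalRing O] (T : ALSetup O)

/-- The level attached to a set of primes. -/
abbrev level (V : Finset ℕ) : ℕ := T.core * prodOf V

lemma dvd_level (V : Finset ℕ) : T.M ∣ T.level V := T.dvd_core.mul_right _

lemma level_dvd {V V' : Finset ℕ} (h : V' ⊆ V) : T.level V' ∣ T.level V :=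
  Nat.mul_dvd_mul_left _ (Finset.prod_dvd_prod_of_subset V' V id h)

lemma coprime_M {e : ℕ} (he : e ∈ T.W) : e.Coprime T.M :=
  (Nat.Prime.coprime_iff_not_dvd (T.prime e he)).mpr fun h => T.notDvd e he (h.trans T.dvd_core)

lemma not_dvd_level {V : Finset ℕ} (hV : V ⊆ T.W) {e : ℕ} (he : e ∈ T.W) (heV : e ∉ V) :
    ¬ e ∣ T.level V := fun h => by
  rcases (T.prime e he).dvd_mul.mp h with h | h
  · exact T.notDvd e he h
  · obtain ⟨a, ha, hea⟩ := ((Nat.prime_iff.mp (T.prime e he)).dvd_finsetProd_iff _).mp h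
    exact heV ((Nat.prime_dvd_prime_iff_eq (T.prime e he) (T.prime a (hV ha))).mp hea ▸ ha)

lemma level_insert {V : Finset ℕ} {e : ℕ} (heV : e ∉ V) :
    T.level (insert e V) = e * T.level V := by
  rw [level, level, prodOf, Finset.prod_insert heV, id, mul_left_comm]
  rfl

lemma level_ne_zero {V : Finset ℕ} (hV : V ⊆ T.W) : T.level V ≠ 0 :=
  mul_ne_zero T.core_ne
    (Finset.prod_ne_zero_iff.mpr fun e he => (T.prime e (hV he)).ne_zero)

lemma isAL {V : Finset ℕ} (hV : V ⊆ T.W) : IsALPrimes (T.level V) V := by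
  intro e he
  have hp := T.prime e (hV he)
  refine ⟨hp, (Finset.dvd_prod_of_mem id he).mul_left _, fun h => ?_⟩
  rw [← Finset.insert_erase he, T.level_insert (Finset.notMem_erase e V)] at h
  exact T.not_dvd_level ((Finset.erase_subset e V).trans hV) (hV he) (Finset.notMem_erase e V)
    ((Nat.mul_dvd_mul_iff_left hp.pos).mp h)

lemma liftable (V : Finset ℕ) : Liftable O (T.level V) := by
  have key : ∀ f : ∀ {n : ℕ}, ZMod n → ZMod n, (∀ {a b : ℕ} (h : a ∣ b) (t : ZMod b),
      ZMod.castHom h (ZMod a) (f t) = f (ZMod.castHom h (ZMod a) t)) →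
      (∀ t : ZMod T.core, f t ≠ 0) → ∀ t : ZMod (T.level V), f t ≠ 0 := fun f hf h t ht => by
    have := congrArg (ZMod.castHom (dvd_mul_right T.core (prodOf V)) (ZMod T.core)) ht
    rw [hf, map_zero] at this
    exact h _ this
  exact ⟨Or.inr (S_smul_ne_self (key (fun t => t ^ 2 + 1) (fun _ _ => by simp only [map_add, map_pow, map_one]) T.elliptic₄)),
    Or.inr (elV_smul_ne_self (key (fun t => t ^ 2 + t + 1) (fun _ _ => by simp only [map_add, map_pow, map_one]) T.elliptic₃))⟩

/-- The character at the level of `V`. -/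
noncomputable abbrev char (V : Finset ℕ) : (ZMod (T.level V))ˣ →* O :=
  levelChar (T.dvd_level V) T.χ

lemma nonEisenstein {V : Finset ℕ} (hV : V ⊆ T.W) :
    NonEisenstein (T.level V) (awayMonoid T.m) := by
  obtain ⟨ℓ, hℓ, hS, h1, hm⟩ := T.eisenstein
  have : Fact ℓ.Prime := ⟨hℓ⟩
  refine ⟨ℓ, hℓ, ?_, eisen_mem_awayMonoid hS hm⟩
  have := congrArg (ZMod.castHom (T.level_dvd hV) (ZMod (T.level V))) h1
  rwa [map_natCast, map_one] at this

lemma exact {V : Finset ℕ} (hV : V ⊆ T.W) : ExactHyp (awayMonoid T.m) (T.char V) where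
  nonEisenstein := T.nonEisenstein hV
  liftable := T.liftable V
  even := by
    show T.χ (ZMod.unitsMap (T.dvd_level V) (-1)) = 1
    rw [show ZMod.unitsMap (T.dvd_level V) (-1) = -1 from Units.ext (by simp [ZMod.unitsMap_def]),
      T.even]

lemma twoLiftable {V V' : Finset ℕ} (hV : V ⊆ T.W) (hV' : V' ⊆ V) :
    TwoLiftable (PAL (T.level V) V' ((T.isAL hV).mono hV')) := by
  refine twoLiftable_PAL (fun t ht => ?_) (fun t ht => ?_) V' _ fun e he => ?_
  · have := congrArg (ZMod.castHom (dvd_mul_right T.core (prodOf V)) (ZMod T.core)) ht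
    simp only [map_add, map_pow, map_one, map_zero] at this
    exact T.elliptic₄ _ this
  · have := congrArg (ZMod.castHom (dvd_mul_right T.core (prodOf V)) (ZMod T.core)) ht
    simp only [map_add, map_pow, map_one, map_zero] at this
    exact T.elliptic₃ _ this
  · obtain ⟨r, hr, hrc, hr4, hre, hr'⟩ := T.quartic e (hV (hV' he))
    exact ⟨r, hr, hrc.mul_right _, hr4, fun h => T.notDvd r (hV (hV' h)) hrc, hre,
      fun e' he' => hr' e' (hV (hV' he'))⟩

lemma alHyp {V : Finset ℕ} (hV : V ⊆ T.W) :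
    ALHyp (T.isAL hV) (fun _ he => T.coprime_M (hV he)) (T.dvd_level V) T.χ T.c (m := T.m) where
  le := T.le
  exact := T.exact hV
  two := T.two
  char_one := T.char_one
  sq e he := T.sq e (hV he) _
  lift _ hV' := T.twoLiftable hV hV'

/-- `H¹` at the level of `V`, localised. -/
abbrev H (V : Finset ℕ) (A : Type uA) [AddCommGroup A] [Module O A] : Type _ :=
  CohLoc (awayMonoid T.m) (scalarRep (T.char V) A)

variable (A : Type uA) [AddCommGroup A] [Module O A]

/-- The involution at `e` at the level of `V` (the identity outside `V`). -/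
noncomputable def w {V : Finset ℕ} (hV : V ⊆ T.W) (e : ℕ) : Module.End O (T.H V A) :=
  alLoc A (T.isAL hV) (fun _ ha => T.coprime_M (hV ha)) (T.dvd_level V) T.χ T.c
    (isAway_awayMonoid T.m) (fun a ha => T.mem_S a (hV ha)) e

/-- The signed part at the level of `V`. -/
noncomputable def signed {V : Finset ℕ} (hV : V ⊆ T.W) : Submodule O (T.H V A) :=
  fixedPart (T.w A hV) V

variable {A}

lemma mem_signed {V : Finset ℕ} {hV : V ⊆ T.W} {x : T.H V A} :
    x ∈ T.signed A hV ↔ ∀ e ∈ V, T.w A hV e x = x :=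
  mem_fixedPart _

section Complete

variable [IsNoetherianRing O] [IsAdicComplete (maximalIdeal O) O]

/-- The localised cohomology of a level of the family is finite free. -/
theorem free_H {V : Finset ℕ} (hV : V ⊆ T.W) :
    Module.Finite O (T.H V O) ∧ Module.Free O (T.H V O) :=
  haveI : NeZero (T.level V) := ⟨T.level_ne_zero hV⟩
  free_cohChar_of_complete T.m _ T.le (T.exact hV)

/-- The signed part is finite free. -/
theorem free_signed {V : Finset ℕ} (hV : V ⊆ T.W) :
    Module.Finite O (T.signed O hV) ∧ Module.Free O (T.signed O hV) :=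
  haveI : NeZero (T.level V) := ⟨T.level_ne_zero hV⟩
  (T.alHyp hV).free_signedPart fun a ha => T.mem_S a (hV ha)

/-- The kernel of reduction on the signed part. -/
theorem mem_smul_signed {V : Finset ℕ} (hV : V ⊆ T.W) (J : Ideal O) (x : T.signed O hV)
    (hx : charMap (awayMonoid T.m) (T.char V) J.mkQ (x : T.H V O) = 0) :
    x ∈ J • (⊤ : Submodule O (T.signed O hV)) :=
  haveI : NeZero (T.level V) := ⟨T.level_ne_zero hV⟩
  (T.alHyp hV).mem_smul_signedPart (fun a ha => T.mem_S a (hV ha)) J x ((ker_charMap_mkQ (T.exact hV) J _).mp hx)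

/-- The signed part with coefficients `O` surjects onto the signed part with coefficients `O/J`. -/
theorem exists_signed_map_eq {V : Finset ℕ} (hV : V ⊆ T.W) (J : Ideal O)
    (y : T.H V (O ⧸ J)) (hy : y ∈ T.signed (O ⧸ J) hV) :
    ∃ x ∈ T.signed O hV, charMap (awayMonoid T.m) (T.char V) J.mkQ x = y := by
  have : NeZero (T.level V) := ⟨T.level_ne_zero hV⟩
  obtain ⟨z, rfl⟩ := charMap_surjective (T.exact hV) J.mkQ J.mkQ_surjective y
  obtain ⟨x, hx, hxz⟩ := (T.alHyp hV).exists_signedPart_sub_mem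
    (fun a ha => T.mem_S a (hV ha)) J z fun e he => (ker_charMap_mkQ (T.exact hV) J _).mp (by
      rw [map_sub, charMap_alLoc, sub_eq_zero]
      exact (T.mem_signed).mp hy e he)
  exact ⟨x, hx, (sub_eq_zero.mp (by
    rw [← map_sub]; exact (ker_charMap_mkQ (T.exact hV) J _).mpr hxz)).symm⟩

end Complete

lemma charMap_w {B : Type uA} [AddCommGroup B] [Module O B] {V : Finset ℕ} (hV : V ⊆ T.W)
    (f : A →ₗ[O] B) (e : ℕ) (x : T.H V A) :
    charMap (awayMonoid T.m) (T.char V) f (T.w A hV e x)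
      = T.w B hV e (charMap (awayMonoid T.m) (T.char V) f x) :=
  charMap_alLoc _ _ _ _ _ _ _ f e x

lemma charMap_mem_signed {B : Type uA} [AddCommGroup B] [Module O B] {V : Finset ℕ}
    (hV : V ⊆ T.W) (f : A →ₗ[O] B) {x : T.H V A} (hx : x ∈ T.signed A hV) :
    charMap (awayMonoid T.m) (T.char V) f x ∈ T.signed B hV :=
  T.mem_signed.mpr fun e he => by rw [← T.charMap_w, T.mem_signed.mp hx e he]

end ALSetup

end Fermat.Agent.TwoAdic
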